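/-
Program H (RED/CUSP, helper16): abstract form of step (C1) of the cusp chapter.

`A` a principal ideal domain with fraction field `K`.  `A⟦X⟧` is a unique factorisation domain
(Mathlib), hence integrally closed in ITS OWN fraction field — but NOT in `K⟦X⟧` or `K((X))`
(`√(π² + X)` is integral over `A⟦X⟧`).  So we work inside

* `psRange A K : Subring K((X))`   — the image of `A⟦X⟧`;
* `psFrac A K  : Subfield K((X))`  — the image of `Frac (A⟦X⟧)`;

and prove

* `mem_psFrac_of_mul_eq`, `single_mul_mem_psFrac`, `psRange_le_psFrac`: membership criteria;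
* `mem_psRange_of_isIntegral` : `x ∈ psFrac`, `x` integral over a subring contained in `psRange`
   ⇒ `x ∈ psRange`;
* `map_mem_psFrac_of_closure` / `map_mem_psRange_of_isIntegral`: the version used for a ring hom
  `ι : F →+* K((X))` from a field generated by elements with `ι g ∈ psFrac`.

Mathlib only.
-/
import Mathlib

set_option autoImplicit false
set_option linter.unusedSectionVars false

noncomputable section

namespace Fermat.Agent.RED.CUSP.IntClosedPS16

open PowerSeries

variable (A K : Type*) [CommRing A] [IsDomain A] [Field K] [Algebra A K] [IsFractionRing A K]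

/-- `A⟦X⟧ → K((X))`. -/
def toLS : PowerSeries A →+* LaurentSeries K :=
  (HahnSeries.ofPowerSeries ℤ K).comp (PowerSeries.map (algebraMap A K))

theorem toLS_apply (p : PowerSeries A) :
    toLS A K p = ((PowerSeries.map (algebraMap A K) p : PowerSeries K) : LaurentSeries K) := rfl

theorem toLS_injective : Function.Injective (toLS A K) := by
  intro p q h
  have h1 : PowerSeries.map (algebraMap A K) p = PowerSeries.map (algebraMap A K) q :=
    HahnSeries.ofPowerSeries_injective h
  exact PowerSeries.map_injective _ (IsFractionRing.injective A K) h1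

theorem toLS_coeff (p : PowerSeries A) (n : ℕ) :
    (toLS A K p).coeff (n : ℤ) = algebraMap A K (PowerSeries.coeff n p) := by
  rw [toLS_apply, PowerSeries.coeff_coe]
  simp

theorem toLS_coeff_neg (p : PowerSeries A) (n : ℤ) (hn : n < 0) :
    (toLS A K p).coeff n = 0 := by
  rw [toLS_apply, PowerSeries.coeff_coe]
  simp [hn]

/-- The image of `A⟦X⟧` in `K((X))`. -/
def psRange : Subring (LaurentSeries K) := (toLS A K).range

theorem mem_psRange_iff {x : LaurentSeries K} : x ∈ psRange A K ↔ ∃ p, toLS A K p = x := Iff.rfl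

theorem toLS_mem_psRange (p : PowerSeries A) : toLS A K p ∈ psRange A K := ⟨p, rfl⟩

/-- Coefficientwise description of `psRange`. -/
theorem mem_psRange_iff_coeff {x : LaurentSeries K} :
    x ∈ psRange A K ↔ (∀ n : ℤ, n < 0 → x.coeff n = 0) ∧
      ∀ n : ℤ, x.coeff n ∈ Set.range (algebraMap A K) := by
  constructor
  · rintro ⟨p, rfl⟩
    refine ⟨fun n hn => toLS_coeff_neg A K p n hn, fun n => ?_⟩
    rcases lt_or_ge n 0 with hn | hn
    · rw [toLS_coeff_neg A K p n hn]; exact ⟨0, map_zero _⟩
    · obtain ⟨m, rfl⟩ := Int.eq_ofNat_of_zero_le hn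
      exact ⟨_, (toLS_coeff A K p m).symm⟩
  · rintro ⟨h0, h1⟩
    choose c hc using h1
    refine ⟨PowerSeries.mk fun n => c n, ?_⟩
    ext n
    rcases lt_or_ge n 0 with hn | hn
    · rw [toLS_coeff_neg A K _ n hn, h0 n hn]
    · obtain ⟨m, rfl⟩ := Int.eq_ofNat_of_zero_le hn
      rw [toLS_coeff, PowerSeries.coeff_mk, hc]

/-- A power series over `A` with unit constant coefficient is invertible in `psRange`. -/
theorem inv_toLS_mem_psRange (p : PowerSeries A) (hp : IsUnit (PowerSeries.constantCoeff p)) :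
    (toLS A K p)⁻¹ ∈ psRange A K := by
  obtain ⟨u, hu⟩ := PowerSeries.isUnit_iff_constantCoeff.mpr hp
  refine ⟨((u⁻¹ : (PowerSeries A)ˣ) : PowerSeries A), ?_⟩
  symm
  apply inv_eq_of_mul_eq_one_right
  rw [← hu, ← map_mul, Units.mul_inv, map_one]

/-- Coefficients of elements of `psRange` lie in the image of `A`. -/
theorem coeff_mem_of_mem_psRange {x : LaurentSeries K} (hx : x ∈ psRange A K) (n : ℤ) :
    x.coeff n ∈ Set.range (algebraMap A K) :=
  ((mem_psRange_iff_coeff A K).mp hx).2 n


variable [IsPrincipalIdealRing A]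

/-- The extension `Frac (A⟦X⟧) → K((X))`. -/
def fracLS : FractionRing (PowerSeries A) →+* LaurentSeries K :=
  IsFractionRing.lift (toLS_injective A K)

theorem fracLS_algebraMap (p : PowerSeries A) :
    fracLS A K (algebraMap (PowerSeries A) (FractionRing (PowerSeries A)) p) = toLS A K p :=
  IsFractionRing.lift_algebraMap _ p

/-- The image of `Frac (A⟦X⟧)` in `K((X))`. -/
def psFrac : Subfield (LaurentSeries K) := (fracLS A K).fieldRange

theorem psRange_le_psFrac {x : LaurentSeries K} (hx : x ∈ psRange A K) : x ∈ psFrac A K := by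
  obtain ⟨p, rfl⟩ := hx
  exact ⟨_, fracLS_algebraMap A K p⟩

theorem toLS_mem_psFrac (p : PowerSeries A) : toLS A K p ∈ psFrac A K :=
  psRange_le_psFrac A K (toLS_mem_psRange A K p)

/-- `x * b = a` with `a, b ∈ A⟦X⟧`, `b ≠ 0` puts `x` into `psFrac`. -/
theorem mem_psFrac_of_mul_eq {x a b : LaurentSeries K} (ha : a ∈ psRange A K)
    (hb : b ∈ psRange A K) (hb0 : b ≠ 0) (h : x * b = a) : x ∈ psFrac A K := by
  have h1 : x = a / b := by rw [eq_div_iff hb0, h]
  rw [h1]
  exact div_mem (psRange_le_psFrac A K ha) (psRange_le_psFrac A K hb)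

theorem mem_psFrac_iff {x : LaurentSeries K} :
    x ∈ psFrac A K ↔ ∃ a b : PowerSeries A, b ≠ 0 ∧ x * toLS A K b = toLS A K a := by
  constructor
  · rintro ⟨z, rfl⟩
    obtain ⟨a, b, hb, rfl⟩ := IsFractionRing.div_surjective (A := PowerSeries A) z
    refine ⟨a, b, nonZeroDivisors.ne_zero hb, ?_⟩
    rw [map_div₀, fracLS_algebraMap, fracLS_algebraMap]
    have : toLS A K b ≠ 0 := by
      rw [Ne, map_eq_zero_iff _ (toLS_injective A K)]
      exact nonZeroDivisors.ne_zero hb
    field_simp
  · rintro ⟨a, b, hb, h⟩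
    refine mem_psFrac_of_mul_eq A K (toLS_mem_psRange A K a) (toLS_mem_psRange A K b) ?_ h
    rwa [Ne, map_eq_zero_iff _ (toLS_injective A K)]

/-- The monomial `X ^ n` (`n : ℤ`) of `K((X))` lies in `psFrac`. -/
theorem single_one_mem_psFrac (n : ℤ) : (HahnSeries.single n (1 : K)) ∈ psFrac A K := by
  have hX : (HahnSeries.single (1 : ℤ) (1 : K)) ∈ psFrac A K := by
    have : toLS A K (PowerSeries.X : PowerSeries A) = HahnSeries.single (1 : ℤ) (1 : K) := by
      rw [toLS_apply, PowerSeries.map_X, PowerSeries.coe_X]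
    rw [← this]
    exact toLS_mem_psFrac A K _
  rw [RatFunc.single_zpow]
  exact zpow_mem hX n

/-- `X ^ n * P`, `P ∈ A⟦X⟧`, lies in `psFrac`. -/
theorem single_mul_mem_psFrac (n : ℤ) (p : PowerSeries A) :
    HahnSeries.single n (1 : K) * toLS A K p ∈ psFrac A K :=
  mul_mem (single_one_mem_psFrac A K n) (toLS_mem_psFrac A K p)

/-- **(C1), abstract.**  An element of `psFrac` which is integral over a subring contained in
`psRange` lies in `psRange`: `A⟦X⟧` is a UFD, hence integrally closed in its fraction field. -/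
theorem mem_psRange_of_isIntegral (R₀ : Subring (LaurentSeries K)) (hR₀ : R₀ ≤ psRange A K)
    {x : LaurentSeries K} (hx : x ∈ psFrac A K) (hint : IsIntegral R₀ x) : x ∈ psRange A K := by
  obtain ⟨z, rfl⟩ := hx
  obtain ⟨P, hPm, hP⟩ := hint
  -- the ring isomorphism `A⟦X⟧ ≃ psRange`
  let e : PowerSeries A ≃+* psRange A K := RingEquiv.ofBijective (toLS A K).rangeRestrict
    ⟨fun a b h => toLS_injective A K (congrArg Subtype.val h), (toLS A K).rangeRestrict_surjective⟩
  have he : ∀ p, ((e p : psRange A K) : LaurentSeries K) = toLS A K p := fun p => rfl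
  let incl : R₀ →+* psRange A K := Subring.inclusion hR₀
  let Q : Polynomial (PowerSeries A) := (P.map incl).map (e.symm : psRange A K →+* PowerSeries A)
  have hQm : Q.Monic := (hPm.map incl).map _
  have hz : IsIntegral (PowerSeries A) z := by
    refine ⟨Q, hQm, ?_⟩
    apply (fracLS A K).injective
    rw [map_zero, Polynomial.hom_eval₂]
    have h1 : (fracLS A K).comp (algebraMap (PowerSeries A) (FractionRing (PowerSeries A))) =
        toLS A K := RingHom.ext fun p => fracLS_algebraMap A K p
    rw [h1, Polynomial.eval₂_map, Polynomial.eval₂_map]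
    have h2 : ((toLS A K).comp (e.symm : psRange A K →+* PowerSeries A)).comp incl =
        algebraMap R₀ (LaurentSeries K) := by
      ext r : 1
      change toLS A K (e.symm (incl r)) = (r : LaurentSeries K)
      rw [← he, RingEquiv.apply_symm_apply]
      rfl
    rw [h2]
    exact hP
  obtain ⟨y, hy⟩ := IsIntegrallyClosed.isIntegral_iff.mp hz
  exact ⟨y, by rw [← hy, fracLS_algebraMap]⟩

/-- Version for a ring hom `ι : F →+* K((X))` from a field: if `ι` maps a generating set (as a
field) into `psFrac`, then it maps everything into `psFrac`. -/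
theorem map_mem_psFrac_of_closure {F : Type*} [Field F] (ι : F →+* LaurentSeries K) (G : Set F)
    (hG : ∀ g ∈ G, ι g ∈ psFrac A K) (hgen : Subfield.closure G = ⊤) (f : F) :
    ι f ∈ psFrac A K := by
  have h1 : Subfield.closure G ≤ (psFrac A K).comap ι := by
    rw [Subfield.closure_le]
    exact fun g hg => hG g hg
  rw [hgen] at h1
  exact h1 (Subfield.mem_top f)

/-- **(C1)** for a ring hom `ι : F →+* K((X))` with `ι F ⊆ psFrac`: an element of `F` integral over
a subring `R₁ ⊆ F` with `ι R₁ ⊆ psRange` is mapped into `psRange`. -/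
theorem map_mem_psRange_of_isIntegral {F : Type*} [Field F] (ι : F →+* LaurentSeries K)
    (hι : ∀ f, ι f ∈ psFrac A K) (R₁ : Subring F) (hR₁ : ∀ r ∈ R₁, ι r ∈ psRange A K)
    {b : F} (hb : IsIntegral R₁ b) : ι b ∈ psRange A K := by
  refine mem_psRange_of_isIntegral A K (R₁.map ι) ?_ (hι b) ?_
  · rintro _ ⟨r, hr, rfl⟩
    exact hR₁ r hr
  · obtain ⟨P, hPm, hP⟩ := hb
    let j : R₁ →+* R₁.map ι := (ι.comp R₁.subtype).codRestrict (R₁.map ι)
      fun r => ⟨r, r.2, rfl⟩
    refine ⟨P.map j, hPm.map j, ?_⟩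
    rw [Polynomial.eval₂_map]
    have h2 : (algebraMap (R₁.map ι) (LaurentSeries K)).comp j = ι.comp (algebraMap R₁ F) := by
      ext r : 1
      rfl
    rw [h2, ← Polynomial.hom_eval₂, hP, map_zero]

end Fermat.Agent.RED.CUSP.IntClosedPS16
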