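/-
Program H (RED/CUSP, concrete half; helper16): EXACT re-indexing of the cusp expansions.

For `γ ∈ SL(2, ℤ)` let `w := cuspW N γ` be the size of the `⟨T⟩`-orbit of the coset `γ⁻¹ Γ₀(N)`
(the width of the cusp `γ⁻¹ ∞`) and `r := cuspR N γ = N / w`.  Then, for `C = cuspData N`:

* `coeff_T_eq_zero`   : every `C.T γ f` is a series in `q_N ^ r`;
* `neg_ord_jF_eq`     : `- ord_v j = w` for `v = cuspPlace γ⁻¹` (EXACT: from the count
                         `∑ widths = ψ(N) = [F : ℚbar(j)]`, `PlaceCountX0.pcx_count_cusps`);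
* `order_T_eq`        : `(C.T γ f).order = r * ord_v f`;
* `Tc γ : FF N →+* ℚbar((s))`, the compressed expansion, `qExpand r ∘ Tc γ = C.T γ`, with
  `order_Tc : (Tc γ f).order = ord_v f` and `mem_cuspPlace_iff_Tc`.
-/
import Fermat.Agent.X0.CuspGood
import Fermat.Agent.X0.CuspSurj
import Fermat.Agent.X0.Degree
import Fermat.Agent.X0.HasCanDivInst
import Fermat.Agent.X0.PlaceCountX0
import Fermat.Agent.RED.LVL.RootRange2

set_option autoImplicit false
set_option linter.unusedSectionVars false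

noncomputable section

namespace Fermat.Agent.RED.CUSP.CuspExact16

open Fermat.Agent.X0 AlgebraicCurve ModularCurve
open MulAction Subgroup CongruenceSubgroup
open scoped MatrixGroups

variable (N : ℕ) [NeZero N]

/-- `cuspData N` is `Good`. -/
theorem hGood : (cuspData N).Good := CuspGood.good (cuspData N)

/-- The coset `γ⁻¹ Γ₀(N)`. -/
def cuspCoset (γ : SL(2, ℤ)) : SL(2, ℤ) ⧸ Gamma0 N := QuotientGroup.mk γ⁻¹

/-- The width of the cusp `γ⁻¹ ∞`: the size of the `⟨T⟩`-orbit of `γ⁻¹ Γ₀(N)`. -/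
def cuspW (γ : SL(2, ℤ)) : ℕ := Nat.card (orbit (zpowers ModularGroup.T) (cuspCoset N γ))

theorem cuspW_dvd (γ : SL(2, ℤ)) : cuspW N γ ∣ N := G1Elliptic.g1_card_orbit_T_dvd _

theorem cuspW_pos (γ : SL(2, ℤ)) : 0 < cuspW N γ :=
  Nat.pos_of_ne_zero fun h => NeZero.ne N (by
    have := cuspW_dvd N γ
    rw [h] at this
    exact zero_dvd_iff.mp this)

/-- `r = N / w`. -/
def cuspR (γ : SL(2, ℤ)) : ℕ := N / cuspW N γ

theorem cuspR_mul_cuspW (γ : SL(2, ℤ)) : cuspR N γ * cuspW N γ = N :=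
  Nat.div_mul_cancel (cuspW_dvd N γ)

theorem cuspR_pos (γ : SL(2, ℤ)) : 0 < cuspR N γ :=
  Nat.div_pos (Nat.le_of_dvd (Nat.pos_of_ne_zero (NeZero.ne N)) (cuspW_dvd N γ)) (cuspW_pos N γ)

instance (γ : SL(2, ℤ)) : NeZero (cuspR N γ) := ⟨(cuspR_pos N γ).ne'⟩

/-- `γ T^w γ⁻¹ ∈ Γ₀(N)`. -/
theorem conj_T_pow_cuspW_mem (γ : SL(2, ℤ)) :
    γ * ModularGroup.T ^ cuspW N γ * γ⁻¹ ∈ Gamma0 N := by
  set x : SL(2, ℤ) ⧸ Gamma0 N := cuspCoset N γ with hx
  have hper : ModularGroup.T ^ cuspW N γ • x = x := by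
    rw [pow_smul_eq_iff_minimalPeriod_dvd, ← OrbitCount.card_orbit_zpowers]
    exact dvd_of_eq rfl
  rw [hx, cuspCoset, MulAction.Quotient.smul_mk, smul_eq_mul] at hper
  have := QuotientGroup.eq.mp hper.symm
  rw [inv_inv, ← mul_assoc] at this
  exact this

/-- Every `C.T γ f` is a series in `q_N ^ r`. -/
theorem coeff_T_eq_zero (γ : SL(2, ℤ)) (f : FF N) (n : ℤ) (hn : ¬ (cuspR N γ : ℤ) ∣ n) :
    ((cuspData N).T γ f).coeff n = 0 := by
  by_contra hne
  exact hn (CuspEquiv.width (cuspData N) γ (cuspW N γ) (cuspW_pos N γ) (cuspW_dvd N γ)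
    (conj_T_pow_cuspW_mem N γ) f n hne)

/-- **Exactness**: `- ord_v j` is the width, for every coset. -/
theorem neg_ord_jF_eq_card (a : SL(2, ℤ) ⧸ Gamma0 N) :
    -(cuspPlaceX (hGood N) a).ord (jF N) =
      (Nat.card (orbit (zpowers ModularGroup.T) a) : ℤ) := by
  have hx : FF.IsGen Kbar (jF N) := Degree.isGen_jF N (realizeData N) (cuspData N)
  have hfd : FiniteDimensional (IntermediateField.adjoin Kbar {jF N}) (FF N) := hx.finite
  have hdeg := Degree.finrank_adjoin N (realizeData N) (cuspData N)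
  have hcard := Degree.card_eq_finrank_adjoin N (realizeData N) (cuspData N)
  have H := HasCanDivInst.genusHyp N
  have hsum := H.sum_ord_poles
  rw [hdeg] at hsum
  have hsurj : ∀ v : Place Kbar (FF N), v.ord (jF N) < 0 →
      ∃ a, cuspPlaceX (hGood N) a = v := by
    intro v hv
    obtain ⟨g, hg⟩ := CuspSurj.exists_cuspPlace_eq (hGood N) hcard v hv
    exact ⟨QuotientGroup.mk g, by rw [cuspPlaceX_mk, hg]⟩
  exact (PlaceCountX0.pcx_count_cusps (K := Kbar) N (jF N) H.finite_poles hsum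
    (cuspPlaceX (hGood N)) (cuspPlaceX_ord_jF_neg (hGood N)) hsurj
    (fun a => cuspPlaceX_smul_zpowers_T (hGood N) ⟨ModularGroup.T, mem_zpowers _⟩ a)
    (cuspPlaceX_neg_ord_jF_le (hGood N))).2 a

/-- The place attached to `γ` (order function `f ↦ ord (C.T γ f)` up to the factor `r`). -/
def placeOf (γ : SL(2, ℤ)) : Place Kbar (FF N) := cuspPlace (hGood N) γ⁻¹

theorem neg_ord_jF_eq (γ : SL(2, ℤ)) : -(placeOf N γ).ord (jF N) = (cuspW N γ : ℤ) := by
  have := neg_ord_jF_eq_card N (cuspCoset N γ)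
  rwa [cuspCoset, cuspPlaceX_mk] at this

/-- `ord (C.T γ f) = r * ord_v f`. -/
theorem order_T_eq (γ : SL(2, ℤ)) (f : FF N) (hf : f ≠ 0) :
    ((cuspData N).T γ f).order = (cuspR N γ : ℤ) * (placeOf N γ).ord f := by
  obtain ⟨m, hm, hspec, hj⟩ := cuspPlace_spec (hGood N) γ⁻¹
  rw [inv_inv] at hspec
  have h1 : (m : ℤ) * (cuspW N γ : ℤ) = N := by
    have := neg_ord_jF_eq N γ
    rw [placeOf] at this
    rw [← this]
    linarith
  have h2 : (m : ℤ) = cuspR N γ := by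
    have h3 : ((cuspR N γ : ℕ) : ℤ) * (cuspW N γ : ℤ) = N := by
      exact_mod_cast cuspR_mul_cuspW N γ
    have hw : (cuspW N γ : ℤ) ≠ 0 := by exact_mod_cast (cuspW_pos N γ).ne'
    exact mul_right_cancel₀ hw (h1.trans h3.symm)
  rw [hspec f hf, h2, placeOf]

/-! ### The compressed expansion -/

theorem T_mem_range (γ : SL(2, ℤ)) (f : FF N) :
    (cuspData N).T γ f ∈ (qExpand Kbar (cuspR N γ)).range := by
  have := (Fermat.Agent.RED.LVL.RootRange2.mem_range_qExpand_iff (cuspR N γ)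
    ((cuspData N).T γ f)).mpr (coeff_T_eq_zero N γ f)
  exact this

/-- The ring isomorphism `ℚbar((s)) ≃ range (s ↦ q_N^r)`. -/
def qEquiv (γ : SL(2, ℤ)) : LaurentSeries Kbar ≃+* (qExpand Kbar (cuspR N γ)).range :=
  RingEquiv.ofBijective (qExpand Kbar (cuspR N γ)).rangeRestrict
    ⟨fun _ _ h => qExpand_injective _ (congrArg Subtype.val h),
      (qExpand Kbar (cuspR N γ)).rangeRestrict_surjective⟩

/-- **The compressed cusp expansion** `Tc γ : F → ℚbar((s))`, `s = q_N^r = q^{1/w}`. -/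
def Tc (γ : SL(2, ℤ)) : FF N →+* LaurentSeries Kbar :=
  ((qEquiv N γ).symm : _ →+* LaurentSeries Kbar).comp
    (((cuspData N).T γ).codRestrict (qExpand Kbar (cuspR N γ)).range (T_mem_range N γ))

theorem qExpand_Tc (γ : SL(2, ℤ)) (f : FF N) :
    qExpand Kbar (cuspR N γ) (Tc N γ f) = (cuspData N).T γ f := by
  have h : (qEquiv N γ) (Tc N γ f) =
      (((cuspData N).T γ).codRestrict (qExpand Kbar (cuspR N γ)).range (T_mem_range N γ)) f := by
    rw [Tc, RingHom.comp_apply]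
    exact (qEquiv N γ).apply_symm_apply _
  exact congrArg Subtype.val h

theorem Tc_coeff (γ : SL(2, ℤ)) (f : FF N) (n : ℤ) :
    (Tc N γ f).coeff n = ((cuspData N).T γ f).coeff ((cuspR N γ : ℤ) * n) := by
  rw [← qExpand_Tc, qExpand_coeff_mul]

theorem Tc_const (γ : SL(2, ℤ)) (c : Kbar) :
    Tc N γ (algebraMap Kbar (FF N) c) = HahnSeries.C c := by
  apply qExpand_injective (R := Kbar) (N := cuspR N γ)
  rw [qExpand_Tc, (hGood N).map_const, qExpand_C]

theorem Tc_ne_zero (γ : SL(2, ℤ)) {f : FF N} (hf : f ≠ 0) : Tc N γ f ≠ 0 :=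
  (map_ne_zero_iff _ (Tc N γ).injective).mpr hf

/-- The order of `f(q^r)`. -/
theorem order_qExpand {R : Type*} [CommRing R] (r : ℕ) [NeZero r] (f : LaurentSeries R) :
    (qExpand R r f).order = (r : ℤ) * f.order := by
  by_cases hf : f = 0
  · rw [hf, map_zero, HahnSeries.order_zero, mul_zero]
  have hr : (0 : ℤ) < r := by exact_mod_cast Nat.pos_of_ne_zero (NeZero.ne r)
  have h1 : (qExpand R r f).coeff ((r : ℤ) * f.order) ≠ 0 := by
    rw [qExpand_coeff_mul]
    exact HahnSeries.coeff_order_eq_zero.not.mpr hf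
  have hne : qExpand R r f ≠ 0 := fun h => h1 (by rw [h]; rfl)
  apply le_antisymm
  · exact HahnSeries.order_le_of_coeff_ne_zero h1
  · rw [HahnSeries.le_order_iff_forall hne]
    intro k hk
    by_cases hd : (r : ℤ) ∣ k
    · obtain ⟨m, rfl⟩ := hd
      rw [qExpand_coeff_mul]
      apply HahnSeries.coeff_eq_zero_of_lt_order
      exact lt_of_mul_lt_mul_left hk hr.le
    · exact qExpand_coeff_of_not_dvd r _ hd

/-- **Exact order**: `ord (Tc γ f) = ord_v f`. -/
theorem order_Tc (γ : SL(2, ℤ)) (f : FF N) (hf : f ≠ 0) :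
    (Tc N γ f).order = (placeOf N γ).ord f := by
  have h1 := order_T_eq N γ f hf
  rw [← qExpand_Tc, order_qExpand] at h1
  have hr : ((cuspR N γ : ℕ) : ℤ) ≠ 0 := by exact_mod_cast (cuspR_pos N γ).ne'
  exact mul_left_cancel₀ hr h1

theorem mem_placeOf_iff (γ : SL(2, ℤ)) {f : FF N} (hf : f ≠ 0) :
    f ∈ (placeOf N γ).toValuationSubring ↔ 0 ≤ (Tc N γ f).order := by
  rw [order_Tc N γ f hf, FF.ffp_mem_iff_ord_nonneg]

end Fermat.Agent.RED.CUSP.CuspExact16
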