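/-
Program H (RED/CUSP, concrete half; helper16): the cusp expansions `C.T γ (x_d)` of the generators
`x_d = j(q^d)` (`d ∣ N`) of the modular function field, in the `X0` interface
`(D : RealizeData N) (C : CuspData N D)`:

* `T_jd_eq`       : the explicit series (Hermite data `a e = d`, `0 ≤ b < e`);
* `exists_T_jd`   : `C.T γ x_d = q_N^{-m} P(q_N)` with `P ∈ ℤ[ζ_N][[X]]`, `P` a series in `X^m`,
                    `P(0)` a power of `ζ_N` (so a unit of `ℤ[ζ_N]`), `m > 0`;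
* `conj_T_pow_mem`, `width_mem` : `γ T^w γ⁻¹ ∈ Γ₀(N)` for `w = N / gcd(c², N)` (`c = γ₁₀`);
* `coeff_T_eq_zero_of_not_dvd`  : hence every `C.T γ f` is a series in `q_N^{N/w}`.
-/
import Fermat.Agent.IG.AN.JAffine11
import Fermat.Agent.X0.CuspEquiv

set_option autoImplicit false
set_option linter.unusedSectionVars false

noncomputable section

namespace Fermat.Agent.RED.CUSP.IntegralCusp16

open Fermat.Agent.X0 Fermat.Agent.X0.Analytic Fermat.Agent.X0.Hermite Fermat.Agent.X0.QExpAffine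
open UpperHalfPlane ModularCurve
open scoped MatrixGroups
open Fermat.Agent.IG.AN.DeltaAffine11 Fermat.Agent.IG.AN.JAffine11

variable (N : ℕ) [NeZero N] (D : RealizeData N) (C : CuspData N D)

/-- **Explicit cusp expansion of `x_d`.** -/
theorem T_jd_eq (d : ℕ) [NeZero d] (hd : d ∣ N) (γ : SL(2, ℤ)) :
    ∃ (a e : ℕ) (b : ℤ), 0 < a ∧ 0 < e ∧ a * e = d ∧ 0 ≤ b ∧ b < e ∧
      (∀ n : ℤ, n ∣ (a : ℤ) → n ∣ b → n ∣ (e : ℤ) → IsUnit n) ∧
      C.T γ (jdF N d hd) =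
        laurentOf (a * (N / e)) (affQ jNumK 1 (a * (N / e)) b (zetaE N e)) := by
  obtain ⟨a, e, b, ζ, ha, he, hae, hb0, hbe, hcop, hζ, hQ, -⟩ :=
    CuspGen.exists_isQExp_compSL_jdFun N d hd γ
  have heN : e ∣ N := (Dvd.intro_left a hae).trans hd
  have hζeq : ζ = zetaE N e := iotaK_injective (hζ.trans (iotaK_zetaE N he heN).symm)
  subst hζeq
  refine ⟨a, e, b, ha, he, hae, hb0, hbe, hcop, ?_⟩
  have h1 : ((jdR N d hd : Rsub N) : FF N) = jdF N d hd := rfl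
  rw [← h1]
  apply intg_T_eq_of_qn N D C γ (jdR N d hd)
  rw [D.jd_eq d hd, toC, Fermat.Agent.X0.coeffMap_laurentOf]
  exact intg_qn_of_isQExp N hQ

/-- **Integral form of the cusp expansion of `x_d`**: `C.T γ x_d = q_N^{-m} P`, `m > 0`, all
coefficients of `P` in `ℤ[ζ_N]`, `P` is a series in `X^m`, and `P(0)` is a power of `ζ_N`. -/
theorem exists_T_jd (d : ℕ) [NeZero d] (hd : d ∣ N) (γ : SL(2, ℤ)) :
    ∃ (m : ℕ) (P : PowerSeries Kbar), 0 < m ∧ C.T γ (jdF N d hd) = laurentOf m P ∧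
      (∀ n, PowerSeries.coeff n P ∈ Subring.closure {zetaK N}) ∧
      (∀ n, ¬ m ∣ n → PowerSeries.coeff n P = 0) ∧
      ∃ k : ℤ, PowerSeries.coeff 0 P = zetaK N ^ k := by
  obtain ⟨a, e, b, ha, he, hae, -, -, -, hT⟩ := T_jd_eq N D C d hd γ
  have heN : e ∣ N := (Dvd.intro_left a hae).trans hd
  have hNe : 0 < N / e :=
    Nat.div_pos (Nat.le_of_dvd (Nat.pos_of_ne_zero (NeZero.ne N)) heN) he
  refine ⟨a * (N / e), _, Nat.mul_pos ha hNe, hT, fun n => ?_, fun n hn => ?_, ?_⟩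
  · rw [coeff_affQ]
    split_ifs
    · exact Subring.mul_mem _ (coeff_jNumK_mem _ _)
        (zpow_mem_of_pow_eq_one _ (zetaE_mem N e) he (zetaE_pow N heN) _)
    · exact Subring.zero_mem _
  · exact coeff_affQ_of_not_dvd _ _ _ _ hn
  · refine ⟨-((N / e : ℕ) : ℤ) * b, ?_⟩
    rw [coeff_zero_affQ, CuspGen.coeff_zero_jNumK, one_mul, Nat.cast_one, mul_one, zetaE,
      ← zpow_natCast, ← zpow_mul]
    congr 1
    ring

/-- The leading coefficient of `C.T γ x_d` is a unit of `ℤ[ζ_N]`: it and its inverse lie there. -/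
theorem exists_T_jd_leading (d : ℕ) [NeZero d] (hd : d ∣ N) (γ : SL(2, ℤ)) :
    ∃ (m : ℕ), 0 < m ∧ (∀ n : ℤ, n < -(m : ℤ) → (C.T γ (jdF N d hd)).coeff n = 0) ∧
      (C.T γ (jdF N d hd)).coeff (-(m : ℤ)) ∈ Subring.closure {zetaK N} ∧
      ((C.T γ (jdF N d hd)).coeff (-(m : ℤ)))⁻¹ ∈ Subring.closure {zetaK N} ∧
      (C.T γ (jdF N d hd)).coeff (-(m : ℤ)) ≠ 0 := by
  obtain ⟨m, P, hm, hT, -, -, k, hk⟩ := exists_T_jd N D C d hd γ
  have hlead : (C.T γ (jdF N d hd)).coeff (-(m : ℤ)) = zetaK N ^ k := by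
    rw [hT, lor_laurentOf_coeff, if_pos (by omega)]
    have : (-(m : ℤ) + m).toNat = 0 := by simp
    rw [this, hk]
  have hN : 0 < N := Nat.pos_of_ne_zero (NeZero.ne N)
  have hζ : zetaK N ∈ Subring.closure {zetaK N} := Subring.subset_closure rfl
  refine ⟨m, hm, fun n hn => ?_, ?_, ?_, ?_⟩
  · rw [hT, lor_laurentOf_coeff, if_neg (by omega)]
  · rw [hlead]
    exact zpow_mem_of_pow_eq_one _ hζ hN (zetaK_pow_self N) _
  · rw [hlead, ← zpow_neg]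
    exact zpow_mem_of_pow_eq_one _ hζ hN (zetaK_pow_self N) _
  · rw [hlead]
    exact zpow_ne_zero _ (CuspEquiv.zetaK_ne_zero N)

/-! ### Widths -/

/-- `γ T^w γ⁻¹` has lower left entry `-c² w`, `c = γ₁₀`. -/
theorem conj_T_pow_one_zero (γ : SL(2, ℤ)) (w : ℕ) :
    (γ * ModularGroup.T ^ w * γ⁻¹) 1 0 = -((γ 1 0) ^ 2 * w) := by
  have hT : ((ModularGroup.T ^ w : SL(2, ℤ)) : Matrix (Fin 2) (Fin 2) ℤ) = !![1, (w : ℤ); 0, 1] := by
    have := ModularGroup.coe_T_zpow (w : ℤ)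
    rwa [zpow_natCast] at this
  have hinv : ((γ⁻¹ : SL(2, ℤ)) : Matrix (Fin 2) (Fin 2) ℤ) = !![γ 1 1, -γ 0 1; -γ 1 0, γ 0 0] := by
    rw [Matrix.SpecialLinearGroup.SL2_inv_expl γ]
    rfl
  show ((γ * ModularGroup.T ^ w * γ⁻¹ : SL(2, ℤ)) : Matrix (Fin 2) (Fin 2) ℤ) 1 0 = _
  rw [Matrix.SpecialLinearGroup.coe_mul, Matrix.SpecialLinearGroup.coe_mul, hT, hinv]
  simp only [Matrix.mul_apply, Fin.sum_univ_two, Matrix.of_apply, Matrix.cons_val_zero,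
    Matrix.cons_val_one, Matrix.cons_val', Matrix.empty_val', Matrix.cons_val_fin_one]
  ring

/-- `γ T^w γ⁻¹ ∈ Γ₀(N)` as soon as `N ∣ c² w`. -/
theorem conj_T_pow_mem (γ : SL(2, ℤ)) (w : ℕ) (h : (N : ℤ) ∣ (γ 1 0) ^ 2 * w) :
    γ * ModularGroup.T ^ w * γ⁻¹ ∈ CongruenceSubgroup.Gamma0 N := by
  rw [CongruenceSubgroup.Gamma0_mem, conj_T_pow_one_zero]
  rw [ZMod.intCast_zmod_eq_zero_iff_dvd]
  exact (dvd_neg).mpr h

/-- The width of the cusp `γ∞` of `Γ₀(N)`: `N / gcd(c², N)`. -/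
def cuspWidth (γ : SL(2, ℤ)) : ℕ := N / Nat.gcd ((γ 1 0).natAbs ^ 2) N

theorem cuspWidth_pos (γ : SL(2, ℤ)) : 0 < cuspWidth N γ := by
  have hN : 0 < N := Nat.pos_of_ne_zero (NeZero.ne N)
  exact Nat.div_pos (Nat.le_of_dvd hN (Nat.gcd_dvd_right _ _)) (Nat.gcd_pos_of_pos_right _ hN)

theorem cuspWidth_dvd (γ : SL(2, ℤ)) : cuspWidth N γ ∣ N :=
  Nat.div_dvd_of_dvd (Nat.gcd_dvd_right _ _)

theorem width_mem (γ : SL(2, ℤ)) :
    γ * ModularGroup.T ^ (cuspWidth N γ) * γ⁻¹ ∈ CongruenceSubgroup.Gamma0 N := by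
  apply conj_T_pow_mem
  have hN : 0 < N := Nat.pos_of_ne_zero (NeZero.ne N)
  set g := Nat.gcd ((γ 1 0).natAbs ^ 2) N with hg
  have hgN : g ∣ N := Nat.gcd_dvd_right _ _
  have hgc : g ∣ (γ 1 0).natAbs ^ 2 := Nat.gcd_dvd_left _ _
  obtain ⟨u, hu⟩ := hgc
  obtain ⟨v, hv⟩ := hgN
  have hgpos : 0 < g := Nat.gcd_pos_of_pos_right _ hN
  have hw : cuspWidth N γ = v := by
    rw [cuspWidth, ← hg, hv, Nat.mul_div_cancel_left v hgpos]
  have hsq : (γ 1 0) ^ 2 = (((γ 1 0).natAbs ^ 2 : ℕ) : ℤ) := by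
    push_cast
    exact (sq_abs _).symm
  rw [hw, hsq, hu]
  refine ⟨(u : ℤ), ?_⟩
  conv_rhs => rw [hv]
  push_cast
  ring

/-- **Width**: every cusp expansion `C.T γ f` is a series in `q_N^{N/w}`, `w = cuspWidth N γ`. -/
theorem coeff_T_eq_zero_of_not_dvd (γ : SL(2, ℤ)) (f : FF N) (n : ℤ)
    (hn : ¬ ((N / cuspWidth N γ : ℕ) : ℤ) ∣ n) : (C.T γ f).coeff n = 0 := by
  by_contra h
  exact hn (CuspEquiv.width C γ (cuspWidth N γ) (cuspWidth_pos N γ) (cuspWidth_dvd N γ)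
    (width_mem N γ) f n h)

end Fermat.Agent.RED.CUSP.IntegralCusp16
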