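/-
Program H (RED/CUSP, concrete half; helper16): the cusp expansions over a number field.

`K : IntermediateField ℚ Qbar` with `zetaK M ∈ K`, `γ ∈ SL(2, ℤ)`.  With
`emb := PlaceExtend27.baseChangeHom M K : FK M K →+* Fbar M`:

* `T_coeff_mem`  : all coefficients of `(cuspData M).T γ (emb z)` lie in `K`;
* `TK γ : FK M K →+* K((s))` — the compressed cusp expansion over `K`
  (`coeffMap (K → Qbar) ∘ TK γ = CuspExact16.Tc M γ ∘ emb`), `s = q^{1/w}`, `w` the width;
* `TK_const`, `order_TK` (`= ord_v (emb z)`, `v = CuspExact16.placeOf M γ`), `mem_placeOf_iff_TK`;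
* for a valuation subring `A` of `Qbar` (`A_K = Interface4.AK A K` a PID):
  `TK_gen_coeff_mem` (the coefficients of `TK γ x_d` lie in `A_K`), `TK_mem_psFrac`
  (`TK γ z ∈ Frac (A_K⟦s⟧)`), and **(C1)** `TK_mem_psRange_of_isIntegral`: if `TK γ t ∈ A_K⟦s⟧`, every
  `b` integral over `A_K[t]` has `TK γ b ∈ A_K⟦s⟧`;  `iotaPS` : the resulting ring hom into
  `PowerSeries A_K`.
-/
import Fermat.Agent.RED.CUSP.CuspExact16
import Fermat.Agent.RED.CUSP.IntegralCusp16
import Fermat.Agent.RED.CUSP.IntClosedPS16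
import Fermat.Agent.RED.DESC.PlaceExtend27
import Fermat.Agent.RED.PUR.DegBaseChange25

set_option autoImplicit false
set_option linter.unusedSectionVars false

noncomputable section

namespace Fermat.Agent.RED.CUSP.CuspEmbK16

open Fermat.Agent.X0 AlgebraicCurve ModularCurve HahnSeries
open Fermat.Agent.RED.Interface4 Fermat.Agent.RED.DESC.PlaceExtend27
open Fermat.Agent.RED.CUSP.CuspExact16
open scoped MatrixGroups

/-! ### Generalities on `coeffMap` -/

section General

variable {k k' : Type*} [Field k] [Field k'] (φ : k →+* k')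

theorem coeffMap_injective' : Function.Injective (coeffMap φ) := by
  intro x y h
  ext n
  apply φ.injective
  have := congrArg (fun z => z.coeff n) h
  simpa using this

/-- A Laurent series over `k'` all of whose coefficients lie in `φ k` comes from `k((X))`. -/
theorem mem_range_coeffMap_iff (x : LaurentSeries k') :
    x ∈ (coeffMap φ).range ↔ ∀ n : ℤ, x.coeff n ∈ φ.range := by
  constructor
  · rintro ⟨y, rfl⟩ n
    exact ⟨y.coeff n, rfl⟩
  · intro h
    choose c hc using h
    have hb : BddBelow (Function.support c) := by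
      refine ⟨x.order, fun n hn => ?_⟩
      by_contra hlt
      rw [not_le] at hlt
      apply hn
      apply φ.injective
      rw [hc, map_zero]
      exact HahnSeries.coeff_eq_zero_of_lt_order hlt
    refine ⟨HahnSeries.ofSuppBddBelow c hb, ?_⟩
    ext n
    rw [coeffMap_coeff, HahnSeries.coeff_ofSuppBddBelow, hc]

theorem order_coeffMap (x : LaurentSeries k) : (coeffMap φ x).order = x.order := by
  by_cases hx : x = 0
  · rw [hx, map_zero, HahnSeries.order_zero, HahnSeries.order_zero]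
  have hne : coeffMap φ x ≠ 0 := (map_ne_zero_iff _ (coeffMap_injective' φ)).mpr hx
  apply le_antisymm
  · apply HahnSeries.order_le_of_coeff_ne_zero
    rw [coeffMap_coeff]
    exact (map_ne_zero_iff _ φ.injective).mpr (HahnSeries.coeff_order_eq_zero.not.mpr hx)
  · rw [HahnSeries.le_order_iff_forall hne]
    intro n hn
    rw [coeffMap_coeff, HahnSeries.coeff_eq_zero_of_lt_order hn, map_zero]

theorem coeffMap_C (c : k) : coeffMap φ (HahnSeries.C c) = HahnSeries.C (φ c) := by
  rw [HahnSeries.C_apply, coeffMap_single, HahnSeries.C_apply]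

end General

/-! ### Induction over the generators of `FK M K` -/

variable (M : ℕ) [NeZero M] (K : IntermediateField ℚ Qbar)

/-- The generator `x_d = j(q^d)` of `FK M K`. -/
def xdK (d : ℕ) [NeZero d] (hd : d ∣ M) : FK M K :=
  ⟨qExpand K d (jqModC K), by
    rw [FK, Fermat.Agent.RED.PUR.DegBaseChange25.laurentBaseChange_full_eq]
    exact jqModCd_mem_full K M hd⟩

theorem baseChangeHom_xdK (d : ℕ) [NeZero d] (hd : d ∣ M) :
    baseChangeHom M K (xdK M K d hd) = jdF M d hd := by
  apply Subtype.ext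
  rw [coe_baseChangeHom]
  show coeffMap (algebraMap K Qbar) (qExpand K d (jqModC K)) =
    coeffEmb Kbar (qExpand ℚ d jq)
  rw [ModularCurve.coeffMap_qExpand, coeffMap_jqModC, coeffEmb, ModularCurve.coeffMap_qExpand,
    ← jqModC_rat, coeffMap_jqModC]

/-- A ring hom from `FK M K` into a field maps everything into a subfield as soon as it does so for
the constants and the generators `x_d`. -/
theorem map_mem_of_gen {L : Type*} [Field L] (f : FK M K →+* L) (𝔽 : Subfield L)
    (hconst : ∀ c : K, f (algebraMap K (FK M K) c) ∈ 𝔽)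
    (hgen : ∀ (d : ℕ) [NeZero d] (hd : d ∣ M), f (xdK M K d hd) ∈ 𝔽) (z : FK M K) : f z ∈ 𝔽 := by
  obtain ⟨z, hz⟩ := z
  have hz' : z ∈ IntermediateField.adjoin K (divisorExpansionsC K M) := by
    rw [← modularFunctionFieldFullC,
      ← Fermat.Agent.RED.PUR.DegBaseChange25.laurentBaseChange_full_eq]
    exact hz
  have hFK : ∀ y, y ∈ IntermediateField.adjoin K (divisorExpansionsC K M) → y ∈ FK M K := by
    intro y hy
    rw [FK, Fermat.Agent.RED.PUR.DegBaseChange25.laurentBaseChange_full_eq]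
    exact hy
  suffices h : ∀ (y : LaurentSeries K)
      (hy : y ∈ IntermediateField.adjoin K (divisorExpansionsC K M)), f ⟨y, hFK y hy⟩ ∈ 𝔽 from
    h z hz'
  intro y hy
  induction hy using IntermediateField.adjoin_induction with
  | mem x hx =>
    obtain ⟨d, hdne, hd, rfl⟩ := hx
    exact hgen d hd
  | algebraMap c => exact hconst c
  | add x y hx hy h1 h2 =>
    have : (⟨x + y, hFK _ (add_mem hx hy)⟩ : FK M K) = ⟨x, hFK _ hx⟩ + ⟨y, hFK _ hy⟩ := rfl
    rw [this, map_add]
    exact add_mem h1 h2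
  | inv x hx h1 =>
    have : (⟨x⁻¹, hFK _ (inv_mem hx)⟩ : FK M K) = (⟨x, hFK _ hx⟩ : FK M K)⁻¹ := rfl
    rw [this, map_inv₀]
    exact inv_mem h1
  | mul x y hx hy h1 h2 =>
    have : (⟨x * y, hFK _ (mul_mem hx hy)⟩ : FK M K) = ⟨x, hFK _ hx⟩ * ⟨y, hFK _ hy⟩ := rfl
    rw [this, map_mul]
    exact mul_mem h1 h2

/-! ### The coefficients of the cusp expansions lie in `K` -/

variable {M K} (hζ : zetaK M ∈ K) (γ : SL(2, ℤ))

/-- The subring of `Qbar` generated by `ζ_M`. -/
abbrev Zzeta : Subring Qbar := Subring.closure {zetaK M}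

include hζ in
theorem Zzeta_le : (Zzeta (M := M)) ≤ K.toSubring := by
  rw [Subring.closure_le]
  rintro x rfl
  exact hζ

/-- The coefficients of the expansion of a generator lie in `ℤ[ζ_M]`. -/
theorem T_gen_coeff_mem (d : ℕ) [NeZero d] (hd : d ∣ M) (n : ℤ) :
    ((cuspData M).T γ (baseChangeHom M K (xdK M K d hd))).coeff n ∈ (Zzeta (M := M)) := by
  rw [baseChangeHom_xdK]
  obtain ⟨m, P, -, hT, hP, -, -⟩ :=
    Fermat.Agent.RED.CUSP.IntegralCusp16.exists_T_jd M (realizeData M) (cuspData M) d hd γ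
  rw [hT]
  exact Fermat.Agent.IG.AN.DeltaAffine11.coeff_laurentOf_mem _ m hP n

include hζ in
/-- `(cuspData M).T γ (emb z)` has all its coefficients in `K`. -/
theorem T_mem_fieldRange (z : FK M K) :
    (cuspData M).T γ (baseChangeHom M K z) ∈ (coeffMap (algebraMap K Qbar)).fieldRange := by
  refine map_mem_of_gen M K (((cuspData M).T γ).comp (baseChangeHom M K)) _ ?_ ?_ z
  · intro c
    rw [RingHom.comp_apply, baseChangeHom_algebraMap, (hGood M).map_const]
    exact ⟨HahnSeries.C c, coeffMap_C _ c⟩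
  · intro d _ hd
    rw [RingHom.comp_apply]
    show _ ∈ (coeffMap (algebraMap K Qbar)).range
    rw [mem_range_coeffMap_iff]
    intro n
    have h1 := Zzeta_le hζ (T_gen_coeff_mem (K := K) γ d hd n)
    exact ⟨⟨_, h1⟩, rfl⟩

include hζ in
theorem T_coeff_mem (z : FK M K) (n : ℤ) :
    ((cuspData M).T γ (baseChangeHom M K z)).coeff n ∈ K := by
  obtain ⟨y, hy⟩ := T_mem_fieldRange hζ γ z
  rw [← hy, coeffMap_coeff]
  exact (y.coeff n).2

include hζ in
theorem Tc_mem_range (z : FK M K) :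
    Tc M γ (baseChangeHom M K z) ∈ (coeffMap (algebraMap K Qbar)).range := by
  rw [mem_range_coeffMap_iff]
  intro n
  rw [Tc_coeff]
  exact ⟨⟨_, T_coeff_mem hζ γ z _⟩, rfl⟩

/-! ### The compressed expansion over `K` -/

/-- The ring isomorphism `K((s)) ≃ range (coeffMap (K → Qbar))`. -/
def cEquiv (K : IntermediateField ℚ Qbar) :
    LaurentSeries K ≃+* (coeffMap (algebraMap K Qbar)).range :=
  RingEquiv.ofBijective (coeffMap (algebraMap K Qbar)).rangeRestrict
    ⟨fun _ _ h => coeffMap_injective' _ (congrArg Subtype.val h),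
      (coeffMap (algebraMap K Qbar)).rangeRestrict_surjective⟩

/-- **The compressed cusp expansion over `K`**: `TK γ : FK M K →+* K((s))`. -/
def TK : FK M K →+* LaurentSeries K :=
  ((cEquiv K).symm : _ →+* LaurentSeries K).comp
    (((Tc M γ).comp (baseChangeHom M K)).codRestrict (coeffMap (algebraMap K Qbar)).range
      (Tc_mem_range hζ γ))

theorem coeffMap_TK (z : FK M K) :
    coeffMap (algebraMap K Qbar) (TK hζ γ z) = Tc M γ (baseChangeHom M K z) := by
  have h : (cEquiv K) (TK hζ γ z) =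
      (((Tc M γ).comp (baseChangeHom M K)).codRestrict (coeffMap (algebraMap K Qbar)).range
        (Tc_mem_range hζ γ)) z := by
    rw [TK, RingHom.comp_apply]
    exact (cEquiv K).apply_symm_apply _
  exact congrArg Subtype.val h

theorem TK_coeff (z : FK M K) (n : ℤ) :
    algebraMap K Qbar ((TK hζ γ z).coeff n) =
      ((cuspData M).T γ (baseChangeHom M K z)).coeff ((cuspR M γ : ℤ) * n) := by
  rw [← coeffMap_coeff, coeffMap_TK, Tc_coeff]

theorem TK_const (c : K) : TK hζ γ (algebraMap K (FK M K) c) = HahnSeries.C c := by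
  apply coeffMap_injective' (algebraMap K Qbar)
  rw [coeffMap_TK, baseChangeHom_algebraMap, Tc_const, coeffMap_C]
  rfl

/-- **Exact order**: `ord (TK γ z) = ord_v (emb z)`, `v = placeOf M γ`. -/
theorem order_TK (z : FK M K) (hz : z ≠ 0) :
    (TK hζ γ z).order = (placeOf M γ).ord (baseChangeHom M K z) := by
  rw [← order_coeffMap (algebraMap K Qbar), coeffMap_TK,
    order_Tc M γ _ ((map_ne_zero_iff _ (baseChangeHom_injective M K)).mpr hz)]

theorem mem_placeOf_iff_TK (z : FK M K) (hz : z ≠ 0) :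
    baseChangeHom M K z ∈ (placeOf M γ).toValuationSubring ↔ 0 ≤ (TK hζ γ z).order := by
  rw [order_TK hζ γ z hz, FF.ffp_mem_iff_ord_nonneg]


/-! ### Integrality: the expansions over `A_K = A ∩ K` -/

section PSGeneral

open Fermat.Agent.RED.CUSP.IntClosedPS16

variable {A₀ K₀ : Type*} [CommRing A₀] [IsDomain A₀] [Field K₀] [Algebra A₀ K₀]
  [IsFractionRing A₀ K₀] [IsPrincipalIdealRing A₀]

/-- A Laurent series all of whose coefficients lie in `A₀` belongs to `Frac (A₀⟦X⟧)`. -/
theorem mem_psFrac_of_coeff {x : LaurentSeries K₀}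
    (hx : ∀ n : ℤ, x.coeff n ∈ Set.range (algebraMap A₀ K₀)) : x ∈ psFrac A₀ K₀ := by
  set N₀ : ℕ := (-x.order).toNat with hN₀
  set y : LaurentSeries K₀ := HahnSeries.single (N₀ : ℤ) (1 : K₀) * x with hy
  have hycoeff : ∀ n : ℤ, y.coeff n = x.coeff (n - N₀) := by
    intro n
    rw [hy, HahnSeries.coeff_single_mul, one_mul]
  have hyR : y ∈ psRange A₀ K₀ := by
    rw [mem_psRange_iff_coeff]
    refine ⟨fun n hn => ?_, fun n => ?_⟩
    · rw [hycoeff]
      apply HahnSeries.coeff_eq_zero_of_lt_order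
      have : -x.order ≤ (N₀ : ℤ) := Int.self_le_toNat _
      omega
    · rw [hycoeff]; exact hx _
  have hxy : x = HahnSeries.single (-(N₀ : ℤ)) (1 : K₀) * y := by
    rw [hy, ← mul_assoc, HahnSeries.single_mul_single, neg_add_cancel, one_mul]
    exact (one_mul x).symm
  rw [hxy]
  exact mul_mem (single_one_mem_psFrac A₀ K₀ _) (psRange_le_psFrac A₀ K₀ hyR)

theorem C_algebraMap_mem_psRange (a : A₀) :
    HahnSeries.C (algebraMap A₀ K₀ a) ∈ psRange A₀ K₀ := by
  refine ⟨PowerSeries.C a, ?_⟩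
  rw [toLS_apply, PowerSeries.map_C, HahnSeries.ofPowerSeries_C]

theorem C_mem_psFrac (c : K₀) : HahnSeries.C c ∈ psFrac A₀ K₀ := by
  obtain ⟨a, b, hb, rfl⟩ := IsFractionRing.div_surjective (A := A₀) c
  rw [map_div₀]
  exact div_mem (psRange_le_psFrac A₀ K₀ (C_algebraMap_mem_psRange a))
    (psRange_le_psFrac A₀ K₀ (C_algebraMap_mem_psRange b))

/-- **(C1)** for an arbitrary ring hom `g : R₁ →+* F`. -/
theorem map_mem_psRange_of_isIntegralElem {F R₁ : Type*} [Field F] [CommRing R₁]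
    (ι : F →+* LaurentSeries K₀) (hι : ∀ f, ι f ∈ psFrac A₀ K₀) (g : R₁ →+* F)
    (hg : ∀ r, ι (g r) ∈ psRange A₀ K₀) {b : F} (hb : g.IsIntegralElem b) :
    ι b ∈ psRange A₀ K₀ := by
  refine mem_psRange_of_isIntegral A₀ K₀ (ι.comp g).range ?_ (hι b) ?_
  · rintro _ ⟨r, rfl⟩
    exact hg r
  · obtain ⟨P, hPm, hP⟩ := hb
    refine ⟨P.map (ι.comp g).rangeRestrict, hPm.map _, ?_⟩
    rw [Polynomial.eval₂_map]
    have h2 : (algebraMap (ι.comp g).range (LaurentSeries K₀)).comp (ι.comp g).rangeRestrict =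
        ι.comp g := by
      ext r : 1
      rfl
    rw [h2, ← Polynomial.hom_eval₂, hP, map_zero]

end PSGeneral

section Integral

open Fermat.Agent.RED.CUSP.IntClosedPS16

variable (A : ValuationSubring Qbar)

theorem zetaK_mem : zetaK M ∈ A := by
  have hpow : zetaK M ^ M = 1 := zetaK_pow_self M
  rcases A.mem_or_inv_mem (zetaK M) with h | h
  · exact h
  · have hM : 1 ≤ M := Nat.one_le_iff_ne_zero.mpr (NeZero.ne M)
    have h1 : zetaK M = (zetaK M)⁻¹ ^ (M - 1) := by
      rw [inv_pow]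
      apply eq_inv_of_mul_eq_one_left
      rw [← pow_succ', Nat.sub_add_cancel hM, hpow]
    rw [h1]
    exact pow_mem h _

theorem Zzeta_le_A : (Zzeta (M := M)) ≤ A.toSubring := by
  rw [Subring.closure_le]
  rintro x rfl
  exact zetaK_mem A

/-- The coefficients of `TK γ x_d` lie in `A_K`. -/
theorem TK_gen_coeff_mem (d : ℕ) [NeZero d] (hd : d ∣ M) (n : ℤ) :
    (TK hζ γ (xdK M K d hd)).coeff n ∈ AK A K := by
  rw [AK, ValuationSubring.mem_comap, TK_coeff]
  exact Zzeta_le_A A (T_gen_coeff_mem (K := K) γ d hd _)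

variable [IsPrincipalIdealRing ↥(AK A K)]

/-- `TK γ` maps `FK M K` into `Frac (A_K⟦s⟧)`. -/
theorem TK_mem_psFrac (z : FK M K) : TK hζ γ z ∈ psFrac ↥(AK A K) ↥K := by
  refine map_mem_of_gen M K (TK hζ γ) _ ?_ ?_ z
  · intro c
    rw [TK_const]
    exact C_mem_psFrac c
  · intro d _ hd
    apply mem_psFrac_of_coeff
    intro n
    exact ⟨⟨_, TK_gen_coeff_mem hζ γ A d hd n⟩, rfl⟩

/-- **(C1).**  If `TK γ t ∈ A_K⟦s⟧` then `TK γ b ∈ A_K⟦s⟧` for every `b` integral over `A_K[t]`. -/
theorem TK_mem_psRange_of_isIntegral (t : FK M K) (ht : TK hζ γ t ∈ psRange ↥(AK A K) ↥K)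
    (b : FK M K) (hb : IsIntegral (Algebra.adjoin ↥(AK A K) {t}) b) :
    TK hζ γ b ∈ psRange ↥(AK A K) ↥K := by
  refine map_mem_psRange_of_isIntegralElem (TK hζ γ) (TK_mem_psFrac hζ γ A)
    (algebraMap (Algebra.adjoin ↥(AK A K) {t}) (FK M K)) ?_ hb
  rintro ⟨r, hr⟩
  show TK hζ γ r ∈ psRange ↥(AK A K) ↥K
  induction hr using Algebra.adjoin_induction with
  | mem x hx =>
    rw [Set.mem_singleton_iff] at hx
    rw [hx]; exact ht
  | algebraMap a =>
    have h1 : algebraMap ↥(AK A K) ↥(FK M K) a = algebraMap K (FK M K) (a : K) := rfl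
    rw [h1, TK_const]
    exact C_algebraMap_mem_psRange a
  | add x y _ _ h1 h2 => rw [map_add]; exact add_mem h1 h2
  | mul x y _ _ h1 h2 => rw [map_mul]; exact mul_mem h1 h2

/-- The power series over `A_K` attached to an element integral over `A_K[t]`. -/
theorem exists_ps_of_isIntegral (t : FK M K) (ht : TK hζ γ t ∈ psRange ↥(AK A K) ↥K)
    (b : FK M K) (hb : IsIntegral (Algebra.adjoin ↥(AK A K) {t}) b) :
    ∃! p : PowerSeries ↥(AK A K), toLS ↥(AK A K) ↥K p = TK hζ γ b := by
  obtain ⟨p, hp⟩ := TK_mem_psRange_of_isIntegral hζ γ A t ht b hb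
  exact ⟨p, hp, fun q hq => toLS_injective _ _ (hq.trans hp.symm)⟩

/-- The ring isomorphism `A_K⟦s⟧ ≃ psRange`. -/
def psEquiv : PowerSeries ↥(AK A K) ≃+* psRange ↥(AK A K) ↥K :=
  RingEquiv.ofBijective (toLS ↥(AK A K) ↥K).rangeRestrict
    ⟨fun _ _ h => toLS_injective _ _ (congrArg Subtype.val h),
      (toLS ↥(AK A K) ↥K).rangeRestrict_surjective⟩

/-- **`ιPS`**: for a ring `B` mapping to `FK M K` with image integral over `A_K[t]`, the cusp
expansion as a ring hom `B →+* A_K⟦s⟧`. -/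
def iotaPS (t : FK M K) (ht : TK hζ γ t ∈ psRange ↥(AK A K) ↥K) {B : Type*} [CommRing B]
    (incl : B →+* FK M K) (hB : ∀ b, IsIntegral (Algebra.adjoin ↥(AK A K) {t}) (incl b)) :
    B →+* PowerSeries ↥(AK A K) :=
  ((psEquiv (K := K) A).symm : _ →+* PowerSeries ↥(AK A K)).comp
    (((TK hζ γ).comp incl).codRestrict (psRange ↥(AK A K) ↥K)
      (fun b => TK_mem_psRange_of_isIntegral hζ γ A t ht (incl b) (hB b)))

theorem toLS_iotaPS (t : FK M K) (ht : TK hζ γ t ∈ psRange ↥(AK A K) ↥K) {B : Type*} [CommRing B]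
    (incl : B →+* FK M K) (hB : ∀ b, IsIntegral (Algebra.adjoin ↥(AK A K) {t}) (incl b)) (b : B) :
    toLS ↥(AK A K) ↥K (iotaPS hζ γ A t ht incl hB b) = TK hζ γ (incl b) := by
  have h : (psEquiv (K := K) A) (iotaPS hζ γ A t ht incl hB b) =
      (((TK hζ γ).comp incl).codRestrict (psRange ↥(AK A K) ↥K)
        (fun b => TK_mem_psRange_of_isIntegral hζ γ A t ht (incl b) (hB b))) b := by
    rw [iotaPS, RingHom.comp_apply]
    exact (psEquiv (K := K) A).apply_symm_apply _
  exact congrArg Subtype.val h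

end Integral

end Fermat.Agent.RED.CUSP.CuspEmbK16
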