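import Mathlib

/-!
# Program H, chapter CUSP: (L8) degree under base change (generic field theory)

* `finrank_le_of_adjoin_range_eq_top` (BC): `F₂/F₁` finite, `φ₂ : F₂ → F₂'` semilinear over
  `φ₁ : F₁ → F₁'`, and `φ₂ (F₂)` generates `F₂'` over `F₁'` as a field; then `F₂'/F₁'` is finite of
  degree at most `[F₂ : F₁]`.
* `finrank_adjoin_simple_eq` (DEG): `φ : F → F'` semilinear over `K → L` with generating image,
  `j ∈ K(t)`, and `[F : K(j)] = [F' : L(φ j)] ≠ 0`; then `[F : K(t)] = [F' : L(φ t)]`.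
-/

set_option autoImplicit false

open Module IntermediateField

namespace Fermat.Agent.RED.CUSP.DegCompare5

section BC

variable {F₁ F₂ F₁' F₂' : Type*} [Field F₁] [Field F₂] [Field F₁'] [Field F₂']
  [Algebra F₁ F₂] [FiniteDimensional F₁ F₂] [Algebra F₁' F₂']

/-- **(BC)** Degree under base change: if `φ₂ (F₂)` generates `F₂'` over `F₁'` (semilinearly over
`φ₁ : F₁ → F₁'`), then `[F₂' : F₁'] ≤ [F₂ : F₁]`. -/
theorem finrank_le_of_adjoin_range_eq_top (φ₁ : F₁ →+* F₁') (φ₂ : F₂ →+* F₂')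
    (hcomp : ∀ a, φ₂ (algebraMap F₁ F₂ a) = algebraMap F₁' F₂' (φ₁ a))
    (hgen : IntermediateField.adjoin F₁' (Set.range φ₂) = ⊤) :
    FiniteDimensional F₁' F₂' ∧ Module.finrank F₁' F₂' ≤ Module.finrank F₁ F₂ := by
  set n := Module.finrank F₁ F₂ with hn
  let b : Basis (Fin n) F₁ F₂ := Module.finBasis F₁ F₂
  set G : Set F₂' := Set.range fun i => φ₂ (b i) with hG
  set W : Submodule F₁' F₂' := Submodule.span F₁' G with hW
  have hφW : ∀ x, φ₂ x ∈ W := by
    intro x
    rw [← b.sum_repr x, map_sum]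
    refine Submodule.sum_mem _ fun i _ => ?_
    rw [Algebra.smul_def, map_mul, hcomp, ← Algebra.smul_def]
    exact Submodule.smul_mem _ _ (Submodule.subset_span ⟨i, rfl⟩)
  have hW1 : (1 : F₂') ∈ W := by rw [← map_one φ₂]; exact hφW 1
  have hWmul : ∀ x y, x ∈ W → y ∈ W → x * y ∈ W := by
    intro x y hx hy
    have : x * y ∈ W * W := Submodule.mul_mem_mul hx hy
    rw [hW, Submodule.span_mul_span] at this
    refine (Submodule.span_le.mpr ?_) this
    rintro _ ⟨_, ⟨i, rfl⟩, _, ⟨j, rfl⟩, rfl⟩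
    dsimp only
    rw [← map_mul]
    exact hφW _
  have hfgW : Module.Finite F₁' W := Module.Finite.span_of_finite F₁' (Set.finite_range _)
  let W' : Subalgebra F₁' F₂' := W.toSubalgebra hW1 hWmul
  have hfgW' : Module.Finite F₁' W' := hfgW
  have halg : ∀ x ∈ Set.range φ₂, IsAlgebraic F₁' x := by
    rintro _ ⟨x, rfl⟩
    have h1 : IsIntegral F₁' (⟨φ₂ x, hφW x⟩ : W') := IsIntegral.of_finite F₁' _
    have h2 : IsIntegral F₁' ((algebraMap W' F₂') ⟨φ₂ x, hφW x⟩) :=
      h1.map (IsScalarTower.toAlgHom F₁' W' F₂')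
    exact h2.isAlgebraic
  have htop : (⊤ : Submodule F₁' F₂') ≤ W := by
    intro x _
    have hx : x ∈ (IntermediateField.adjoin F₁' (Set.range φ₂)).toSubalgebra := by
      rw [hgen]; exact IntermediateField.mem_top
    rw [IntermediateField.adjoin_toSubalgebra_of_isAlgebraic halg] at hx
    have hle : Algebra.adjoin F₁' (Set.range φ₂) ≤ W' :=
      Algebra.adjoin_le (by rintro _ ⟨y, rfl⟩; exact hφW y)
    exact hle hx
  have hWtop : W = ⊤ := top_le_iff.mp htop
  have hfin : FiniteDimensional F₁' F₂' := by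
    refine Module.finite_def.mpr ?_
    rw [← hWtop]
    exact Submodule.fg_span (Set.finite_range _)
  refine ⟨hfin, ?_⟩
  calc Module.finrank F₁' F₂' = Module.finrank F₁' (⊤ : Submodule F₁' F₂') := (finrank_top F₁' F₂').symm
    _ = Module.finrank F₁' W := by rw [hWtop]
    _ ≤ Fintype.card (Fin n) := finrank_range_le_card (R := F₁') (fun i => φ₂ (b i))
    _ = n := Fintype.card_fin n

end BC

section DEG

variable {K L F F' : Type*} [Field K] [Field L] [Field F] [Field F'] [Algebra K L] [Algebra K F]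
  [Algebra L F']

/-- A ring homomorphism `φ : F → F'` which is semilinear over `K → L` maps `K⟮x⟯` into `L⟮φ x⟯`. -/
theorem map_mem_adjoin_simple (φ : F →+* F')
    (hφ : ∀ c : K, φ (algebraMap K F c) = algebraMap L F' (algebraMap K L c)) (x : F) {y : F}
    (hy : y ∈ K⟮x⟯) : φ y ∈ L⟮φ x⟯ := by
  have h := IntermediateField.adjoin_le_subfield (F := K) (S := {x})
    (K := Subfield.comap φ (L⟮φ x⟯).toSubfield) ?_ ?_
  · exact h hy
  · rintro _ ⟨c, rfl⟩
    show φ (algebraMap K F c) ∈ L⟮φ x⟯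
    rw [hφ]
    exact (L⟮φ x⟯).algebraMap_mem _
  · intro z hz
    rw [Set.mem_singleton_iff] at hz
    subst hz
    exact mem_adjoin_simple_self L (φ z)

/-- The restriction of `φ` to `K⟮x⟯ → L⟮φ x⟯`. -/
noncomputable def restrictAdjoin (φ : F →+* F')
    (hφ : ∀ c : K, φ (algebraMap K F c) = algebraMap L F' (algebraMap K L c)) (x : F) :
    K⟮x⟯ →+* L⟮φ x⟯ :=
  (φ.comp (algebraMap K⟮x⟯ F)).codRestrict (L⟮φ x⟯) fun y => map_mem_adjoin_simple φ hφ x y.2

theorem coe_restrictAdjoin (φ : F →+* F')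
    (hφ : ∀ c : K, φ (algebraMap K F c) = algebraMap L F' (algebraMap K L c)) (x : F)
    (y : K⟮x⟯) : ((restrictAdjoin φ hφ x y : L⟮φ x⟯) : F') = φ y := rfl

/-- tower law: `[K⟮t⟯ : K⟮j⟯] · [F : K⟮t⟯] = [F : K⟮j⟯]`, the first factor being the degree of the
minimal polynomial of `t` over `K⟮j⟯`. -/
theorem natDegree_minpoly_mul_finrank {j t : F} (hj : j ∈ K⟮t⟯) (ht : IsIntegral K⟮j⟯ t) :
    (minpoly K⟮j⟯ t).natDegree * Module.finrank K⟮t⟯ F = Module.finrank K⟮j⟯ F := by
  have hjt : K⟮j⟯ ≤ K⟮t⟯ := adjoin_simple_le_iff.mpr hj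
  have h1 := relfinrank_mul_relfinrank hjt (le_top : K⟮t⟯ ≤ ⊤)
  rw [relfinrank_top_right, relfinrank_top_right, relfinrank_eq_finrank_of_le hjt,
    extendScalars_adjoin hjt, IntermediateField.adjoin.finrank ht] at h1
  exact h1

/-- **(DEG)** If the degrees over `K⟮j⟯` and `L⟮φ j⟯` agree (and are finite), `j ∈ K⟮t⟯`, and `φ (F)`
generates `F'` over `L`, then the degrees over `K⟮t⟯` and `L⟮φ t⟯` agree. -/
theorem finrank_adjoin_simple_eq (φ : F →+* F')
    (hφ : ∀ c : K, φ (algebraMap K F c) = algebraMap L F' (algebraMap K L c))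
    (hgen : IntermediateField.adjoin L (Set.range φ) = ⊤) (j t : F) (hj : j ∈ K⟮t⟯)
    (hψ : Module.finrank K⟮j⟯ F = Module.finrank L⟮φ j⟯ F')
    (hψ0 : Module.finrank K⟮j⟯ F ≠ 0) :
    Module.finrank K⟮t⟯ F = Module.finrank L⟮φ t⟯ F' := by
  have hfin : FiniteDimensional K⟮j⟯ F := FiniteDimensional.of_finrank_pos (Nat.pos_of_ne_zero hψ0)
  have hfin' : FiniteDimensional L⟮φ j⟯ F' :=
    FiniteDimensional.of_finrank_pos (Nat.pos_of_ne_zero (hψ ▸ hψ0))
  have ht : IsIntegral K⟮j⟯ t := IsIntegral.of_finite _ _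
  have ht' : IsIntegral L⟮φ j⟯ (φ t) := IsIntegral.of_finite _ _
  have hj' : φ j ∈ L⟮φ t⟯ := map_mem_adjoin_simple φ hφ t hj
  have T1 := natDegree_minpoly_mul_finrank hj ht
  have T2 := natDegree_minpoly_mul_finrank hj' ht'
  -- first factor: `a' ≤ a`
  have ha : (minpoly L⟮φ j⟯ (φ t)).natDegree ≤ (minpoly K⟮j⟯ t).natDegree := by
    set q := minpoly K⟮j⟯ t with hq
    have hmonic : (q.map (restrictAdjoin φ hφ j)).Monic := (minpoly.monic ht).map _
    have hroot : Polynomial.aeval (φ t) (q.map (restrictAdjoin φ hφ j)) = 0 := by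
      rw [Polynomial.aeval_def, Polynomial.eval₂_map]
      have hcomp : (algebraMap L⟮φ j⟯ F').comp (restrictAdjoin φ hφ j) =
          φ.comp (algebraMap K⟮j⟯ F) := by
        ext y; rfl
      rw [hcomp, ← Polynomial.hom_eval₂, ← Polynomial.aeval_def, hq, minpoly.aeval, map_zero]
    have hdeg := minpoly.min L⟮φ j⟯ (φ t) hmonic hroot
    have h2 : (q.map (restrictAdjoin φ hφ j)).natDegree = q.natDegree :=
      Polynomial.natDegree_map _
    rw [← h2]
    exact Polynomial.natDegree_le_natDegree hdeg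
  -- second factor: `b' ≤ b`
  have hb0 : Module.finrank K⟮t⟯ F ≠ 0 := by
    intro h0; rw [h0, mul_zero] at T1; exact hψ0 T1.symm
  have hfint : FiniteDimensional K⟮t⟯ F := FiniteDimensional.of_finrank_pos (Nat.pos_of_ne_zero hb0)
  have hgen' : IntermediateField.adjoin L⟮φ t⟯ (Set.range φ) = ⊤ := by
    rw [eq_top_iff]
    intro x _
    have hx : x ∈ IntermediateField.adjoin L (Set.range φ) := by rw [hgen]; exact mem_top
    have hle : IntermediateField.adjoin L (Set.range φ) ≤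
        (IntermediateField.adjoin L⟮φ t⟯ (Set.range φ)).restrictScalars L :=
      adjoin_le_iff.mpr (subset_adjoin _ _)
    exact hle hx
  have hb : Module.finrank L⟮φ t⟯ F' ≤ Module.finrank K⟮t⟯ F :=
    (finrank_le_of_adjoin_range_eq_top (restrictAdjoin φ hφ t) φ (fun a => rfl) hgen').2
  -- conclusion
  have ha0 : 0 < (minpoly K⟮j⟯ t).natDegree := minpoly.natDegree_pos ht
  have hprod : (minpoly L⟮φ j⟯ (φ t)).natDegree * Module.finrank L⟮φ t⟯ F' =
      (minpoly K⟮j⟯ t).natDegree * Module.finrank K⟮t⟯ F := by rw [T1, T2, hψ]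
  refine le_antisymm ?_ hb
  by_contra hlt
  rw [not_le] at hlt
  have : (minpoly L⟮φ j⟯ (φ t)).natDegree * Module.finrank L⟮φ t⟯ F' <
      (minpoly K⟮j⟯ t).natDegree * Module.finrank K⟮t⟯ F :=
    calc _ ≤ (minpoly K⟮j⟯ t).natDegree * Module.finrank L⟮φ t⟯ F' := Nat.mul_le_mul_right _ ha
      _ < _ := Nat.mul_lt_mul_of_pos_left hlt ha0
  exact absurd hprod this.ne

end DEG

end Fermat.Agent.RED.CUSP.DegCompare5
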