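/-
Program H (RED/CUSP, concrete half; helper16): the concrete RANK bridge (`hrank` of
`CuspGeneric23.smoothOver_generic` at the concrete types).

For `K ⊂ ℚ̄`, `t : FK M K` with `j ∈ K(t)`:

  `[K·F_M : K(t)] = [ℚ̄·F_M : ℚ̄(emb t)]`,   `emb = PlaceExtend27.baseChangeHom M K`,

(`finrank_adjoin_eq`), the same for `t⁻¹` (`finrank_adjoin_inv_eq`), and
`baseChangeHom M K t = tF M h` for the Hauptmodul (`baseChangeHom_eq_tF`).  Hence the rank sums of
`CuspPackK16.cusp_family_some/none` are `[K·F_M : K(t)]`, resp. `[K·F_M : K(t⁻¹)]`.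
-/
import Fermat.Agent.RED.CUSP.CuspEmbK16
import Fermat.Agent.RED.CUSP.DegCompare5
import Fermat.Agent.RED.BASE.Interface12

set_option autoImplicit false
set_option linter.unusedSectionVars false

noncomputable section

namespace Fermat.Agent.RED.CUSP.RankConcrete16

open Fermat.Agent.X0 AlgebraicCurve ModularCurve HahnSeries
open Fermat.Agent.RED.Interface4 Fermat.Agent.RED.DESC.PlaceExtend27
open Fermat.Agent.RED.CUSP.CuspExact16 Fermat.Agent.RED.CUSP.CuspEmbK16
open Fermat.Agent.RED.BASE.Interface12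
open IntermediateField

section Generic

variable {k : Type*} [Field k] (E : IntermediateField k (LaurentSeries k))

/-- `[E : k(t)]` computed inside `E` agrees with the relative rank inside `k((q))`. -/
theorem finrank_adjoin_eq_relfinrank' (t : ↥E) :
    Module.finrank ↥(IntermediateField.adjoin k {t}) ↥E
      = relfinrank (IntermediateField.adjoin k {(t : LaurentSeries k)}) E := by
  have h1 : (IntermediateField.adjoin k {t}).map E.val
      = IntermediateField.adjoin k {(t : LaurentSeries k)} := by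
    rw [IntermediateField.adjoin_map, Set.image_singleton]
    rfl
  have h2 : (⊤ : IntermediateField k ↥E).map E.val = E := by
    rw [← AlgHom.fieldRange_eq_map, IntermediateField.fieldRange_val]
  rw [← relfinrank_top_right, ← relfinrank_map_map _ _ E.val, h1, h2]

/-- membership in `k(t)`, computed inside `E` or inside `k((q))`. -/
theorem mem_adjoin_iff_coe (t j : ↥E) :
    j ∈ IntermediateField.adjoin k {t} ↔
      (j : LaurentSeries k) ∈ IntermediateField.adjoin k {(t : LaurentSeries k)} := by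
  have h1 : (IntermediateField.adjoin k {t}).map E.val
      = IntermediateField.adjoin k {(t : LaurentSeries k)} := by
    rw [IntermediateField.adjoin_map, Set.image_singleton]
    rfl
  rw [← h1]
  constructor
  · intro h
    exact ⟨j, h, rfl⟩
  · rintro ⟨j', hj', h⟩
    have : j' = j := Subtype.ext h
    rw [← this]
    exact hj'

end Generic

section Inv

variable {k F : Type*} [Field k] [Field F] [Algebra k F]

theorem adjoin_inv_eq (t : F) : k⟮t⁻¹⟯ = k⟮t⟯ := by
  apply le_antisymm
  · rw [adjoin_simple_le_iff]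
    exact inv_mem (mem_adjoin_simple_self k t)
  · rw [adjoin_simple_le_iff]
    have h := inv_mem (mem_adjoin_simple_self k t⁻¹)
    rwa [inv_inv] at h

theorem finrank_adjoin_inv (t : F) : Module.finrank k⟮t⁻¹⟯ F = Module.finrank k⟮t⟯ F := by
  rw [adjoin_inv_eq]

end Inv

variable (M : ℕ) [NeZero M] (K : IntermediateField ℚ Qbar)

/-- `j` as an element of `FK M K`. -/
def jK : FK M K :=
  ⟨jqModC K, Fermat.Agent.RED.PUR.DegBaseChange25.jqModC_mem_laurentBaseChange K M⟩

theorem baseChangeHom_jK : baseChangeHom M K (jK M K) = jF M := by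
  apply Subtype.ext
  rw [coe_baseChangeHom]
  show coeffMap (algebraMap K Qbar) (jqModC K) = coeffEmb Kbar (qExpand ℚ 1 jq)
  rw [ModularCurve.qExpand_one_apply, coeffMap_jqModC, coeffEmb, ← jqModC_rat, coeffMap_jqModC]

/-- `[K·F_M : K(j)] = ψ(M)`. -/
theorem finrank_adjoin_jK :
    Module.finrank ↥(IntermediateField.adjoin K {jK M K}) ↥(FK M K) = dedekindPsi M := by
  rw [finrank_adjoin_eq_relfinrank']
  exact Fermat.Agent.RED.PUR.DegBaseChange25.relfinrank_laurentBaseChange_eq_psi K M

/-- the image of `baseChangeHom` generates `ℚ̄·F_M` over `ℚ̄`. -/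
theorem adjoin_range_baseChangeHom :
    IntermediateField.adjoin Qbar (Set.range (baseChangeHom M K)) = ⊤ := by
  rw [eq_top_iff, FracR.FF_eq_adjoin]
  apply IntermediateField.adjoin.mono
  rintro _ ⟨d, hd0, hd, rfl⟩
  exact ⟨xdK M K d hd, baseChangeHom_xdK M K d hd⟩

/-- **The concrete rank bridge.** -/
theorem finrank_adjoin_eq (t : FK M K)
    (hj : jqModC K ∈ IntermediateField.adjoin K {(t : LaurentSeries K)}) :
    Module.finrank ↥(IntermediateField.adjoin K {t}) ↥(FK M K) =
      Module.finrank Kbar⟮baseChangeHom M K t⟯ (FF M) := by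
  have hj' : jK M K ∈ IntermediateField.adjoin K {t} :=
    (mem_adjoin_iff_coe (FK M K) t (jK M K)).mpr hj
  have hψ0 : dedekindPsi M ≠ 0 :=
    (Fermat.Agent.X0.GNPsi.gnp_dedekindPsi_pos (NeZero.ne M)).ne'
  refine DegCompare5.finrank_adjoin_simple_eq (K := ↥K) (L := Qbar) (baseChangeHom M K)
    (baseChangeHom_algebraMap M K) (adjoin_range_baseChangeHom M K) (jK M K) t hj' ?_ ?_
  · rw [finrank_adjoin_jK, baseChangeHom_jK]
    exact (Degree.finrank_adjoin M (realizeData M) (cuspData M)).symm
  · rw [finrank_adjoin_jK]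
    exact hψ0

/-- the same for the coordinate `t⁻¹`. -/
theorem finrank_adjoin_inv_eq (t : FK M K)
    (hj : jqModC K ∈ IntermediateField.adjoin K {(t : LaurentSeries K)}) :
    Module.finrank ↥(IntermediateField.adjoin K {t⁻¹}) ↥(FK M K) =
      Module.finrank Kbar⟮baseChangeHom M K t⟯ (FF M) := by
  rw [finrank_adjoin_inv]
  exact finrank_adjoin_eq M K t hj

/-- The Hauptmodul over `K` maps to the Hauptmodul over `ℚ̄`. -/
theorem baseChangeHom_eq_tF {n e : ℕ} [NeZero n] (h : TMem n e M) (t : FK M K)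
    (ht : (t : LaurentSeries K) = Fermat.Agent.RED.BASE.EtaQuot12.tq K n e) :
    baseChangeHom M K t = tF M h := by
  apply Subtype.ext
  rw [coe_baseChangeHom, ht]
  exact Fermat.Agent.RED.BASE.EtaQuot12.coeffMap_tq ↥K (algebraMap K Qbar) n e

/-- `[K·F_M : K(t)] = [ℚ̄·F_M : ℚ̄(t)]` for the Hauptmodul (`hj` = the body of
`ModelTargets4.JTarget`). -/
theorem finrank_adjoin_tF {n e : ℕ} [NeZero n] (h : TMem n e M) (t : FK M K)
    (ht : (t : LaurentSeries K) = Fermat.Agent.RED.BASE.EtaQuot12.tq K n e)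
    (hj : jqModC K ∈ IntermediateField.adjoin K {Fermat.Agent.RED.BASE.EtaQuot12.tq K n e}) :
    Module.finrank ↥(IntermediateField.adjoin K {t}) ↥(FK M K) =
      Module.finrank Kbar⟮tF M h⟯ (FF M) := by
  rw [← baseChangeHom_eq_tF M K h t ht]
  exact finrank_adjoin_eq M K t (by rw [ht]; exact hj)

/-- `[K·F_M : K(t⁻¹)] = [ℚ̄·F_M : ℚ̄(t)]` for the Hauptmodul. -/
theorem finrank_adjoin_inv_tF {n e : ℕ} [NeZero n] (h : TMem n e M) (t : FK M K)
    (ht : (t : LaurentSeries K) = Fermat.Agent.RED.BASE.EtaQuot12.tq K n e)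
    (hj : jqModC K ∈ IntermediateField.adjoin K {Fermat.Agent.RED.BASE.EtaQuot12.tq K n e}) :
    Module.finrank ↥(IntermediateField.adjoin K {t⁻¹}) ↥(FK M K) =
      Module.finrank Kbar⟮tF M h⟯ (FF M) := by
  rw [← baseChangeHom_eq_tF M K h t ht]
  exact finrank_adjoin_inv_eq M K t (by rw [ht]; exact hj)

end Fermat.Agent.RED.CUSP.RankConcrete16
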