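/-
PROGRAM H / chapter CUSP, leaf (iv-abs) (helper9): the characteristic-zero injectivity input
`hchar0` of `CuspAbstract23.cusp_abstract`, in abstract form.

Setting: `A` a domain with fraction field `K` of characteristic zero, `F ⊇ K(t)` a finite
extension (`t` transcendental), `c : A` a value of `t`, and a family of "expansions"
`ι κ : F →+* K((X))` which (a) give `t - c` the order `e κ` and (b) detect the valuation rings of
all places of `F/K` at which `t - c` vanishes.  Then every `b ∈ F` integral over `A[t]` whose
expansions all vanish to order `≥ e κ` is divisible by `t - c` in the integral closure of `A[t]`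
up to a non-zero CONSTANT multiplier `a : A`.

Ingredients:
* `isIntegral_of_forall_place`: an element of `F` lying in the valuation ring of every place of
  `F/K` whose valuation ring contains `t` is integral over `K[t]`  (Hartogs for the normal
  noetherian domain `integralClosure K[t] F`, via `PUR/Hartogs22`);
* `exists_smul_isIntegral`: clearing the denominators of an integral equation over `K[t]`
  by a constant of `A`.
-/
import Mathlib
import Fermat.Prelude.Def_AlgebraicCurve_DivisorClassGroup
import Fermat.Agent.RED.PUR.Hartogs22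
import Fermat.Agent.X0.FFPlace

set_option autoImplicit false
set_option linter.style.haveILetI false
set_option linter.unusedSectionVars false

namespace Fermat.Agent.RED.CUSP.CharZeroInj9

open Polynomial IntermediateField
open scoped IntermediateField.algebraAdjoinAdjoin

section Plumbing

variable {K F : Type*} [Field K] [Field F] [Algebra K F] (t : F)

theorem isNoetherianRing_adjoin : IsNoetherianRing (Algebra.adjoin K {t}) := by
  have : Algebra.FiniteType K (Algebra.adjoin K {t}) :=
    Algebra.FiniteType.adjoin_of_finite (Set.finite_singleton t)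
  exact Algebra.FiniteType.isNoetherianRing K _

/-- `K[X] ≃ K[t]` for transcendental `t`. -/
noncomputable def polyEquivAdjoin (ht : Transcendental K t) :
    K[X] ≃ₐ[K] Algebra.adjoin K {t} :=
  (AlgEquiv.ofInjective (aeval t) (transcendental_iff_injective.mp ht)).trans
    (Subalgebra.equivOfEq _ _ (Algebra.adjoin_singleton_eq_range_aeval K t).symm)

theorem polyEquivAdjoin_coe (ht : Transcendental K t) (p : K[X]) :
    ((polyEquivAdjoin t ht p : Algebra.adjoin K {t}) : F) = aeval t p := rfl

theorem isIntegrallyClosed_adjoin (ht : Transcendental K t) :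
    IsIntegrallyClosed (Algebra.adjoin K {t}) :=
  IsIntegrallyClosed.of_equiv (polyEquivAdjoin t ht).toRingEquiv

variable [CharZero K] [FiniteDimensional K⟮t⟯ F]

theorem isIntegrallyClosed_BK :
    IsIntegrallyClosed (integralClosure (Algebra.adjoin K {t}) F) :=
  integralClosure.isIntegrallyClosedOfFiniteExtension K⟮t⟯

theorem isFractionRing_BK :
    IsFractionRing (integralClosure (Algebra.adjoin K {t}) F) F :=
  integralClosure.isFractionRing_of_finite_extension K⟮t⟯ F

theorem isNoetherianRing_BK (ht : Transcendental K t) :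
    IsNoetherianRing (integralClosure (Algebra.adjoin K {t}) F) := by
  haveI := isNoetherianRing_adjoin (K := K) t
  haveI := isIntegrallyClosed_adjoin t ht
  exact IsIntegralClosure.isNoetherianRing (Algebra.adjoin K {t}) K⟮t⟯ F _

open Fermat.Agent.RED.PUR.Hartogs22 in
/-- An element of `F` lying in the valuation ring of every place of `F/K` that contains `t`
is integral over `K[t]`. -/
theorem isIntegral_of_forall_place (ht : Transcendental K t) (z : F)
    (h : ∀ w : AlgebraicCurve.Place K F, t ∈ w.toValuationSubring → z ∈ w.toValuationSubring) :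
    IsIntegral (Algebra.adjoin K {t}) z := by
  haveI := isIntegrallyClosed_BK (K := K) t
  haveI := isFractionRing_BK (K := K) t
  haveI := isNoetherianRing_BK (K := K) t ht
  set B := integralClosure (Algebra.adjoin K {t}) F with hB
  have hz : z ∈ (algebraMap B F).range := by
    rw [mem_range_iff_forall_mem_valuationSubringAt]
    intro 𝔮 _ h𝔮
    have hmem : ∀ x : F, IsIntegral (Algebra.adjoin K {t}) x →
        x ∈ valuationSubringAt (K := F) 𝔮 h𝔮 := fun x hx =>
      algebraMap_mem_valuationSubringAt 𝔮 h𝔮 (⟨x, hx⟩ : B)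
    have hR : ∀ r : Algebra.adjoin K {t}, (r : F) ∈ valuationSubringAt (K := F) 𝔮 h𝔮 :=
      fun r => hmem _ (isIntegral_algebraMap (x := r))
    let w : AlgebraicCurve.Place K F :=
      { toValuationSubring := valuationSubringAt (K := F) 𝔮 h𝔮
        algebraMap_mem' := fun a => hR (algebraMap K (Algebra.adjoin K {t}) a)
        ne_top' := valuationSubringAt_ne_top 𝔮 h𝔮
        isPrincipalIdealRing' := inferInstance }
    exact h w (hR ⟨t, Algebra.self_mem_adjoin_singleton K t⟩)
  obtain ⟨⟨z', hz'⟩, rfl⟩ := hz
  exact hz'

end Plumbing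

section Clear

/-- Integrality descends along a surjection of the base rings. -/
theorem isIntegral_of_surjective_comp {R T S : Type*} [CommRing R] [CommRing T] [CommRing S]
    [Algebra R S] [Algebra T S] (φ : R →+* T) (hφ : Function.Surjective φ)
    (hcomp : (algebraMap T S).comp φ = algebraMap R S) {x : S} (hx : IsIntegral T x) :
    IsIntegral R x := by
  obtain ⟨q, hq, hqx⟩ := hx
  have hl : q ∈ Polynomial.lifts φ := by
    rw [Polynomial.lifts_iff_coeff_lifts]
    intro n
    exact hφ _
  obtain ⟨p, hp, -, hpm⟩ := Polynomial.lifts_and_natDegree_eq_and_monic hl hq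
  refine ⟨p, hpm, ?_⟩
  rw [← hcomp, ← Polynomial.eval₂_map, hp]
  exact hqx

variable {A K F : Type*} [CommRing A] [IsDomain A] [Field K] [Algebra A K] [IsFractionRing A K]
  [Field F] [Algebra K F] [Algebra A F] [IsScalarTower A K F]

attribute [local instance] Polynomial.algebra Polynomial.isLocalization in
/-- Clearing denominators by a constant: if `z` is integral over `K[t]`, `K = Frac A`, then
`a z` is integral over `A[t]` for some `0 ≠ a ∈ A`. -/
theorem exists_smul_isIntegral (t z : F) (hz : IsIntegral (Algebra.adjoin K {t}) z) :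
    ∃ a : A, a ≠ 0 ∧ IsIntegral (Algebra.adjoin A {t}) (algebraMap A F a * z) := by
  letI iA : Algebra A[X] F := (aeval t : A[X] →ₐ[A] F).toRingHom.toAlgebra
  letI iK : Algebra K[X] F := (aeval t : K[X] →ₐ[K] F).toRingHom.toAlgebra
  have hA : ∀ p : A[X], algebraMap A[X] F p = aeval t p := fun _ => rfl
  have hK : ∀ p : K[X], algebraMap K[X] F p = aeval t p := fun _ => rfl
  haveI : IsScalarTower A[X] K[X] F := IsScalarTower.of_algebraMap_eq (fun p => by
    rw [hA, hK]
    change _ = aeval t (p.map (algebraMap A K))
    rw [aeval_map_algebraMap])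
  -- Step 1: integral over `K[X]` acting through `X ↦ t`
  have h1 : IsIntegral K[X] z := by
    let φ : K[X] →+* Algebra.adjoin K {t} :=
      (aeval (⟨t, Algebra.self_mem_adjoin_singleton K t⟩ : Algebra.adjoin K {t}) :
        K[X] →ₐ[K] Algebra.adjoin K {t}).toRingHom
    refine isIntegral_of_surjective_comp φ ?_ ?_ hz
    · rintro ⟨r, hr⟩
      rw [Algebra.adjoin_singleton_eq_range_aeval] at hr
      obtain ⟨p, rfl⟩ := hr
      refine ⟨p, Subtype.ext ?_⟩
      exact aeval_subalgebra_coe p _ _
    · ext p
      · simp [φ, hK]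
      · simp [φ, hK]
  -- Step 2: clear denominators in `A[X] → K[X]`
  obtain ⟨⟨m, hm⟩, hmz⟩ := IsIntegral.exists_multiple_integral_of_isLocalization
    ((nonZeroDivisors A).map (C : A →+* A[X])) (Rₘ := K[X]) z h1
  obtain ⟨a, ha, rfl⟩ := hm
  refine ⟨a, nonZeroDivisors.ne_zero ha, ?_⟩
  rw [Submonoid.smul_def, Algebra.smul_def, hA, aeval_C] at hmz
  -- Step 3: back to the subalgebra `A[t]`
  let ψ : A[X] →+* Algebra.adjoin A {t} :=
    (aeval (⟨t, Algebra.self_mem_adjoin_singleton A t⟩ : Algebra.adjoin A {t}) :
      A[X] →ₐ[A] Algebra.adjoin A {t}).toRingHom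
  have := IsIntegral.map_of_comp_eq ψ (RingHom.id F) ?_ hmz
  · simpa using this
  · ext p
    · simp [ψ, hA]
    · simp [ψ, hA]

end Clear

section Main

open AlgebraicCurve Fermat.Agent.X0.FF

variable {A K F : Type*} [CommRing A] [IsDomain A] [Field K] [Algebra A K] [IsFractionRing A K]
  [CharZero K] [Field F] [Algebra K F] [Algebra A F] [IsScalarTower A K F]

/-- Elements integral over `A[t]` lie in the valuation ring of every place containing `t`. -/
theorem mem_place_of_isIntegral (t : F) (w : Place K F) (htw : t ∈ w.toValuationSubring)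
    {b : F} (hb : IsIntegral (Algebra.adjoin A {t}) b) : b ∈ w.toValuationSubring := by
  have hsub' : ∀ r : F, r ∈ Algebra.adjoin A {t} → r ∈ w.toValuationSubring := by
    intro r hr
    induction hr using Algebra.adjoin_induction with
    | mem x hx =>
      rw [Set.mem_singleton_iff] at hx
      rw [hx]
      exact htw
    | algebraMap a =>
      rw [IsScalarTower.algebraMap_apply A K F]
      exact w.algebraMap_mem' _
    | add x y _ _ hx hy => exact add_mem hx hy
    | mul x y _ _ hx hy => exact mul_mem hx hy
  have hsub : ∀ r : Algebra.adjoin A {t}, (r : F) ∈ w.toValuationSubring.toSubring :=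
    fun r => hsub' r r.2
  let φ : Algebra.adjoin A {t} →+* w.toValuationSubring :=
    RingHom.codRestrict (algebraMap (Algebra.adjoin A {t}) F) w.toValuationSubring.toSubring hsub
  have h1 : IsIntegral w.toValuationSubring b := by
    have := IsIntegral.map_of_comp_eq φ (RingHom.id F) (by ext r; rfl) hb
    simpa using this
  obtain ⟨y, hy⟩ :=
    (IsIntegrallyClosed.isIntegral_iff (R := w.toValuationSubring) (K := F)).mp h1
  rw [← hy]
  exact y.2

/-- **(iv-abs)**: the characteristic-zero injectivity statement at a cusp value `c`. -/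
theorem charZero_inj (t : F) (ht : Transcendental K t) [FiniteDimensional K⟮t⟯ F] (c : A)
    {C : Type*} (ι : C → F →+* LaurentSeries K) (e : C → ℕ)
    (he : ∀ κ, (ι κ (t - algebraMap A F c)).order = e κ)
    (hplaces : ∀ w : AlgebraicCurve.Place K F, 0 < w.ord (t - algebraMap A F c) →
      ∃ κ, ∀ z : F, z ≠ 0 → 0 ≤ (ι κ z).order → z ∈ w.toValuationSubring)
    (b : F) (hb : IsIntegral (Algebra.adjoin A {t}) b)
    (hord : ∀ κ, b = 0 ∨ (e κ : ℤ) ≤ (ι κ b).order) :
    ∃ a : A, a ≠ 0 ∧ ∃ y : F, IsIntegral (Algebra.adjoin A {t}) y ∧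
      algebraMap A F a * b = (t - algebraMap A F c) * y := by
  by_cases hb0 : b = 0
  · exact ⟨1, one_ne_zero, 0, isIntegral_zero, by rw [hb0]; simp⟩
  set τ : F := t - algebraMap A F c with hτ
  have hτ0 : τ ≠ 0 := by
    intro h0
    apply ht
    have : t = algebraMap K F (algebraMap A K c) := by
      rw [← IsScalarTower.algebraMap_apply A K F]
      exact sub_eq_zero.1 h0
    rw [this]
    exact isAlgebraic_algebraMap _
  set z : F := b / τ with hz
  have hbz : b = τ * z := by rw [hz]; field_simp
  have hz0 : z ≠ 0 := div_ne_zero hb0 hτ0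
  have hzint : IsIntegral (Algebra.adjoin K {t}) z := by
    apply isIntegral_of_forall_place t ht
    intro w htw
    have hbw : b ∈ w.toValuationSubring := mem_place_of_isIntegral t w htw hb
    have hτw : τ ∈ w.toValuationSubring := by
      refine sub_mem htw ?_
      rw [IsScalarTower.algebraMap_apply A K F]
      exact w.algebraMap_mem' _
    have hordb : w.ord b = w.ord τ + w.ord z := by rw [hbz, w.ord_mul hτ0 hz0]
    have hb_nonneg : 0 ≤ w.ord b := (ffp_mem_iff_ord_nonneg w).1 hbw
    have hτ_nonneg : 0 ≤ w.ord τ := (ffp_mem_iff_ord_nonneg w).1 hτw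
    rcases hτ_nonneg.eq_or_lt with h0 | hpos
    · rw [ffp_mem_iff_ord_nonneg]
      omega
    · obtain ⟨κ, hκ⟩ := hplaces w hpos
      apply hκ z hz0
      have hιτ : ι κ τ ≠ 0 := (map_ne_zero (ι κ)).2 hτ0
      have hιz : ι κ z ≠ 0 := (map_ne_zero (ι κ)).2 hz0
      have hmul : (ι κ b).order = (ι κ τ).order + (ι κ z).order := by
        rw [hbz, map_mul, HahnSeries.order_mul hιτ hιz]
      have h1 := (hord κ).resolve_left hb0
      rw [hmul, he κ] at h1
      omega
  obtain ⟨a, ha, hay⟩ := exists_smul_isIntegral (A := A) t z hzint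
  refine ⟨a, ha, algebraMap A F a * z, hay, ?_⟩
  rw [hbz]
  ring

end Main

end Fermat.Agent.RED.CUSP.CharZeroInj9
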