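/-
Program H (S18), chapter RED/CUSP (helper14): the fibre of the Hauptmodul `t` over a finite cusp
value `c`, over `ℚbar`, in the `Interface12` vocabulary.

* `exists_cuspPlace_of_zero`, `exists_placeOf_of_zero` : a place `v` of `Fbar_M` with
  `0 < ord_v (t - c)` (`c` a finite cusp value) is `CuspExact16.placeOf M γ` for some `γ` with
  `cv γ = some c`;
* `exists_placeOf_of_pole` : a pole of `t` is `placeOf M γ` for some `γ` with `cv γ = none`;
* `placeOf_ord_sub_pos`, `placeOf_ord_neg` : the converses;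
* `sum_ord_cusp_fibre`, `sum_toNat_zero_fibre`, `sum_toNat_pole_fibre` :
  `∑_{v | t = c} ord_v (t - c) = [Fbar_M : ℚbar(t)] = ∑_{v | t = ∞} -ord_v t`, also Fintype-indexed.
-/
import Mathlib
import Fermat.Agent.RED.BASE.FiniteAvoidsM14
import Fermat.Agent.RED.BASE.Main12
import Fermat.Agent.RED.CUSP.CuspExact16
import Fermat.Agent.X0.CuspSurj

set_option autoImplicit false

open UpperHalfPlane hiding I
open scoped MatrixGroups IntermediateField

namespace Fermat.Agent.RED.CUSP.CuspFibre14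

open Fermat.Agent.X0 Fermat.Agent.X0.FF AlgebraicCurve ModularCurve
open Fermat.Agent.RED.BASE.NoElliptic14 Fermat.Agent.RED.BASE.Unbranched14
open Fermat.Agent.RED.BASE.UnbranchedMain14 Fermat.Agent.RED.BASE.FiniteAvoids14
open Fermat.Agent.RED.BASE.Interface12 Fermat.Agent.RED.BASE.EtaQuot12

variable {N : ℕ} [NeZero N]

/-- a cusp expansion with a pole gives a pole at the cusp place; generic form:
`m · ord_v f = order (T g⁻¹ f)`. -/
theorem cuspPlace_ord_eq (D : RealizeData N) (C : CuspData N D) (g : SL(2, ℤ)) :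
    ∃ m : ℕ, 0 < m ∧ ∀ f : FF N, f ≠ 0 →
      (C.T g⁻¹ f).order = (m : ℤ) * (cuspPlace (CuspGood.good C) g).ord f := by
  obtain ⟨m, hm, h, -⟩ := cuspPlace_spec (CuspGood.good C) g
  exact ⟨m, hm, h⟩

/-- The shape of the cusp expansion at `γ` decides the value of `t` at the cusp place of `γ⁻¹`. -/
theorem ord_sub_pos_of_shape_some (D : RealizeData N) (C : CuspData N D) (m : ℕ) (γ : SL(2, ℤ))
    (t : FF N) (c : Kbar) (hs : CuspShape m (C.T γ t) (some c)) :
    0 < (cuspPlace (CuspGood.good C) γ⁻¹).ord (t - algebraMap Kbar (FF N) c) := by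
  obtain ⟨k, lam, V, hk, hlam, hV, -, -, hE⟩ := hs
  have hgood := CuspGood.good C
  have hexp : C.T γ (t - algebraMap Kbar (FF N) c) =
      HahnSeries.C lam * HahnSeries.single (k : ℤ) 1 * HahnSeries.ofPowerSeries ℤ Kbar V := by
    rw [map_sub, hgood.map_const, hE]
    ring
  have hord : (C.T γ (t - algebraMap Kbar (FF N) c)).order = (k : ℤ) := by
    rw [hexp, order_cuspTail k lam hlam.1 V hV]
  have hne : t - algebraMap Kbar (FF N) c ≠ 0 := by
    intro h0
    rw [h0, map_zero, HahnSeries.order_zero] at hord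
    have : (0 : ℤ) < k := by exact_mod_cast hk
    omega
  obtain ⟨μ, hμ, hspec⟩ := cuspPlace_ord_eq D C γ⁻¹
  have h := hspec _ hne
  rw [inv_inv, hord] at h
  have hμ' : (0 : ℤ) < μ := by exact_mod_cast hμ
  have hk' : (0 : ℤ) < k := by exact_mod_cast hk
  by_contra hneg
  rw [not_lt] at hneg
  nlinarith

theorem ord_neg_of_shape_none (D : RealizeData N) (C : CuspData N D) (m : ℕ) (γ : SL(2, ℤ))
    (t : FF N) (hs : CuspShape m (C.T γ t) none) :
    (cuspPlace (CuspGood.good C) γ⁻¹).ord t < 0 := by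
  obtain ⟨k, lam, V, hk, hlam, hV, -, hE⟩ := hs
  have hE' : (C.T γ t)⁻¹ =
      HahnSeries.C lam * HahnSeries.single (k : ℤ) 1 * HahnSeries.ofPowerSeries ℤ Kbar V := hE
  have hord : ((C.T γ t)⁻¹).order = (k : ℤ) := by
    rw [hE', order_cuspTail k lam hlam.1 V hV]
  have hk' : (0 : ℤ) < k := by exact_mod_cast hk
  have hne : t ≠ 0 := by
    intro h0
    rw [h0, map_zero, inv_zero, HahnSeries.order_zero] at hord
    omega
  have hTne : C.T γ t ≠ 0 := LaurentPlace.emb_ne_zero (C.T γ) hne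
  have hordT : (C.T γ t).order = -(k : ℤ) := by
    have h1 : (C.T γ t * (C.T γ t)⁻¹).order = 0 := by
      rw [mul_inv_cancel₀ hTne, HahnSeries.order_one]
    rw [HahnSeries.order_mul hTne (inv_ne_zero hTne), hord] at h1
    omega
  obtain ⟨μ, hμ, hspec⟩ := cuspPlace_ord_eq D C γ⁻¹
  have h := hspec _ hne
  rw [inv_inv, hordT] at h
  have hμ' : (0 : ℤ) < μ := by exact_mod_cast hμ
  by_contra hneg
  rw [not_lt] at hneg
  nlinarith

/-- Two distinct constants cannot both be the value of `t` at a place. -/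
theorem eq_of_ord_sub_pos {K F : Type*} [Field K] [Field F] [Algebra K F] (v : Place K F)
    (t : F) (c c' : K) (h : 0 < v.ord (t - algebraMap K F c))
    (h' : 0 < v.ord (t - algebraMap K F c')) : c = c' := by
  by_contra hne
  have h1 : t - algebraMap K F c ∈ v.toValuationSubring :=
    (ffp_mem_iff_ord_nonneg v).mpr (le_of_lt h)
  have h2 : t - algebraMap K F c' ∈ v.toValuationSubring :=
    (ffp_mem_iff_ord_nonneg v).mpr (le_of_lt h')
  -- both in the maximal ideal, so is the difference, a nonzero constant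
  have hd : algebraMap K F (c - c') = (t - algebraMap K F c') - (t - algebraMap K F c) := by
    rw [map_sub]
    ring
  have hcc : c - c' ≠ 0 := sub_ne_zero.mpr hne
  have h0 : v.ord (algebraMap K F (c - c')) = 0 := ffp_ord_algebraMap v _
  have hne1 : t - algebraMap K F c ≠ 0 := by
    intro h0'
    rw [h0', Place.ord_zero] at h
    exact lt_irrefl _ h
  have hne2 : t - algebraMap K F c' ≠ 0 := by
    intro h0'
    rw [h0', Place.ord_zero] at h'
    exact lt_irrefl _ h'
  -- use the maximal ideal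
  have hm1 : (⟨_, h1⟩ : v.toValuationSubring) ∈
      IsLocalRing.maximalIdeal v.toValuationSubring := by
    rw [ffp_mem_maximalIdeal_iff v _ (fun h0' => hne1 (congrArg Subtype.val h0'))]
    exact h
  have hm2 : (⟨_, h2⟩ : v.toValuationSubring) ∈
      IsLocalRing.maximalIdeal v.toValuationSubring := by
    rw [ffp_mem_maximalIdeal_iff v _ (fun h0' => hne2 (congrArg Subtype.val h0'))]
    exact h'
  have hm3 := (IsLocalRing.maximalIdeal v.toValuationSubring).sub_mem hm2 hm1
  have hcmem : algebraMap K F (c - c') ∈ v.toValuationSubring :=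
    (ffp_mem_iff_ord_nonneg v).mpr (le_of_eq h0.symm)
  have hcne : (⟨_, hcmem⟩ : v.toValuationSubring) ≠ 0 := by
    intro h0'
    have := congrArg Subtype.val h0'
    simp only [ZeroMemClass.coe_zero] at this
    exact hcc ((map_eq_zero (algebraMap K F)).mp this)
  have hm3' : (⟨_, hcmem⟩ : v.toValuationSubring) ∈
      IsLocalRing.maximalIdeal v.toValuationSubring := by
    convert hm3 using 1
    exact Subtype.ext hd
  rw [ffp_mem_maximalIdeal_iff v _ hcne] at hm3'
  have hm4 : 0 < v.ord (algebraMap K F (c - c')) := hm3'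
  omega

/-- **(iv), place side.**  A zero of `t - c` (`c` a finite cusp value) is a cusp place
`cuspPlace g` with `cv g⁻¹ = some c`. -/
theorem exists_cuspPlace_of_zero (n e M : ℕ) [NeZero n] [NeZero M] (hn : 4 ∣ n ∨ 9 ∣ n)
    (hnM : n ∣ M) (hR₀ : TRealize n e n) (hR : TRealize n e M) (hG : TGenBase n e)
    (cv : SL(2, ℤ) → Option Kbar) (hcv : CuspExp n e M cv) :
    ∃ h : TMem n e M, ∀ v : Place Kbar (FF M), ∀ (γ₀ : SL(2, ℤ)) (c : Kbar), cv γ₀ = some c →
      0 < v.ord (tF M h - algebraMap Kbar (FF M) c) →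
      ∃ g : SL(2, ℤ), cuspPlace (CuspGood.good (cuspData M)) g = v ∧ cv g⁻¹ = some c := by
  obtain ⟨h, H⟩ := Fermat.Agent.RED.BASE.FiniteAvoidsM14.ord_jF_neg_of_cusp_value n e M hn hnM hR₀ hR hG cv hcv
  refine ⟨h, fun v γ₀ c hγ₀ hpos => ?_⟩
  have hj := H v γ₀ c hγ₀ hpos
  have := Degree.finiteDimensional_adjoin M (realizeData M) (cuspData M)
  obtain ⟨g, hg⟩ := CuspSurj.exists_cuspPlace_eq (CuspGood.good (cuspData M))
    (Degree.card_eq_finrank_adjoin M (realizeData M) (cuspData M)) v hj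
  refine ⟨g, hg, ?_⟩
  obtain ⟨h', hshape⟩ := hcv
  have hs := hshape g⁻¹
  rcases hcg : cv g⁻¹ with _ | c'
  · exfalso
    rw [hcg] at hs
    have hneg := ord_neg_of_shape_none (realizeData M) (cuspData M) n g⁻¹ (tF M h) hs
    rw [inv_inv, hg] at hneg
    -- `t - c` integral at `v` forces `t` integral at `v`
    have h1 : tF M h - algebraMap Kbar (FF M) c ∈ v.toValuationSubring :=
      (ffp_mem_iff_ord_nonneg v).mpr (le_of_lt hpos)
    have h2 : algebraMap Kbar (FF M) c ∈ v.toValuationSubring :=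
      (ffp_mem_iff_ord_nonneg v).mpr (le_of_eq (ffp_ord_algebraMap v c).symm)
    have h3 := v.toValuationSubring.add_mem _ _ h1 h2
    rw [sub_add_cancel] at h3
    have := (ffp_mem_iff_ord_nonneg v).mp h3
    omega
  · rw [hcg] at hs
    have hpos' := ord_sub_pos_of_shape_some (realizeData M) (cuspData M) n g⁻¹ (tF M h) c' hs
    rw [inv_inv, hg] at hpos'
    rw [eq_of_ord_sub_pos v (tF M h) c c' hpos hpos']

/-- the degree count over a cusp value: `∑_{v | t = c} ord_v (t - c) = [Fbar_M : ℚbar(t)]`. -/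
theorem sum_ord_cusp_fibre (n e M : ℕ) [NeZero n] [NeZero M] (h : TMem n e M)
    (hgen : IsGen Kbar (tF M h)) (c : Kbar) :
    ∑ᶠ (v : Place Kbar (FF M)) (_ : 0 < v.ord (tF M h - algebraMap Kbar (FF M) c)),
      v.ord (tF M h - algebraMap Kbar (FF M) c) = (Module.finrank Kbar⟮tF M h⟯ (FF M) : ℤ) :=
  sum_ord_fibre hgen c

/-! ### Fintype-indexed degree counts (generic function field) -/

section Generic

variable {K F : Type*} [Field K] [Field F] [Algebra K F] [IsAlgClosed K] [CharZero K] {x : F}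

/-- `∑_{v | x = c} (ord_v (x - c)).toNat = [F : K(x)]`, for ANY `Fintype` structure on the fibre. -/
theorem sum_toNat_fibre (hx : IsGen K x) (c : K)
    [Fintype {v : Place K F // 0 < v.ord (x - algebraMap K F c)}] :
    ∑ v : {v : Place K F // 0 < v.ord (x - algebraMap K F c)},
      (v.1.ord (x - algebraMap K F c)).toNat = Module.finrank K⟮x⟯ F := by
  have hsum := sum_ord_fibre hx c
  have h1 : ∑ᶠ (v : Place K F) (_ : 0 < v.ord (x - algebraMap K F c)),
      v.ord (x - algebraMap K F c) =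
      ∑ᶠ v : {v : Place K F // 0 < v.ord (x - algebraMap K F c)},
        v.1.ord (x - algebraMap K F c) :=
    (finsum_subtype_eq_finsum_cond (f := fun v : Place K F => v.ord (x - algebraMap K F c))
      (fun v : Place K F => 0 < v.ord (x - algebraMap K F c))).symm
  rw [h1, finsum_eq_sum_of_fintype] at hsum
  have h2 : ∀ v : {v : Place K F // 0 < v.ord (x - algebraMap K F c)},
      ((v.1.ord (x - algebraMap K F c)).toNat : ℤ) = v.1.ord (x - algebraMap K F c) :=
    fun v => Int.toNat_of_nonneg (le_of_lt v.2)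
  have h3 : ((∑ v : {v : Place K F // 0 < v.ord (x - algebraMap K F c)},
      (v.1.ord (x - algebraMap K F c)).toNat : ℕ) : ℤ) = (Module.finrank K⟮x⟯ F : ℤ) := by
    rw [← hsum]
    push_cast
    exact Finset.sum_congr rfl fun v _ => h2 v
  exact_mod_cast h3

/-- `∑_{v | x = ∞} (-ord_v x).toNat = [F : K(x)]`, for ANY `Fintype` structure on the poles. -/
theorem sum_toNat_poles (hx : IsGen K x) [Fintype {v : Place K F // v.ord x < 0}] :
    ∑ v : {v : Place K F // v.ord x < 0}, (-v.1.ord x).toNat = Module.finrank K⟮x⟯ F := by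
  have hsum := sum_ord_poles hx
  have h1 : ∑ᶠ (v : Place K F) (_ : v.ord x < 0), -v.ord x =
      ∑ᶠ v : {v : Place K F // v.ord x < 0}, -v.1.ord x :=
    (finsum_subtype_eq_finsum_cond (f := fun v : Place K F => -v.ord x)
      (fun v : Place K F => v.ord x < 0)).symm
  rw [h1, finsum_eq_sum_of_fintype] at hsum
  have h2 : ∀ v : {v : Place K F // v.ord x < 0}, ((-v.1.ord x).toNat : ℤ) = -v.1.ord x :=
    fun v => Int.toNat_of_nonneg (by have := v.2; omega)
  have h3 : ((∑ v : {v : Place K F // v.ord x < 0}, (-v.1.ord x).toNat : ℕ) : ℤ)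
      = (Module.finrank K⟮x⟯ F : ℤ) := by
    rw [← hsum]
    push_cast
    exact Finset.sum_congr rfl fun v _ => h2 v
  exact_mod_cast h3

/-- the fibre of `x` over `c` is a `Fintype`. -/
@[instance_reducible] noncomputable def fintypeFibre (hx : IsGen K x) (c : K) :
    Fintype {v : Place K F // 0 < v.ord (x - algebraMap K F c)} :=
  (finite_fibre hx c).fintype

/-- the set of poles of `x` is a `Fintype`. -/
@[instance_reducible] noncomputable def fintypePoles (hx : IsGen K x) : Fintype {v : Place K F // v.ord x < 0} :=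
  (finite_poles hx).fintype

end Generic

/-! ### The literal (L5) package, from `BaseHyp` -/

section Package

open Fermat.Agent.RED.BASE Fermat.Agent.RED.BASE.Hauptmodul12 Fermat.Agent.RED.CUSP.CuspExact16

variable {n e : ℕ} [NeZero n] (hb : BaseHyp n e) {M : ℕ} [NeZero M] (hnM : n ∣ M)
  (cv : SL(2, ℤ) → Option Kbar) (hcv : CuspExp n e M cv)

include hb hnM hcv

/-- zeros of `t - c`, `c` a finite cusp value, are the cusp places `placeOf M γ`, `cv γ = some c`. -/
theorem exists_placeOf_of_zero (h : TMem n e M) (v : Place Kbar (FF M)) (γ₀ : SL(2, ℤ)) (c : Kbar)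
    (hγ₀ : cv γ₀ = some c) (hpos : 0 < v.ord (tF M h - algebraMap Kbar (FF M) c)) :
    ∃ γ : SL(2, ℤ), placeOf M γ = v ∧ cv γ = some c := by
  obtain ⟨h', H⟩ := exists_cuspPlace_of_zero n e M hb.four_or_nine hnM
    (TGen19.tRealize_of_tMem n e n (tMem hb)) (TGen19.tRealize_of_tMem n e M h) (tGenBase' hb)
    cv hcv
  obtain ⟨g, hg, hcg⟩ := H v γ₀ c hγ₀ hpos
  refine ⟨g⁻¹, ?_, hcg⟩
  rw [placeOf, inv_inv]
  exact hg

omit hb hnM in
/-- conversely `placeOf M γ` is a zero of `t - c` when `cv γ = some c`. -/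
theorem placeOf_ord_sub_pos (h : TMem n e M) (γ : SL(2, ℤ)) (c : Kbar) (hγ : cv γ = some c) :
    0 < (placeOf M γ).ord (tF M h - algebraMap Kbar (FF M) c) := by
  obtain ⟨h', hshape⟩ := hcv
  have hs := hshape γ
  rw [hγ] at hs
  exact ord_sub_pos_of_shape_some (realizeData M) (cuspData M) n γ (tF M h) c hs

omit hb hnM in
/-- `placeOf M γ` is a pole of `t` when `cv γ = none`. -/
theorem placeOf_ord_neg (h : TMem n e M) (γ : SL(2, ℤ)) (hγ : cv γ = none) :
    (placeOf M γ).ord (tF M h) < 0 := by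
  obtain ⟨h', hshape⟩ := hcv
  have hs := hshape γ
  rw [hγ] at hs
  exact ord_neg_of_shape_none (realizeData M) (cuspData M) n γ (tF M h) hs

/-- poles of `t` are the cusp places `placeOf M γ` with `cv γ = none`. -/
theorem exists_placeOf_of_pole (h : TMem n e M) (v : Place Kbar (FF M))
    (hneg : v.ord (tF M h) < 0) : ∃ γ : SL(2, ℤ), placeOf M γ = v ∧ cv γ = none := by
  have hM : 4 ∣ M ∨ 9 ∣ M := hb.four_or_nine.imp (fun h => h.trans hnM) (fun h => h.trans hnM)
  -- `v` lies over `j = ∞`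
  have hj : v.ord (jF M) < 0 := by
    by_contra hj
    rw [not_lt] at hj
    obtain ⟨z₀, cj, hc, g, rfl⟩ :=
      exists_pointPlaceD_eq_of_ord_nonneg (realizeData M) (cuspData M) v hj
    obtain ⟨h', a, b, hb', hab, hΘ⟩ := TGen19.tRealize_of_tMem n e M h
    have := ord_nonneg_of_isRealizedBy (realizeData M) (cuspData M) (nuTwo_eq_zero hM)
      (nuThree_eq_zero hM) (tauFun_mem_HolH n e) ⟨a, b, hb', hab, hΘ⟩ z₀ cj hc g
    omega
  have := Degree.finiteDimensional_adjoin M (realizeData M) (cuspData M)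
  obtain ⟨g, hg⟩ := CuspSurj.exists_cuspPlace_eq (CuspGood.good (cuspData M))
    (Degree.card_eq_finrank_adjoin M (realizeData M) (cuspData M)) v hj
  refine ⟨g⁻¹, by rw [placeOf, inv_inv]; exact hg, ?_⟩
  rcases hcg : cv g⁻¹ with _ | c'
  · rfl
  · exfalso
    have hpos := placeOf_ord_sub_pos cv hcv h g⁻¹ c' hcg
    rw [placeOf, inv_inv] at hpos
    have hpos' : 0 < v.ord (tF M h - algebraMap Kbar (FF M) c') := by
      rw [← hg]
      exact hpos
    have h1 : tF M h - algebraMap Kbar (FF M) c' ∈ v.toValuationSubring :=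
      (ffp_mem_iff_ord_nonneg v).mpr (le_of_lt hpos')
    have h2 : algebraMap Kbar (FF M) c' ∈ v.toValuationSubring :=
      (ffp_mem_iff_ord_nonneg v).mpr (le_of_eq (ffp_ord_algebraMap v c').symm)
    have h3 := v.toValuationSubring.add_mem _ _ h1 h2
    rw [sub_add_cancel] at h3
    have := (ffp_mem_iff_ord_nonneg v).mp h3
    omega

omit hb hnM hcv in
/-- `t` is a transcendental generator of `Fbar_M`. -/
theorem isGen_tF (h : TMem n e M) : IsGen Kbar (tF M h) :=
  TGen19.isGen_tF n e M h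

omit hb hnM hcv in
/-- **rank count, zeros**: `∑_{v | t = c} (ord_v (t - c)).toNat = [Fbar_M : ℚbar(t)]`. -/
theorem sum_toNat_zero_fibre (h : TMem n e M) (c : Kbar)
    [Fintype {v : Place Kbar (FF M) // 0 < v.ord (tF M h - algebraMap Kbar (FF M) c)}] :
    ∑ v : {v : Place Kbar (FF M) // 0 < v.ord (tF M h - algebraMap Kbar (FF M) c)},
      (v.1.ord (tF M h - algebraMap Kbar (FF M) c)).toNat
      = Module.finrank Kbar⟮tF M h⟯ (FF M) :=
  sum_toNat_fibre (TGen19.isGen_tF n e M h) c

omit hb hnM hcv in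
/-- **rank count, poles**: `∑_{v | t = ∞} (-ord_v t).toNat = [Fbar_M : ℚbar(t)]`. -/
theorem sum_toNat_pole_fibre (h : TMem n e M)
    [Fintype {v : Place Kbar (FF M) // v.ord (tF M h) < 0}] :
    ∑ v : {v : Place Kbar (FF M) // v.ord (tF M h) < 0}, (-v.1.ord (tF M h)).toNat
      = Module.finrank Kbar⟮tF M h⟯ (FF M) :=
  sum_toNat_poles (TGen19.isGen_tF n e M h)

omit hcv in
/-- the degree `[Fbar_M : ℚbar(t)] = ψ(M) / ψ(n)`. -/
theorem psi_mul_finrank (h : TMem n e M) :
    dedekindPsi n * Module.finrank Kbar⟮tF M h⟯ (FF M) = dedekindPsi M :=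
  TGen19.finrank_adjoin_tF_mul n e (tGenBase' hb) M hnM h

end Package

end Fermat.Agent.RED.CUSP.CuspFibre14
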