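/-
PROGRAM H / chapter CUSP, leaf (L2) (helper9): the input (I2) `hiv` of `CuspSemi23.cusp_semi`
in the generic (E3) setting of `IntClosBase13`, derived from `CharZeroInj9.charZero_inj`.

`B := integralClosure A[X] F` (with `X ↦ t`); `ι k : F →+* K((X))` the expansions,
`ιPS k : B →+* A⟦X⟧` their integral forms (`toLS (ιPS k b) = ι k b`).  If every `ιPS k b` is
divisible by `X ^ e k` (`e k` = order of `ι k (t - c)`), and the `ι k` detect all places of `F/K`
over `t = c`, then `C a • b = (X - C c) • y` for some constant `0 ≠ a ∈ A` and some `y ∈ B`.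
-/
import Mathlib
import Fermat.Agent.RED.CUSP.CharZeroInj9
import Fermat.Agent.RED.CUSP.IntClosedPS16
import Fermat.Agent.RED.PUR.IntClosBase13

set_option autoImplicit false
set_option linter.unusedSectionVars false

namespace Fermat.Agent.RED.CUSP.CharZeroB9

open Polynomial IntermediateField
open Fermat.Agent.RED.CUSP.IntClosedPS16

section Order

variable (A K : Type*) [CommRing A] [IsDomain A] [Field K] [Algebra A K] [IsFractionRing A K]

/-- The order of the image in `K((X))` of a non-zero multiple of `X ^ e` in `A⟦X⟧` is `≥ e`. -/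
theorem le_order_toLS_of_X_pow_dvd {e : ℕ} {p : PowerSeries A}
    (hdvd : (PowerSeries.X : PowerSeries A) ^ e ∣ p) (hp : toLS A K p ≠ 0) :
    (e : ℤ) ≤ (toLS A K p).order := by
  by_contra hlt
  rw [not_le] at hlt
  apply (not_iff_not.2 HahnSeries.coeff_order_eq_zero).2 hp
  obtain ⟨q, rfl⟩ := hdvd
  rcases lt_or_ge (toLS A K (PowerSeries.X ^ e * q)).order 0 with hneg | hnn
  · exact toLS_coeff_neg A K _ _ hneg
  · obtain ⟨n, hn⟩ := Int.eq_ofNat_of_zero_le hnn
    rw [hn, toLS_coeff, PowerSeries.coeff_X_pow_mul', if_neg, map_zero]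
    rw [hn] at hlt
    have : n < e := by exact_mod_cast hlt
    omega

end Order

section Main

variable {A K F : Type*} [CommRing A] [IsDomain A] [Field K] [Algebra A K] [IsFractionRing A K]
  [CharZero K] [Field F] [Algebra K F] [Algebra A F] [IsScalarTower A K F]
  [Algebra A[X] F] [IsScalarTower A A[X] F] {t : F}

/-- **(I2), B-form**: literally the hypothesis `hiv` of `CuspSemi23.cusp_semi` for
`B = integralClosure A[X] F`. -/
theorem hiv_of_places (hX : algebraMap A[X] F X = t) (ht : Transcendental K t)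
    [FiniteDimensional K⟮t⟯ F] (c : A) {Idx : Type*} (ι : Idx → F →+* LaurentSeries K)
    (ιPS : Idx → ↥(integralClosure A[X] F) →+* PowerSeries A)
    (hcompat : ∀ k (b : ↥(integralClosure A[X] F)), toLS A K (ιPS k b) = ι k (b : F))
    (e : Idx → ℕ) (he : ∀ k, (ι k (t - algebraMap A F c)).order = e k)
    (hplaces : ∀ w : AlgebraicCurve.Place K F, 0 < w.ord (t - algebraMap A F c) →
      ∃ k, ∀ z : F, z ≠ 0 → 0 ≤ (ι k z).order → z ∈ w.toValuationSubring) :
    ∀ b : ↥(integralClosure A[X] F),
      (∀ k, (PowerSeries.X : PowerSeries A) ^ (e k) ∣ ιPS k b) →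
      ∃ a : A, a ≠ 0 ∧ ∃ y : ↥(integralClosure A[X] F),
        (Polynomial.C a : Polynomial A) • b = (Polynomial.X - Polynomial.C c : Polynomial A) • y := by
  intro b hdvd
  have hCa : ∀ a : A, algebraMap A[X] F (C a) = algebraMap A F a := fun a => by
    rw [IsScalarTower.algebraMap_apply A A[X] F, Polynomial.algebraMap_apply,
      Algebra.algebraMap_self, RingHom.id_apply]
  have hbint : IsIntegral (Algebra.adjoin A {t}) (b : F) :=
    (Fermat.Agent.RED.PUR.IntClosBase13.isIntegral_iff hX _).1 b.2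
  have hord : ∀ k, (b : F) = 0 ∨ (e k : ℤ) ≤ (ι k (b : F)).order := by
    intro k
    by_cases hb0 : (b : F) = 0
    · exact Or.inl hb0
    · right
      have hne : toLS A K (ιPS k b) ≠ 0 := by
        rw [hcompat]
        exact (map_ne_zero (ι k)).2 hb0
      have := le_order_toLS_of_X_pow_dvd A K (hdvd k) hne
      rwa [hcompat] at this
  obtain ⟨a, ha, y, hy, hay⟩ :=
    CharZeroInj9.charZero_inj t ht c ι e he hplaces (b : F) hbint hord
  have hyB : IsIntegral A[X] y := (Fermat.Agent.RED.PUR.IntClosBase13.isIntegral_iff hX _).2 hy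
  refine ⟨a, ha, ⟨y, hyB⟩, Subtype.ext ?_⟩
  change (C a : A[X]) • (b : F) = (X - C c : A[X]) • y
  rw [Algebra.smul_def, Algebra.smul_def, hCa, map_sub, hX, hCa]
  exact hay

end Main

end Fermat.Agent.RED.CUSP.CharZeroB9
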