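/-
Program H (S18), chapter RED/CUSP, helper23: the abstract DISCRIMINANT COMPARISON.

`S` free over `R` with basis `b`, `T` free over `R'` with basis `w`, `j : R →+* R'`, `f : S →+* T`
semilinear over `j`.  `Θ := ` the coordinates of `f (b l)` in the basis `w`.
* `intertwine`: `N_{f x} * Θ = Θ * j(M_x)` for the multiplication matrices;
* `trace_map` : if `det Θ ≠ 0` (`R'` a domain) then `trace (f x) = j (trace x)`;
* `discr_map` : `j (discr b) = det Θ ^ 2 * discr w`;
* `isUnit_det`: if `τ` is prime, both discriminants are associated to powers of `τ` and `τ ∤ det Θ`,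
  then `det Θ` is a unit;
* `quotientMap_bijective`: if `det Θ` is a unit and `j` induces a bijection `R/I → R'/I'`, then `f`
  induces a bijection `S/IS → T/I'T`.
Mathlib only.
-/
import Mathlib

set_option autoImplicit false

open Matrix

namespace Fermat.Agent.RED.CUSP.DiscCompare23

variable {R R' S T : Type*} [CommRing R] [CommRing R'] [CommRing S] [CommRing T]
variable [Algebra R S] [Algebra R' T]
variable {ι : Type*}

/-- The coordinate matrix of `f ∘ b` in the basis `w`: `f (b l) = ∑ k, Θ k l • w k`. -/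
noncomputable def theta (f : S →+* T) (b : Module.Basis ι R S) (w : Module.Basis ι R' T) :
    Matrix ι ι R' :=
  fun k l => w.repr (f (b l)) k

section

variable (j : R →+* R') (f : S →+* T) (hf : ∀ (r : R) (x : S), f (r • x) = j r • f x)
variable (b : Module.Basis ι R S) (w : Module.Basis ι R' T)

theorem theta_apply (k l : ι) : theta f b w k l = w.repr (f (b l)) k := rfl

variable [Fintype ι]

theorem map_basis (l : ι) : f (b l) = ∑ k, theta f b w k l • w k := by
  conv_lhs => rw [← w.sum_repr (f (b l))]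
  rfl

include hf in
/-- `f (∑ r_l b_l) = ∑_k (Θ j(r))_k w_k`. -/
theorem repr_map (x : S) (k : ι) :
    w.repr (f x) k = ∑ l, theta f b w k l * j (b.repr x l) := by
  conv_lhs => rw [← b.sum_repr x]
  rw [map_sum, map_sum, Finset.sum_apply']
  refine Finset.sum_congr rfl fun l _ => ?_
  rw [hf, map_smul, Finsupp.smul_apply, smul_eq_mul, mul_comm]
  rfl

variable [DecidableEq ι]

include hf in
/-- The multiplication matrices are intertwined by `Θ`. -/
theorem intertwine (x : S) :
    Algebra.leftMulMatrix w (f x) * theta f b w =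
      theta f b w * (Algebra.leftMulMatrix b x).map j := by
  ext k l
  rw [Matrix.mul_apply, Matrix.mul_apply]
  -- both sides are the `k`-th coordinate of `f (x * b l)`
  have h1 : w.repr (f (x * b l)) k = ∑ m, Algebra.leftMulMatrix w (f x) k m * theta f b w m l := by
    rw [map_mul]
    conv_lhs => rw [map_basis f b w l, Finset.mul_sum, map_sum, Finset.sum_apply']
    refine Finset.sum_congr rfl fun m _ => ?_
    rw [mul_smul_comm, map_smul, Finsupp.smul_apply, smul_eq_mul,
      Algebra.leftMulMatrix_eq_repr_mul, mul_comm]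
  have h2 : w.repr (f (x * b l)) k =
      ∑ m, theta f b w k m * ((Algebra.leftMulMatrix b x).map j) m l := by
    rw [repr_map j f hf b w]
    refine Finset.sum_congr rfl fun m _ => ?_
    rw [Matrix.map_apply, Algebra.leftMulMatrix_eq_repr_mul]
  rw [← h1, h2]

include hf in
/-- **Traces agree** when `det Θ ≠ 0`. -/
theorem trace_map [IsDomain R'] (hdet : (theta f b w).det ≠ 0) (x : S) :
    Algebra.trace R' T (f x) = j (Algebra.trace R S x) := by
  rw [Algebra.trace_eq_matrix_trace w, Algebra.trace_eq_matrix_trace b]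
  set Θ := theta f b w with hΘ
  set N := Algebra.leftMulMatrix w (f x)
  set M' := (Algebra.leftMulMatrix b x).map j with hM'
  have hint : N * Θ = Θ * M' := intertwine j f hf b w x
  have h1 : (N * Θ * Θ.adjugate).trace = Θ.det * N.trace := by
    rw [Matrix.mul_assoc, Matrix.mul_adjugate, Matrix.mul_smul, Matrix.mul_one, Matrix.trace_smul,
      smul_eq_mul]
  have h2 : (Θ * M' * Θ.adjugate).trace = Θ.det * M'.trace := by
    rw [Matrix.trace_mul_comm, ← Matrix.mul_assoc, Matrix.adjugate_mul, Matrix.smul_mul,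
      Matrix.one_mul, Matrix.trace_smul, smul_eq_mul]
  rw [hint, h2] at h1
  have h3 : N.trace = M'.trace := (mul_left_cancel₀ hdet h1).symm
  rw [h3, hM']
  simp only [Matrix.trace, Matrix.diag_apply, Matrix.map_apply, map_sum]

include hf in
/-- **Discriminants**: `j (discr b) = det Θ ^ 2 * discr w`. -/
theorem discr_map [IsDomain R'] (hdet : (theta f b w).det ≠ 0) :
    j (Algebra.discr R b) = (theta f b w).det ^ 2 * Algebra.discr R' w := by
  have h1 : (fun l => f (b l)) = (⇑w) ᵥ* (theta f b w).map (algebraMap R' T) := by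
    funext l
    rw [map_basis f b w l, Matrix.vecMul, dotProduct]
    refine Finset.sum_congr rfl fun k _ => ?_
    rw [Matrix.map_apply, Algebra.smul_def, mul_comm]
  have h2 : Algebra.discr R' (fun l => f (b l)) = (theta f b w).det ^ 2 * Algebra.discr R' w := by
    rw [h1, Algebra.discr_of_matrix_vecMul]
  rw [← h2, Algebra.discr_def, Algebra.discr_def, RingHom.map_det]
  congr 1
  ext l m
  rw [RingHom.mapMatrix_apply, Matrix.map_apply, Algebra.traceMatrix_apply,
    Algebra.traceMatrix_apply, Algebra.traceForm_apply, Algebra.traceForm_apply, ← map_mul f,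
    trace_map j f hf b w hdet]

include hf in
/-- **The determinant is a unit**: `τ` prime, both discriminants associated to powers of `τ`,
`τ ∤ det Θ`. -/
theorem isUnit_det [IsDomain R'] {τ : R'} (hτ : Prime τ) {a δ : ℕ}
    (hb : Associated (j (Algebra.discr R b)) (τ ^ a)) (hw : Associated (Algebra.discr R' w) (τ ^ δ))
    (hndvd : ¬ τ ∣ (theta f b w).det) : IsUnit (theta f b w).det := by
  have hdet : (theta f b w).det ≠ 0 := fun h => hndvd (h ▸ dvd_zero τ)
  set d := (theta f b w).det
  have h1 : Associated (τ ^ a) (d ^ 2 * τ ^ δ) := by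
    refine hb.symm.trans ?_
    rw [discr_map j f hf b w hdet]
    exact hw.mul_left _
  -- `a = δ`
  have hτ0 : τ ≠ 0 := hτ.ne_zero
  have hd2 : ¬ τ ∣ d ^ 2 := fun h => hndvd (hτ.dvd_of_dvd_pow h)
  rcases lt_trichotomy a δ with hlt | heq | hgt
  · exfalso
    obtain ⟨c, hc⟩ : ∃ c, δ = a + (c + 1) := ⟨δ - a - 1, by omega⟩
    have h2 : Associated (τ ^ a * 1) (τ ^ a * (d ^ 2 * τ ^ (c + 1))) := by
      rw [mul_one]
      refine h1.trans (Associated.of_eq ?_)
      rw [hc, pow_add]; ring
    have h3 : Associated (1 : R') (d ^ 2 * τ ^ (c + 1)) :=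
      Associated.of_mul_left h2 (Associated.refl _) (pow_ne_zero _ hτ0)
    have h4 : IsUnit (d ^ 2 * τ ^ (c + 1)) := h3.isUnit isUnit_one
    have h5 : IsUnit τ := by
      have := isUnit_of_mul_isUnit_right h4
      rw [pow_succ] at this
      exact isUnit_of_mul_isUnit_right this
    exact hτ.not_isUnit h5
  · subst heq
    have h2 : Associated (1 * τ ^ a) (d ^ 2 * τ ^ a) := by rwa [one_mul]
    have h3 : Associated (1 : R') (d ^ 2) :=
      Associated.of_mul_right h2 (Associated.refl _) (pow_ne_zero _ hτ0)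
    have h4 : IsUnit (d ^ 2) := h3.isUnit isUnit_one
    exact (isUnit_pow_iff two_ne_zero).mp h4
  · exfalso
    obtain ⟨c, hc⟩ : ∃ c, a = δ + (c + 1) := ⟨a - δ - 1, by omega⟩
    have h2 : Associated (τ ^ (c + 1) * τ ^ δ) (d ^ 2 * τ ^ δ) := by
      refine (Associated.of_eq ?_).trans h1
      rw [hc, pow_add]; ring
    have h3 : Associated (τ ^ (c + 1)) (d ^ 2) :=
      Associated.of_mul_right h2 (Associated.refl _) (pow_ne_zero _ hτ0)
    exact hd2 (h3.dvd_iff_dvd_right.mp (dvd_pow_self τ (Nat.succ_ne_zero c)))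

end

/-! ### Reduction modulo an ideal -/

section Quot

/-- Membership in the extended ideal `I S` of a free algebra, in coordinates. -/
theorem mem_map_iff_repr {R S : Type*} [CommRing R] [CommRing S] [Algebra R S] {ι : Type*}
    [Fintype ι] (b : Module.Basis ι R S) (I : Ideal R) (x : S) :
    x ∈ I.map (algebraMap R S) ↔ ∀ l, b.repr x l ∈ I := by
  constructor
  · intro hx
    have hx' : x ∈ (I • ⊤ : Submodule R S) := by
      rw [Ideal.smul_top_eq_map]; exact hx
    intro l
    refine Submodule.smul_induction_on hx' (p := fun y => b.repr y l ∈ I) ?_ ?_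
    · intro r hr s _
      rw [map_smul, Finsupp.smul_apply, smul_eq_mul]
      exact I.mul_mem_right _ hr
    · intro y z hy hz
      rw [map_add, Finsupp.add_apply]
      exact I.add_mem hy hz
  · intro h
    rw [← b.sum_repr x]
    refine Ideal.sum_mem _ fun l _ => ?_
    rw [Algebra.smul_def]
    exact Ideal.mul_mem_right _ _ (Ideal.mem_map_of_mem _ (h l))

variable (j : R →+* R') (f : S →+* T) (hf : ∀ (r : R) (x : S), f (r • x) = j r • f x)
variable [Fintype ι] [DecidableEq ι] (b : Module.Basis ι R S) (w : Module.Basis ι R' T)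
variable (hdet : IsUnit (theta f b w).det)
variable (I : Ideal R) (I' : Ideal R') (hI : ∀ r, j r ∈ I' ↔ r ∈ I)

include hf hdet hI in
/-- injectivity of `S / I S → T / I' T`. -/
theorem mem_of_map_mem (x : S) (hx : f x ∈ I'.map (algebraMap R' T)) :
    x ∈ I.map (algebraMap R S) := by
  rw [mem_map_iff_repr b]
  rw [mem_map_iff_repr w] at hx
  -- `Θ * j(r) ∈ I'^ι`, multiply by `Θ⁻¹`
  set Θ := theta f b w with hΘ
  set v : ι → R' := fun l => j (b.repr x l) with hv
  have h1 : ∀ k, (Θ *ᵥ v) k ∈ I' := by
    intro k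
    have := hx k
    rwa [repr_map j f hf b w] at this
  have h2 : Θ⁻¹ *ᵥ (Θ *ᵥ v) = v := by
    rw [Matrix.mulVec_mulVec, Matrix.nonsing_inv_mul _ hdet, Matrix.one_mulVec]
  intro l
  rw [← hI]
  have : v l = ∑ k, Θ⁻¹ l k * (Θ *ᵥ v) k := by
    conv_lhs => rw [← h2]
    rfl
  change v l ∈ I'
  rw [this]
  exact Ideal.sum_mem _ fun k _ => I'.mul_mem_left _ (h1 k)

include hf hdet in
/-- surjectivity of `S / I S → T / I' T`. -/
theorem exists_map_sub_mem (hsurj : ∀ r' : R', ∃ r : R, r' - j r ∈ I') (t : T) :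
    ∃ x : S, t - f x ∈ I'.map (algebraMap R' T) := by
  set Θ := theta f b w with hΘ
  set c : ι → R' := fun k => w.repr t k with hc
  set c' : ι → R' := Θ⁻¹ *ᵥ c with hc'
  choose r hr using fun l => hsurj (c' l)
  refine ⟨∑ l, r l • b l, ?_⟩
  rw [mem_map_iff_repr w]
  intro k
  rw [map_sub, Finsupp.sub_apply, repr_map j f hf b w]
  have h1 : ∀ l, b.repr (∑ l, r l • b l) l = r l := by
    intro l
    have : (∑ l, r l • b l) = b.equivFun.symm r := by
      rw [Module.Basis.equivFun_symm_apply]
    rw [this, ← Module.Basis.equivFun_apply, LinearEquiv.apply_symm_apply]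
  simp only [h1]
  have h2 : w.repr t k = ∑ l, Θ k l * c' l := by
    have : Θ *ᵥ c' = c := by
      rw [hc', Matrix.mulVec_mulVec, Matrix.mul_nonsing_inv _ hdet, Matrix.one_mulVec]
    have := congrFun this k
    rw [Matrix.mulVec, dotProduct] at this
    rw [this]
  rw [h2, ← Finset.sum_sub_distrib]
  refine Ideal.sum_mem _ fun l _ => ?_
  rw [← mul_sub]
  exact I'.mul_mem_left _ (hr l)

end Quot

end Fermat.Agent.RED.CUSP.DiscCompare23
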