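/-
Program H (S18), chapter RED/CUSP, helper23: abstract local algebra (A4).

`S` a commutative ring, `p t : S`, `Φ : S → ∏_κ Q κ` a surjective ring hom with kernel `(p, t²)`,
every maximal ideal of every `Q κ` principal.  Then every maximal ideal `x ∋ p, t` of `S` is
`(p, t², σ)` and locally `(p, σ)`: for every `g ∈ x` there is `s ∉ x` with `s g ∈ (p, σ)`.
Mathlib only.
-/
import Mathlib

set_option autoImplicit false

namespace Fermat.Agent.RED.CUSP.LocalGen23

section Pi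

variable {C : Type*} [Fintype C] [DecidableEq C] {Q : C → Type*} [∀ κ, CommRing (Q κ)]

/-- A maximal ideal of a finite product all of whose factors have principal maximal ideals is
principal. -/
theorem isPrincipal_of_isMaximal_pi
    (hQ : ∀ κ, ∀ I : Ideal (Q κ), I.IsMaximal → ∃ s, I = Ideal.span {s})
    (X : Ideal (∀ κ, Q κ)) [hX : X.IsMaximal] : ∃ σ, X = Ideal.span {σ} := by
  classical
  have hXp : X.IsPrime := hX.isPrime
  -- the idempotents
  set ε : C → (∀ κ, Q κ) := fun κ => Pi.single κ 1 with hε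
  have hsum : ∑ κ, ε κ = 1 := by
    ext κ'
    rw [Finset.sum_apply, Finset.sum_eq_single κ']
    · simp [hε]
    · intro κ _ h
      simp [hε, Pi.single_eq_of_ne (Ne.symm h)]
    · intro h; exact absurd (Finset.mem_univ _) h
  have horth : ∀ κ κ', κ ≠ κ' → ε κ * ε κ' = 0 := by
    intro κ κ' h
    ext κ''
    simp only [hε, Pi.mul_apply, Pi.zero_apply]
    by_cases h1 : κ'' = κ
    · subst h1
      rw [Pi.single_eq_of_ne h, mul_zero]
    · rw [Pi.single_eq_of_ne h1, zero_mul]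
  -- some `ε κ₀ ∉ X`
  obtain ⟨κ₀, hκ₀⟩ : ∃ κ₀, ε κ₀ ∉ X := by
    by_contra hall
    push Not at hall
    have : (1 : ∀ κ, Q κ) ∈ X := by
      rw [← hsum]; exact Ideal.sum_mem _ fun κ _ => hall κ
    exact hXp.ne_top ((Ideal.eq_top_iff_one _).mpr this)
  have hother : ∀ κ, κ ≠ κ₀ → ε κ ∈ X := by
    intro κ h
    have h0 : ε κ * ε κ₀ ∈ X := by rw [horth κ κ₀ h]; exact X.zero_mem
    exact (hXp.mem_or_mem h0).resolve_right hκ₀
  have hcompl : 1 - ε κ₀ ∈ X := by
    have : 1 - ε κ₀ = ∑ κ ∈ Finset.univ.erase κ₀, ε κ := by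
      rw [← hsum, ← Finset.add_sum_erase _ _ (Finset.mem_univ κ₀)]; ring
    rw [this]
    exact Ideal.sum_mem _ fun κ hκ => hother κ (Finset.ne_of_mem_erase hκ)
  -- the image in `Q κ₀`
  set 𝔫 : Ideal (Q κ₀) := X.map (Pi.evalRingHom Q κ₀) with h𝔫
  have hsurj : Function.Surjective (Pi.evalRingHom Q κ₀) := fun y => ⟨Pi.single κ₀ y, by simp⟩
  have hmem𝔫 : ∀ y, y ∈ 𝔫 ↔ ∃ z ∈ X, z κ₀ = y := by
    intro y
    rw [h𝔫, Ideal.mem_map_iff_of_surjective _ hsurj]
    rfl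
  have hsingle : ∀ y ∈ 𝔫, Pi.single κ₀ y ∈ X := by
    intro y hy
    obtain ⟨z, hz, rfl⟩ := (hmem𝔫 y).mp hy
    have : Pi.single κ₀ (z κ₀) = ε κ₀ * z := by
      ext κ
      simp only [hε, Pi.mul_apply]
      by_cases h : κ = κ₀
      · subst h; simp
      · rw [Pi.single_eq_of_ne h, Pi.single_eq_of_ne h, zero_mul]
    rw [this]
    exact X.mul_mem_left _ hz
  have h𝔫max : 𝔫.IsMaximal := by
    rcases Ideal.map_eq_top_or_isMaximal_of_surjective _ hsurj hX with h | h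
    · exfalso
      have h1 : (1 : Q κ₀) ∈ 𝔫 := by rw [h𝔫, h]; trivial
      exact hκ₀ (hsingle 1 h1)
    · exact h
  obtain ⟨s₀, hs₀⟩ := hQ κ₀ 𝔫 h𝔫max
  -- the generator
  refine ⟨Pi.single κ₀ s₀ + (1 - ε κ₀), le_antisymm ?_ ?_⟩
  · intro y hy
    have hy0 : y κ₀ ∈ 𝔫 := (hmem𝔫 _).mpr ⟨y, hy, rfl⟩
    rw [hs₀, Ideal.mem_span_singleton] at hy0
    obtain ⟨a, ha⟩ := hy0
    rw [Ideal.mem_span_singleton]
    refine ⟨Function.update y κ₀ a, ?_⟩
    ext κ
    simp only [hε, Pi.mul_apply, Pi.add_apply, Pi.sub_apply, Pi.one_apply]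
    by_cases h : κ = κ₀
    · subst h
      simp [ha]
    · rw [Pi.single_eq_of_ne h, Pi.single_eq_of_ne h, Function.update_of_ne h]
      ring
  · rw [Ideal.span_singleton_le_iff_mem]
    refine X.add_mem (hsingle s₀ ?_) hcompl
    rw [hs₀]
    exact Ideal.mem_span_singleton_self s₀

end Pi

section Main

variable {S : Type*} [CommRing S] (p t : S)
variable {C : Type*} [Fintype C] [DecidableEq C] {Q : C → Type*} [∀ κ, CommRing (Q κ)]

/-- **(A4)**: every maximal ideal `x ∋ p, t` of `S` is `(p, t², σ)`, and locally `(p, σ)`. -/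
theorem exists_local_gen
    (hQ : ∀ κ, ∀ I : Ideal (Q κ), I.IsMaximal → ∃ s, I = Ideal.span {s})
    (Φ : S →+* ∀ κ, Q κ) (hΦ : Function.Surjective Φ)
    (hker : RingHom.ker Φ = Ideal.span {p, t ^ 2})
    (x : Ideal S) [hx : x.IsMaximal] (hp : p ∈ x) (ht : t ∈ x) :
    ∃ σ ∈ x, ∀ g ∈ x, ∃ s, s ∉ x ∧ s * g ∈ Ideal.span {p, σ} := by
  have hkerle : RingHom.ker Φ ≤ x := by
    rw [hker, Ideal.span_le]
    rintro y (rfl | rfl)
    · exact hp
    · exact x.pow_mem_of_mem ht 2 (by norm_num)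
  have hcm : (x.map Φ).comap Φ = x := by
    rw [Ideal.comap_map_of_surjective Φ hΦ]
    exact sup_eq_left.mpr hkerle
  have hXmax : (x.map Φ).IsMaximal := by
    rcases Ideal.map_eq_top_or_isMaximal_of_surjective Φ hΦ hx with h | h
    · exfalso
      rw [h, Ideal.comap_top] at hcm
      exact hx.ne_top hcm.symm
    · exact h
  obtain ⟨σ', hσ'⟩ := isPrincipal_of_isMaximal_pi hQ (x.map Φ)
  obtain ⟨σ, rfl⟩ := hΦ σ'
  have hσx : σ ∈ x := by
    rw [← hcm, Ideal.mem_comap, hσ']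
    exact Ideal.mem_span_singleton_self _
  -- `x = (p, t², σ)`
  have hx3 : ∀ g ∈ x, ∃ a b c : S, g = a * p + b * t ^ 2 + c * σ := by
    intro g hg
    have h1 : Φ g ∈ x.map Φ := Ideal.mem_map_of_mem Φ hg
    rw [hσ', Ideal.mem_span_singleton] at h1
    obtain ⟨z', hz'⟩ := h1
    obtain ⟨z, rfl⟩ := hΦ z'
    have h2 : g - σ * z ∈ RingHom.ker Φ := by
      rw [RingHom.mem_ker, map_sub, map_mul, hz', sub_self]
    rw [hker, Ideal.mem_span_pair] at h2
    obtain ⟨a, b, hab⟩ := h2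
    exact ⟨a, b, z, by linear_combination -hab⟩
  obtain ⟨a, b, c, habc⟩ := hx3 t ht
  refine ⟨σ, hσx, fun g hg => ⟨1 - b * t, ?_, ?_⟩⟩
  · intro h
    have : (1 : S) ∈ x := by
      have h2 : b * t ∈ x := x.mul_mem_left _ ht
      have := x.add_mem h h2
      rwa [sub_add_cancel] at this
    exact hx.ne_top ((Ideal.eq_top_iff_one _).mpr this)
  · obtain ⟨a', b', c', hg'⟩ := hx3 g hg
    rw [Ideal.mem_span_pair]
    -- `(1 - b t) t = a p + c σ`
    refine ⟨(1 - b * t) * a' + b' * t * a, (1 - b * t) * c' + b' * t * c, ?_⟩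
    rw [hg']
    linear_combination (-(b' * t)) * habc

end Main

end Fermat.Agent.RED.CUSP.LocalGen23
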