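/-
Program H (RED/CUSP, leaf (A3b); helper16): trace and discriminant of a finite product of finite
free algebras, for the product basis `Pi.basis`.

* `det_blockDiagonal'` : determinant of a dependent block diagonal matrix;
* `trace_pi`           : `Tr_{∏ T κ / R} x = ∑ κ, Tr_{T κ / R} (x κ)`;
* `traceMatrix_pi`     : the trace matrix of `Pi.basis B` is block diagonal;
* `discr_pi`           : `discr (Pi.basis B) = ∏ κ, discr (B κ)`.
-/
import Mathlib

set_option autoImplicit false

namespace Fermat.Agent.RED.CUSP.PiDiscr16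

open Matrix

/-- Determinant of a dependent block diagonal matrix. -/
theorem det_blockDiagonal' {R : Type*} [CommRing R] {C : Type*} [Fintype C] [DecidableEq C]
    {m' : C → Type*} [∀ κ, Fintype (m' κ)] [∀ κ, DecidableEq (m' κ)]
    (d : ∀ κ, Matrix (m' κ) (m' κ) R) :
    (Matrix.blockDiagonal' d).det = ∏ κ, (d κ).det := by
  classical
  let _ : LinearOrder C :=
    LinearOrder.lift' (Fintype.equivFin C) (Fintype.equivFin C).injective
  rw [(Matrix.blockTriangular_blockDiagonal' d).det_fintype]
  refine Finset.prod_congr rfl fun k _ => ?_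
  -- the block at `k` is `d k` up to reindexing
  let ε : m' k ≃ {a : (Σ κ, m' κ) // a.1 = k} :=
    { toFun := fun i => ⟨⟨k, i⟩, rfl⟩
      invFun := fun a => a.2 ▸ a.1.2
      left_inv := fun i => rfl
      right_inv := by
        rintro ⟨⟨κ, i⟩, h⟩
        cases h
        rfl }
  have h : d k = ((Matrix.blockDiagonal' d).toSquareBlock Sigma.fst k).submatrix ε ε := by
    ext i j
    simp only [Matrix.submatrix_apply, Matrix.toSquareBlock_def, Matrix.of_apply]
    exact (Matrix.blockDiagonal'_apply_eq d k i j).symm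
  rw [h, Matrix.det_submatrix_equiv_self]

section Pi

variable {R : Type*} [CommRing R] {C : Type*} [Fintype C] [DecidableEq C]
  {ι : C → Type*} [∀ κ, Fintype (ι κ)] [∀ κ, DecidableEq (ι κ)]
  {T : C → Type*} [∀ κ, CommRing (T κ)] [∀ κ, Algebra R (T κ)]

/-- The trace of a finite product of finite free algebras (given with bases). -/
theorem trace_pi_of_basis (B : ∀ κ, Module.Basis (ι κ) R (T κ)) (x : ∀ κ, T κ) :
    Algebra.trace R (∀ κ, T κ) x = ∑ κ, Algebra.trace R (T κ) (x κ) := by
  classical
  rw [Algebra.trace_eq_matrix_trace (Pi.basis B), Matrix.trace, Fintype.sum_sigma]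
  refine Finset.sum_congr rfl fun κ _ => ?_
  rw [Algebra.trace_eq_matrix_trace (B κ), Matrix.trace]
  refine Finset.sum_congr rfl fun a _ => ?_
  simp only [Matrix.diag_apply, Algebra.leftMulMatrix_eq_repr_mul, Pi.basis_repr, Pi.basis_apply,
    Pi.mul_apply, Pi.single_eq_same]

/-- The trace matrix of the product basis is block diagonal. -/
theorem traceMatrix_pi (B : ∀ κ, Module.Basis (ι κ) R (T κ)) :
    Algebra.traceMatrix R (Pi.basis B) =
      Matrix.blockDiagonal' fun κ => Algebra.traceMatrix R (B κ) := by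
  classical
  ext ⟨κ, a⟩ ⟨κ', a'⟩
  rw [Algebra.traceMatrix_apply, Algebra.traceForm_apply, Pi.basis_apply, Pi.basis_apply,
    trace_pi_of_basis B]
  by_cases h : κ = κ'
  · subst h
    rw [Matrix.blockDiagonal'_apply_eq, Algebra.traceMatrix_apply, Algebra.traceForm_apply,
      Finset.sum_eq_single κ]
    · simp only [Pi.mul_apply, Pi.single_eq_same]
    · intro b _ hb
      simp only [Pi.mul_apply, Pi.single_eq_of_ne hb, mul_zero, map_zero]
    · intro h; exact absurd (Finset.mem_univ _) h
  · rw [Matrix.blockDiagonal'_apply_ne _ _ _ h]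
    refine Finset.sum_eq_zero fun b _ => ?_
    by_cases hb : b = κ
    · subst hb
      simp only [Pi.mul_apply, Pi.single_eq_of_ne h, mul_zero, map_zero]
    · simp only [Pi.mul_apply, Pi.single_eq_of_ne hb, zero_mul, map_zero]

/-- **Discriminant of a finite product** (product basis). -/
theorem discr_pi_of_basis (B : ∀ κ, Module.Basis (ι κ) R (T κ)) :
    Algebra.discr R (Pi.basis B) = ∏ κ, Algebra.discr R (B κ) := by
  classical
  rw [Algebra.discr_def, traceMatrix_pi, det_blockDiagonal']
  rfl

end Pi

/-- The literal shape requested by the chapter lead (index types `Fin (e κ)`). -/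
theorem discr_pi {R : Type*} [CommRing R] {C : Type*} [Fintype C] [DecidableEq C] (e : C → ℕ)
    (T : C → Type*) [∀ κ, CommRing (T κ)] [∀ κ, Algebra R (T κ)]
    (B : ∀ κ, Module.Basis (Fin (e κ)) R (T κ)) :
    Algebra.discr R (Pi.basis B) = ∏ κ, Algebra.discr R (B κ) :=
  discr_pi_of_basis B

/-- The trace of a finite product, literal shape. -/
theorem trace_pi {R : Type*} [CommRing R] {C : Type*} [Fintype C] [DecidableEq C] (e : C → ℕ)
    (T : C → Type*) [∀ κ, CommRing (T κ)] [∀ κ, Algebra R (T κ)]
    (B : ∀ κ, Module.Basis (Fin (e κ)) R (T κ)) (x : ∀ κ, T κ) :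
    Algebra.trace R (∀ κ, T κ) x = ∑ κ, Algebra.trace R (T κ) (x κ) :=
  trace_pi_of_basis B x

end Fermat.Agent.RED.CUSP.PiDiscr16
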