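/-
RED/CUSP/RadicalDisc9 (helper9): algebra of a radical extension `T = R[σ]`, `σ^e = c`, free with
basis `1, σ, …, σ^(e-1)`.

* `discr_radical`: the discriminant of the radical basis is `± e^e c^(e-1)`.
* `radical_quot_local`: if `σ^e = c t` with `c` a unit and `(p, t)` maximal in `R'`, then
  `T / (p, t²) T` is a local ring whose maximal ideal is generated by `σ`.
-/
import Mathlib

set_option autoImplicit false

noncomputable section

open Polynomial

namespace Fermat.Agent.RED.CUSP.RadicalDisc9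

section Powers

variable {R T : Type*} [CommRing R] [CommRing T] [Algebra R T] {e : ℕ} (he : 0 < e) {σ : T} {c : R}
  (hσ : σ ^ e = algebraMap R T c) (B : Module.Basis (Fin e) R T) (hB : ∀ i, B i = σ ^ (i : ℕ))

include hσ in
theorem sigma_pow (k : ℕ) : σ ^ k = algebraMap R T (c ^ (k / e)) * σ ^ (k % e) := by
  conv_lhs => rw [← Nat.div_add_mod k e]
  rw [pow_add, pow_mul, hσ, map_pow]

include he hσ hB in
theorem repr_sigma_pow (k : ℕ) (i : Fin e) :
    B.repr (σ ^ k) i = if (i : ℕ) = k % e then c ^ (k / e) else 0 := by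
  rw [sigma_pow hσ k, ← hB ⟨k % e, Nat.mod_lt _ he⟩, ← Algebra.smul_def, map_smul,
    B.repr_self, Finsupp.smul_apply, Finsupp.single_apply, smul_eq_mul]
  by_cases h : (i : ℕ) = k % e
  · rw [if_pos h, if_pos (Fin.ext h.symm), mul_one]
  · rw [if_neg h, if_neg (fun h' => h (by rw [← h'])), mul_zero]

include he hσ hB in
theorem trace_sigma_pow (k : ℕ) :
    Algebra.trace R T (σ ^ k) = if k % e = 0 then (e : R) * c ^ (k / e) else 0 := by
  classical
  rw [Algebra.trace_eq_matrix_trace B, Matrix.trace]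
  simp only [Matrix.diag, Algebra.leftMulMatrix_eq_repr_mul, hB, ← pow_add,
    repr_sigma_pow he hσ B hB]
  by_cases hk : k % e = 0
  · rw [if_pos hk]
    have h1 : ∀ i : Fin e, (k + (i : ℕ)) % e = i := by
      intro i
      rw [Nat.add_mod, hk, zero_add, Nat.mod_mod, Nat.mod_eq_of_lt i.2]
    have h2 : ∀ i : Fin e, (k + (i : ℕ)) / e = k / e := by
      intro i
      obtain ⟨q, rfl⟩ := Nat.dvd_of_mod_eq_zero hk
      rw [Nat.mul_add_div he, Nat.div_eq_of_lt i.2, add_zero, Nat.mul_div_cancel_left _ he]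
    simp only [h1, h2, if_true, Finset.sum_const, Finset.card_univ, Fintype.card_fin,
      nsmul_eq_mul]
  · rw [if_neg hk]
    refine Finset.sum_eq_zero fun i _ => ?_
    rw [if_neg]
    intro h
    apply hk
    have h3 : k + (i : ℕ) ≡ 0 + (i : ℕ) [MOD e] := by
      unfold Nat.ModEq
      rw [zero_add, ← h, Nat.mod_eq_of_lt i.2]
    have h4 : k ≡ 0 [MOD e] := Nat.ModEq.add_right_cancel' (i : ℕ) h3
    unfold Nat.ModEq at h4
    rw [h4, Nat.zero_mod]

end Powers

theorem mod_eq_zero_iff_of_lt_two_mul {k e : ℕ} (he : 0 < e) (h : k < 2 * e) :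
    k % e = 0 ↔ k = 0 ∨ k = e := by
  constructor
  · intro hk
    obtain ⟨q, rfl⟩ := Nat.dvd_of_mod_eq_zero hk
    have hq : q < 2 := by
      by_contra hq
      have hq : 2 ≤ q := Nat.le_of_not_lt hq
      have : 2 * e ≤ e * q := by
        calc 2 * e = e * 2 := by ring
          _ ≤ e * q := Nat.mul_le_mul_left e hq
      omega
    interval_cases q
    · left; simp
    · right; simp
  · rintro (rfl | rfl)
    · simp
    · simp

/-- The involution `0 ↦ 0`, `i ↦ n + 1 - i` of `Fin (n + 1)`. -/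
def rev (n : ℕ) : Fin (n + 1) → Fin (n + 1) := fun i =>
  if _h : (i : ℕ) = 0 then i else ⟨n + 1 - i, by have := i.2; omega⟩

theorem rev_involutive (n : ℕ) : Function.Involutive (rev n) := by
  intro i
  unfold rev
  by_cases h : (i : ℕ) = 0
  · simp [h]
  · have hi := i.2
    have h2 : ¬ (n + 1 - (i : ℕ) = 0) := by omega
    simp only [h, dite_false, h2]
    apply Fin.ext
    simp only
    omega

/-- **Discriminant of a radical basis.** -/
theorem discr_radical {R T : Type*} [CommRing R] [CommRing T] [Algebra R T] (e : ℕ) (he : 0 < e)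
    (σ : T) (c : R) (hσ : σ ^ e = algebraMap R T c) (B : Module.Basis (Fin e) R T)
    (hB : ∀ i, B i = σ ^ (i : ℕ)) :
    ∃ ε : Rˣ, Algebra.discr R B = ε * (e : R) ^ e * c ^ (e - 1) := by
  classical
  obtain ⟨n, rfl⟩ := Nat.exists_eq_add_one_of_ne_zero he.ne'
  set π : Equiv.Perm (Fin (n + 1)) := (rev_involutive n).toPerm (rev n) with hπ
  let d : Fin (n + 1) → R := fun i => if (i : ℕ) = 0 then ((n + 1 : ℕ) : R) else ((n + 1 : ℕ) : R) * c
  have hM : Algebra.traceMatrix R B = Matrix.diagonal d * (π.toPEquiv.toMatrix : Matrix _ _ R) := by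
    ext i j
    rw [Algebra.traceMatrix_apply, Algebra.traceForm_apply, hB, hB, ← pow_add,
      trace_sigma_pow he hσ B hB, Matrix.diagonal_mul, PEquiv.toMatrix_apply,
      Equiv.toPEquiv_apply]
    have hij : (i : ℕ) + j < 2 * (n + 1) := by have := i.2; have := j.2; omega
    simp only [mod_eq_zero_iff_of_lt_two_mul he hij]
    have hπi : π i = rev n i := rfl
    simp only [Option.mem_def, Option.some.injEq, hπi]
    by_cases hi : (i : ℕ) = 0
    · have hrev : rev n i = i := by unfold rev; rw [dif_pos hi]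
      rw [hrev]
      by_cases hj : j = i
      · subst hj
        have h0 : (j : ℕ) + j = 0 := by omega
        rw [if_pos (Or.inl h0), if_pos rfl, h0, Nat.zero_div, pow_zero, mul_one, mul_one]
        simp only [d, if_pos hi]
      · have hj' : (j : ℕ) ≠ 0 := fun h => hj (Fin.ext (by rw [h, hi]))
        have hj2 := j.2
        rw [if_neg (by omega), if_neg (fun h => hj h.symm), mul_zero]
    · have hrev : rev n i = ⟨n + 1 - i, by have := i.2; omega⟩ := by
        unfold rev; rw [dif_neg hi]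
      rw [hrev]
      have hi2 := i.2
      by_cases hj : (j : ℕ) = n + 1 - i
      · have hsum : (i : ℕ) + j = n + 1 := by omega
        rw [if_pos (Or.inr hsum), if_pos (Fin.ext hj.symm), hsum, Nat.div_self he, pow_one,
          mul_one]
        simp only [d, if_neg hi]
      · have hj2 := j.2
        rw [if_neg (by omega), if_neg (fun h => hj (by rw [← h])), mul_zero]
  refine ⟨Units.map (Int.castRingHom R : ℤ →* R) (Equiv.Perm.sign π), ?_⟩
  rw [Algebra.discr_def, hM, Matrix.det_mul, Matrix.det_diagonal, Matrix.det_permutation,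
    Fin.prod_univ_succ]
  have hd0 : d 0 = ((n + 1 : ℕ) : R) := by simp [d]
  have hds : ∀ i : Fin n, d i.succ = ((n + 1 : ℕ) : R) * c := by
    intro i
    simp [d]
  simp only [hd0, hds, Finset.prod_const, Finset.card_univ, Fintype.card_fin, Units.coe_map,
    MonoidHom.coe_coe, eq_intCast, Nat.add_sub_cancel]
  rw [mul_pow]
  ring

/-! ### The quotient `T / (p, t²) T` -/

section Quot

variable {R' T : Type*} [CommRing R'] [CommRing T] [Algebra R' T]

/-- An `R'`-linear functional maps `𝔪 T` into `𝔪`. -/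
theorem functional_mem_of_mem_map (𝔪 : Ideal R') {x : T}
    (hx : x ∈ Ideal.map (algebraMap R' T) 𝔪) : ∀ ψ : T →ₗ[R'] R', ψ x ∈ 𝔪 := by
  rw [Ideal.map] at hx
  induction hx using Submodule.span_induction with
  | mem x hx =>
    obtain ⟨a, ha, rfl⟩ := hx
    intro ψ
    rw [Algebra.algebraMap_eq_smul_one, map_smul, smul_eq_mul]
    exact 𝔪.mul_mem_right _ ha
  | zero => intro ψ; rw [map_zero]; exact 𝔪.zero_mem
  | add x y _ _ hx hy => intro ψ; rw [map_add]; exact 𝔪.add_mem (hx ψ) (hy ψ)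
  | smul y x _ hx =>
    intro ψ
    have := hx (ψ.comp (LinearMap.mulLeft R' y))
    simpa using this

/-- **The local ring `T / (p, t²) T`.** -/
theorem radical_quot_local (p t : R') (hmax : (Ideal.span {p, t}).IsMaximal) (e : ℕ) (he : 0 < e)
    (σ : T) (c : R'ˣ) (hσ : σ ^ e = algebraMap R' T (c * t)) (B : Module.Basis (Fin e) R' T)
    (hB : ∀ i, B i = σ ^ (i : ℕ)) :
    IsLocalRing (T ⧸ Ideal.map (algebraMap R' T) (Ideal.span {p, t ^ 2})) ∧
      ∀ I : Ideal (T ⧸ Ideal.map (algebraMap R' T) (Ideal.span {p, t ^ 2})), I.IsMaximal →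
        I = Ideal.span {Ideal.Quotient.mk _ σ} := by
  classical
  obtain ⟨n, rfl⟩ := Nat.exists_eq_add_one_of_ne_zero he.ne'
  set 𝔪 : Ideal R' := Ideal.span {p, t} with h𝔪
  set I₀ : Ideal T := Ideal.map (algebraMap R' T) (Ideal.span {p, t ^ 2}) with hI₀
  set mk : T →+* T ⧸ I₀ := Ideal.Quotient.mk I₀ with hmk
  set N : Ideal (T ⧸ I₀) := Ideal.span {mk σ} with hN
  have hp𝔪 : p ∈ 𝔪 := Ideal.subset_span (by simp)
  have ht𝔪 : t ∈ 𝔪 := Ideal.subset_span (by simp)
  have hle : Ideal.span {p, t ^ 2} ≤ 𝔪 := by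
    rw [Ideal.span_le]
    rintro x (rfl | rfl)
    · exact hp𝔪
    · exact Ideal.pow_mem_of_mem _ ht𝔪 2 (by norm_num)
  -- the coordinate functional at `σ^0 = 1`
  let φ : T →ₗ[R'] R' := B.coord 0
  have hφ1 : φ 1 = 1 := by
    have h1 : (1 : T) = B 0 := by rw [hB]; simp
    rw [h1]
    simp [φ]
  -- nontriviality
  have hI₀ne : I₀ ≠ ⊤ := by
    intro htop
    have h1 : (1 : T) ∈ Ideal.map (algebraMap R' T) 𝔪 :=
      Ideal.map_mono hle (by rw [← hI₀, htop]; trivial)
    have h2 := functional_mem_of_mem_map 𝔪 h1 φ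
    rw [hφ1] at h2
    exact hmax.ne_top ((Ideal.eq_top_iff_one _).mpr h2)
  have : Nontrivial (T ⧸ I₀) := Ideal.Quotient.nontrivial_iff.mpr hI₀ne
  -- images of `p`, `t`
  have hmkp : mk (algebraMap R' T p) = 0 :=
    Ideal.Quotient.eq_zero_iff_mem.mpr (Ideal.mem_map_of_mem _ (Ideal.subset_span (by simp)))
  have hmkt2 : mk (algebraMap R' T (t ^ 2)) = 0 :=
    Ideal.Quotient.eq_zero_iff_mem.mpr (Ideal.mem_map_of_mem _ (Ideal.subset_span (by simp)))
  have htσ : algebraMap R' T t = algebraMap R' T (↑c⁻¹ : R') * σ ^ (n + 1) := by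
    rw [hσ, ← map_mul, ← mul_assoc, Units.inv_mul, one_mul]
  have hmkt : mk (algebraMap R' T t) ∈ N := by
    rw [htσ, map_mul, map_pow, pow_succ]
    exact Ideal.mul_mem_left _ _ (Ideal.mul_mem_left _ _ (Ideal.subset_span rfl))
  have h𝔪N : ∀ r ∈ 𝔪, mk (algebraMap R' T r) ∈ N := by
    intro r hr
    obtain ⟨a, b, rfl⟩ := Ideal.mem_span_pair.mp hr
    rw [map_add, map_add, map_mul, map_mul, map_mul, map_mul, hmkp, mul_zero, zero_add]
    exact Ideal.mul_mem_left _ _ hmkt
  -- `σ` is nilpotent in the quotient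
  have hσnil : mk σ ^ (2 * (n + 1)) = 0 := by
    rw [pow_mul', ← map_pow, hσ, ← map_pow, ← map_pow, mul_pow, map_mul, map_mul, hmkt2, mul_zero]
  have hNnil : ∀ x ∈ N, IsNilpotent x := by
    intro x hx
    obtain ⟨y, rfl⟩ := Ideal.mem_span_singleton'.mp hx
    exact ⟨2 * (n + 1), by rw [mul_pow, hσnil, mul_zero]⟩
  -- every element is congruent to a constant modulo `σ`
  have hconst : ∀ x : T, ∃ r : R', x - algebraMap R' T r ∈ Ideal.span {σ} := by
    intro x
    refine ⟨B.repr x 0, ?_⟩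
    have hx := B.sum_repr x
    rw [Fin.sum_univ_succ, hB 0, Fin.val_zero, pow_zero, ← Algebra.algebraMap_eq_smul_one] at hx
    have hx2 : x - algebraMap R' T (B.repr x 0) = ∑ i : Fin n, (B.repr x) i.succ • B i.succ := by
      rw [sub_eq_iff_eq_add']; exact hx.symm
    rw [hx2]
    refine Ideal.sum_mem _ fun i _ => ?_
    rw [hB, Fin.val_succ, pow_succ, ← smul_mul_assoc]
    exact Ideal.mul_mem_left _ _ (Ideal.subset_span rfl)
  -- elements outside `N` are units
  have hunit : ∀ x : T ⧸ I₀, x ∉ N → IsUnit x := by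
    intro x hx
    obtain ⟨x', rfl⟩ := Ideal.Quotient.mk_surjective x
    obtain ⟨r, hr⟩ := hconst x'
    obtain ⟨w, hw⟩ := Ideal.mem_span_singleton'.mp hr
    have hx' : x' = algebraMap R' T r + w * σ := by rw [hw]; ring
    have hwN : mk (w * σ) ∈ N := by
      rw [map_mul]; exact Ideal.mul_mem_left _ _ (Ideal.subset_span rfl)
    have hr𝔪 : r ∉ 𝔪 := by
      intro hr𝔪
      apply hx
      show mk x' ∈ N
      rw [hx', map_add]
      exact N.add_mem (h𝔪N r hr𝔪) hwN
    obtain ⟨s, m, hm, hsm⟩ := hmax.exists_inv hr𝔪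
    have hprod : mk x' * mk (algebraMap R' T s) =
        1 - (mk (algebraMap R' T m) - mk (w * σ) * mk (algebraMap R' T s)) := by
      have h1 : algebraMap R' T r * algebraMap R' T s = 1 - algebraMap R' T m := by
        rw [← map_mul, ← map_one (algebraMap R' T), ← map_sub]
        congr 1
        rw [← hsm]; ring
      rw [hx', map_add, add_mul, ← map_mul mk (algebraMap R' T r), h1, map_sub, map_one]
      ring
    have hz : mk (algebraMap R' T m) - mk (w * σ) * mk (algebraMap R' T s) ∈ N :=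
      N.sub_mem (h𝔪N m hm) (Ideal.mul_mem_right _ _ hwN)
    have hu : IsUnit (mk x' * mk (algebraMap R' T s)) := by
      rw [hprod]
      exact (hNnil _ hz).isUnit_one_sub
    exact isUnit_of_mul_isUnit_left hu
  refine ⟨?_, ?_⟩
  · refine IsLocalRing.of_isUnit_or_isUnit_one_sub_self fun a => ?_
    by_cases ha : a ∈ N
    · exact Or.inr (hNnil a ha).isUnit_one_sub
    · exact Or.inl (hunit a ha)
  · intro J hJ
    apply le_antisymm
    · intro x hxJ
      by_contra hxN
      exact hJ.ne_top (Ideal.eq_top_of_isUnit_mem _ hxJ (hunit x hxN))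
    · intro x hxN
      obtain ⟨k, hk⟩ := hNnil x hxN
      exact hJ.isPrime.mem_of_pow_mem k (by rw [hk]; exact J.zero_mem)

end Quot

end Fermat.Agent.RED.CUSP.RadicalDisc9
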