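/-
Program H (S18), chapter RED/CUSP, helper23: the ABSTRACT CUSP THEOREM (A5).

Data: `j : R →+* R'` (`R'` a domain, `τ'` prime, `(π', τ')` maximal, `R → R'/τ'²` onto,
`(π, τ²) = j⁻¹(π', τ'²)`); `S` free over `R` with basis `b`; for each cusp `κ` an `R'`-algebra `T κ` with
radical basis `σ^i` (`i < e κ`), `σ^(e κ) = c κ * τ'`, `e κ` invertible; ring homs `f κ : S → T κ`
semilinear over `j`; the discriminant of `b` is a power of `τ'` up to a unit; and the
characteristic-zero input `hchar0` (`S/τ → ∏ T κ/τ'` is injective up to elements `r` with `τ' ∤ j r`).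

Conclusion (`cusp_abstract`): every maximal ideal `x ∋ π, τ` of `S` is locally generated by `π` and
one more element.
-/
import Fermat.Agent.RED.CUSP.DiscCompare23
import Fermat.Agent.RED.CUSP.LocalGen23
import Fermat.Agent.RED.CUSP.PiDiscr16
import Fermat.Agent.RED.CUSP.RadicalDisc9

set_option autoImplicit false
set_option linter.unusedSectionVars false
set_option linter.unusedVariables false

open Matrix

namespace Fermat.Agent.RED.CUSP.CuspAbstract23

open Fermat.Agent.RED.CUSP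

variable {R R' S : Type*} [CommRing R] [CommRing R'] [IsDomain R'] [CommRing S] [Algebra R S]
variable {C : Type*} [Fintype C] [DecidableEq C] (e : C → ℕ) (he : ∀ k, 0 < e k)
variable (T : C → Type*) [∀ κ, CommRing (T κ)] [∀ κ, Algebra R' (T κ)]
variable (j : R →+* R') (τ : R) (τ' : R') (hjτ : j τ = τ') (hτ' : Prime τ')
variable (σ : ∀ κ, T κ) (c : ∀ κ, R'ˣ) (hσ : ∀ κ, σ κ ^ e κ = algebraMap R' (T κ) (c κ * τ'))
variable (B : ∀ κ, Module.Basis (Fin (e κ)) R' (T κ)) (hB : ∀ κ i, B κ i = σ κ ^ (i : ℕ))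
variable (b : Module.Basis (Σ κ, Fin (e κ)) R S)
variable (f : ∀ κ, S →+* T κ) (hf : ∀ κ (r : R) (x : S), f κ (r • x) = j r • f κ x)

/-- the product map. -/
def F : S →+* ∀ κ, T κ := RingHom.pi f

omit [IsDomain R'] [Fintype C] [DecidableEq C] in
theorem F_apply (x : S) (κ : C) : F T f x κ = f κ x := rfl

omit [IsDomain R'] [Fintype C] [DecidableEq C] in
include hf in
theorem F_semilinear (r : R) (x : S) : F T f (r • x) = j r • F T f x := by
  ext κ
  rw [F_apply, hf, Pi.smul_apply, F_apply]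

include hσ hB he in
/-- the discriminant of the product basis is a power of `τ'` up to a unit. -/
theorem assoc_discr_pi (heu : ∀ κ, IsUnit ((e κ : ℕ) : R')) :
    Associated (Algebra.discr R' (Pi.basis B)) (τ' ^ ∑ κ, (e κ - 1)) := by
  rw [PiDiscr16.discr_pi e T B, ← Finset.prod_pow_eq_pow_sum]
  refine Associated.prod _ _ _ fun κ _ => ?_
  obtain ⟨ε, hε⟩ := RadicalDisc9.discr_radical (e κ) (he κ) (σ κ) (c κ * τ') (hσ κ) (B κ) (hB κ)
  rw [hε, mul_pow]
  have hu : IsUnit ((ε : R') * ((e κ : ℕ) : R') ^ e κ * ((c κ : R')) ^ (e κ - 1)) :=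
    (ε.isUnit.mul ((heu κ).pow _)).mul ((c κ).isUnit.pow _)
  have : (ε : R') * ((e κ : ℕ) : R') ^ e κ * ((c κ : R') ^ (e κ - 1) * τ' ^ (e κ - 1)) =
      ((ε : R') * ((e κ : ℕ) : R') ^ e κ * ((c κ : R')) ^ (e κ - 1)) * τ' ^ (e κ - 1) := by ring
  rw [this]
  exact (associated_isUnit_mul_left_iff hu).mpr (Associated.refl _)

include hf hjτ hτ' in
/-- **(iv) ⇒ `τ' ∤ det Θ`.** -/
theorem not_dvd_det
    (hsurj : ∀ r' : R', ∃ r : R, τ' ∣ r' - j r)
    (hchar0 : ∀ x : S, (∀ κ, f κ x ∈ Ideal.span {algebraMap R' (T κ) τ'}) →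
      ∃ r : R, ¬ τ' ∣ j r ∧ ∃ y : S, r • x = τ • y) :
    ¬ τ' ∣ (DiscCompare23.theta (F T f) b (Pi.basis B)).det := by
  classical
  intro hdvd
  set Θ := DiscCompare23.theta (F T f) b (Pi.basis B) with hΘ
  -- reduce mod `τ'`
  set D := R' ⧸ Ideal.span {τ'} with hD
  have : (Ideal.span {τ'}).IsPrime := (Ideal.span_singleton_prime hτ'.ne_zero).mpr hτ'
  set mk : R' →+* D := Ideal.Quotient.mk _ with hmk
  have hmk0 : ∀ r' : R', mk r' = 0 ↔ τ' ∣ r' := by
    intro r'
    rw [hmk, Ideal.Quotient.eq_zero_iff_mem, Ideal.mem_span_singleton]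
  have hdet0 : (Θ.map mk).det = 0 := by
    have : (Θ.map mk).det = mk Θ.det := by
      rw [← RingHom.mapMatrix_apply, ← RingHom.map_det]
    rw [this, hmk0]; exact hdvd
  obtain ⟨vbar, hvbar, hmul⟩ := Matrix.exists_mulVec_eq_zero_iff.mpr hdet0
  -- lift `vbar`
  have hmksurj : Function.Surjective mk := Ideal.Quotient.mk_surjective
  choose v' hv' using fun l => hmksurj (vbar l)
  choose v hv using fun l => hsurj (v' l)
  have hvl : ∀ l, mk (j (v l)) = vbar l := by
    intro l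
    have h1 : mk (v' l - j (v l)) = 0 := (hmk0 _).mpr (hv l)
    rw [map_sub, sub_eq_zero] at h1
    rw [← h1, hv']
  set x : S := ∑ l, v l • b l with hx
  have hrepr : ∀ l, b.repr x l = v l := by
    intro l
    have : x = b.equivFun.symm v := by
      rw [Module.Basis.equivFun_symm_apply]
    rw [this, ← Module.Basis.equivFun_apply, LinearEquiv.apply_symm_apply]
  -- all coordinates of `F x` are divisible by `τ'`
  have hcoord : ∀ k, τ' ∣ (Pi.basis B).repr (F T f x) k := by
    intro k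
    rw [DiscCompare23.repr_map j (F T f) (F_semilinear T j f hf) b (Pi.basis B), ← hmk0, map_sum]
    have := congrFun hmul k
    rw [Matrix.mulVec, dotProduct] at this
    rw [Pi.zero_apply] at this
    rw [← this]
    refine Finset.sum_congr rfl fun l _ => ?_
    rw [map_mul, Matrix.map_apply, hrepr, hvl]
  -- hence `f κ x ∈ (τ')`
  have hmem : ∀ κ, f κ x ∈ Ideal.span {algebraMap R' (T κ) τ'} := by
    intro κ
    rw [← (B κ).sum_repr (f κ x)]
    refine Ideal.sum_mem _ fun i _ => ?_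
    obtain ⟨d, hd⟩ := hcoord ⟨κ, i⟩
    rw [Pi.basis_repr, F_apply] at hd
    rw [hd, Algebra.smul_def, map_mul, mul_assoc]
    exact Ideal.mul_mem_right _ _ (Ideal.mem_span_singleton_self _)
  obtain ⟨r, hr, y, hy⟩ := hchar0 x hmem
  -- coordinates
  apply hvbar
  funext l
  have h1 : r * v l = τ * b.repr y l := by
    have := congrArg (fun z => b.repr z l) hy
    simp only [map_smul, Finsupp.smul_apply, smul_eq_mul] at this
    rwa [hrepr] at this
  have h2 : τ' ∣ j r * j (v l) := ⟨j (b.repr y l), by rw [← map_mul, h1, map_mul, hjτ]⟩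
  have h3 : τ' ∣ j (v l) := (hτ'.dvd_or_dvd h2).resolve_left hr
  rw [Pi.zero_apply, ← hvl, hmk0]
  exact h3

include hf hjτ hτ' hσ hB he in
/-- the determinant of the comparison matrix is a unit. -/
theorem isUnit_det_theta (heu : ∀ κ, IsUnit ((e κ : ℕ) : R'))
    (hsurj : ∀ r' : R', ∃ r : R, τ' ∣ r' - j r)
    (a : ℕ) (hdisc : Associated (j (Algebra.discr R b)) (τ' ^ a))
    (hchar0 : ∀ x : S, (∀ κ, f κ x ∈ Ideal.span {algebraMap R' (T κ) τ'}) →
      ∃ r : R, ¬ τ' ∣ j r ∧ ∃ y : S, r • x = τ • y) :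
    IsUnit (DiscCompare23.theta (F T f) b (Pi.basis B)).det :=
  DiscCompare23.isUnit_det j (F T f) (F_semilinear T j f hf) b (Pi.basis B) hτ' hdisc
    (assoc_discr_pi e he T τ' σ c hσ B hB heu)
    (not_dvd_det e T j τ τ' hjτ hτ' B b f hf hsurj hchar0)

/-- The residue rings `Q κ = T κ / (π', τ'²) T κ`. -/
abbrev Q (π' : R') (κ : C) : Type _ :=
  T κ ⧸ Ideal.map (algebraMap R' (T κ)) (Ideal.span {π', τ' ^ 2})

/-- the reduction map `S → ∏ Q κ`. -/
def Phi (π' : R') : S →+* ∀ κ, Q T τ' π' κ :=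
  RingHom.pi fun κ => (Ideal.Quotient.mk _).comp (f κ)

theorem Phi_apply (π' : R') (x : S) (κ : C) :
    Phi T τ' f π' x κ = Ideal.Quotient.mk _ (f κ x) := rfl

include hf hjτ hτ' hσ hB he in
/-- **The abstract cusp theorem.** -/
theorem cusp_abstract (π : R) (π' : R') (hjπ : j π = π')
    (hmax : (Ideal.span {π', τ'}).IsMaximal)
    (heu : ∀ κ, IsUnit ((e κ : ℕ) : R'))
    (hI : ∀ r, j r ∈ Ideal.span {π', τ' ^ 2} → r ∈ Ideal.span {π, τ ^ 2})
    (hsurj : ∀ r' : R', ∃ r : R, τ' ^ 2 ∣ r' - j r)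
    (a : ℕ) (hdisc : Associated (j (Algebra.discr R b)) (τ' ^ a))
    (hchar0 : ∀ x : S, (∀ κ, f κ x ∈ Ideal.span {algebraMap R' (T κ) τ'}) →
      ∃ r : R, ¬ τ' ∣ j r ∧ ∃ y : S, r • x = τ • y)
    (x : Ideal S) (hx : x.IsMaximal) (hπx : algebraMap R S π ∈ x) (hτx : algebraMap R S τ ∈ x) :
    ∃ s₀ ∈ x, ∀ g ∈ x, ∃ s, s ∉ x ∧ s * g ∈ Ideal.span {algebraMap R S π, s₀} := by
  classical
  have hsurj1 : ∀ r' : R', ∃ r : R, τ' ∣ r' - j r := by
    intro r'
    obtain ⟨r, hr⟩ := hsurj r'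
    exact ⟨r, dvd_trans (dvd_pow_self τ' two_ne_zero) hr⟩
  have hdet := isUnit_det_theta e he T j τ τ' hjτ hτ' σ c hσ B hB b f hf heu hsurj1 a hdisc hchar0
  set I : Ideal R := Ideal.span {π, τ ^ 2} with hIdef
  set I' : Ideal R' := Ideal.span {π', τ' ^ 2} with hI'def
  have hII' : ∀ r, j r ∈ I' ↔ r ∈ I := by
    intro r
    refine ⟨hI r, fun hr => ?_⟩
    have : I.map j ≤ I' := by
      rw [hIdef, Ideal.map_span, Ideal.span_le]
      rintro _ ⟨y, (rfl | rfl), rfl⟩
      · rw [hjπ]; exact Ideal.subset_span (by simp)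
      · rw [map_pow, hjτ]; exact Ideal.subset_span (by simp)
    exact this (Ideal.mem_map_of_mem j hr)
  have hsurj' : ∀ r' : R', ∃ r : R, r' - j r ∈ I' := by
    intro r'
    obtain ⟨r, d, hd⟩ := hsurj r'
    refine ⟨r, ?_⟩
    rw [hd]
    exact I'.mul_mem_right _ (Ideal.subset_span (by simp))
  -- componentwise description of `I' (∏ T)`
  have hcomp : ∀ y : (∀ κ, T κ), y ∈ I'.map (algebraMap R' (∀ κ, T κ)) ↔
      ∀ κ, y κ ∈ I'.map (algebraMap R' (T κ)) := by
    intro y
    rw [DiscCompare23.mem_map_iff_repr (Pi.basis B)]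
    constructor
    · intro h κ
      rw [DiscCompare23.mem_map_iff_repr (B κ)]
      intro i
      exact h ⟨κ, i⟩
    · rintro h ⟨κ, i⟩
      rw [Pi.basis_repr]
      exact (DiscCompare23.mem_map_iff_repr (B κ) I' (y κ)).mp (h κ) i
  -- surjectivity and kernel of `Φ`
  have hΦsurj : Function.Surjective (Phi T τ' f π') := by
    intro q
    choose t ht using fun κ => Ideal.Quotient.mk_surjective (q κ)
    obtain ⟨s, hs⟩ := DiscCompare23.exists_map_sub_mem j (F T f) (F_semilinear T j f hf) b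
      (Pi.basis B) hdet I' hsurj' (fun κ => t κ)
    refine ⟨s, ?_⟩
    funext κ
    rw [Phi_apply, ← ht κ]
    symm
    rw [Ideal.Quotient.eq]
    exact (hcomp _).mp hs κ
  have hΦker : RingHom.ker (Phi T τ' f π') =
      Ideal.span {algebraMap R S π, algebraMap R S τ ^ 2} := by
    have h1 : Ideal.span {algebraMap R S π, algebraMap R S τ ^ 2} = I.map (algebraMap R S) := by
      rw [hIdef, Ideal.map_span, Set.image_pair, map_pow]
    rw [h1]
    ext s
    rw [RingHom.mem_ker]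
    constructor
    · intro hs
      refine DiscCompare23.mem_of_map_mem j (F T f) (F_semilinear T j f hf) b (Pi.basis B) hdet
        I I' hII' s ?_
      rw [hcomp]
      intro κ
      have := congrFun hs κ
      rwa [Phi_apply, Pi.zero_apply, Ideal.Quotient.eq_zero_iff_mem] at this
    · intro hs
      funext κ
      rw [Phi_apply, Pi.zero_apply, Ideal.Quotient.eq_zero_iff_mem]
      -- `f κ` maps `I S` into `I' T κ`
      have hle : I.map (algebraMap R S) ≤ (I'.map (algebraMap R' (T κ))).comap (f κ) := by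
        rw [Ideal.map_le_iff_le_comap]
        intro r hr
        rw [Ideal.mem_comap, Ideal.mem_comap, Algebra.algebraMap_eq_smul_one, hf, map_one,
          ← Algebra.algebraMap_eq_smul_one]
        exact Ideal.mem_map_of_mem _ ((hII' r).mpr hr)
      exact hle hs
  -- every maximal ideal of `Q κ` is principal
  have hQ : ∀ κ, ∀ J : Ideal (Q T τ' π' κ), J.IsMaximal → ∃ s, J = Ideal.span {s} := by
    intro κ J hJ
    exact ⟨_, (RadicalDisc9.radical_quot_local π' τ' hmax (e κ) (he κ) (σ κ) (c κ) (hσ κ) (B κ)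
      (hB κ)).2 J hJ⟩
  have := hx
  exact LocalGen23.exists_local_gen (algebraMap R S π) (algebraMap R S τ) hQ (Phi T τ' f π')
    hΦsurj hΦker x hπx hτx

end Fermat.Agent.RED.CUSP.CuspAbstract23
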