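/-
Program H (S18), chapter RED/CUSP, helper23: `LocPrin` descends from a localisation.

`B` a commutative ring, `M` a submonoid, `S` a localisation of `B` at `M`, `x` a prime ideal of `B`
disjoint from `M`.  If the extended ideal `x S` is locally generated by `π` and one more element, so is
`x`.  Mathlib + `PUR/Interface26` (the definition `LocPrin`).
-/
import Mathlib
import Fermat.Agent.RED.PUR.Interface26

set_option autoImplicit false

namespace Fermat.Agent.RED.CUSP.LocPrinLoc23

open Fermat.Agent.RED.PUR.Interface26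

variable {B : Type*} [CommRing B] (M : Submonoid B) (S : Type*) [CommRing S] [Algebra B S]
  [IsLocalization M S]

/-- membership in the extended prime ideal. -/
theorem mem_map_iff_of_disjoint (x : Ideal B) [hx : x.IsPrime] (hd : Disjoint (M : Set B) (x : Set B))
    (g : B) : algebraMap B S g ∈ x.map (algebraMap B S) ↔ g ∈ x := by
  constructor
  · intro h
    have := IsLocalization.under_map_of_isPrime_disjoint M S hx hd
    rw [← this]
    exact h
  · exact fun h => Ideal.mem_map_of_mem _ h

/-- **`LocPrin` descends from a localisation.** -/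
theorem locPrin_of_localization (π : B) (x : Ideal B) [hx : x.IsPrime]
    (hd : Disjoint (M : Set B) (x : Set B))
    (h : LocPrin (algebraMap B S π) (x.map (algebraMap B S))) : LocPrin π x := by
  obtain ⟨τ', hτ', hloc⟩ := h
  -- write `τ' = τ / m₀`
  obtain ⟨τ, m₀, rfl⟩ := IsLocalization.exists_mk'_eq M τ'
  have hτx : τ ∈ x := by
    rw [← mem_map_iff_of_disjoint M S x hd]
    have : algebraMap B S τ = IsLocalization.mk' S τ m₀ * algebraMap B S m₀ :=
      (IsLocalization.mk'_spec S τ m₀).symm
    rw [this]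
    exact Ideal.mul_mem_right _ _ hτ'
  refine ⟨τ, hτx, fun y hy => ?_⟩
  obtain ⟨s', hs', hsy⟩ := hloc (algebraMap B S y) (Ideal.mem_map_of_mem _ hy)
  rw [Ideal.mem_span_pair] at hsy
  obtain ⟨α', β', hαβ⟩ := hsy
  obtain ⟨s, m₁, rfl⟩ := IsLocalization.exists_mk'_eq M s'
  obtain ⟨α, m₂, rfl⟩ := IsLocalization.exists_mk'_eq M α'
  obtain ⟨β, m₃, rfl⟩ := IsLocalization.exists_mk'_eq M β'
  -- `s ∉ x`
  have hsx : s ∉ x := by
    intro hs
    apply hs'
    have : IsLocalization.mk' S s m₁ = algebraMap B S s * IsLocalization.mk' S 1 m₁ := by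
      rw [← IsLocalization.mk'_eq_mul_mk'_one]
    rw [this]
    exact Ideal.mul_mem_right _ _ (Ideal.mem_map_of_mem _ hs)
  -- clear denominators: multiply by `m₀ m₁ m₂ m₃`
  have key : algebraMap B S ((m₀ * m₂ * m₃ : B) * s * y) =
      algebraMap B S ((m₀ * m₁ * m₃ : B) * α * π + (m₁ * m₂ : B) * β * τ) := by
    have e0 := IsLocalization.mk'_spec S τ m₀
    have e1 := IsLocalization.mk'_spec S s m₁
    have e2 := IsLocalization.mk'_spec S α m₂
    have e3 := IsLocalization.mk'_spec S β m₃
    simp only [map_add, map_mul]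
    rw [← e0, ← e1, ← e2, ← e3]
    have := congrArg (fun z => z * (algebraMap B S m₀ * algebraMap B S m₁ * algebraMap B S m₂ *
      algebraMap B S m₃)) hαβ
    beta_reduce at this
    linear_combination -this
  obtain ⟨m₄, hm₄⟩ := (IsLocalization.eq_iff_exists M S).mp key
  have hmx : ∀ m : M, (m : B) ∉ x := fun m hm =>
    Set.disjoint_left.mp hd m.2 hm
  refine ⟨(m₄ : B) * (m₀ * m₂ * m₃) * s, ?_, ?_⟩
  · intro hmem
    rcases hx.mem_or_mem hmem with h1 | h1
    · rcases hx.mem_or_mem h1 with h2 | h2
      · exact hmx m₄ h2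
      · rcases hx.mem_or_mem h2 with h3 | h3
        · rcases hx.mem_or_mem h3 with h4 | h4
          · exact hmx m₀ h4
          · exact hmx m₂ h4
        · exact hmx m₃ h3
    · exact hsx h1
  · rw [Ideal.mem_span_pair]
    refine ⟨(m₄ : B) * ((m₀ * m₁ * m₃ : B) * α), (m₄ : B) * ((m₁ * m₂ : B) * β), ?_⟩
    linear_combination -hm₄

end Fermat.Agent.RED.CUSP.LocPrinLoc23
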