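/-
Program H (S18), chapter RED/CUSP — helper6, leaf (A2).

Reparametrisation of `A[[X]]` and its freeness over `A[[τ]]` via `τ ↦ u X^e`.
-/
import Mathlib

set_option autoImplicit false

open PowerSeries

noncomputable section

namespace Fermat.Agent.RED.CUSP.PSRadical6

variable {A : Type*} [CommRing A]

/-! ### small helpers on `subst` -/

theorem subst_one' {a : PowerSeries A} (ha : HasSubst a) :
    PowerSeries.subst a (1 : PowerSeries A) = 1 := by
  rw [← coe_substAlgHom ha, map_one]

/-! ### `e`-th roots -/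

theorem exists_root (e : ℕ) (he : IsUnit (e : A)) (u : PowerSeries A)
    (hu : PowerSeries.constantCoeff u = 1) :
    ∃ r : PowerSeries A, PowerSeries.constantCoeff r = 1 ∧ r ^ e = u := by
  set G : PowerSeries A := (1 + X) ^ e - 1 with hG
  have hG0 : constantCoeff G = 0 := by simp [hG]
  have hG1 : coeff 1 G = (e : A) := by
    rw [hG, map_sub, coeff_one_pow]
    simp
  have hGu : IsUnit (coeff 1 G) := hG1 ▸ he
  set Q : PowerSeries A := G.substInvOfIsUnit hGu with hQdef
  have hQ : HasSubst Q := HasSubst.substInvOfIsUnit G hGu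
  have hQ0 : constantCoeff Q = 0 := constantCoeff_substInvOfIsUnit G hGu
  have hGQ : G.subst Q = X := subst_substInvOfIsUnit_right G hG0 hGu
  have h1 : (1 + Q) ^ e = 1 + X := by
    have h2 : G.subst Q = (1 + Q) ^ e - 1 := by
      rw [hG, subst_sub hQ, subst_pow hQ, subst_add hQ, subst_X hQ, subst_one' hQ]
    rw [hGQ] at h2
    rw [h2]; ring
  have hv0 : constantCoeff (u - 1) = 0 := by simp [hu]
  have hv : HasSubst (u - 1) := HasSubst.of_constantCoeff_zero' hv0
  refine ⟨1 + Q.subst (u - 1), ?_, ?_⟩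
  · have h0 : constantCoeff (PowerSeries.subst (u - 1) Q) = 0 :=
      constantCoeff_subst_eq_zero (S := A) hv0 Q hQ0
    rw [map_add, map_one, h0, add_zero]
  · have h3 := congrArg (PowerSeries.subst (u - 1)) h1
    rw [subst_pow hv, subst_add hv, subst_add hv, subst_X hv, subst_one' hv] at h3
    rw [h3]; ring

/-! ### the substitution `X ↦ X * r` is an automorphism -/

/-- The compositional inverse of `X * r`. -/
def invSeries (r : PowerSeries A) (hr : PowerSeries.constantCoeff r = 1) : PowerSeries A :=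
  (X * r).substInvOfIsUnit (by
    rw [coeff_one_mul]
    simp [hr])

theorem constantCoeff_X_mul (r : PowerSeries A) : constantCoeff (X * r) = 0 := by simp

theorem hasSubst_X_mul (r : PowerSeries A) : HasSubst (X * r) :=
  HasSubst.of_constantCoeff_zero' (constantCoeff_X_mul r)

theorem hasSubst_invSeries (r : PowerSeries A) (hr : PowerSeries.constantCoeff r = 1) :
    HasSubst (invSeries r hr) :=
  HasSubst.substInvOfIsUnit _ _

theorem constantCoeff_invSeries (r : PowerSeries A) (hr : PowerSeries.constantCoeff r = 1) :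
    constantCoeff (invSeries r hr) = 0 :=
  constantCoeff_substInvOfIsUnit _ _

theorem subst_invSeries_right (r : PowerSeries A) (hr : PowerSeries.constantCoeff r = 1) :
    PowerSeries.subst (invSeries r hr) (X * r) = X :=
  subst_substInvOfIsUnit_right _ (constantCoeff_X_mul r) _

theorem subst_invSeries_left (r : PowerSeries A) (hr : PowerSeries.constantCoeff r = 1) :
    PowerSeries.subst (X * r) (invSeries r hr) = X :=
  subst_substInvOfIsUnit_left _ (constantCoeff_X_mul r) _

theorem subst_invSeries_subst (r : PowerSeries A) (hr : PowerSeries.constantCoeff r = 1)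
    (f : PowerSeries A) :
    PowerSeries.subst (invSeries r hr) (PowerSeries.subst (X * r) f) = f := by
  rw [subst_comp_subst_apply (hasSubst_X_mul r) (hasSubst_invSeries r hr),
    subst_invSeries_right, X_subst]

theorem subst_subst_invSeries (r : PowerSeries A) (hr : PowerSeries.constantCoeff r = 1)
    (f : PowerSeries A) :
    PowerSeries.subst (X * r) (PowerSeries.subst (invSeries r hr) f) = f := by
  rw [subst_comp_subst_apply (hasSubst_invSeries r hr) (hasSubst_X_mul r),
    subst_invSeries_left, X_subst]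

theorem subst_bijective (r : PowerSeries A) (hr : PowerSeries.constantCoeff r = 1) :
    Function.Bijective
      (PowerSeries.subst (PowerSeries.X * r) : PowerSeries A → PowerSeries A) :=
  Function.bijective_iff_has_inverse.mpr
    ⟨PowerSeries.subst (invSeries r hr), subst_invSeries_subst r hr, subst_subst_invSeries r hr⟩

/-! ### the substitution `τ ↦ u * X ^ e` -/

theorem constantCoeff_mul_X_pow (e : ℕ) (he : 0 < e) (u : PowerSeries A) :
    constantCoeff (u * X ^ e) = 0 := by
  rw [map_mul, map_pow, constantCoeff_X, zero_pow he.ne', mul_zero]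

theorem hasSubst_mul_X_pow (e : ℕ) (he : 0 < e) (u : PowerSeries A) : HasSubst (u * X ^ e) :=
  HasSubst.of_constantCoeff_zero' (constantCoeff_mul_X_pow e he u)

/-- The substitution `τ ↦ u * X ^ e` as a ring endomorphism of `A[[X]]`. -/
def psi (e : ℕ) (he : 0 < e) (u : PowerSeries A) : PowerSeries A →+* PowerSeries A :=
  ((substAlgHom (R := A) (hasSubst_mul_X_pow e he u) :
    PowerSeries A →ₐ[A] PowerSeries A) : PowerSeries A →+* PowerSeries A)

theorem psi_apply (e : ℕ) (he : 0 < e) (u f : PowerSeries A) :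
    psi e he u f = PowerSeries.subst (u * X ^ e) f := by
  show (substAlgHom (R := A) (hasSubst_mul_X_pow e he u)) f = _
  rw [coe_substAlgHom]

theorem psi_X (e : ℕ) (he : 0 < e) (u : PowerSeries A) : psi e he u X = u * X ^ e := by
  rw [psi_apply, subst_X (hasSubst_mul_X_pow e he u)]

theorem psi_C (e : ℕ) (he : 0 < e) (u : PowerSeries A) (a : A) : psi e he u (C a) = C a := by
  rw [psi_apply]
  exact subst_C a

/-! ### the standard decomposition `f = ∑_{i<e} h_i(X^e) X^i` -/

/-- key coefficient formula. -/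
theorem coeff_std_sum (e : ℕ) (he : 0 < e) (h : Fin e → PowerSeries A) (n : ℕ) (i : Fin e) :
    coeff (e * n + i) (∑ j : Fin e, PowerSeries.subst (X ^ e : PowerSeries A) (h j) * X ^ (j : ℕ))
      = coeff n (h i) := by
  rw [map_sum, Finset.sum_eq_single i]
  · rw [coeff_mul_X_pow', if_pos (Nat.le_add_left _ _), Nat.add_sub_cancel,
      coeff_subst_X_pow he.ne', if_pos (Dvd.intro _ rfl), Nat.mul_div_cancel_left _ he]
    rfl
  · intro j _ hji
    rw [coeff_mul_X_pow']
    split_ifs with hle
    · rw [coeff_subst_X_pow he.ne', if_neg]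
      intro hdvd
      apply hji
      have hi := i.2
      have hj := j.2
      obtain ⟨c, hc⟩ := hdvd
      have h1 : e * n + i = e * c + j := by omega
      have h2 : (e * n + i) % e = (e * c + j) % e := by rw [h1]
      rw [Nat.mul_add_mod, Nat.mul_add_mod, Nat.mod_eq_of_lt hi, Nat.mod_eq_of_lt hj] at h2
      exact Fin.ext h2.symm
    · rfl
  · intro hi
    exact absurd (Finset.mem_univ i) hi

theorem std_decomp (e : ℕ) (he : 0 < e) (f : PowerSeries A) :
    ∃! h : Fin e → PowerSeries A,
      f = ∑ j : Fin e, PowerSeries.subst (X ^ e : PowerSeries A) (h j) * X ^ (j : ℕ) := by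
  refine ⟨fun i => PowerSeries.mk fun n => coeff (e * n + i) f, ?_, ?_⟩
  · ext m
    have hm : m = e * (m / e) + ((⟨m % e, Nat.mod_lt _ he⟩ : Fin e) : ℕ) :=
      (Nat.div_add_mod m e).symm
    conv_rhs => rw [hm]
    rw [coeff_std_sum e he, coeff_mk]
    show coeff m f = coeff (e * (m / e) + m % e) f
    rw [Nat.div_add_mod]
  · intro h' hf
    funext i
    ext n
    rw [coeff_mk, hf, coeff_std_sum e he]

/-! ### the radical parameter `σ` with `u₀ σ^e = u X^e` -/

section Sigma

variable (e : ℕ) (heA : IsUnit (e : A)) (u : PowerSeries A) (u₀ : Aˣ)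
  (hu : PowerSeries.constantCoeff u = u₀)

include hu in
theorem constantCoeff_normalised : constantCoeff (C ((↑u₀⁻¹ : Aˣ) : A) * u) = 1 := by
  rw [map_mul, constantCoeff_C, hu, Units.inv_mul]

/-- an `e`-th root `r` of `u₀⁻¹ u` with constant coefficient `1`. -/
def rootSeries : PowerSeries A :=
  Classical.choose (exists_root e heA (C ((↑u₀⁻¹ : Aˣ) : A) * u) (constantCoeff_normalised u u₀ hu))

theorem constantCoeff_rootSeries : constantCoeff (rootSeries e heA u u₀ hu) = 1 :=
  (Classical.choose_spec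
    (exists_root e heA (C ((↑u₀⁻¹ : Aˣ) : A) * u) (constantCoeff_normalised u u₀ hu))).1

theorem rootSeries_pow : rootSeries e heA u u₀ hu ^ e = C ((↑u₀⁻¹ : Aˣ) : A) * u :=
  (Classical.choose_spec
    (exists_root e heA (C ((↑u₀⁻¹ : Aˣ) : A) * u) (constantCoeff_normalised u u₀ hu))).2

/-- the radical parameter `σ = X * r`. -/
def sigma : PowerSeries A := X * rootSeries e heA u u₀ hu

theorem sigma_def : sigma e heA u u₀ hu = X * rootSeries e heA u u₀ hu := rfl

theorem C_mul_sigma_pow : C (u₀ : A) * sigma e heA u u₀ hu ^ e = u * X ^ e := by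
  rw [sigma_def, mul_pow, rootSeries_pow]
  calc C (u₀ : A) * (X ^ e * (C ((↑u₀⁻¹ : Aˣ) : A) * u))
      = (C (u₀ : A) * C ((↑u₀⁻¹ : Aˣ) : A)) * (u * X ^ e) := by ring
    _ = u * X ^ e := by rw [← map_mul, Units.mul_inv, map_one, one_mul]

theorem hasSubst_sigma : HasSubst (sigma e heA u u₀ hu) := hasSubst_X_mul _

theorem hasSubst_sigma_pow (he : 0 < e) : HasSubst (sigma e heA u u₀ hu ^ e) := by
  apply HasSubst.of_constantCoeff_zero'
  rw [map_pow, sigma_def, constantCoeff_X_mul, zero_pow he.ne']

/-- `ψ(g) = (g(u₀ τ))(τ := X^e)(X := σ)`. -/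
theorem psi_eq_subst_sigma (he : 0 < e) (g : PowerSeries A) :
    psi e he u g = PowerSeries.subst (sigma e heA u u₀ hu)
      (PowerSeries.subst (X ^ e : PowerSeries A) (rescale (u₀ : A) g)) := by
  have hσ := hasSubst_sigma e heA u u₀ hu
  have hσe := hasSubst_sigma_pow e heA u u₀ hu he
  rw [subst_comp_subst_apply (HasSubst.X_pow he.ne') hσ, subst_pow hσ, subst_X hσ,
    rescale_eq_subst, subst_comp_subst_apply (HasSubst.smul_X' (u₀ : A)) hσe,
    subst_smul hσe, subst_X hσe, smul_eq_C_mul, C_mul_sigma_pow, psi_apply]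

theorem sum_psi_eq (he : 0 < e) (g : Fin e → PowerSeries A) :
    ∑ i : Fin e, psi e he u (g i) * sigma e heA u u₀ hu ^ (i : ℕ)
      = PowerSeries.subst (sigma e heA u u₀ hu)
          (∑ i : Fin e, PowerSeries.subst (X ^ e : PowerSeries A) (rescale (u₀ : A) (g i))
            * X ^ (i : ℕ)) := by
  have hσ := hasSubst_sigma e heA u u₀ hu
  rw [← coe_substAlgHom hσ, map_sum]
  refine Finset.sum_congr rfl fun i _ => ?_
  rw [map_mul, map_pow, coe_substAlgHom hσ, subst_X hσ, psi_eq_subst_sigma e heA u u₀ hu he]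

theorem rescale_inv_rescale (g : PowerSeries A) :
    rescale ((↑u₀⁻¹ : Aˣ) : A) (rescale (u₀ : A) g) = g := by
  rw [rescale_rescale, Units.mul_inv, rescale_one, RingHom.id_apply]

theorem rescale_rescale_inv (g : PowerSeries A) :
    rescale (u₀ : A) (rescale ((↑u₀⁻¹ : Aˣ) : A) g) = g := by
  rw [rescale_rescale, Units.inv_mul, rescale_one, RingHom.id_apply]

/-- every `f` is uniquely `∑_{i<e} ψ(g_i) σ^i`. -/
theorem existsUnique_decomp (he : 0 < e) (f : PowerSeries A) :
    ∃! g : Fin e → PowerSeries A,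
      f = ∑ i : Fin e, psi e he u (g i) * sigma e heA u u₀ hu ^ (i : ℕ) := by
  have hr := constantCoeff_rootSeries e heA u u₀ hu
  obtain ⟨h, hh, huniq⟩ :=
    std_decomp e he (PowerSeries.subst (invSeries (rootSeries e heA u u₀ hu) hr) f)
  refine ⟨fun i => rescale ((↑u₀⁻¹ : Aˣ) : A) (h i), ?_, ?_⟩
  · show f = ∑ i : Fin e, psi e he u (rescale ((↑u₀⁻¹ : Aˣ) : A) (h i)) * _
    rw [sum_psi_eq e heA u u₀ hu he]
    simp only [rescale_rescale_inv]
    rw [← hh, sigma_def, subst_subst_invSeries]
  · intro g' hg'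
    rw [sum_psi_eq e heA u u₀ hu he] at hg'
    have h2 : PowerSeries.subst (invSeries (rootSeries e heA u u₀ hu) hr) f
        = ∑ i : Fin e, PowerSeries.subst (X ^ e : PowerSeries A) (rescale (u₀ : A) (g' i))
            * X ^ (i : ℕ) := by
      rw [hg', sigma_def, subst_invSeries_subst]
    have h3 := huniq (fun i => rescale (u₀ : A) (g' i)) h2
    funext i
    rw [← h3]
    exact (rescale_inv_rescale u₀ (g' i)).symm

end Sigma

theorem radical_basis (e : ℕ) (he : 0 < e) (heA : IsUnit (e : A)) (u : PowerSeries A) (u₀ : Aˣ)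
    (hu : PowerSeries.constantCoeff u = u₀) :
    ∃ σ : PowerSeries A, (∃ r, PowerSeries.constantCoeff r = 1 ∧ σ = PowerSeries.X * r) ∧
      PowerSeries.C (u₀ : A) * σ ^ e = u * PowerSeries.X ^ e ∧
        ∀ f : PowerSeries A, ∃! g : Fin e → PowerSeries A,
          f = ∑ i, psi e he u (g i) * σ ^ (i : ℕ) :=
  ⟨sigma e heA u u₀ hu, ⟨rootSeries e heA u u₀ hu, constantCoeff_rootSeries e heA u u₀ hu, rfl⟩,
    C_mul_sigma_pow e heA u u₀ hu, existsUnique_decomp e heA u u₀ hu he⟩

end Fermat.Agent.RED.CUSP.PSRadical6
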