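/-
Program H (S18), chapter RED/CUSP — helper6, leaf (A2) part 2.

The type copy `TCopy A e he u` of `A[[X]]`, viewed as an algebra over `A[[τ]]` through
`psi e he u : τ ↦ u * X ^ e`, and its radical basis `1, σ, …, σ^(e-1)`
(`σ = X * r`, `u₀ σ^e = u X^e`, i.e. `σ^e = algebraMap (u₀⁻¹ τ)`).
-/
import Mathlib
import Fermat.Agent.RED.CUSP.PSRadical6

set_option autoImplicit false

open PowerSeries

noncomputable section

namespace Fermat.Agent.RED.CUSP.PSRadicalBasis6

open Fermat.Agent.RED.CUSP.PSRadical6

universe v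

/-- Type copy of `A[[X]]`, to be viewed as an `A[[τ]]`-algebra through `τ ↦ u * X ^ e`. -/
def TCopy (A : Type v) [CommRing A] (e : ℕ) (_he : 0 < e) (_u : PowerSeries A) : Type v :=
  PowerSeries A

variable {A : Type v} [CommRing A]

instance instCommRingTCopy (e : ℕ) (he : 0 < e) (u : PowerSeries A) : CommRing (TCopy A e he u) :=
  inferInstanceAs (CommRing (PowerSeries A))

instance instAlgebraTCopy (e : ℕ) (he : 0 < e) (u : PowerSeries A) :
    Algebra (PowerSeries A) (TCopy A e he u) :=
  (psi e he u).toAlgebra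

/-- the identity `A[[X]] → TCopy`. -/
def toT (e : ℕ) (he : 0 < e) (u : PowerSeries A) : PowerSeries A ≃+* TCopy A e he u :=
  RingEquiv.refl _

theorem algebraMap_TCopy (e : ℕ) (he : 0 < e) (u : PowerSeries A) (g : PowerSeries A) :
    algebraMap (PowerSeries A) (TCopy A e he u) g = toT e he u (psi e he u g) := rfl

theorem smul_TCopy (e : ℕ) (he : 0 < e) (u : PowerSeries A) (g : PowerSeries A)
    (x : TCopy A e he u) : g • x = toT e he u (psi e he u g) * x := by
  rw [Algebra.smul_def, algebraMap_TCopy]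

section Basis

variable (e : ℕ) (he : 0 < e) (heA : IsUnit (e : A)) (u : PowerSeries A) (u₀ : Aˣ)
  (hu : PowerSeries.constantCoeff u = u₀)

/-- the radical parameter, as an element of the copy. -/
def sigmaT : TCopy A e he u := toT e he u (sigma e heA u u₀ hu)

theorem sigmaT_pow :
    sigmaT e he heA u u₀ hu ^ e
      = algebraMap (PowerSeries A) (TCopy A e he u) (C ((↑u₀⁻¹ : Aˣ) : A) * X) := by
  rw [algebraMap_TCopy, map_mul, psi_C, psi_X, ← C_mul_sigma_pow e heA u u₀ hu, ← mul_assoc,
    ← map_mul, Units.inv_mul, map_one, one_mul, sigmaT, map_pow]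

/-- the linear map `g ↦ ∑ i, g i • σ^i`. -/
def combo : (Fin e → PowerSeries A) →ₗ[PowerSeries A] TCopy A e he u :=
  Fintype.linearCombination (PowerSeries A) fun i : Fin e => sigmaT e he heA u u₀ hu ^ (i : ℕ)

theorem combo_apply (g : Fin e → PowerSeries A) :
    combo e he heA u u₀ hu g
      = toT e he u (∑ i : Fin e, psi e he u (g i) * sigma e heA u u₀ hu ^ (i : ℕ)) := by
  rw [combo, Fintype.linearCombination_apply, map_sum]
  refine Finset.sum_congr rfl fun i _ => ?_
  rw [smul_TCopy, map_mul, map_pow]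
  rfl

theorem combo_bijective : Function.Bijective (combo e he heA u u₀ hu) := by
  constructor
  · intro g g' hgg'
    rw [combo_apply, combo_apply] at hgg'
    have h1 := (toT e he u).injective hgg'
    obtain ⟨g₀, -, huniq⟩ := existsUnique_decomp e heA u u₀ hu he
      (∑ i : Fin e, psi e he u (g i) * sigma e heA u u₀ hu ^ (i : ℕ))
    rw [huniq g rfl, huniq g' h1]
  · intro x
    obtain ⟨g, hg, -⟩ := existsUnique_decomp e heA u u₀ hu he ((toT e he u).symm x)
    refine ⟨g, ?_⟩
    rw [combo_apply, ← hg]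
    exact (toT e he u).apply_symm_apply x

/-- coordinates with respect to `1, σ, …, σ^(e-1)`. -/
def coordEquiv : TCopy A e he u ≃ₗ[PowerSeries A] (Fin e → PowerSeries A) :=
  (LinearEquiv.ofBijective (combo e he heA u u₀ hu) (combo_bijective e he heA u u₀ hu)).symm

/-- **The radical basis** `1, σ, …, σ^(e-1)` of `A[[X]]` over `A[[τ]]`, `τ = u X^e`. -/
def radicalBasis : Module.Basis (Fin e) (PowerSeries A) (TCopy A e he u) :=
  Module.Basis.ofEquivFun (coordEquiv e he heA u u₀ hu)

theorem radicalBasis_apply (i : Fin e) :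
    radicalBasis e he heA u u₀ hu i = sigmaT e he heA u u₀ hu ^ (i : ℕ) := by
  classical
  rw [radicalBasis, Module.Basis.coe_ofEquivFun]
  show (coordEquiv e he heA u u₀ hu).symm (Pi.single i 1) = _
  rw [coordEquiv, LinearEquiv.symm_symm, LinearEquiv.ofBijective_apply, combo,
    Fintype.linearCombination_apply_single, one_smul]

end Basis

end Fermat.Agent.RED.CUSP.PSRadicalBasis6
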