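/-
Program H (RED/CUSP, helper16): the base map `R → R̂` of the cusp chapter.

`A` a commutative ring, `π c : A`.  `𝔫 := (π, t - c) ⊂ A[t]` (`cuspIdeal π c`),
`φ : A[t] →+* A⟦τ⟧`, `t ↦ c + τ` (`phi c`, the Taylor expansion at `c`).

* `mem_cuspIdeal_iff`     : `f ∈ 𝔫 ↔ f(c) ∈ (π)`;
* `cuspIdeal_isMaximal`   : `𝔫` is maximal if `(π)` is;
* `isUnit_phi`            : if `A` is local with maximal ideal `(π)`, `f ∉ 𝔫 ⇒ φ f ∈ A⟦τ⟧ˣ`;
* `phi_mem_iff`           : `φ f ∈ (π, τ²) ↔ f ∈ (π, (t - c)²)`;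
* `exists_phi_sub_mem`    : `φ` is surjective modulo `(π, τ²)` (indeed modulo `τ^n`);
* for any localisation `R` of `A[t]` at `𝔫`:  `phiLoc : R →+* A⟦τ⟧`, `phiLoc_algebraMap`,
  `phiLoc_mem_iff : phiLoc r ∈ (π, τ²) ↔ r ∈ (π, (t - c)²) R`, `exists_phiLoc_sub_mem`
  (the two hypotheses `hI`, `hsurj` of `DiscCompare23.mem_of_map_mem / exists_map_sub_mem`),
  `maximalIdeal_eq : 𝔪_R = (π, t - c)`.

Mathlib only.
-/
import Mathlib

set_option autoImplicit false
set_option linter.unusedSectionVars false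

noncomputable section

namespace Fermat.Agent.RED.CUSP.PolyToPS16

open Polynomial

variable {A : Type*} [CommRing A] (π c : A)

/-- The ideal `(π, t - c)` of `A[t]`. -/
def cuspIdeal : Ideal A[X] := Ideal.span {C π, X - C c}

/-- `f = f(c) + (t - c) g`. -/
theorem exists_eq_eval_add (f : A[X]) : ∃ g : A[X], f = C (f.eval c) + (X - C c) * g := by
  obtain ⟨g, hg⟩ := Polynomial.dvd_iff_isRoot.mpr
    (show (f - C (f.eval c)).IsRoot c by simp [Polynomial.IsRoot])
  exact ⟨g, by rw [← hg]; ring⟩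

/-- `f = f(c) + f'(c) (t - c) + (t - c)² g`. -/
theorem exists_eq_eval_add_sq (f : A[X]) :
    ∃ g : A[X], f = C (f.eval c) + C (f.derivative.eval c) * (X - C c) + (X - C c) ^ 2 * g := by
  obtain ⟨g₁, hg₁⟩ := exists_eq_eval_add c f
  obtain ⟨g₂, hg₂⟩ := exists_eq_eval_add c g₁
  have hd : f.derivative.eval c = g₁.eval c := by
    conv_lhs => rw [hg₁]
    simp
  refine ⟨g₂, ?_⟩
  rw [hd]
  conv_lhs => rw [hg₁, hg₂]
  ring

theorem mem_cuspIdeal_iff (f : A[X]) : f ∈ cuspIdeal π c ↔ f.eval c ∈ Ideal.span {π} := by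
  constructor
  · intro hf
    rw [cuspIdeal, Ideal.mem_span_pair] at hf
    obtain ⟨a, b, rfl⟩ := hf
    simp only [eval_add, eval_mul, eval_C, eval_sub, eval_X, sub_self, mul_zero, add_zero]
    exact Ideal.mul_mem_left _ _ (Ideal.mem_span_singleton_self π)
  · intro hf
    obtain ⟨g, hg⟩ := exists_eq_eval_add c f
    rw [Ideal.mem_span_singleton] at hf
    obtain ⟨a, ha⟩ := hf
    rw [hg, ha, cuspIdeal, Ideal.mem_span_pair]
    exact ⟨C a, g, by rw [C_mul]; ring⟩

theorem C_pi_mem_cuspIdeal : C π ∈ cuspIdeal π c := Ideal.subset_span (by simp)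

theorem X_sub_C_mem_cuspIdeal : X - C c ∈ cuspIdeal π c := Ideal.subset_span (by simp)

theorem cuspIdeal_isMaximal (hπ : (Ideal.span {π}).IsMaximal) : (cuspIdeal π c).IsMaximal := by
  rw [Ideal.isMaximal_iff]
  constructor
  · rw [mem_cuspIdeal_iff, eval_one]
    exact fun h => hπ.ne_top ((Ideal.eq_top_iff_one _).mpr h)
  · intro J f hle hfn hfJ
    rw [mem_cuspIdeal_iff] at hfn
    -- `f(c)` is a unit modulo `π`
    obtain ⟨b, hb⟩ := hπ.exists_inv hfn
    obtain ⟨y, hy, hby⟩ := hb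
    -- 1 = b f(c) + y, y ∈ (π)
    obtain ⟨g, hg⟩ := exists_eq_eval_add c f
    have h1 : (1 : A[X]) = C b * f - C b * (X - C c) * g + C y := by
      have : (1 : A[X]) = C (b * f.eval c + y) := by rw [hby, C_1]
      rw [this, C_add, C_mul]
      conv_rhs => rw [hg]
      ring
    rw [h1]
    refine J.add_mem (J.sub_mem (J.mul_mem_left _ hfJ) ?_) ?_
    · exact J.mul_mem_right _ (J.mul_mem_left _ (hle (X_sub_C_mem_cuspIdeal π c)))
    · apply hle
      rw [mem_cuspIdeal_iff, eval_C]
      exact hy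

/-- The ring hom `A[t] → A⟦τ⟧`, `t ↦ c + τ`. -/
def phi : A[X] →+* PowerSeries A :=
  (Polynomial.coeToPowerSeries.ringHom).comp ((taylorAlgHom c : A[X] →ₐ[A] A[X]) : A[X] →+* A[X])

theorem phi_apply (f : A[X]) : phi c f = ((taylor c f : A[X]) : PowerSeries A) := rfl

theorem phi_C (a : A) : phi c (C a) = PowerSeries.C a := by
  rw [phi_apply, taylor_C, Polynomial.coe_C]

theorem phi_X : phi c X = PowerSeries.C c + PowerSeries.X := by
  rw [phi_apply, taylor_X, Polynomial.coe_add, Polynomial.coe_X, Polynomial.coe_C, add_comm]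

theorem phi_X_sub_C : phi c (X - C c) = PowerSeries.X := by
  rw [map_sub, phi_X, phi_C, add_sub_cancel_left]

theorem coeff_phi (f : A[X]) (n : ℕ) :
    PowerSeries.coeff n (phi c f) = (hasseDeriv n f).eval c := by
  rw [phi_apply, Polynomial.coeff_coe, taylor_coeff]

theorem constantCoeff_phi (f : A[X]) : PowerSeries.constantCoeff (phi c f) = f.eval c := by
  rw [← PowerSeries.coeff_zero_eq_constantCoeff_apply, phi_apply, Polynomial.coeff_coe,
    taylor_coeff_zero]

theorem coeff_one_phi (f : A[X]) : PowerSeries.coeff 1 (phi c f) = f.derivative.eval c := by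
  rw [phi_apply, Polynomial.coeff_coe, taylor_coeff_one]

theorem phi_injective : Function.Injective (phi c) := by
  intro f g h
  have h1 : ((taylor c f : A[X]) : PowerSeries A) = ((taylor c g : A[X]) : PowerSeries A) := h
  exact taylor_injective c (Polynomial.coe_injective A h1)

/-- `f ∉ (π, t - c)` is mapped to a unit, when `A` is local with maximal ideal `(π)`. -/
theorem isUnit_phi [IsLocalRing A] (hπ : IsLocalRing.maximalIdeal A = Ideal.span {π}) (f : A[X])
    (hf : f ∉ cuspIdeal π c) : IsUnit (phi c f) := by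
  rw [PowerSeries.isUnit_iff_constantCoeff, constantCoeff_phi]
  rw [mem_cuspIdeal_iff, ← hπ, IsLocalRing.mem_maximalIdeal, mem_nonunits_iff, not_not] at hf
  exact hf

/-- Membership in `(π, τ²) ⊂ A⟦τ⟧`. -/
theorem mem_span_pi_X_sq_iff (g : PowerSeries A) :
    g ∈ Ideal.span {PowerSeries.C π, (PowerSeries.X : PowerSeries A) ^ 2} ↔
      PowerSeries.coeff 0 g ∈ Ideal.span {π} ∧ PowerSeries.coeff 1 g ∈ Ideal.span {π} := by
  constructor
  · intro hg
    rw [Ideal.mem_span_pair] at hg
    obtain ⟨a, b, rfl⟩ := hg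
    constructor
    · rw [map_add, PowerSeries.coeff_mul_C, PowerSeries.coeff_mul_X_pow']
      simp only [show ¬ (2 ≤ 0) by norm_num, if_false, add_zero]
      exact Ideal.mul_mem_left _ _ (Ideal.mem_span_singleton_self π)
    · rw [map_add, PowerSeries.coeff_mul_C, PowerSeries.coeff_mul_X_pow']
      simp only [show ¬ (2 ≤ 1) by norm_num, if_false, add_zero]
      exact Ideal.mul_mem_left _ _ (Ideal.mem_span_singleton_self π)
  · rintro ⟨h0, h1⟩
    rw [Ideal.mem_span_singleton] at h0 h1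
    obtain ⟨a0, ha0⟩ := h0
    obtain ⟨a1, ha1⟩ := h1
    rw [Ideal.mem_span_pair]
    refine ⟨PowerSeries.C a0 + PowerSeries.C a1 * PowerSeries.X,
      PowerSeries.mk fun n => PowerSeries.coeff (n + 2) g, ?_⟩
    ext n
    rw [map_add, PowerSeries.coeff_mul_C, PowerSeries.coeff_mul_X_pow']
    rcases n with _ | _ | n
    · simp [ha0, mul_comm]
    · simp [ha1, mul_comm]
    · simp

theorem phi_mem_iff (f : A[X]) :
    phi c f ∈ Ideal.span {PowerSeries.C π, (PowerSeries.X : PowerSeries A) ^ 2} ↔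
      f ∈ Ideal.span {C π, (X - C c) ^ 2} := by
  rw [mem_span_pi_X_sq_iff, PowerSeries.coeff_zero_eq_constantCoeff_apply, constantCoeff_phi,
    coeff_one_phi]
  constructor
  · rintro ⟨h0, h1⟩
    rw [Ideal.mem_span_singleton] at h0 h1
    obtain ⟨a0, ha0⟩ := h0
    obtain ⟨a1, ha1⟩ := h1
    obtain ⟨g, hg⟩ := exists_eq_eval_add_sq c f
    rw [Ideal.mem_span_pair]
    refine ⟨C a0 + C a1 * (X - C c), g, ?_⟩
    conv_rhs => rw [hg, ha0, ha1, C_mul, C_mul]
    ring
  · intro hf
    rw [Ideal.mem_span_pair] at hf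
    obtain ⟨a, b, rfl⟩ := hf
    rw [← coeff_one_phi, ← constantCoeff_phi, ← PowerSeries.coeff_zero_eq_constantCoeff_apply,
      ← mem_span_pi_X_sq_iff, map_add, map_mul, map_mul, map_pow, phi_C, phi_X_sub_C,
      Ideal.mem_span_pair]
    exact ⟨_, _, rfl⟩

/-- `φ` is surjective modulo `τ ^ n`. -/
theorem exists_phi_sub_mem_pow (g : PowerSeries A) (n : ℕ) :
    ∃ f : A[X], (PowerSeries.X : PowerSeries A) ^ n ∣ g - phi c f := by
  refine ⟨taylor (-c) (PowerSeries.trunc n g), ?_⟩
  rw [phi_apply, taylor_taylor, add_neg_cancel, taylor_zero, PowerSeries.X_pow_dvd_iff]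
  intro m hm
  rw [map_sub, Polynomial.coeff_coe, PowerSeries.coeff_trunc, if_pos hm, sub_self]

/-- `φ` is surjective modulo `(π, τ²)`. -/
theorem exists_phi_sub_mem (g : PowerSeries A) :
    ∃ f : A[X], g - phi c f ∈
      Ideal.span {PowerSeries.C π, (PowerSeries.X : PowerSeries A) ^ 2} := by
  obtain ⟨f, hf⟩ := exists_phi_sub_mem_pow c g 2
  exact ⟨f, Ideal.mem_span_pair.mpr ⟨0, _, by rw [zero_mul, zero_add, mul_comm]; exact hf.choose_spec.symm⟩⟩

/-! ### The localisation at `(π, t - c)` -/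

section Loc

variable [IsLocalRing A] (hπ : IsLocalRing.maximalIdeal A = Ideal.span {π})
variable (R : Type*) [CommRing R] [Algebra A[X] R] [hP : (cuspIdeal π c).IsPrime]
  [IsLocalization.AtPrime R (cuspIdeal π c)]

include hπ in
theorem isUnit_phi_primeCompl (y : (cuspIdeal π c).primeCompl) : IsUnit (phi c (y : A[X])) :=
  isUnit_phi π c hπ _ y.2

/-- The extension of `φ` to the localisation of `A[t]` at `(π, t - c)`. -/
def phiLoc : R →+* PowerSeries A :=
  IsLocalization.lift (M := (cuspIdeal π c).primeCompl) (g := phi c)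
    (isUnit_phi_primeCompl π c hπ)

theorem phiLoc_algebraMap (f : A[X]) : phiLoc π c hπ R (algebraMap A[X] R f) = phi c f :=
  IsLocalization.lift_eq _ f

/-- `π` as an element of `R`. -/
def piR : R := algebraMap A[X] R (C π)

/-- `τ = t - c` as an element of `R`. -/
def tauR : R := algebraMap A[X] R (X - C c)

theorem phiLoc_piR : phiLoc π c hπ R (piR π R) = PowerSeries.C π := by
  rw [piR, phiLoc_algebraMap, phi_C]

theorem phiLoc_tauR : phiLoc π c hπ R (tauR c R) = PowerSeries.X := by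
  rw [tauR, phiLoc_algebraMap, phi_X_sub_C]

/-- hypothesis `hI` of `DiscCompare23.mem_of_map_mem`. -/
theorem phiLoc_mem_iff (r : R) :
    phiLoc π c hπ R r ∈ Ideal.span {PowerSeries.C π, (PowerSeries.X : PowerSeries A) ^ 2} ↔
      r ∈ Ideal.span {piR π R, tauR c R ^ 2} := by
  constructor
  · intro h
    obtain ⟨f, s, rfl⟩ := IsLocalization.exists_mk'_eq (cuspIdeal π c).primeCompl r
    have h1 : phiLoc π c hπ R (IsLocalization.mk' R f s) * phi c (s : A[X]) = phi c f := by
      rw [← phiLoc_algebraMap π c hπ R (s : A[X]), ← map_mul, IsLocalization.mk'_spec,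
        phiLoc_algebraMap]
    have h2 : phi c f ∈ Ideal.span {PowerSeries.C π, (PowerSeries.X : PowerSeries A) ^ 2} := by
      rw [← h1]; exact Ideal.mul_mem_right _ _ h
    rw [phi_mem_iff, Ideal.mem_span_pair] at h2
    obtain ⟨a, b, hab⟩ := h2
    rw [Ideal.mem_span_pair]
    refine ⟨IsLocalization.mk' R a s, IsLocalization.mk' R b s, ?_⟩
    symm
    rw [IsLocalization.mk'_eq_iff_eq_mul, piR, tauR, ← hab, map_add, map_mul, map_mul, map_pow]
    have ha := IsLocalization.mk'_spec R a s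
    have hb := IsLocalization.mk'_spec R b s
    rw [← ha, ← hb]
    ring
  · intro h
    rw [Ideal.mem_span_pair] at h
    obtain ⟨a, b, rfl⟩ := h
    rw [map_add, map_mul, map_mul, map_pow, phiLoc_piR, phiLoc_tauR, Ideal.mem_span_pair]
    exact ⟨_, _, rfl⟩

/-- hypothesis `hsurj` of `DiscCompare23.exists_map_sub_mem`. -/
theorem exists_phiLoc_sub_mem (g : PowerSeries A) :
    ∃ r : R, g - phiLoc π c hπ R r ∈
      Ideal.span {PowerSeries.C π, (PowerSeries.X : PowerSeries A) ^ 2} := by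
  obtain ⟨f, hf⟩ := exists_phi_sub_mem π c g
  exact ⟨algebraMap A[X] R f, by rwa [phiLoc_algebraMap]⟩

theorem phiLoc_injective : Function.Injective (phiLoc π c hπ R) := by
  rw [injective_iff_map_eq_zero]
  intro r hr
  obtain ⟨f, s, rfl⟩ := IsLocalization.exists_mk'_eq (cuspIdeal π c).primeCompl r
  have h1 : phiLoc π c hπ R (IsLocalization.mk' R f s) * phi c (s : A[X]) = phi c f := by
    rw [← phiLoc_algebraMap π c hπ R (s : A[X]), ← map_mul, IsLocalization.mk'_spec,
      phiLoc_algebraMap]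
  rw [hr, zero_mul] at h1
  have hf : f = 0 := phi_injective c (by rw [← h1, map_zero])
  rw [hf, IsLocalization.mk'_zero]

include hπ in
/-- The non-units of `R` are the elements of `(π, t - c) R`: the maximal ideal of the local ring
`R` is generated by `π` and `τ = t - c`. -/
theorem not_isUnit_iff_mem (r : R) : ¬ IsUnit r ↔ r ∈ Ideal.span {piR π R, tauR c R} := by
  constructor
  · intro h
    obtain ⟨f, s, rfl⟩ := IsLocalization.exists_mk'_eq (cuspIdeal π c).primeCompl r
    rw [IsLocalization.AtPrime.isUnit_mk'_iff R (cuspIdeal π c), Ideal.primeCompl,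
      Submonoid.mem_mk, Subsemigroup.mem_mk, Set.mem_compl_iff, not_not] at h
    rw [SetLike.mem_coe, cuspIdeal, Ideal.mem_span_pair] at h
    obtain ⟨a, b, hab⟩ := h
    rw [Ideal.mem_span_pair]
    refine ⟨IsLocalization.mk' R a s, IsLocalization.mk' R b s, ?_⟩
    symm
    rw [IsLocalization.mk'_eq_iff_eq_mul, piR, tauR, ← hab, map_add, map_mul, map_mul]
    have ha := IsLocalization.mk'_spec R a s
    have hb := IsLocalization.mk'_spec R b s
    rw [← ha, ← hb]
    ring
  · intro h hu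
    rw [Ideal.mem_span_pair] at h
    obtain ⟨a, b, rfl⟩ := h
    have h1 := hu.map (phiLoc π c hπ R)
    rw [map_add, map_mul, map_mul, phiLoc_piR, phiLoc_tauR,
      PowerSeries.isUnit_iff_constantCoeff] at h1
    simp only [map_add, map_mul, PowerSeries.constantCoeff_C, PowerSeries.constantCoeff_X,
      mul_zero, add_zero] at h1
    have h2 : PowerSeries.constantCoeff (phiLoc π c hπ R a) * π ∈ IsLocalRing.maximalIdeal A := by
      rw [hπ]
      exact Ideal.mul_mem_left _ _ (Ideal.mem_span_singleton_self π)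
    exact (IsLocalRing.mem_maximalIdeal _).mp h2 h1

end Loc

end Fermat.Agent.RED.CUSP.PolyToPS16
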