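/-
Program H (S18), chapter RED/CUSP, helper23: the SEMI-CONCRETE cusp theorem.

`A` a DVR with uniformiser `π`, `R0 = A[X]`, `B` an integrally closed domain finite over `A[X]`
(the chart: the integral closure of `A[t]` in `F`), `c : A` a cusp value, `P = (π, X - c)`.
Inputs: expansion maps `ιPS κ : B →+* A⟦X⟧` at the cusps `κ` over `c` with
`ιPS κ (p(t)) = p(c + u_κ X^{e_κ})`; (iv) injectivity in characteristic zero; the rank identity
`∑ e_κ = rank`; the discriminant of `B_P / A[X]_P` is a power of `τ = X - c` up to a unit.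
Output: every maximal ideal `x ∋ π, t - c` of `B` satisfies `LocPrin π x`.
-/
import Fermat.Agent.RED.CUSP.CuspAbstract23
import Fermat.Agent.RED.CUSP.PSRadicalBasis6
import Fermat.Agent.RED.CUSP.PolyToPS16
import Fermat.Agent.RED.CUSP.LocPrinLoc23
import Fermat.Agent.RED.PUR.LocalFree26

set_option autoImplicit false
set_option linter.unusedSectionVars false
set_option linter.unusedVariables false

noncomputable section

namespace Fermat.Agent.RED.CUSP.CuspSemi23

open Fermat.Agent.RED.CUSP Fermat.Agent.RED.PUR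
open Fermat.Agent.RED.PUR.LocalFree26 Fermat.Agent.RED.PUR.Interface26
open Fermat.Agent.RED.CUSP.PolyToPS16 Fermat.Agent.RED.CUSP.PSRadical6
open Fermat.Agent.RED.CUSP.PSRadicalBasis6

variable {A : Type*} [CommRing A] [IsDomain A]

/-- `(π, X)` is a maximal ideal of `A⟦X⟧` when `(π)` is maximal in `A`. -/
theorem span_C_X_isMaximal (π : A) (hπ : (Ideal.span {π}).IsMaximal) :
    (Ideal.span {PowerSeries.C π, (PowerSeries.X : PowerSeries A)}).IsMaximal := by
  have hmem : ∀ g : PowerSeries A, g ∈ Ideal.span {PowerSeries.C π, (PowerSeries.X : PowerSeries A)} ↔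
      PowerSeries.constantCoeff g ∈ Ideal.span {π} := by
    intro g
    constructor
    · intro hg
      rw [Ideal.mem_span_pair] at hg
      obtain ⟨a, b, rfl⟩ := hg
      simp only [map_add, map_mul, PowerSeries.constantCoeff_C, PowerSeries.constantCoeff_X,
        mul_zero, add_zero]
      exact Ideal.mul_mem_left _ _ (Ideal.mem_span_singleton_self π)
    · intro hg
      obtain ⟨d, hd⟩ := Ideal.mem_span_singleton'.mp hg
      have h1 : g = PowerSeries.C (PowerSeries.constantCoeff g) +
          PowerSeries.X * PowerSeries.mk fun n => PowerSeries.coeff (n + 1) g := by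
        ext n
        cases n with
        | zero => simp
        | succ n => simp [PowerSeries.coeff_succ_X_mul]
      rw [h1, ← hd, map_mul]
      refine Ideal.add_mem _ (Ideal.mul_mem_left _ _ (Ideal.subset_span (by simp))) ?_
      exact Ideal.mul_mem_right _ _ (Ideal.subset_span (by simp))
  rw [Ideal.isMaximal_iff]
  constructor
  · rw [hmem, map_one]
    exact fun h => hπ.ne_top ((Ideal.eq_top_iff_one _).mpr h)
  · intro J g hle hgn hgJ
    rw [hmem] at hgn
    -- `constantCoeff g` is a unit mod `π`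
    obtain ⟨a, ha⟩ : ∃ a : A, a * PowerSeries.constantCoeff g - 1 ∈ Ideal.span {π} := by
      have := hπ.exists_inv hgn
      obtain ⟨a, i, hi, hai⟩ := this
      exact ⟨a, by rw [← hai]; simpa using hi⟩
    have h1 : PowerSeries.C a * g - 1 ∈
        Ideal.span {PowerSeries.C π, (PowerSeries.X : PowerSeries A)} := by
      rw [hmem]
      simpa using ha
    have h2 : PowerSeries.C a * g ∈ J := J.mul_mem_left _ hgJ
    have := J.sub_mem h2 (hle h1)
    rwa [sub_sub_cancel] at this

/-! ### The setting -/

section Main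

variable [IsDiscreteValuationRing A] (π : A) (c : A)
variable [hP : (cuspIdeal π c).IsPrime]
variable (B : Type*) [CommRing B] [IsDomain B] [IsIntegrallyClosed B] [Algebra (Polynomial A) B]
  [Module.Finite (Polynomial A) B] [FaithfulSMul (Polynomial A) B]
variable {C : Type*} [Fintype C] [DecidableEq C] (e : C → ℕ) (he : ∀ k, 0 < e k)
  (heA : ∀ k, IsUnit ((e k : ℕ) : A)) (u : C → PowerSeries A) (u₀ : C → Aˣ)
  (hu : ∀ k, PowerSeries.constantCoeff (u k) = u₀ k)
variable (ιPS : C → B →+* PowerSeries A)
  (hι : ∀ k (p : Polynomial A), ιPS k (algebraMap (Polynomial A) B p) = psi (e k) (he k) (u k) (phi c p))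

/-- `R = A[X]_P`. -/
abbrev Rloc : Type _ := RP (cuspIdeal π c)

/-- `S = B_P`. -/
abbrev Sloc : Type _ := SP B (cuspIdeal π c)

theorem maximalIdeal_eq (hπ : Irreducible π) : IsLocalRing.maximalIdeal A = Ideal.span {π} :=
  (Irreducible.maximalIdeal_eq hπ)

/-- the structure map `R → A⟦X⟧`. -/
def jloc (hπ : Irreducible π) : Rloc π c →+* PowerSeries A := phiLoc π c (maximalIdeal_eq π hπ) (Rloc π c)

include hι in
/-- elements of `A[X] ∖ P` are mapped to units by `ιPS`. -/
theorem isUnit_ιPS (hπ : Irreducible π) (k : C) (y : Algebra.algebraMapSubmonoid B (cuspIdeal π c).primeCompl) :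
    IsUnit (ιPS k (y : B)) := by
  obtain ⟨y, m, hm, rfl⟩ := y
  show IsUnit (ιPS k (algebraMap (Polynomial A) B m))
  rw [hι]
  exact (isUnit_phi π c (maximalIdeal_eq π hπ) m hm).map _

/-- the expansion maps on `S`, with values in the radical copies. -/
def floc (hπ : Irreducible π)
    (hι : ∀ k (p : Polynomial A), ιPS k (algebraMap (Polynomial A) B p) =
      psi (e k) (he k) (u k) (phi c p)) (k : C) : Sloc π c B →+* TCopy A (e k) (he k) (u k) :=
  ((toT (e k) (he k) (u k)) : PowerSeries A →+* TCopy A (e k) (he k) (u k)).comp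
    (IsLocalization.lift (M := Algebra.algebraMapSubmonoid B (cuspIdeal π c).primeCompl)
      (g := ιPS k) (isUnit_ιPS π c B e he u ιPS hι hπ k))

/-- `floc` on elements of `B`. -/
theorem floc_algebraMap (hπ : Irreducible π) (k : C) (b : B) :
    floc π c B e he u ιPS hπ hι k (algebraMap B (Sloc π c B) b) = toT (e k) (he k) (u k) (ιPS k b) := by
  rw [floc, RingHom.comp_apply, IsLocalization.lift_eq]
  rfl

/-- `floc` is semilinear over `jloc`. -/
theorem floc_smul (hπ : Irreducible π) (k : C) (r : Rloc π c) (x : Sloc π c B) :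
    floc π c B e he u ιPS hπ hι k (r • x) = jloc π c hπ r • floc π c B e he u ιPS hπ hι k x := by
  have key : (floc π c B e he u ιPS hπ hι k).comp (algebraMap (Rloc π c) (Sloc π c B)) =
      (algebraMap (PowerSeries A) (TCopy A (e k) (he k) (u k))).comp (jloc π c hπ) := by
    refine IsLocalization.ringHom_ext (cuspIdeal π c).primeCompl ?_
    refine RingHom.ext fun p => ?_
    simp only [RingHom.comp_apply]
    rw [← IsScalarTower.algebraMap_apply (Polynomial A) (Rloc π c) (Sloc π c B),
      IsScalarTower.algebraMap_apply (Polynomial A) B (Sloc π c B), floc_algebraMap, hι, jloc,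
      phiLoc_algebraMap, algebraMap_TCopy]
  rw [Algebra.smul_def, map_mul, Algebra.smul_def]
  congr 1
  exact RingHom.congr_fun key r

/-- the characteristic-zero input, from (iv). -/
theorem floc_char0 (hπ : Irreducible π)
    (hiv : ∀ b : B, (∀ k, (PowerSeries.X : PowerSeries A) ^ (e k) ∣ ιPS k b) →
      ∃ a : A, a ≠ 0 ∧ ∃ y : B, (Polynomial.C a : Polynomial A) • b =
        (Polynomial.X - Polynomial.C c : Polynomial A) • y)
    (x : Sloc π c B)
    (hx : ∀ k, floc π c B e he u ιPS hπ hι k x ∈
      Ideal.span {algebraMap (PowerSeries A) (TCopy A (e k) (he k) (u k)) PowerSeries.X}) :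
    ∃ r : Rloc π c, ¬ (PowerSeries.X : PowerSeries A) ∣ jloc π c hπ r ∧
      ∃ y : Sloc π c B, r • x = tauR c (Rloc π c) • y := by
  obtain ⟨b, m, rfl⟩ := IsLocalization.exists_mk'_eq
    (Algebra.algebraMapSubmonoid B (cuspIdeal π c).primeCompl) x
  have h1 : ∀ k, (PowerSeries.X : PowerSeries A) ^ (e k) ∣ ιPS k b := by
    intro k
    have h2 : floc π c B e he u ιPS hπ hι k (IsLocalization.mk' (Sloc π c B) b m) *
        floc π c B e he u ιPS hπ hι k (algebraMap B (Sloc π c B) m) =
        toT (e k) (he k) (u k) (ιPS k b) := by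
      rw [← map_mul, IsLocalization.mk'_spec, floc_algebraMap]
    obtain ⟨d, hd⟩ := Ideal.mem_span_singleton.mp (hx k)
    refine ⟨u k * (toT (e k) (he k) (u k)).symm
      (d * floc π c B e he u ιPS hπ hι k (algebraMap B (Sloc π c B) m)), ?_⟩
    apply (toT (e k) (he k) (u k)).injective
    rw [← h2, hd, algebraMap_TCopy, psi_X, map_mul, map_mul, map_mul, RingEquiv.apply_symm_apply]
    ring
  obtain ⟨a, ha, y, hy⟩ := hiv b h1
  refine ⟨algebraMap (Polynomial A) (Rloc π c) (Polynomial.C a), ?_, IsLocalization.mk' (Sloc π c B) y m, ?_⟩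
  · rw [jloc, phiLoc_algebraMap, phi_C]
    intro hdvd
    apply ha
    have := PowerSeries.X_dvd_iff.mp hdvd
    simpa using this
  · have hsm : ∀ (p : Polynomial A) (z : B), p • IsLocalization.mk' (Sloc π c B) z m =
        IsLocalization.mk' (Sloc π c B) (p • z) m := by
      intro p z
      rw [Algebra.smul_def, Algebra.smul_def, IsScalarTower.algebraMap_apply (Polynomial A) B (Sloc π c B),
        IsLocalization.mul_mk'_eq_mk'_of_mul]
    rw [tauR, algebraMap_smul, algebraMap_smul, hsm, hsm, hy]

/-- the comap of a maximal ideal `x ∋ π, t - c` of `B` is the cusp ideal. -/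
theorem comap_eq_cuspIdeal (hπ : Irreducible π) (x : Ideal B) (hx : x.IsMaximal)
    (hπx : algebraMap (Polynomial A) B (Polynomial.C π) ∈ x)
    (hτx : algebraMap (Polynomial A) B (Polynomial.X - Polynomial.C c) ∈ x) :
    x.comap (algebraMap (Polynomial A) B) = cuspIdeal π c := by
  have hmaxA : (Ideal.span {π}).IsMaximal := by
    rw [← maximalIdeal_eq π hπ]; exact IsLocalRing.maximalIdeal.isMaximal A
  have hle : cuspIdeal π c ≤ x.comap (algebraMap (Polynomial A) B) := by
    rw [cuspIdeal, Ideal.span_le]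
    rintro _ (rfl | rfl)
    · exact hπx
    · exact hτx
  have hne : x.comap (algebraMap (Polynomial A) B) ≠ ⊤ := (Ideal.comap_ne_top _ hx.ne_top)
  exact ((cuspIdeal_isMaximal π c hmaxA).eq_of_le hne hle).symm

theorem disjoint_of_comap (x : Ideal B)
    (hcomap : x.comap (algebraMap (Polynomial A) B) = cuspIdeal π c) :
    Disjoint ((Algebra.algebraMapSubmonoid B (cuspIdeal π c).primeCompl : Submonoid B) : Set B)
      (x : Set B) := by
  rw [Set.disjoint_left]
  rintro _ ⟨p, hp, rfl⟩ hpx
  apply hp
  rw [SetLike.mem_coe, ← hcomap]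
  exact hpx

/-- the extension of a maximal ideal disjoint from the multiplicative set is maximal. -/
theorem map_isMaximal_of_disjoint {B : Type*} [CommRing B] (M : Submonoid B) (S : Type*) [CommRing S]
    [Algebra B S] [IsLocalization M S] (x : Ideal B) (hx : x.IsMaximal)
    (hd : Disjoint (M : Set B) (x : Set B)) : (x.map (algebraMap B S)).IsMaximal := by
  have hprime : (x.map (algebraMap B S)).IsPrime :=
    IsLocalization.isPrime_of_isPrime_disjoint M S x hx.isPrime hd
  obtain ⟨J, hJ, hle⟩ := Ideal.exists_le_maximal _ hprime.ne_top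
  have h1 : x ≤ J.comap (algebraMap B S) := by
    rw [← Ideal.map_le_iff_le_comap]; exact hle
  have h2 : x = J.comap (algebraMap B S) := hx.eq_of_le (Ideal.comap_ne_top _ hJ.ne_top) h1
  have h3 : J = x.map (algebraMap B S) := by
    rw [h2, IsLocalization.map_under M S]
  rw [← h3]
  exact hJ

include he heA hu hι in
/-- **The semi-concrete cusp theorem.** -/
theorem cusp_semi (hπ : Irreducible π)
    [IsPrincipalIdealRing (Polynomial A ⧸ Ideal.span {(Polynomial.C π : Polynomial A)})]
    (hiv : ∀ b : B, (∀ k, (PowerSeries.X : PowerSeries A) ^ (e k) ∣ ιPS k b) →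
      ∃ a : A, a ≠ 0 ∧ ∃ y : B, (Polynomial.C a : Polynomial A) • b =
        (Polynomial.X - Polynomial.C c : Polynomial A) • y)
    (hrank : ∑ k, e k = Module.finrank (Rloc π c) (Sloc π c B))
    (hdisc : ∀ b : Module.Basis (Σ k, Fin (e k)) (Rloc π c) (Sloc π c B),
      ∃ a : ℕ, Associated (jloc π c hπ (Algebra.discr (Rloc π c) b)) ((PowerSeries.X : PowerSeries A) ^ a))
    (x : Ideal B) (hx : x.IsMaximal)
    (hπx : algebraMap (Polynomial A) B (Polynomial.C π) ∈ x)
    (hτx : algebraMap (Polynomial A) B (Polynomial.X - Polynomial.C c) ∈ x) :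
    LocPrin (algebraMap (Polynomial A) B (Polynomial.C π)) x := by
  classical
  have hCπ : Prime (Polynomial.C π : Polynomial A) := Polynomial.prime_C_iff.mpr hπ.prime
  have hmaxA : (Ideal.span {π}).IsMaximal := by
    rw [← maximalIdeal_eq π hπ]; exact IsLocalRing.maximalIdeal.isMaximal A
  have hfree : Module.Free (Rloc π c) (Sloc π c B) :=
    free_localization B (cuspIdeal π c) (Polynomial.C π) hCπ (C_pi_mem_cuspIdeal π c)
  -- a basis indexed by `Σ k, Fin (e k)`
  have hcard : Fintype.card (Module.Free.ChooseBasisIndex (Rloc π c) (Sloc π c B)) =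
      Fintype.card (Σ k, Fin (e k)) := by
    rw [← Module.finrank_eq_card_chooseBasisIndex, ← hrank, Fintype.card_sigma]
    simp
  let b : Module.Basis (Σ k, Fin (e k)) (Rloc π c) (Sloc π c B) :=
    (Module.Free.chooseBasis (Rloc π c) (Sloc π c B)).reindex (Fintype.equivOfCardEq hcard)
  obtain ⟨a, ha⟩ := hdisc b
  have hcomap := comap_eq_cuspIdeal π c B hπ x hx hπx hτx
  have hd := disjoint_of_comap π c B x hcomap
  have hx' := map_isMaximal_of_disjoint
    (Algebra.algebraMapSubmonoid B (cuspIdeal π c).primeCompl) (Sloc π c B) x hx hd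
  have := hx.isPrime
  apply LocPrinLoc23.locPrin_of_localization
    (Algebra.algebraMapSubmonoid B (cuspIdeal π c).primeCompl) (Sloc π c B) _ x hd
  have htow : ∀ p : Polynomial A, algebraMap (Rloc π c) (Sloc π c B) (algebraMap (Polynomial A) (Rloc π c) p) =
      algebraMap B (Sloc π c B) (algebraMap (Polynomial A) B p) := by
    intro p
    rw [← IsScalarTower.algebraMap_apply (Polynomial A) (Rloc π c) (Sloc π c B),
      IsScalarTower.algebraMap_apply (Polynomial A) B (Sloc π c B)]
  have main := CuspAbstract23.cusp_abstract (R := Rloc π c) (R' := PowerSeries A) (S := Sloc π c B)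
    e he (fun k => TCopy A (e k) (he k) (u k)) (jloc π c hπ) (tauR c (Rloc π c)) PowerSeries.X
    (phiLoc_tauR π c (maximalIdeal_eq π hπ) (Rloc π c)) PowerSeries.X_prime
    (fun k => sigmaT (e k) (he k) (heA k) (u k) (u₀ k) (hu k))
    (fun k => Units.map (PowerSeries.C : A →+* PowerSeries A).toMonoidHom (u₀ k)⁻¹)
    (fun k => by
      rw [sigmaT_pow]; rfl)
    (fun k => radicalBasis (e k) (he k) (heA k) (u k) (u₀ k) (hu k))
    (fun k i => radicalBasis_apply (e k) (he k) (heA k) (u k) (u₀ k) (hu k) i)
    b (floc π c B e he u ιPS hπ hι) (floc_smul π c B e he u ιPS hι hπ)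
    (piR π (Rloc π c)) (PowerSeries.C π) (phiLoc_piR π c (maximalIdeal_eq π hπ) (Rloc π c))
    (span_C_X_isMaximal π hmaxA)
    (fun k => by
      have := (heA k).map (PowerSeries.C : A →+* PowerSeries A)
      simpa using this)
    (fun r hr => (phiLoc_mem_iff π c (maximalIdeal_eq π hπ) (Rloc π c) r).mp hr)
    (fun r' => by
      obtain ⟨f, hf⟩ := exists_phi_sub_mem_pow c r' 2
      exact ⟨algebraMap (Polynomial A) (Rloc π c) f, by rw [jloc, phiLoc_algebraMap]; exact hf⟩)
    a ha (floc_char0 π c B e he u ιPS hι hπ hiv)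
    (x.map (algebraMap B (Sloc π c B))) hx'
    (by rw [piR, htow]; exact Ideal.mem_map_of_mem _ hπx)
    (by rw [tauR, htow]; exact Ideal.mem_map_of_mem _ hτx)
  rw [piR, htow] at main
  exact main

end Main

end Fermat.Agent.RED.CUSP.CuspSemi23
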