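/-
Program H (S18), chapter RED/CUSP — helper21.  Input (I4) of `CuspSemi23.cusp_semi` from the purity
chapter: at a cusp point `P = (π, X - c)` the discriminant of `B_P / A[X]_P` is a unit times a power
of `τ = X - c`.

* `exists_unit_mul_pow_of_forall_prime_dvd` : in a UFD, a nonzero element all of whose prime factors
  are associated to `τ` is a unit times a power of `τ`;
* `discr_eq_unit_mul_pow` : generic form over `(R0, B, F, P, π, q)` from
  `PurityMain26.not_dvd_discr_of_separable` (vertical prime) and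
  `PurityMain26.not_dvd_discr_of_valuative` (horizontal primes, excluded element `q`);
* `hdisc_of_purity` : the literal hypothesis `hdisc` of `CuspSemi23.cusp_semi`;
* `cusp_semi_of_purity` : `cusp_semi` with `hdisc` discharged.
-/
import Fermat.Agent.RED.CUSP.CuspSemi23
import Fermat.Agent.RED.PUR.PurityMain26

set_option autoImplicit false
set_option linter.unusedSectionVars false

noncomputable section

namespace Fermat.Agent.RED.CUSP.CuspDisc21

open Fermat.Agent.RED.PUR Fermat.Agent.RED.PUR.LocalFree26 Fermat.Agent.RED.PUR.Interface26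
open Fermat.Agent.RED.CUSP.PolyToPS16 Fermat.Agent.RED.CUSP.CuspSemi23
open Fermat.Agent.RED.CUSP.PSRadical6 Fermat.Agent.RED.CUSP.PSRadicalBasis6

/-- In a UFD, a nonzero element all of whose prime factors are associated to `τ` is a unit times a
power of `τ`. -/
theorem exists_unit_mul_pow_of_forall_prime_dvd {R : Type*} [CommRing R] [IsDomain R]
    [UniqueFactorizationMonoid R] (τ d : R) (hd : d ≠ 0)
    (h : ∀ g : R, Prime g → g ∣ d → Associated g τ) : ∃ (a : ℕ) (u : Rˣ), d = u * τ ^ a := by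
  classical
  obtain ⟨f, hf, hfd⟩ := UniqueFactorizationMonoid.exists_prime_factors d hd
  have key : ∀ s : Multiset R, (∀ g ∈ s, Associated g τ) → Associated s.prod (τ ^ Multiset.card s) := by
    intro s
    induction s using Multiset.induction_on with
    | empty => intro _; simp
    | cons g s ih =>
      intro hs
      rw [Multiset.prod_cons, Multiset.card_cons, pow_succ']
      exact (hs g (Multiset.mem_cons_self g s)).mul_mul
        (ih fun g' hg' => hs g' (Multiset.mem_cons_of_mem hg'))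
  have h1 : Associated f.prod (τ ^ Multiset.card f) := by
    refine key f fun g hg => h g (hf g hg) ?_
    exact (Multiset.dvd_prod hg).trans hfd.dvd
  obtain ⟨u, hu⟩ := (hfd.symm.trans h1).symm
  exact ⟨Multiset.card f, u, by rw [← hu, mul_comm]⟩

section Generic

variable {R0 : Type*} [CommRing R0] [IsDomain R0] [IsNoetherianRing R0] [IsIntegrallyClosed R0]
  (B : Type*) [CommRing B] [IsDomain B] [IsIntegrallyClosed B] [Algebra R0 B]
  [Module.Finite R0 B] [FaithfulSMul R0 B]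
  (F : Type*) [Field F] [Algebra B F] [IsFractionRing B F]

/-- **The discriminant at a cusp point** (generic form): if the vertical prime `π` does not divide
the discriminant (separable reduction) and every horizontal prime except `q` is unramified, then
the discriminant of `B_P / R0_P` is a unit times a power of `q`. -/
theorem discr_eq_unit_mul_pow (P : Ideal R0) [P.IsPrime] (π : R0) (hπ : Prime π)
    [IsPrincipalIdealRing (R0 ⧸ Ideal.span {π})] (hπP : π ∈ P)
    (hchar : ∀ n : ℕ, n ≠ 0 → ∃ k : ℕ, (n : R0) ∣ π ^ k) (q : R0)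
    (hq : Prime (algebraMap R0 (RP P) q))
    {k₀ L : Type*} [Field k₀] [Field L] [Algebra k₀ L] (ρ₀ : R0 →+* k₀) (ρ : B →+* L)
    (hcomp : ∀ r : R0, ρ (algebraMap R0 B r) = algebraMap k₀ L (ρ₀ r))
    (hker₀ : ∀ r : R0, ρ₀ r = 0 ↔ π ∣ r)
    (hker : ∀ z : B, ρ z = 0 ↔ algebraMap R0 B π ∣ z)
    (hgen : ∀ c : k₀, ∃ r r' : R0, ρ₀ r' ≠ 0 ∧ c * ρ₀ r' = ρ₀ r)
    (hsep : ∀ z : B, IsSeparable k₀ (ρ z))
    (hUNR : ∀ O : ValuationSubring F, (∀ s : B, algebraMap B F s ∈ O) →
      IsDiscreteValuationRing O →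
      (algebraMap B F (algebraMap R0 B π))⁻¹ ∈ O →
      (algebraMap B F (algebraMap R0 B q))⁻¹ ∈ O →
      (∀ r : R0, r ∉ P → (algebraMap B F (algebraMap R0 B r))⁻¹ ∈ O) →
      ∃ g0 : R0, (algebraMap B F (algebraMap R0 B g0))⁻¹ ∉ O ∧
        ∀ y ∈ O, y⁻¹ ∉ O → y / algebraMap B F (algebraMap R0 B g0) ∈ O)
    {ι : Type*} [Fintype ι] [DecidableEq ι] (b : Module.Basis ι (RP P) (SP B P)) :
    ∃ (a : ℕ) (u : (RP P)ˣ), Algebra.discr (RP P) b = u * (algebraMap R0 (RP P) q) ^ a := by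
  have : UniqueFactorizationMonoid (RP P) := uniqueFactorizationMonoid_RP P π hπ hπP
  have hvert : ¬ algebraMap R0 (RP P) π ∣ Algebra.discr (RP P) b :=
    PurityMain26.not_dvd_discr_of_separable B P π hπP ρ₀ ρ hcomp hker₀ hker hgen hsep b
      (span_pi_isPrime P π hπ hπP)
  have hd0 : Algebra.discr (RP P) b ≠ 0 := fun h0 => hvert (h0 ▸ dvd_zero _)
  refine exists_unit_mul_pow_of_forall_prime_dvd _ _ hd0 fun g hg hgd => ?_
  have hgπ : ¬ algebraMap R0 (RP P) π ∣ g := fun h => hvert (h.trans hgd)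
  have hgq : g ∣ algebraMap R0 (RP P) q := by
    by_contra hgq
    exact PurityMain26.not_dvd_discr_of_valuative B F P π hπ hπP hchar q hUNR b g hg hgπ hgq hgd
  exact hg.irreducible.associated_of_dvd hq.irreducible hgq

end Generic

/-! ### The literal hypothesis `hdisc` of `CuspSemi23.cusp_semi` -/

section Cusp

open Polynomial

variable {A : Type*} [CommRing A] [IsDomain A] [IsDiscreteValuationRing A] (π : A) (c : A)
variable [hP : (cuspIdeal π c).IsPrime]
variable (B : Type*) [CommRing B] [IsDomain B] [IsIntegrallyClosed B] [Algebra A[X] B]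
  [Module.Finite A[X] B] [FaithfulSMul A[X] B]
  (F : Type*) [Field F] [Algebra B F] [IsFractionRing B F]

/-- `τ = X - c` is a prime element of `A[X]_P`. -/
theorem prime_tauR : Prime (tauR c (Rloc π c)) :=
  prime_pi (cuspIdeal π c) (X - C c) (prime_X_sub_C c) (X_sub_C_mem_cuspIdeal π c)

/-- **(I4)**: at a cusp point the image in `A⟦X⟧` of the discriminant of any basis of
`B_P / A[X]_P` is associated to a power of `X`. -/
theorem hdisc_of_purity (hπ : Irreducible π)
    [IsPrincipalIdealRing (A[X] ⧸ Ideal.span {(C π : A[X])})]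
    (hchar : ∀ n : ℕ, n ≠ 0 → ∃ k : ℕ, (n : A[X]) ∣ (C π) ^ k)
    {k₀ L : Type*} [Field k₀] [Field L] [Algebra k₀ L] (ρ₀ : A[X] →+* k₀) (ρ : B →+* L)
    (hcomp : ∀ r : A[X], ρ (algebraMap A[X] B r) = algebraMap k₀ L (ρ₀ r))
    (hker₀ : ∀ r : A[X], ρ₀ r = 0 ↔ C π ∣ r)
    (hker : ∀ z : B, ρ z = 0 ↔ algebraMap A[X] B (C π) ∣ z)
    (hgen : ∀ c' : k₀, ∃ r r' : A[X], ρ₀ r' ≠ 0 ∧ c' * ρ₀ r' = ρ₀ r)
    (hsep : ∀ z : B, IsSeparable k₀ (ρ z))
    (hUNR : ∀ O : ValuationSubring F, (∀ s : B, algebraMap B F s ∈ O) →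
      IsDiscreteValuationRing O →
      (algebraMap B F (algebraMap A[X] B (C π)))⁻¹ ∈ O →
      (algebraMap B F (algebraMap A[X] B (X - C c)))⁻¹ ∈ O →
      (∀ r : A[X], r ∉ cuspIdeal π c → (algebraMap B F (algebraMap A[X] B r))⁻¹ ∈ O) →
      ∃ g0 : A[X], (algebraMap B F (algebraMap A[X] B g0))⁻¹ ∉ O ∧
        ∀ y ∈ O, y⁻¹ ∉ O → y / algebraMap B F (algebraMap A[X] B g0) ∈ O)
    {ι : Type*} [Fintype ι] [DecidableEq ι] (b : Module.Basis ι (Rloc π c) (Sloc π c B)) :
    ∃ a : ℕ, Associated (jloc π c hπ (Algebra.discr (Rloc π c) b))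
      ((PowerSeries.X : PowerSeries A) ^ a) := by
  have hCπ : Prime (C π : A[X]) := prime_C_iff.mpr hπ.prime
  obtain ⟨a, v, hv⟩ := discr_eq_unit_mul_pow B F (cuspIdeal π c) (C π) hCπ
    (C_pi_mem_cuspIdeal π c) hchar (X - C c) (prime_tauR π c) ρ₀ ρ hcomp hker₀ hker hgen hsep
    hUNR b
  refine ⟨a, ?_⟩
  have h1 : jloc π c hπ (algebraMap A[X] (Rloc π c) (X - C c)) = PowerSeries.X :=
    phiLoc_tauR π c (maximalIdeal_eq π hπ) (Rloc π c)
  rw [hv, map_mul, map_pow, h1]
  exact associated_unit_mul_left _ _ (v.isUnit.map (jloc π c hπ))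

variable {Cκ : Type*} [Fintype Cκ] [DecidableEq Cκ] (e : Cκ → ℕ) (he : ∀ k, 0 < e k)
  (heA : ∀ k, IsUnit ((e k : ℕ) : A)) (u : Cκ → PowerSeries A) (u₀ : Cκ → Aˣ)
  (hu : ∀ k, PowerSeries.constantCoeff (u k) = u₀ k)
variable (ιPS : Cκ → B →+* PowerSeries A)
  (hι : ∀ k (p : A[X]), ιPS k (algebraMap A[X] B p) = psi (e k) (he k) (u k) (phi c p))

include he heA hu hι in
/-- **The semi-concrete cusp theorem with (I4) discharged by purity**: inputs are the expansion maps
(I1), the characteristic-zero injectivity (I2), the rank identity (I3), the vertical (GAUSS) data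
and the horizontal unramifiedness away from `τ`. -/
theorem cusp_semi_of_purity (hπ : Irreducible π)
    [IsPrincipalIdealRing (A[X] ⧸ Ideal.span {(C π : A[X])})]
    (hiv : ∀ b : B, (∀ k, (PowerSeries.X : PowerSeries A) ^ (e k) ∣ ιPS k b) →
      ∃ a : A, a ≠ 0 ∧ ∃ y : B, (C a : A[X]) • b = (X - C c : A[X]) • y)
    (hrank : ∑ k, e k = Module.finrank (Rloc π c) (Sloc π c B))
    (hchar : ∀ n : ℕ, n ≠ 0 → ∃ k : ℕ, (n : A[X]) ∣ (C π) ^ k)
    {k₀ L : Type*} [Field k₀] [Field L] [Algebra k₀ L] (ρ₀ : A[X] →+* k₀) (ρ : B →+* L)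
    (hcomp : ∀ r : A[X], ρ (algebraMap A[X] B r) = algebraMap k₀ L (ρ₀ r))
    (hker₀ : ∀ r : A[X], ρ₀ r = 0 ↔ C π ∣ r)
    (hker : ∀ z : B, ρ z = 0 ↔ algebraMap A[X] B (C π) ∣ z)
    (hgen : ∀ c' : k₀, ∃ r r' : A[X], ρ₀ r' ≠ 0 ∧ c' * ρ₀ r' = ρ₀ r)
    (hsep : ∀ z : B, IsSeparable k₀ (ρ z))
    (hUNR : ∀ O : ValuationSubring F, (∀ s : B, algebraMap B F s ∈ O) →
      IsDiscreteValuationRing O →
      (algebraMap B F (algebraMap A[X] B (C π)))⁻¹ ∈ O →
      (algebraMap B F (algebraMap A[X] B (X - C c)))⁻¹ ∈ O →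
      (∀ r : A[X], r ∉ cuspIdeal π c → (algebraMap B F (algebraMap A[X] B r))⁻¹ ∈ O) →
      ∃ g0 : A[X], (algebraMap B F (algebraMap A[X] B g0))⁻¹ ∉ O ∧
        ∀ y ∈ O, y⁻¹ ∉ O → y / algebraMap B F (algebraMap A[X] B g0) ∈ O)
    (x : Ideal B) (hx : x.IsMaximal)
    (hπx : algebraMap A[X] B (C π) ∈ x)
    (hτx : algebraMap A[X] B (X - C c) ∈ x) :
    LocPrin (algebraMap A[X] B (C π)) x :=
  cusp_semi π c B e he heA u u₀ hu ιPS hι hπ hiv hrank
    (fun b => hdisc_of_purity π c B F hπ hchar ρ₀ ρ hcomp hker₀ hker hgen hsep hUNR b)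
    x hx hπx hτx

end Cusp

end Fermat.Agent.RED.CUSP.CuspDisc21
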