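/-
Program H (S18), chapter RED/CUSP — helper6: (B5) over a number field `K`.

`K : IntermediateField ℚ Qbar`, `A : ValuationSubring Qbar` with `(n : Qbar)⁻¹ ∈ A`, `AK := A ∩ K`.
For `E : K((X))` with `Ē := coeffMap (algebraMap K Qbar) E`:

* `cuspShape_some` : `CuspShape n Ē (some c̄)` ⇒ `E = C c + (u * X^a)` with `c : AK` over `c̄`,
  `a > 0`, `u : AK⟦X⟧` with unit constant coefficient;
* `cuspShape_none` : `CuspShape n Ē none` ⇒ `E⁻¹ = u * X^a` likewise;
* `compress_*`     : if moreover `E = qExpand K m E'` then `m ∣ a` and `E'` has the same shape with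
  exponent `a / m`.
-/
import Mathlib
import Fermat.Agent.RED.BASE.Interface12
import Fermat.Agent.RED.Interface4
import Fermat.Agent.RED.CUSP.PSRadical6
import Fermat.Agent.RED.CUSP.PolyToPS16

set_option autoImplicit false

open HahnSeries ModularCurve PowerSeries

noncomputable section

namespace Fermat.Agent.RED.CUSP.CuspShapeK6

open Fermat.Agent.RED.BASE.Interface12 Fermat.Agent.RED.Interface4

/-! ### generalities on `C c + ofPowerSeries P` -/

section Gen

variable {L : Type*} [CommRing L]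

theorem shape_eq_ofPowerSeries (c lam : L) (a : ℕ) (V : PowerSeries L) :
    HahnSeries.C c + HahnSeries.C lam * HahnSeries.single (a : ℤ) 1 *
        HahnSeries.ofPowerSeries ℤ L V
      = HahnSeries.ofPowerSeries ℤ L (PowerSeries.C c + PowerSeries.X ^ a * (PowerSeries.C lam * V)) := by
  rw [map_add, map_mul, map_mul, map_pow, HahnSeries.ofPowerSeries_C, HahnSeries.ofPowerSeries_C,
    HahnSeries.ofPowerSeries_X, HahnSeries.single_pow, one_pow]
  simp only [nsmul_eq_mul, mul_one]
  ring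

theorem eq_ofPowerSeries_of_coeff_neg (E : LaurentSeries L) (h : ∀ k : ℤ, k < 0 → E.coeff k = 0) :
    E = HahnSeries.ofPowerSeries ℤ L (PowerSeries.mk fun k : ℕ => E.coeff (k : ℤ)) := by
  ext k
  rcases lt_or_ge k 0 with hk | hk
  · rw [h k hk, ofPowerSeries_coeff_of_neg _ hk]
  · lift k to ℕ using hk
    rw [HahnSeries.ofPowerSeries_apply_coeff, PowerSeries.coeff_mk]

theorem coeff_C_add_ofPowerSeries_nat (c : L) (P : PowerSeries L) (j : ℕ) :
    (HahnSeries.C c + HahnSeries.ofPowerSeries ℤ L P).coeff (j : ℤ)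
      = (if j = 0 then c else 0) + PowerSeries.coeff j P := by
  rw [HahnSeries.coeff_add, HahnSeries.ofPowerSeries_apply_coeff, HahnSeries.C_apply,
    HahnSeries.coeff_single]
  congr 1
  simp only [Nat.cast_eq_zero]

theorem coeff_C_add_ofPowerSeries_neg (c : L) (P : PowerSeries L) {k : ℤ} (hk : k < 0) :
    (HahnSeries.C c + HahnSeries.ofPowerSeries ℤ L P).coeff k = 0 := by
  rw [HahnSeries.coeff_add, ofPowerSeries_coeff_of_neg _ hk, HahnSeries.C_apply,
    HahnSeries.coeff_single_of_ne hk.ne, add_zero]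

end Gen

/-! ### descent of the cusp shape to `A ∩ K` -/

section Descent

variable (A : ValuationSubring Qbar) (K : IntermediateField ℚ Qbar)

theorem mem_AK_iff (x : K) : x ∈ AK A K ↔ algebraMap K Qbar x ∈ A := Iff.rfl

theorem algebraMap_injective : Function.Injective (algebraMap K Qbar) :=
  (algebraMap K Qbar).injective

/-- The core: a series over `K` whose image over `Qbar` is `c̄ + λ X^a V` with `c̄, λ, λ⁻¹` and the
coefficients of `V` in `A` is `c + u X^a` with `c ∈ A ∩ K`, `u ∈ (A ∩ K)⟦X⟧`, `u(0)` a unit. -/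
theorem core (E : LaurentSeries K) (cbar lam : Qbar) (a : ℕ) (V : PowerSeries Qbar) (ha : 0 < a)
    (hc : cbar ∈ A) (hlam : lam ∈ A) (hlam' : lam⁻¹ ∈ A) (hlam0 : lam ≠ 0)
    (hV0 : PowerSeries.constantCoeff V = 1) (hV : ∀ i, PowerSeries.coeff i V ∈ A)
    (hE : coeffMap (algebraMap K Qbar) E = HahnSeries.C cbar +
      HahnSeries.C lam * HahnSeries.single (a : ℤ) 1 * HahnSeries.ofPowerSeries ℤ Qbar V) :
    ∃ (c : AK A K) (u : PowerSeries (AK A K)), IsUnit (PowerSeries.constantCoeff u) ∧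
      algebraMap K Qbar (c : K) = cbar ∧
      E = HahnSeries.C (c : K) +
        HahnSeries.ofPowerSeries ℤ K ((u * PowerSeries.X ^ a).map (AK A K).subtype) := by
  have hinj := algebraMap_injective K
  rw [shape_eq_ofPowerSeries] at hE
  -- no negative coefficients
  have hneg : ∀ k : ℤ, k < 0 → E.coeff k = 0 := by
    intro k hk
    apply hinj
    rw [map_zero, ← coeffMap_coeff, hE, ofPowerSeries_coeff_of_neg _ hk]
  set W : PowerSeries K := PowerSeries.mk fun k : ℕ => E.coeff (k : ℤ) with hW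
  have hEW : E = HahnSeries.ofPowerSeries ℤ K W := eq_ofPowerSeries_of_coeff_neg E hneg
  have hmapW : W.map (algebraMap K Qbar)
      = PowerSeries.C cbar + PowerSeries.X ^ a * (PowerSeries.C lam * V) := by
    apply HahnSeries.ofPowerSeries_injective (Γ := ℤ)
    rw [← hE, hEW, coeffMap_ofPowerSeries]
  -- the constant term
  set c0 : K := PowerSeries.constantCoeff W with hc0
  have hφc0 : algebraMap K Qbar c0 = cbar := by
    have := congrArg (PowerSeries.coeff 0) hmapW
    rw [PowerSeries.coeff_map, PowerSeries.coeff_zero_eq_constantCoeff_apply] at this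
    rw [hc0, this]
    simp [ha.ne']
  -- divisibility by `X ^ a`
  have hmap2 : (W - PowerSeries.C c0).map (algebraMap K Qbar)
      = PowerSeries.X ^ a * (PowerSeries.C lam * V) := by
    rw [map_sub, hmapW, PowerSeries.map_C, hφc0]
    ring
  have hdvd : PowerSeries.X ^ a ∣ W - PowerSeries.C c0 := by
    rw [PowerSeries.X_pow_dvd_iff]
    intro m hm
    apply hinj
    rw [map_zero, ← PowerSeries.coeff_map, hmap2, PowerSeries.coeff_X_pow_mul', if_neg (by omega)]
  obtain ⟨U, hU⟩ := hdvd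
  have hmapU : U.map (algebraMap K Qbar) = PowerSeries.C lam * V := by
    have h1 : PowerSeries.X ^ a * U.map (algebraMap K Qbar)
        = PowerSeries.X ^ a * (PowerSeries.C lam * V) := by
      rw [← hmap2, hU, map_mul, map_pow, PowerSeries.map_X]
    exact PowerSeries.X_pow_mul_cancel h1
  have hcoeffU : ∀ k, algebraMap K Qbar (PowerSeries.coeff k U) = lam * PowerSeries.coeff k V := by
    intro k
    rw [← PowerSeries.coeff_map, hmapU, PowerSeries.coeff_C_mul]
  have hUmem : ∀ k, PowerSeries.coeff k U ∈ AK A K := by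
    intro k
    rw [mem_AK_iff, hcoeffU]
    exact A.mul_mem _ _ hlam (hV k)
  set u : PowerSeries (AK A K) := PowerSeries.mk fun k => ⟨PowerSeries.coeff k U, hUmem k⟩ with hu
  have hmapu : u.map (AK A K).subtype = U := by
    ext k
    rw [PowerSeries.coeff_map, hu, PowerSeries.coeff_mk]
    rfl
  have hc0mem : c0 ∈ AK A K := by
    rw [mem_AK_iff, hφc0]
    exact hc
  have hφU0 : algebraMap K Qbar (PowerSeries.coeff 0 U) = lam := by
    rw [hcoeffU, PowerSeries.coeff_zero_eq_constantCoeff_apply, hV0, mul_one]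
  have hinvmem : (PowerSeries.coeff 0 U)⁻¹ ∈ AK A K := by
    rw [mem_AK_iff, map_inv₀, hφU0]
    exact hlam'
  have hU0 : PowerSeries.coeff 0 U ≠ 0 := by
    intro h0
    rw [h0, map_zero] at hφU0
    exact hlam0 hφU0.symm
  refine ⟨⟨c0, hc0mem⟩, u, ?_, hφc0, ?_⟩
  · have : PowerSeries.constantCoeff u * ⟨(PowerSeries.coeff 0 U)⁻¹, hinvmem⟩ = 1 := by
      apply Subtype.ext
      rw [← PowerSeries.coeff_zero_eq_constantCoeff_apply, hu, PowerSeries.coeff_mk]
      show PowerSeries.coeff 0 U * (PowerSeries.coeff 0 U)⁻¹ = 1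
      exact mul_inv_cancel₀ hU0
    exact IsUnit.of_mul_eq_one _ this
  · rw [map_mul, map_pow, PowerSeries.map_X, hmapu, mul_comm U, ← hU, hEW]
    show HahnSeries.ofPowerSeries ℤ K W = HahnSeries.C c0 + _
    rw [← HahnSeries.ofPowerSeries_C, ← map_add]
    congr 1
    ring

variable (n : ℕ)

/-- (B5) over `K`, finite cusp value. -/
theorem cuspShape_some (hn : n ≠ 0) (hnA : ((n : Qbar))⁻¹ ∈ A) (E : LaurentSeries K) (cbar : Qbar)
    (h : CuspShape n (coeffMap (algebraMap K Qbar) E) (some cbar)) :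
    ∃ (c : AK A K) (a : ℕ) (u : PowerSeries (AK A K)), 0 < a ∧
      IsUnit (PowerSeries.constantCoeff u) ∧ algebraMap K Qbar (c : K) = cbar ∧
      E = HahnSeries.C (c : K) +
        HahnSeries.ofPowerSeries ℤ K ((u * PowerSeries.X ^ a).map (AK A K).subtype) := by
  obtain ⟨a, lam, V, ha, hlam, hV0, hV, hc, hE⟩ := h
  obtain ⟨c, u, hu, hcc, hEE⟩ := core A K E cbar lam a V ha (hc.mem_of_inv_mem A hnA hn)
    (hlam.2.1.mem_of_inv_mem A hnA hn) (hlam.2.2.mem_of_inv_mem A hnA hn) hlam.1 hV0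
    (fun i => (hV i).mem_of_inv_mem A hnA hn) hE
  exact ⟨c, a, u, ha, hu, hcc, hEE⟩

/-- (B5) over `K`, pole. -/
theorem cuspShape_none (hn : n ≠ 0) (hnA : ((n : Qbar))⁻¹ ∈ A) (E : LaurentSeries K)
    (h : CuspShape n (coeffMap (algebraMap K Qbar) E) none) :
    ∃ (a : ℕ) (u : PowerSeries (AK A K)), 0 < a ∧ IsUnit (PowerSeries.constantCoeff u) ∧
      E⁻¹ = HahnSeries.ofPowerSeries ℤ K ((u * PowerSeries.X ^ a).map (AK A K).subtype) := by
  obtain ⟨a, lam, V, ha, hlam, hV0, hV, hE⟩ := h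
  have hE' : coeffMap (algebraMap K Qbar) E⁻¹ = HahnSeries.C (0 : Qbar) +
      HahnSeries.C lam * HahnSeries.single (a : ℤ) 1 * HahnSeries.ofPowerSeries ℤ Qbar V := by
    rw [map_inv₀, map_zero, zero_add]
    exact hE
  obtain ⟨c, u, hu, hcc, hEE⟩ := core A K E⁻¹ 0 lam a V ha A.zero_mem
    (hlam.2.1.mem_of_inv_mem A hnA hn) (hlam.2.2.mem_of_inv_mem A hnA hn) hlam.1 hV0
    (fun i => (hV i).mem_of_inv_mem A hnA hn) hE'
  have hc0 : (c : K) = 0 := by
    apply algebraMap_injective K
    rw [hcc, map_zero]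
  refine ⟨a, u, ha, hu, ?_⟩
  rw [hEE, hc0, map_zero, zero_add]

/-! ### compression along `qExpand` -/

theorem coeff_map_mul_X_pow (u : PowerSeries (AK A K)) (a j : ℕ) :
    PowerSeries.coeff j ((u * PowerSeries.X ^ a).map (AK A K).subtype)
      = if a ≤ j then ((PowerSeries.coeff (j - a) u : AK A K) : K) else 0 := by
  rw [PowerSeries.coeff_map, PowerSeries.coeff_mul_X_pow']
  split_ifs
  · rfl
  · rw [map_zero]

/-- If `E = qExpand K m E'` has the shape `c + u X^a`, then `m ∣ a` and `E' = c + u' X^(a/m)`. -/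
theorem compress (E' : LaurentSeries K) (m : ℕ) [NeZero m] (c : AK A K) (a : ℕ)
    (u : PowerSeries (AK A K)) (hu : IsUnit (PowerSeries.constantCoeff u))
    (hE : qExpand K m E' = HahnSeries.C (c : K) +
      HahnSeries.ofPowerSeries ℤ K ((u * PowerSeries.X ^ a).map (AK A K).subtype)) :
    m ∣ a ∧ ∃ u' : PowerSeries (AK A K), IsUnit (PowerSeries.constantCoeff u') ∧
      (∀ i, PowerSeries.coeff i u' = PowerSeries.coeff (m * i) u) ∧
      E' = HahnSeries.C (c : K) +
        HahnSeries.ofPowerSeries ℤ K ((u' * PowerSeries.X ^ (a / m)).map (AK A K).subtype) := by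
  have hm : 0 < m := Nat.pos_of_ne_zero (NeZero.ne m)
  have hu0 : ((PowerSeries.constantCoeff u : AK A K) : K) ≠ 0 := by
    intro h0
    have : PowerSeries.constantCoeff u = 0 := Subtype.ext h0
    rw [this] at hu
    exact not_isUnit_zero hu
  -- `m ∣ a`
  have hdvd : m ∣ a := by
    rcases Nat.eq_zero_or_pos a with rfl | ha
    · exact dvd_zero m
    · by_contra hnd
      have h1 : (qExpand K m E').coeff ((a : ℕ) : ℤ) = 0 :=
        qExpand_coeff_of_not_dvd m E' (by exact_mod_cast hnd)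
      rw [hE, coeff_C_add_ofPowerSeries_nat, if_neg ha.ne', zero_add, coeff_map_mul_X_pow,
        if_pos le_rfl, Nat.sub_self, PowerSeries.coeff_zero_eq_constantCoeff_apply] at h1
      exact hu0 h1
  obtain ⟨a', rfl⟩ := hdvd
  refine ⟨Dvd.intro _ rfl, PowerSeries.mk fun i => PowerSeries.coeff (m * i) u, ?_,
    fun i => PowerSeries.coeff_mk _ _, ?_⟩
  · rw [← PowerSeries.coeff_zero_eq_constantCoeff_apply, PowerSeries.coeff_mk, mul_zero,
      PowerSeries.coeff_zero_eq_constantCoeff_apply]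
    exact hu
  · rw [Nat.mul_div_cancel_left _ hm]
    ext k
    rcases lt_or_ge k 0 with hk | hk
    · rw [coeff_C_add_ofPowerSeries_neg _ _ hk, ← qExpand_coeff_mul m E' k, hE,
        coeff_C_add_ofPowerSeries_neg]
      exact mul_neg_of_pos_of_neg (by exact_mod_cast hm) hk
    · lift k to ℕ using hk
      rw [coeff_C_add_ofPowerSeries_nat, coeff_map_mul_X_pow, ← qExpand_coeff_mul m E' k, hE]
      have hcast : ((m : ℕ) : ℤ) * ((k : ℕ) : ℤ) = ((m * k : ℕ) : ℤ) := by push_cast; ring
      rw [hcast, coeff_C_add_ofPowerSeries_nat, coeff_map_mul_X_pow, PowerSeries.coeff_mk]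
      have h1 : (m * k = 0) ↔ (k = 0) := by
        constructor
        · intro h
          rcases Nat.eq_zero_or_pos k with h0 | h0
          · exact h0
          · exact absurd h (Nat.mul_pos hm h0).ne'
        · rintro rfl; simp
      have h2 : (m * a' ≤ m * k) ↔ (a' ≤ k) := Nat.mul_le_mul_left_iff hm
      simp only [h1, h2]
      rw [Nat.mul_sub]

/-- pole version of `compress`. -/
theorem compress_none (E' : LaurentSeries K) (m : ℕ) [NeZero m] (a : ℕ)
    (u : PowerSeries (AK A K)) (hu : IsUnit (PowerSeries.constantCoeff u))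
    (hE : (qExpand K m E')⁻¹ =
      HahnSeries.ofPowerSeries ℤ K ((u * PowerSeries.X ^ a).map (AK A K).subtype)) :
    m ∣ a ∧ ∃ u' : PowerSeries (AK A K), IsUnit (PowerSeries.constantCoeff u') ∧
      (∀ i, PowerSeries.coeff i u' = PowerSeries.coeff (m * i) u) ∧
      E'⁻¹ =
        HahnSeries.ofPowerSeries ℤ K ((u' * PowerSeries.X ^ (a / m)).map (AK A K).subtype) := by
  have h1 : qExpand K m E'⁻¹ = HahnSeries.C (((0 : AK A K) : K)) +
      HahnSeries.ofPowerSeries ℤ K ((u * PowerSeries.X ^ a).map (AK A K).subtype) := by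
    rw [map_inv₀, hE, ZeroMemClass.coe_zero, map_zero, zero_add]
  obtain ⟨hd, u', hu', hcoef, hEE⟩ := compress A K E'⁻¹ m 0 a u hu h1
  refine ⟨hd, u', hu', hcoef, ?_⟩
  rw [hEE, ZeroMemClass.coe_zero, map_zero, zero_add]

end Descent

/-! ### the evaluation lemma for (I1) -/

section Eval

open Fermat.Agent.RED.CUSP.PSRadical6 Fermat.Agent.RED.CUSP.PolyToPS16

variable {A₀ K₀ F : Type*} [CommRing A₀] [CommRing K₀] [CommRing F]

/-- `p(c + u X^e) = ψ(p(c + X))`, `ψ = psi e he u : X ↦ u X^e`. -/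
theorem eval₂_eq_psi (e : ℕ) (he : 0 < e) (u : PowerSeries A₀) (c : A₀) (p : Polynomial A₀) :
    p.eval₂ (PowerSeries.C (R := A₀)) (PowerSeries.C c + u * PowerSeries.X ^ e)
      = psi e he u (phi c p) := by
  have h : (Polynomial.eval₂RingHom (PowerSeries.C (R := A₀))
      (PowerSeries.C c + u * PowerSeries.X ^ e)) = (psi e he u).comp (phi c) := by
    apply Polynomial.ringHom_ext
    · intro a
      rw [Polynomial.coe_eval₂RingHom, Polynomial.eval₂_C, RingHom.comp_apply, phi_C, psi_C]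
    · rw [Polynomial.coe_eval₂RingHom, Polynomial.eval₂_X, RingHom.comp_apply, phi_X, map_add,
        psi_C, psi_X]
  exact congrFun (congrArg DFunLike.coe h) p

/-- If `ι : F →+* K₀((X))` is `C ∘ s` on the constants `j : A₀ → F` and
`ι t = C (s c) + (u X^e)` then `ι (p(t)) = (p(c + u X^e))` for every `p ∈ A₀[X]`. -/
theorem eval_shape (ι : F →+* LaurentSeries K₀) (j : A₀ →+* F) (s : A₀ →+* K₀)
    (hconst : ∀ a, ι (j a) = HahnSeries.C (s a)) (t : F) (c : A₀) (u : PowerSeries A₀) (e : ℕ)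
    (ht : ι t = HahnSeries.C (s c) +
      HahnSeries.ofPowerSeries ℤ K₀ ((u * PowerSeries.X ^ e).map s))
    (p : Polynomial A₀) :
    ι (p.eval₂ j t) = HahnSeries.ofPowerSeries ℤ K₀
      ((p.eval₂ (PowerSeries.C (R := A₀)) (PowerSeries.C c + u * PowerSeries.X ^ e)).map s) := by
  have h : ι.comp (Polynomial.eval₂RingHom j t) =
      ((HahnSeries.ofPowerSeries ℤ K₀).comp (PowerSeries.map s)).comp
        (Polynomial.eval₂RingHom (PowerSeries.C (R := A₀))
          (PowerSeries.C c + u * PowerSeries.X ^ e)) := by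
    apply Polynomial.ringHom_ext
    · intro a
      simp only [RingHom.comp_apply, Polynomial.coe_eval₂RingHom, Polynomial.eval₂_C]
      rw [hconst, PowerSeries.map_C, HahnSeries.ofPowerSeries_C]
    · simp only [RingHom.comp_apply, Polynomial.coe_eval₂RingHom, Polynomial.eval₂_X]
      rw [ht, map_add, PowerSeries.map_C, map_add, HahnSeries.ofPowerSeries_C]
  exact congrFun (congrArg DFunLike.coe h) p

/-- the same with `ψ ∘ φ_c`. -/
theorem eval_shape_psi (ι : F →+* LaurentSeries K₀) (j : A₀ →+* F) (s : A₀ →+* K₀)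
    (hconst : ∀ a, ι (j a) = HahnSeries.C (s a)) (t : F) (c : A₀) (u : PowerSeries A₀) (e : ℕ)
    (he : 0 < e)
    (ht : ι t = HahnSeries.C (s c) +
      HahnSeries.ofPowerSeries ℤ K₀ ((u * PowerSeries.X ^ e).map s))
    (p : Polynomial A₀) :
    ι (p.eval₂ j t) = HahnSeries.ofPowerSeries ℤ K₀ ((psi e he u (phi c p)).map s) := by
  rw [eval_shape ι j s hconst t c u e ht p, eval₂_eq_psi]

end Eval

end Fermat.Agent.RED.CUSP.CuspShapeK6
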