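/-
Program H (S18), chapter RED/CUSP, helper23: the GENERIC cusp theorem.

Setting (E3 of `IntClosBase13`): `A` a DVR with uniformiser `π`, `K = Frac A` of characteristic zero,
`F ⊇ K(t)` finite (`t` transcendental), `F` an `A[X]`-algebra through `X ↦ t`,
`B = integralClosure A[X] F`, `c : A` a cusp value.  Data: a finite family of expansions
`ι κ : F →+* K((X))`, integral on `B` (`ιPS κ : B →+* A⟦X⟧`), with
`ι κ t = c + u_κ X^(e κ)` (`u_κ(0)` a unit, `e κ` invertible in `A`), detecting the valuation rings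
of all places of `F / K` over `t = c`, with `∑ e κ = [F : K(t)]`; plus the vertical (GAUSS) data and
the horizontal unramifiedness away from `t = c` of `CuspDisc21.cusp_semi_of_purity`.

Conclusion (`smoothOver_generic`): the smoothness condition `ChartTransfer3.SmoothAt` at every
maximal ideal `x ∋ π, t - c` of the contract chart `ChartsGeneric13.chart A t`.
-/
import Fermat.Agent.RED.CUSP.CuspDisc21
import Fermat.Agent.RED.CUSP.CharZeroB9
import Fermat.Agent.RED.CUSP.CuspShapeK6
import Fermat.Agent.RED.PUR.RankBridge13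
import Fermat.Agent.RED.ChartTransfer3

set_option autoImplicit false
set_option linter.unusedSectionVars false
set_option linter.unusedVariables false
set_option linter.style.haveILetI false

noncomputable section

namespace Fermat.Agent.RED.CUSP.CuspGeneric23

open Polynomial IntermediateField
open Fermat.Agent.RED.CUSP Fermat.Agent.RED.PUR
open Fermat.Agent.RED.PUR.LocalFree26 Fermat.Agent.RED.PUR.Interface26
open Fermat.Agent.RED.CUSP.PolyToPS16 Fermat.Agent.RED.CUSP.PSRadical6
open Fermat.Agent.RED.CUSP.IntClosedPS16 Fermat.Agent.RED.CUSP.CuspSemi23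
open Fermat.Agent.RED.PUR.IntClosBase13 Fermat.Agent.RED.PUR.ChartsGeneric13
open Fermat.Agent.RED.ChartTransfer3

/-! ### rank of a localisation -/

/-- the rank does not change under localisation at a prime of the base. -/
theorem finrank_localization {R0 : Type*} [CommRing R0] [IsDomain R0]
    (B : Type*) [CommRing B] [IsDomain B] [Algebra R0 B] [FaithfulSMul R0 B]
    (P : Ideal R0) [P.IsPrime] :
    Module.finrank (RP P) (SP B P) = Module.finrank R0 B := by
  have h1 : Module.finrank (RP P) (SP B P) = Module.finrank R0 (SP B P) :=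
    IsLocalization.finrank_eq (RP P) P.primeCompl P.primeCompl_le_nonZeroDivisors
  have h2 : IsLocalizedModule P.primeCompl (IsScalarTower.toAlgHom R0 B (SP B P)).toLinearMap :=
    (isLocalizedModule_iff_isLocalization).mpr inferInstance
  have h3 : Module.finrank R0 (SP B P) = Module.finrank R0 B :=
    IsLocalizedModule.finrank_eq P.primeCompl (IsScalarTower.toAlgHom R0 B (SP B P)).toLinearMap
      P.primeCompl_le_nonZeroDivisors
  rw [h1, h3]

/-! ### orders of power series -/

section Order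

variable (A K : Type*) [CommRing A] [IsDomain A] [Field K] [Algebra A K] [IsFractionRing A K]

/-- the order of `u X^e` (`u(0) ≠ 0`) in `K((X))` is `e`. -/
theorem order_toLS_mul_X_pow (u : PowerSeries A) (hu : PowerSeries.constantCoeff u ≠ 0) (e : ℕ) :
    (toLS A K (u * PowerSeries.X ^ e)).order = e := by
  have hcoeff : (toLS A K (u * PowerSeries.X ^ e)).coeff (e : ℤ) ≠ 0 := by
    rw [toLS_coeff, PowerSeries.coeff_mul_X_pow', if_pos le_rfl, Nat.sub_self,
      PowerSeries.coeff_zero_eq_constantCoeff_apply]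
    exact fun h => hu ((IsFractionRing.injective A K) (by rw [h, map_zero]))
  have hne : toLS A K (u * PowerSeries.X ^ e) ≠ 0 := fun h => hcoeff (by rw [h]; rfl)
  apply le_antisymm
  · exact HahnSeries.order_le_of_coeff_ne_zero hcoeff
  · exact CharZeroB9.le_order_toLS_of_X_pow_dvd A K (Dvd.intro_left u rfl) hne

end Order

/-! ### the generic theorem -/

section Main

variable {A K F : Type*} [CommRing A] [IsDomain A] [IsDiscreteValuationRing A]
  [Field K] [Algebra A K] [IsFractionRing A K] [CharZero K]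
  [Field F] [Algebra K F] [Algebra A F] [IsScalarTower A K F]
  [Algebra A[X] F] [IsScalarTower A A[X] F] {t : F}

/-- (I1): the expansions of polynomials in `t`. -/
theorem hι_of_shape (hX : algebraMap A[X] F X = t) (c : A)
    (ι : F →+* LaurentSeries K) (ιPS : ↥(integralClosure A[X] F) →+* PowerSeries A)
    (hcompat : ∀ b : ↥(integralClosure A[X] F), toLS A K (ιPS b) = ι (b : F))
    (hconst : ∀ a : A, ι (algebraMap A F a) = HahnSeries.C (algebraMap A K a))
    (e : ℕ) (he : 0 < e) (u : PowerSeries A)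
    (hshape : ι t = HahnSeries.C (algebraMap A K c) + toLS A K (u * PowerSeries.X ^ e))
    (p : A[X]) :
    ιPS (algebraMap A[X] ↥(integralClosure A[X] F) p) = psi e he u (phi c p) := by
  apply toLS_injective A K
  rw [hcompat]
  have h1 : ((algebraMap A[X] ↥(integralClosure A[X] F) p : ↥(integralClosure A[X] F)) : F) =
      p.eval₂ (algebraMap A F) t := by
    show algebraMap A[X] F p = _
    rw [algebraMap_eq_aeval hX, aeval_def]
  rw [h1]
  exact CuspShapeK6.eval_shape_psi ι (algebraMap A F) (algebraMap A K) hconst t c u e he hshape p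

/-- pointwise transport of `LocPrin` to the contract chart. -/
theorem smoothAt_of_locPrin (hX : algebraMap A[X] F X = t) (π : A) (x : Ideal ↥(chart A t))
    (h : LocPrin (algebraMap A[X] ↥(integralClosure A[X] F) (C π))
      (x.comap ((chartEquiv (A := A) hX : ↥(integralClosure A[X] F) ≃+* ↥(chart A t)) :
        ↥(integralClosure A[X] F) →+* ↥(chart A t)))) :
    SmoothAt π (chart A t) x := by
  set e := chartEquiv (A := A) hX with he
  obtain ⟨τ, hτ, hloc⟩ := h
  refine ⟨e τ, hτ, ?_⟩
  intro y hy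
  have hy' : e.symm y ∈ x.comap (e : ↥(integralClosure A[X] F) →+* ↥(chart A t)) := by
    rw [Ideal.mem_comap]
    show e (e.symm y) ∈ x
    rw [e.apply_symm_apply]; exact hy
  obtain ⟨s, hs, hsy⟩ := hloc _ hy'
  refine ⟨e s, hs, ?_⟩
  have h1 : e (s * e.symm y) ∈ Ideal.map (e : ↥(integralClosure A[X] F) →+* ↥(chart A t))
      (Ideal.span {algebraMap A[X] ↥(integralClosure A[X] F) (C π), τ}) :=
    Ideal.mem_map_of_mem _ hsy
  rw [Ideal.map_span, Set.image_pair] at h1
  rw [map_mul, e.apply_symm_apply] at h1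
  have h2 : (e : ↥(integralClosure A[X] F) →+* ↥(chart A t))
      (algebraMap A[X] ↥(integralClosure A[X] F) (C π)) = algebraMap A ↥(chart A t) π := by
    show e _ = _
    rw [he, chartEquiv_algebraMap]
  rw [h2] at h1
  exact h1

omit [IsScalarTower A K F] [Algebra A[X] F] [IsScalarTower A A[X] F] [CharZero K] [Field F]
  [Algebra K F] [Algebra A F] in
/-- `hchar` in a DVR of characteristic zero. -/
theorem hchar_of_dvr [CharZero K] (π : A) (hπ : Irreducible π) (n : ℕ) (hn : n ≠ 0) :
    ∃ k : ℕ, (n : A[X]) ∣ (C π) ^ k := by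
  have hnA : (n : A) ≠ 0 := by
    intro h
    have h1 : algebraMap A K (n : A) = 0 := by rw [h, map_zero]
    rw [map_natCast] at h1
    exact hn (Nat.cast_eq_zero.mp h1)
  obtain ⟨k, v, hv⟩ := IsDiscreteValuationRing.eq_unit_mul_pow_irreducible hnA hπ
  refine ⟨k, ?_⟩
  have h2 : (n : A[X]) = C ((v : A)) * (C π) ^ k := by
    rw [← C_pow, ← C_mul, ← hv, map_natCast]
  rw [h2]
  exact ⟨C ((v⁻¹ : Aˣ) : A), by
    rw [mul_comm (C (v : A)), mul_assoc, ← C_mul, Units.mul_inv, C_1, mul_one]⟩

/-- **The generic cusp theorem.** -/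
theorem smoothOver_generic (hX : algebraMap A[X] F X = t) (ht : Transcendental K t)
    [FiniteDimensional ↥K⟮t⟯ F] (π c : A) (hπ : Irreducible π)
    {Cκ : Type*} [Fintype Cκ] [DecidableEq Cκ]
    (ι : Cκ → F →+* LaurentSeries K)
    (ιPS : Cκ → ↥(integralClosure A[X] F) →+* PowerSeries A)
    (hcompat : ∀ k (b : ↥(integralClosure A[X] F)), toLS A K (ιPS k b) = ι k (b : F))
    (hconst : ∀ k (a : A), ι k (algebraMap A F a) = HahnSeries.C (algebraMap A K a))
    (e : Cκ → ℕ) (he : ∀ k, 0 < e k) (heA : ∀ k, IsUnit ((e k : ℕ) : A))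
    (u : Cκ → PowerSeries A) (u₀ : Cκ → Aˣ)
    (hu : ∀ k, PowerSeries.constantCoeff (u k) = u₀ k)
    (hshape : ∀ k, ι k t = HahnSeries.C (algebraMap A K c) +
      toLS A K (u k * PowerSeries.X ^ e k))
    (hplaces : ∀ w : AlgebraicCurve.Place K F, 0 < w.ord (t - algebraMap A F c) →
      ∃ k, ∀ z : F, z ≠ 0 → 0 ≤ (ι k z).order → z ∈ w.toValuationSubring)
    (hrank : ∑ k, e k = Module.finrank ↥K⟮t⟯ F)
    {k₀ L : Type*} [Field k₀] [Field L] [Algebra k₀ L] (ρ₀ : A[X] →+* k₀)
    (ρ : ↥(integralClosure A[X] F) →+* L)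
    (hcomp : ∀ r : A[X], ρ (algebraMap A[X] ↥(integralClosure A[X] F) r) = algebraMap k₀ L (ρ₀ r))
    (hker₀ : ∀ r : A[X], ρ₀ r = 0 ↔ C π ∣ r)
    (hker : ∀ z : ↥(integralClosure A[X] F), ρ z = 0 ↔
      algebraMap A[X] ↥(integralClosure A[X] F) (C π) ∣ z)
    (hgen : ∀ c' : k₀, ∃ r r' : A[X], ρ₀ r' ≠ 0 ∧ c' * ρ₀ r' = ρ₀ r)
    (hsep : ∀ z : ↥(integralClosure A[X] F), IsSeparable k₀ (ρ z))
    (hUNR : ∀ O : ValuationSubring F, (∀ s : ↥(integralClosure A[X] F), (s : F) ∈ O) →
      IsDiscreteValuationRing O →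
      (algebraMap A[X] F (C π))⁻¹ ∈ O →
      (algebraMap A[X] F (X - C c))⁻¹ ∈ O →
      (∀ r : A[X], r ∉ cuspIdeal π c → (algebraMap A[X] F r)⁻¹ ∈ O) →
      ∃ g0 : A[X], (algebraMap A[X] F g0)⁻¹ ∉ O ∧
        ∀ y ∈ O, y⁻¹ ∉ O → y / algebraMap A[X] F g0 ∈ O)
    (x : Ideal ↥(chart A t)) (hx : x.IsMaximal) (hπx : algebraMap A ↥(chart A t) π ∈ x)
    (τ : ↥(chart A t)) (hτ : (τ : F) = t - algebraMap A F c) (hτx : τ ∈ x) :
    SmoothAt π (chart A t) x := by
  classical
  -- the instances on `B`
  haveI := finite_integralClosure (A := A) (K := K) hX ht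
  haveI := isIntegrallyClosed_integralClosure (A := A) (K := K) hX ht
  haveI := faithfulSMul_integralClosure (A := A) (K := K) hX ht
  haveI := isFractionRing_integralClosure (A := A) (K := K) hX ht
  haveI := isPrincipalIdealRing_quot hπ
  have hmaxA : (Ideal.span {π}).IsMaximal := by
    rw [← Irreducible.maximalIdeal_eq hπ]; exact IsLocalRing.maximalIdeal.isMaximal A
  haveI hP : (cuspIdeal π c).IsPrime := (cuspIdeal_isMaximal π c hmaxA).isPrime
  apply smoothAt_of_locPrin hX π x
  set ee := chartEquiv (A := A) hX with hee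
  have hemax : (x.comap (ee : ↥(integralClosure A[X] F) →+* ↥(chart A t))).IsMaximal :=
    Ideal.comap_isMaximal_of_surjective _ ee.surjective
  have hπ' : algebraMap A[X] ↥(integralClosure A[X] F) (C π) ∈
      x.comap (ee : ↥(integralClosure A[X] F) →+* ↥(chart A t)) := by
    rw [Ideal.mem_comap]
    show ee _ ∈ x
    rw [hee, chartEquiv_algebraMap]
    exact hπx
  have hτ' : algebraMap A[X] ↥(integralClosure A[X] F) (X - C c) ∈
      x.comap (ee : ↥(integralClosure A[X] F) →+* ↥(chart A t)) := by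
    rw [Ideal.mem_comap]
    have : (ee : ↥(integralClosure A[X] F) →+* ↥(chart A t))
        (algebraMap A[X] ↥(integralClosure A[X] F) (X - C c)) = τ := by
      apply Subtype.ext
      show algebraMap A[X] F (X - C c) = (τ : F)
      rw [hτ, algebraMap_eq_aeval hX, map_sub, aeval_X, aeval_C]
    rw [this]
    exact hτx
  -- orders of `t - c`
  have hord : ∀ k, (ι k (t - algebraMap A F c)).order = e k := by
    intro k
    rw [map_sub, hshape, hconst, add_sub_cancel_left]
    exact order_toLS_mul_X_pow A K (u k) (by rw [hu]; exact (u₀ k).ne_zero) (e k)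
  have hRF : ∀ r : A[X], algebraMap ↥(integralClosure A[X] F) F
      (algebraMap A[X] ↥(integralClosure A[X] F) r) = algebraMap A[X] F r := fun r => rfl
  exact CuspDisc21.cusp_semi_of_purity π c ↥(integralClosure A[X] F) F e he heA u u₀ hu ιPS
    (fun k p => hι_of_shape hX c (ι k) (ιPS k) (hcompat k) (hconst k) (e k) (he k) (u k)
      (hshape k) p)
    hπ
    (CharZeroB9.hiv_of_places hX ht c ι ιPS hcompat e hord hplaces)
    (by rw [hrank, finrank_localization, RankBridge13.finrank_integralClosure (K := K) hX ht])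
    (hchar_of_dvr (K := K) π hπ) ρ₀ ρ hcomp hker₀ hker hgen hsep
    (fun O hBO hdvr h1 h2 h3 => hUNR O hBO hdvr h1 h2 h3)
    _ hemax hπ' hτ'

end Main

end Fermat.Agent.RED.CUSP.CuspGeneric23
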