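/-
Program H (S18), chapter RED/CUSP — helper6, leaf (L1): BUILD `ιPS` FROM `ι`.

Generic E3 setting: `A` a principal ideal domain with fraction field `K`, `F ⊇ K` a field, `t : F`,
`F` an `A[X]`-algebra through `X ↦ t`, `B := integralClosure A[X] F`.
Input: a ring hom `ι : F →+* K((X))`, `C` on the constants of `A`, with values in
`Frac (A⟦X⟧)` (`psFrac`), and `ι t = c + u X^e` (`u ∈ A⟦X⟧`).
Output: `ιPS : B →+* A⟦X⟧` with `toLS (ιPS b) = ι b` and
`ιPS (p(t)) = ψ_{e,u}(φ_c p)` (`= p(c + u X^e)`), the hypothesis (I1) of `CuspSemi23.cusp_semi`.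
-/
import Mathlib
import Fermat.Agent.RED.CUSP.IntClosedPS16
import Fermat.Agent.RED.CUSP.CuspShapeK6

set_option autoImplicit false
set_option linter.unusedSectionVars false

open Polynomial

noncomputable section

namespace Fermat.Agent.RED.CUSP.CuspPS6

open Fermat.Agent.RED.CUSP.IntClosedPS16 Fermat.Agent.RED.CUSP.PSRadical6
  Fermat.Agent.RED.CUSP.PolyToPS16 Fermat.Agent.RED.CUSP.CuspShapeK6

variable {A K F : Type*} [CommRing A] [IsDomain A] [IsPrincipalIdealRing A]
  [Field K] [Field F] [Algebra A K] [IsFractionRing A K] [Algebra A F]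
  [Algebra A[X] F] [IsScalarTower A A[X] F]

/-- `A⟦X⟧ ≃ psRange`. -/
def psEquiv : PowerSeries A ≃+* psRange A K :=
  RingEquiv.ofBijective (toLS A K).rangeRestrict
    ⟨fun _ _ h => toLS_injective A K (congrArg Subtype.val h),
      (toLS A K).rangeRestrict_surjective⟩

theorem coe_psEquiv (p : PowerSeries A) :
    ((psEquiv (A := A) (K := K) p : psRange A K) : LaurentSeries K) = toLS A K p := rfl

theorem toLS_psEquiv_symm (x : psRange A K) :
    toLS A K ((psEquiv (A := A) (K := K)).symm x) = (x : LaurentSeries K) := by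
  rw [← coe_psEquiv, RingEquiv.apply_symm_apply]

section Build

variable (ι : F →+* LaurentSeries K)
  (hconst : ∀ a : A, ι (algebraMap A F a) = HahnSeries.C (algebraMap A K a))
  (hfrac : ∀ f, ι f ∈ psFrac A K)
  (c : A) (u : PowerSeries A) (e : ℕ)
  (ht : ι (algebraMap A[X] F X) = HahnSeries.C (algebraMap A K c) +
    toLS A K (u * PowerSeries.X ^ e))

include hconst ht in
/-- `ι (p(t)) = p(c + u X^e)`. -/
theorem iota_algebraMap_poly (p : A[X]) :
    ι (algebraMap A[X] F p) = toLS A K
      (p.eval₂ (PowerSeries.C (R := A)) (PowerSeries.C c + u * PowerSeries.X ^ e)) := by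
  have h1 : algebraMap A[X] F p = p.eval₂ (algebraMap A F) (algebraMap A[X] F X) := by
    have h2 : (algebraMap A[X] F) = Polynomial.eval₂RingHom (algebraMap A F)
        (algebraMap A[X] F X) := by
      apply Polynomial.ringHom_ext
      · intro a
        rw [Polynomial.coe_eval₂RingHom, Polynomial.eval₂_C]
        exact (IsScalarTower.algebraMap_apply A A[X] F a).symm
      · rw [Polynomial.coe_eval₂RingHom, Polynomial.eval₂_X]
    exact congrFun (congrArg DFunLike.coe h2) p
  rw [h1]
  exact eval_shape ι (algebraMap A F) (algebraMap A K) hconst (algebraMap A[X] F X) c u e ht p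

include hconst ht in
theorem iota_range_mem (r : F) (hr : r ∈ (algebraMap A[X] F).range) : ι r ∈ psRange A K := by
  obtain ⟨p, rfl⟩ := hr
  rw [iota_algebraMap_poly ι hconst c u e ht p]
  exact toLS_mem_psRange A K _

theorem isIntegral_range {b : F} (hb : IsIntegral A[X] b) :
    IsIntegral (algebraMap A[X] F).range b := by
  obtain ⟨P, hPm, hP⟩ := hb
  refine ⟨P.map (algebraMap A[X] F).rangeRestrict, hPm.map _, ?_⟩
  rw [Polynomial.eval₂_map]
  exact hP

include hconst hfrac ht in
/-- integral elements are mapped into `A⟦X⟧`. -/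
theorem iota_mem_psRange (b : integralClosure A[X] F) : ι (b : F) ∈ psRange A K :=
  map_mem_psRange_of_isIntegral A K ι hfrac (algebraMap A[X] F).range
    (iota_range_mem ι hconst c u e ht) (isIntegral_range b.2)

/-- `ι` restricted to `B`, with values in `psRange`. -/
def iotaB : integralClosure A[X] F →+* psRange A K :=
  (ι.comp (integralClosure A[X] F).toSubring.subtype).codRestrict (psRange A K)
    (fun b => iota_mem_psRange ι hconst hfrac c u e ht b)

/-- **The expansion map `B →+* A⟦X⟧`.** -/
def iotaPS : integralClosure A[X] F →+* PowerSeries A :=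
  ((psEquiv (A := A) (K := K)).symm : psRange A K →+* PowerSeries A).comp
    (iotaB ι hconst hfrac c u e ht)

/-- compatibility `toLS ∘ ιPS = ι`. -/
theorem toLS_iotaPS (b : integralClosure A[X] F) :
    toLS A K (iotaPS ι hconst hfrac c u e ht b) = ι (b : F) := by
  show toLS A K ((psEquiv (A := A) (K := K)).symm (iotaB ι hconst hfrac c u e ht b)) = _
  rw [toLS_psEquiv_symm]
  rfl

/-- (I1) in evaluation form. -/
theorem iotaPS_algebraMap_eval (p : A[X]) :
    iotaPS ι hconst hfrac c u e ht (algebraMap A[X] (integralClosure A[X] F) p)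
      = p.eval₂ (PowerSeries.C (R := A)) (PowerSeries.C c + u * PowerSeries.X ^ e) := by
  apply toLS_injective A K
  rw [toLS_iotaPS, ← iota_algebraMap_poly ι hconst c u e ht p]
  rfl

/-- **(I1)** literally as in `CuspSemi23.cusp_semi`. -/
theorem iotaPS_algebraMap (he : 0 < e) (p : A[X]) :
    iotaPS ι hconst hfrac c u e ht (algebraMap A[X] (integralClosure A[X] F) p)
      = psi e he u (phi c p) := by
  rw [iotaPS_algebraMap_eval, eval₂_eq_psi]

end Build

/-- **(L1)** packaged as an existence statement, with the shape hypothesis on `t`. -/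
theorem exists_iotaPS {t : F} (hX : algebraMap A[X] F X = t) (ι : F →+* LaurentSeries K)
    (hconst : ∀ a : A, ι (algebraMap A F a) = HahnSeries.C (algebraMap A K a))
    (hfrac : ∀ f, ι f ∈ psFrac A K) (c : A) (u : PowerSeries A) (e : ℕ) (he : 0 < e)
    (ht : ι t = HahnSeries.C (algebraMap A K c) + toLS A K (u * PowerSeries.X ^ e)) :
    ∃ ιPS : integralClosure A[X] F →+* PowerSeries A,
      (∀ b : integralClosure A[X] F, toLS A K (ιPS b) = ι (b : F)) ∧
      ∀ p : A[X], ιPS (algebraMap A[X] (integralClosure A[X] F) p) = psi e he u (phi c p) := by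
  subst hX
  exact ⟨iotaPS ι hconst hfrac c u e ht, toLS_iotaPS ι hconst hfrac c u e ht,
    iotaPS_algebraMap ι hconst hfrac c u e ht he⟩

end Fermat.Agent.RED.CUSP.CuspPS6
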