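/-
Program H (S18), chapter RED/CUSP, helper23: the cusp theorem in the GENERIC `(O, E)` setting of
`ModelIface4`, with the vertical (GAUSS) side discharged by `VertPurity22.vertical_data`.

`O : ValuationSubring K` a DVR, `E ⊂ K((q))`, `t : E` a coordinate in the Gauss ring with
transcendental reduction, `(DEG)+(IRR)`; a finite family of expansions `ι κ : E →+* K((X))` at the
cusps over `t = c` (`hconst`, `hfrac`, shape `ι κ t = c + u_κ X^(e κ)`, `hplaces`, `∑ e κ = [E : K(t)]`)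
and the horizontal hypothesis `hUNR` (literal, `q`-excluded form).  Conclusion:
`ModelIface4.SmoothOver O E π t c`.
-/
import Fermat.Agent.RED.CUSP.CuspGeneric23
import Fermat.Agent.RED.CUSP.CuspPS6
import Fermat.Agent.RED.PUR.VertPurity22
import Fermat.Agent.RED.ModelIface4

set_option autoImplicit false
set_option linter.unusedSectionVars false
set_option linter.unusedVariables false
set_option linter.style.haveILetI false

noncomputable section

namespace Fermat.Agent.RED.CUSP.SmoothOverGen23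

open Polynomial IntermediateField
open Fermat.Agent.RED.CUSP Fermat.Agent.RED.PUR
open Fermat.Agent.RED.CUSP.PolyToPS16 Fermat.Agent.RED.CUSP.IntClosedPS16
open Fermat.Agent.RED.PUR.IntClosBase13 Fermat.Agent.RED.PUR.ChartsGeneric13
open Fermat.Agent.RED.ChartTransfer3

section E3

variable {A K F : Type*} [CommRing A] [IsDomain A] [IsDiscreteValuationRing A]
  [Field K] [Algebra A K] [IsFractionRing A K] [CharZero K]
  [Field F] [Algebra K F] [Algebra A F] [IsScalarTower A K F]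
  [Algebra A[X] F] [IsScalarTower A A[X] F] {t : F}

/-- `CuspGeneric23.smoothOver_generic` with the maps `ιPS` built from `hfrac` (`CuspPS6`). -/
theorem smoothOver_of_frac (hX : algebraMap A[X] F X = t) (ht : Transcendental K t)
    [FiniteDimensional ↥K⟮t⟯ F] (π c : A) (hπ : Irreducible π)
    {Cκ : Type*} [Fintype Cκ] [DecidableEq Cκ]
    (ι : Cκ → F →+* LaurentSeries K)
    (hconst : ∀ k (a : A), ι k (algebraMap A F a) = HahnSeries.C (algebraMap A K a))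
    (hfrac : ∀ k f, ι k f ∈ psFrac A K)
    (e : Cκ → ℕ) (he : ∀ k, 0 < e k) (heA : ∀ k, IsUnit ((e k : ℕ) : A))
    (u : Cκ → PowerSeries A) (hu : ∀ k, IsUnit (PowerSeries.constantCoeff (u k)))
    (hshape : ∀ k, ι k t = HahnSeries.C (algebraMap A K c) +
      toLS A K (u k * PowerSeries.X ^ e k))
    (hplaces : ∀ w : AlgebraicCurve.Place K F, 0 < w.ord (t - algebraMap A F c) →
      ∃ k, ∀ z : F, z ≠ 0 → 0 ≤ (ι k z).order → z ∈ w.toValuationSubring)
    (hrank : ∑ k, e k = Module.finrank ↥K⟮t⟯ F)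
    {k₀ L : Type*} [Field k₀] [Field L] [Algebra k₀ L] (ρ₀ : A[X] →+* k₀)
    (ρ : ↥(integralClosure A[X] F) →+* L)
    (hcomp : ∀ r : A[X], ρ (algebraMap A[X] ↥(integralClosure A[X] F) r) = algebraMap k₀ L (ρ₀ r))
    (hker₀ : ∀ r : A[X], ρ₀ r = 0 ↔ C π ∣ r)
    (hker : ∀ z : ↥(integralClosure A[X] F), ρ z = 0 ↔
      algebraMap A[X] ↥(integralClosure A[X] F) (C π) ∣ z)
    (hgen : ∀ c' : k₀, ∃ r r' : A[X], ρ₀ r' ≠ 0 ∧ c' * ρ₀ r' = ρ₀ r)
    (hsep : ∀ z : ↥(integralClosure A[X] F), IsSeparable k₀ (ρ z))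
    (hUNR : ∀ O : ValuationSubring F, (∀ s : ↥(integralClosure A[X] F), (s : F) ∈ O) →
      IsDiscreteValuationRing O →
      (algebraMap A[X] F (C π))⁻¹ ∈ O →
      (algebraMap A[X] F (X - C c))⁻¹ ∈ O →
      (∀ r : A[X], r ∉ cuspIdeal π c → (algebraMap A[X] F r)⁻¹ ∈ O) →
      ∃ g0 : A[X], (algebraMap A[X] F g0)⁻¹ ∉ O ∧
        ∀ y ∈ O, y⁻¹ ∉ O → y / algebraMap A[X] F g0 ∈ O)
    (x : Ideal ↥(chart A t)) (hx : x.IsMaximal) (hπx : algebraMap A ↥(chart A t) π ∈ x)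
    (τ : ↥(chart A t)) (hτ : (τ : F) = t - algebraMap A F c) (hτx : τ ∈ x) :
    SmoothAt π (chart A t) x := by
  classical
  choose ιPS hcompat _ using fun k =>
    CuspPS6.exists_iotaPS hX (ι k) (hconst k) (hfrac k) c (u k) (e k) (he k) (hshape k)
  exact CuspGeneric23.smoothOver_generic hX ht π c hπ ι ιPS hcompat hconst e he heA u
    (fun k => (hu k).unit) (fun k => (hu k).unit_spec.symm) hshape hplaces hrank ρ₀ ρ hcomp hker₀ hker
    hgen hsep hUNR x hx hπx τ hτ hτx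

end E3

section OE

open ModularCurve
open Fermat.Agent.RED.PUR.GaussGen8 Fermat.Agent.RED.PUR.KtGauss8 Fermat.Agent.RED.PUR.G1Package8
open Fermat.Agent.RED.PUR.VertGauss22 Fermat.Agent.RED.PUR.VertPurity22
open Fermat.Agent.RED.ModelIface4 Fermat.Agent.RED.NumInst4

variable {K : Type*} [Field K] [CharZero K] (O : ValuationSubring K) [IsDiscreteValuationRing ↥O]
  {π : ↥O} (hπ : Irreducible π)
  (E : IntermediateField K (LaurentSeries K)) (hE : E ≤ fracField O)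
  (t : ↥E) (ht : (t : LaurentSeries K) ∈ gaussRing O)
  (htr : Transcendental (Res O) (gaussRed O ⟨(t : LaurentSeries K), ht⟩))
  {n : ℕ} (hdeg : DegLe O E ⟨(t : LaurentSeries K), ht⟩ n)
  (hirr : Irr O E ⟨(t : LaurentSeries K), ht⟩ n)

include hπ hE ht htr hdeg hirr in
/-- **The cusp theorem in the generic `(O, E)` setting.** -/
theorem smoothOver_gen [Algebra (↥O)[X] ↥E] [IsScalarTower ↥O (↥O)[X] ↥E]
    (hX : algebraMap (↥O)[X] ↥E X = t)
    (ℓ : ℕ) [Fact ℓ.Prime] [CharP (Res O) ℓ] [PerfectField (Res O)]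
    (hord : IsCoprime (gaussRed O ⟨(t : LaurentSeries K), ht⟩).order (ℓ : ℤ))
    (htrK : Transcendental K t) [FiniteDimensional ↥K⟮t⟯ ↥E] (c : ↥O)
    {Cκ : Type*} [Fintype Cκ] [DecidableEq Cκ]
    (ι : Cκ → ↥E →+* LaurentSeries K)
    (hconst : ∀ k (a : ↥O), ι k (algebraMap ↥O ↥E a) = HahnSeries.C (algebraMap ↥O K a))
    (hfrac : ∀ k f, ι k f ∈ psFrac ↥O K)
    (e : Cκ → ℕ) (he : ∀ k, 0 < e k) (heA : ∀ k, IsUnit ((e k : ℕ) : ↥O))
    (u : Cκ → PowerSeries ↥O) (hu : ∀ k, IsUnit (PowerSeries.constantCoeff (u k)))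
    (hshape : ∀ k, ι k t = HahnSeries.C (algebraMap ↥O K c) +
      toLS ↥O K (u k * PowerSeries.X ^ e k))
    (hplaces : ∀ w : AlgebraicCurve.Place K ↥E, 0 < w.ord (t - algebraMap ↥O ↥E c) →
      ∃ k, ∀ z : ↥E, z ≠ 0 → 0 ≤ (ι k z).order → z ∈ w.toValuationSubring)
    (hrank : ∑ k, e k = Module.finrank ↥K⟮t⟯ ↥E)
    (hUNR : ∀ O' : ValuationSubring ↥E,
      (∀ s : ↥(integralClosure (↥O)[X] ↥E), (s : ↥E) ∈ O') →
      IsDiscreteValuationRing O' →
      (algebraMap (↥O)[X] ↥E (C π))⁻¹ ∈ O' →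
      (algebraMap (↥O)[X] ↥E (X - C c))⁻¹ ∈ O' →
      (∀ r : (↥O)[X], r ∉ cuspIdeal π c → (algebraMap (↥O)[X] ↥E r)⁻¹ ∈ O') →
      ∃ g0 : (↥O)[X], (algebraMap (↥O)[X] ↥E g0)⁻¹ ∉ O' ∧
        ∀ y ∈ O', y⁻¹ ∉ O' → y / algebraMap (↥O)[X] ↥E g0 ∈ O') :
    SmoothOver O E π t c := by
  haveI : IsScalarTower ↥O K ↥E := isScalarTower_OE O E
  intro x hx hπx hτx
  -- the vertical data
  have h1 : ∀ r : (↥O)[X], algebraMap ↥(integralClosure (↥O)[X] ↥E) ↥E
      (algebraMap (↥O)[X] ↥(integralClosure (↥O)[X] ↥E) r) = aeval t r := fun r =>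
    algebraMap_eq_aeval hX r
  have h2 : ∀ b : ↥(integralClosure (↥O)[X] ↥E),
      IsIntegral ↥(Algebra.adjoin ↥O {t}) (algebraMap ↥(integralClosure (↥O)[X] ↥E) ↥E b) :=
    fun b => (isIntegral_iff hX (b : ↥E)).mp b.2
  have h3 : ∀ y : ↥E, IsIntegral ↥(Algebra.adjoin ↥O {t}) y →
      ∃ b : ↥(integralClosure (↥O)[X] ↥E), algebraMap ↥(integralClosure (↥O)[X] ↥E) ↥E b = y :=
    fun y hy => ⟨⟨y, (isIntegral_iff hX y).mpr hy⟩, rfl⟩
  obtain ⟨-, ρ₀, ρ, hcomp, hker₀, hker, hgen, hsep⟩ :=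
    vertical_data (B := ↥(integralClosure (↥O)[X] ↥E)) O hπ E hE t ht htr
      (algebraMap ↥(integralClosure (↥O)[X] ↥E) ↥E) h1 h2
      (fun a b hab => Subtype.ext hab) h3 hdeg hirr ℓ hord
  exact smoothOver_of_frac (A := ↥O) (K := K) (F := ↥E) hX htrK π c hπ ι hconst hfrac e he heA u hu
    hshape hplaces hrank ρ₀ ρ hcomp hker₀ hker hgen hsep hUNR x hx hπx (subConst O E t c)
    (by
      show ((subConst O E t c : ↥(chart ↥O t)) : ↥E) = _
      rfl) hτx

end OE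

end Fermat.Agent.RED.CUSP.SmoothOverGen23
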