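/-
Program H (S18), chapter RED/CUSP, helper23: GENERIC Prop-wrappers for the inputs of
`SmoothOverGen23.smoothOver_gen`, so that the concrete files only mention
`HasCuspFamily (AK A K) (FK M K) t c N` and `HUNRCusp (AK A K) (FK M K) ϖ t c`
(typeclass search at the concrete types `↥(AK A K)`, `↥(FK M K)` is very slow; here all instances
are found once, in the generic setting).

* `HasCuspFamily O E t c N` : a finite family of expansions `ι κ : E →+* K((X))` at the cusps over
  `t = c` with `hconst`, `hfrac`, the shape `ι κ t = c + u_κ X^(e κ)` (`e κ` invertible in `O`,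
  `u_κ(0)` a unit), `hplaces`, and `∑ e κ = N`.
* `HUNRCusp O E π t c` : the horizontal hypothesis of `smoothOver_gen` (for the `O[X]`-algebra structure
  `IntClosBase13.polyAlgebra t` on `E`).
* `smoothOver_of_family` : `smoothOver_gen` restated with these wrappers.
-/
import Fermat.Agent.RED.CUSP.SmoothOverGen23

set_option autoImplicit false
set_option linter.unusedSectionVars false
set_option linter.unusedVariables false
set_option linter.style.haveILetI false

noncomputable section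

namespace Fermat.Agent.RED.CUSP.CuspIface23

open Polynomial IntermediateField ModularCurve
open Fermat.Agent.RED.CUSP.PolyToPS16 Fermat.Agent.RED.CUSP.IntClosedPS16
open Fermat.Agent.RED.PUR.IntClosBase13
open Fermat.Agent.RED.PUR.GaussGen8 Fermat.Agent.RED.PUR.KtGauss8 Fermat.Agent.RED.PUR.G1Package8
open Fermat.Agent.RED.ModelIface4

variable {K : Type*} [Field K] (O : ValuationSubring K) (E : IntermediateField K (LaurentSeries K))

/-- The family of cusp expansions over `t = c`, with rank sum `N`. -/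
def HasCuspFamily (t : ↥E) (c : ↥O) (N : ℕ) : Prop :=
  ∃ (Cκ : Type) (_ : Fintype Cκ) (_ : DecidableEq Cκ)
    (ι : Cκ → ↥E →+* LaurentSeries K) (e : Cκ → ℕ) (u : Cκ → PowerSeries ↥O),
    (∀ k (a : ↥O), ι k (algebraMap ↥O ↥E a) = HahnSeries.C (algebraMap ↥O K a)) ∧
    (∀ k f, ι k f ∈ psFrac ↥O K) ∧
    (∀ k, 0 < e k) ∧ (∀ k, IsUnit ((e k : ℕ) : ↥O)) ∧
    (∀ k, IsUnit (PowerSeries.constantCoeff (u k))) ∧
    (∀ k, ι k t = HahnSeries.C (algebraMap ↥O K c) + toLS ↥O K (u k * PowerSeries.X ^ e k)) ∧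
    (∀ w : AlgebraicCurve.Place K ↥E, 0 < w.ord (t - algebraMap ↥O ↥E c) →
      ∃ k, ∀ z : ↥E, z ≠ 0 → 0 ≤ (ι k z).order → z ∈ w.toValuationSubring) ∧
    ∑ k, e k = N

/-- The horizontal hypothesis at the cusp point `(π, t - c)`: every discrete valuation ring `O'` of `E`
containing the chart, in which `π` and `t - c` are units and whose centre lies in `(π, t - c)`, has a
uniformiser of the form `g0(t)`, `g0 ∈ O[X]`. -/
def HUNRCusp (π : ↥O) (t : ↥E) (c : ↥O) : Prop :=
  ∀ O' : ValuationSubring ↥E,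
    (∀ s : ↥E, IsIntegral ↥(Algebra.adjoin ↥O {t}) s → s ∈ O') →
    IsDiscreteValuationRing O' →
    (algebraMap ↥O ↥E π)⁻¹ ∈ O' →
    (t - algebraMap ↥O ↥E c)⁻¹ ∈ O' →
    (∀ r : (↥O)[X], r ∉ cuspIdeal π c → (aeval t r)⁻¹ ∈ O') →
    ∃ g0 : (↥O)[X], (aeval t g0)⁻¹ ∉ O' ∧ ∀ y ∈ O', y⁻¹ ∉ O' → y / aeval t g0 ∈ O'

variable {O E}

/-- **The cusp theorem, wrapped.** -/
theorem smoothOver_of_family [CharZero K] [IsDiscreteValuationRing ↥O] {π : ↥O} (hπ : Irreducible π)
    (hE : E ≤ fracField O) (t : ↥E) (ht : (t : LaurentSeries K) ∈ gaussRing O)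
    (htr : Transcendental (Res O) (gaussRed O ⟨(t : LaurentSeries K), ht⟩))
    {n : ℕ} (hdeg : DegLe O E ⟨(t : LaurentSeries K), ht⟩ n)
    (hirr : Irr O E ⟨(t : LaurentSeries K), ht⟩ n)
    (ℓ : ℕ) [Fact ℓ.Prime] [CharP (Res O) ℓ] [PerfectField (Res O)]
    (hord : IsCoprime (gaussRed O ⟨(t : LaurentSeries K), ht⟩).order (ℓ : ℤ))
    (htrK : Transcendental K t) [FiniteDimensional ↥K⟮t⟯ ↥E] (c : ↥O)
    (hfam : HasCuspFamily O E t c (Module.finrank ↥K⟮t⟯ ↥E))
    (hunr : HUNRCusp O E π t c) : SmoothOver O E π t c := by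
  haveI : IsScalarTower ↥O K ↥E := Fermat.Agent.RED.NumInst4.isScalarTower_OE O E
  letI : Algebra (↥O)[X] ↥E := polyAlgebra (A := ↥O) t
  haveI : IsScalarTower ↥O (↥O)[X] ↥E := polyAlgebra_isScalarTower (A := ↥O) t
  have hX : algebraMap (↥O)[X] ↥E X = t := polyAlgebra_algebraMap_X (A := ↥O) t
  obtain ⟨Cκ, hfin, hdec, ι, e, u, hconst, hfrac, he, heA, hu, hshape, hplaces, hrank⟩ := hfam
  refine SmoothOverGen23.smoothOver_gen O hπ E hE t ht htr hdeg hirr hX ℓ hord htrK c ι hconst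
    hfrac e he heA u hu hshape hplaces hrank ?_
  intro O' hB hdvr h1 h2 h3
  have haev : ∀ r : (↥O)[X], algebraMap (↥O)[X] ↥E r = aeval t r := fun r =>
    algebraMap_eq_aeval hX r
  refine (fun ⟨g0, hg1, hg2⟩ => ⟨g0, by rw [haev]; exact hg1, fun y hy hy' => by
    rw [haev]; exact hg2 y hy hy'⟩) (hunr O' ?_ hdvr ?_ ?_ ?_)
  · intro s hs
    exact hB ⟨s, (isIntegral_iff hX s).mpr hs⟩
  · have := h1
    rwa [haev, aeval_C] at this
  · have := h2
    rwa [haev, map_sub, aeval_X, aeval_C] at this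
  · intro r hr
    have := h3 r hr
    rwa [haev] at this

end Fermat.Agent.RED.CUSP.CuspIface23
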