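/-
Program H (RED/CUSP, concrete half; helper16): the concrete family `ι γ := CuspEmbK16.TK hζ γ` of
cusp expansions over a number field `K ∋ ζ_M`, in the shapes consumed by the generic cusp theorem.

`t : FK M K` any coordinate (the Hauptmodul or its inverse), `emb = PlaceExtend27.baseChangeHom`.

* `shape_some` (F1): if `(cuspData M).T γ (emb t)` has `CuspShape n _ (some c̄)` then
  `TK hζ γ t = C c + toLS (u * X ^ e₀)` with `c : A_K` over `c̄`, `e₀ > 0`, `u ∈ A_K⟦s⟧ˣ`;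
  `shape_none`: the pole version for `t⁻¹`;
* `order_toLS_mul_X_pow`, `order_sub_of_shape` (F2): `ord (TK hζ γ (t - c)) = e₀`;
  `ord_placeOf_of_shape`: hence `ord_v (emb t - c̄) = e₀` for `v = placeOf M γ`;
* `hplaces_of_fibre` (F3): if every `ℚ̄`-place `v` with `0 < ord_v (emb τ)` is a `placeOf M γ` with
  `γ ∈ Γ`, then for every `K`-place `w` with `0 < ord_w τ` there is `γ ∈ Γ` such that
  `0 ≤ ord (TK hζ γ z) → z ∈ O_w`.
-/
import Fermat.Agent.RED.CUSP.CuspEmbK16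
import Fermat.Agent.RED.CUSP.CuspShapeK6

set_option autoImplicit false
set_option linter.unusedSectionVars false

noncomputable section

namespace Fermat.Agent.RED.CUSP.CuspFamilyK16

open Fermat.Agent.X0 AlgebraicCurve ModularCurve HahnSeries
open Fermat.Agent.RED.Interface4 Fermat.Agent.RED.DESC.PlaceExtend27
open Fermat.Agent.RED.CUSP.CuspExact16 Fermat.Agent.RED.CUSP.CuspEmbK16
open Fermat.Agent.RED.CUSP.IntClosedPS16 Fermat.Agent.RED.BASE.Interface12
open scoped MatrixGroups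

variable {M : ℕ} [NeZero M] {K : IntermediateField ℚ Qbar} (hζ : zetaK M ∈ K) (γ : SL(2, ℤ))
variable (A : ValuationSubring Qbar)

/-- `coeffMap (qExpand r (TK γ z)) = (cuspData M).T γ (emb z)`. -/
theorem coeffMap_qExpand_TK (z : FK M K) :
    coeffMap (algebraMap K Qbar) (qExpand K (cuspR M γ) (TK hζ γ z)) =
      (cuspData M).T γ (baseChangeHom M K z) := by
  rw [ModularCurve.coeffMap_qExpand, coeffMap_TK, qExpand_Tc]

theorem toLS_eq (p : PowerSeries ↥(AK A K)) :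
    toLS ↥(AK A K) ↥K p = HahnSeries.ofPowerSeries ℤ K (p.map (AK A K).subtype) := rfl

/-- **(F1)** the shape of `TK γ t` at a cusp with finite value `c̄`. -/
theorem shape_some (n : ℕ) (hn : n ≠ 0) (hnA : ((n : Qbar))⁻¹ ∈ A) (t : FK M K) (cbar : Qbar)
    (h : CuspShape n ((cuspData M).T γ (baseChangeHom M K t)) (some cbar)) :
    ∃ (c : AK A K) (e₀ : ℕ) (u : PowerSeries ↥(AK A K)), 0 < e₀ ∧
      IsUnit (PowerSeries.constantCoeff u) ∧ algebraMap K Qbar (c : K) = cbar ∧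
      TK hζ γ t = HahnSeries.C (c : K) + toLS ↥(AK A K) ↥K (u * PowerSeries.X ^ e₀) := by
  rw [← coeffMap_qExpand_TK hζ γ t] at h
  obtain ⟨c, a, u, ha, hu, hc, hE⟩ :=
    CuspShapeK6.cuspShape_some A K n hn hnA _ cbar h
  obtain ⟨hdvd, u', hu', -, hE'⟩ := CuspShapeK6.compress A K (TK hζ γ t) (cuspR M γ) c a u hu hE
  refine ⟨c, a / cuspR M γ, u', ?_, hu', hc, hE'⟩
  exact Nat.div_pos (Nat.le_of_dvd ha hdvd) (cuspR_pos M γ)

/-- **(F1)**, pole version: the shape of `(TK γ t)⁻¹` at a cusp where `t` has a pole. -/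
theorem shape_none (n : ℕ) (hn : n ≠ 0) (hnA : ((n : Qbar))⁻¹ ∈ A) (t : FK M K)
    (h : CuspShape n ((cuspData M).T γ (baseChangeHom M K t)) none) :
    ∃ (e₀ : ℕ) (u : PowerSeries ↥(AK A K)), 0 < e₀ ∧
      IsUnit (PowerSeries.constantCoeff u) ∧
      TK hζ γ t⁻¹ = toLS ↥(AK A K) ↥K (u * PowerSeries.X ^ e₀) := by
  rw [← coeffMap_qExpand_TK hζ γ t] at h
  obtain ⟨a, u, ha, hu, hE⟩ := CuspShapeK6.cuspShape_none A K n hn hnA _ h
  obtain ⟨hdvd, u', hu', -, hE'⟩ :=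
    CuspShapeK6.compress_none A K (TK hζ γ t) (cuspR M γ) a u hu hE
  refine ⟨a / cuspR M γ, u', ?_, hu', ?_⟩
  · exact Nat.div_pos (Nat.le_of_dvd ha hdvd) (cuspR_pos M γ)
  · rw [map_inv₀]; exact hE'

/-- The order of `u * X ^ e` for `u` with nonzero constant coefficient. -/
theorem order_toLS_mul_X_pow (u : PowerSeries ↥(AK A K)) (hu : IsUnit (PowerSeries.constantCoeff u))
    (e₀ : ℕ) : (toLS ↥(AK A K) ↥K (u * PowerSeries.X ^ e₀)).order = e₀ := by
  have hu0 : ((PowerSeries.constantCoeff u : AK A K) : K) ≠ 0 := by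
    intro h0
    have : PowerSeries.constantCoeff u = 0 := Subtype.ext h0
    rw [this] at hu
    exact not_isUnit_zero hu
  have hcoeff : ∀ n : ℕ, (toLS ↥(AK A K) ↥K (u * PowerSeries.X ^ e₀)).coeff (n : ℤ) =
      if e₀ ≤ n then ((PowerSeries.coeff (n - e₀) u : AK A K) : K) else 0 := by
    intro n
    rw [toLS_coeff, PowerSeries.coeff_mul_X_pow']
    split_ifs <;> simp
  have h1 : (toLS ↥(AK A K) ↥K (u * PowerSeries.X ^ e₀)).coeff (e₀ : ℤ) ≠ 0 := by
    rw [hcoeff, if_pos le_rfl, Nat.sub_self, PowerSeries.coeff_zero_eq_constantCoeff_apply]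
    exact hu0
  have hne : toLS ↥(AK A K) ↥K (u * PowerSeries.X ^ e₀) ≠ 0 := fun h => h1 (by rw [h]; rfl)
  apply le_antisymm
  · exact HahnSeries.order_le_of_coeff_ne_zero h1
  · rw [HahnSeries.le_order_iff_forall hne]
    intro k hk
    rcases lt_or_ge k 0 with hk0 | hk0
    · exact toLS_coeff_neg _ _ _ k hk0
    · obtain ⟨m, rfl⟩ := Int.eq_ofNat_of_zero_le hk0
      rw [hcoeff, if_neg]
      exact_mod_cast not_le.mpr hk

/-- **(F2)** `ord (TK γ (t - c)) = e₀`. -/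
theorem order_sub_of_shape (t : FK M K) (c : AK A K) (e₀ : ℕ) (u : PowerSeries ↥(AK A K))
    (hu : IsUnit (PowerSeries.constantCoeff u))
    (ht : TK hζ γ t = HahnSeries.C (c : K) + toLS ↥(AK A K) ↥K (u * PowerSeries.X ^ e₀)) :
    (TK hζ γ (t - algebraMap K (FK M K) (c : K))).order = e₀ := by
  rw [map_sub, TK_const, ht, add_sub_cancel_left, order_toLS_mul_X_pow A u hu]

/-- **(F2)**, on the `ℚ̄`-side: `ord_v (emb t - c̄) = e₀` for `v = placeOf M γ`. -/
theorem ord_placeOf_of_shape (t : FK M K) (c : AK A K) (e₀ : ℕ) (he₀ : 0 < e₀)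
    (u : PowerSeries ↥(AK A K)) (hu : IsUnit (PowerSeries.constantCoeff u))
    (ht : TK hζ γ t = HahnSeries.C (c : K) + toLS ↥(AK A K) ↥K (u * PowerSeries.X ^ e₀)) :
    (placeOf M γ).ord (baseChangeHom M K (t - algebraMap K (FK M K) (c : K))) = e₀ := by
  have h1 := order_sub_of_shape hζ γ A t c e₀ u hu ht
  have hne : t - algebraMap K (FK M K) (c : K) ≠ 0 := by
    intro h0
    rw [h0, map_zero, HahnSeries.order_zero] at h1
    exact he₀.ne' (by exact_mod_cast h1.symm)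
  rw [← order_TK hζ γ _ hne, h1]

/-- **(F3)** `hplaces` from the description of the fibre over `ℚ̄`. -/
theorem hplaces_of_fibre (τ : FK M K) (Γ : Set (SL(2, ℤ)))
    (hfib : ∀ v : Place Qbar (Fbar M), 0 < v.ord (baseChangeHom M K τ) →
      ∃ γ ∈ Γ, v = placeOf M γ)
    (w : Place K (FK M K)) (hw : 0 < w.ord τ) :
    ∃ γ ∈ Γ, ∀ z : FK M K, z ≠ 0 → 0 ≤ (TK hζ γ z).order → z ∈ w.toValuationSubring := by
  obtain ⟨v, e, he, hord, hmem⟩ := exists_place_above_mem M K w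
  have hv : 0 < v.ord (baseChangeHom M K τ) := by
    rw [hord]
    exact mul_pos (by exact_mod_cast he) hw
  obtain ⟨γ, hγ, rfl⟩ := hfib v hv
  refine ⟨γ, hγ, fun z hz h0 => ?_⟩
  rw [← hmem, mem_placeOf_iff_TK hζ γ z hz]
  exact h0

end Fermat.Agent.RED.CUSP.CuspFamilyK16
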