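/-
Program H (RED/CUSP, concrete half; helper16): the PACKAGED concrete family of cusp expansions over
a cusp value, in the shape consumed by the generic cusp theorem (`CuspSemi23.cusp_semi` /
`CharZeroB9.hiv_of_places`).

`cusp_family_some` : for a finite cusp value `c̄` (`cv γ₀ = some c̄`), a number field `K ∋ ζ_M`,
a valuation subring `A` of `ℚ̄` with `M⁻¹ ∈ A` and `A_K` a PID, and `t : FK M K` over `tF M h`:
there are `c : A_K` over `c̄`, a finite index type `C` (the fibre of `t = c̄`), `γ : C → SL(2, ℤ)`,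
`e : C → ℕ`, `u : C → A_K⟦s⟧` such that

* `0 < e κ`, `e κ` is a unit of `A_K`, `u κ (0)` is a unit,
* `TK hζ (γ κ) t = C c + toLS (u κ * X ^ e κ)`,
* `∑ κ, e κ = [Fbar_M : ℚ̄(t)]`,
* (hplaces) every `K`-place `w` with `0 < ord_w (t - c)` is dominated by some `TK hζ (γ κ)`.

`cusp_family_none` : the same at the poles of `t`, for the coordinate `t⁻¹` and `c = 0`.
-/
import Fermat.Agent.RED.CUSP.CuspFamilyK16
import Fermat.Agent.RED.CUSP.CuspFibre14
import Fermat.Agent.RED.CUSP.CuspTame11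

set_option autoImplicit false
set_option linter.unusedSectionVars false

noncomputable section

namespace Fermat.Agent.RED.CUSP.CuspPackK16

open Fermat.Agent.X0 AlgebraicCurve ModularCurve HahnSeries
open Fermat.Agent.RED.Interface4 Fermat.Agent.RED.DESC.PlaceExtend27
open Fermat.Agent.RED.CUSP.CuspExact16 Fermat.Agent.RED.CUSP.CuspEmbK16
open Fermat.Agent.RED.CUSP.CuspFamilyK16
open Fermat.Agent.RED.CUSP.IntClosedPS16 Fermat.Agent.RED.BASE.Interface12
open Fermat.Agent.RED.BASE.Hauptmodul12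
open scoped MatrixGroups
open IntermediateField

variable {M : ℕ} [NeZero M] {K : IntermediateField ℚ Qbar}
variable (A : ValuationSubring Qbar)

/-- A natural number dividing `M` is a unit of `A_K` as soon as `M⁻¹ ∈ A`. -/
theorem isUnit_natCast_of_dvd (hMA : ((M : Qbar))⁻¹ ∈ A) (d : ℕ) (hd : d ∣ M) :
    IsUnit ((d : ℕ) : ↥(AK A K)) := by
  obtain ⟨q, hq⟩ := hd
  have hM0 : (M : Qbar) ≠ 0 := Nat.cast_ne_zero.mpr (NeZero.ne M)
  have hd0 : (d : Qbar) ≠ 0 := by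
    intro h0
    apply hM0
    rw [hq, Nat.cast_mul, h0, zero_mul]
  have hinv : ((d : Qbar))⁻¹ ∈ A := by
    have hq0 : (q : Qbar) ≠ 0 := by
      intro h0
      apply hM0
      rw [hq, Nat.cast_mul, h0, mul_zero]
    have : ((d : Qbar))⁻¹ = (q : Qbar) * ((M : Qbar))⁻¹ := by
      rw [hq, Nat.cast_mul]
      field_simp
    rw [this]
    exact A.mul_mem _ _ (natCast_mem A q) hMA
  have hmem : ((d : K))⁻¹ ∈ AK A K := by
    rw [AK, ValuationSubring.mem_comap, map_inv₀, map_natCast]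
    exact hinv
  have hd0K : (d : K) ≠ 0 := by
    intro h0
    apply hd0
    have := congrArg (algebraMap K Qbar) h0
    rwa [map_natCast, map_zero] at this
  refine IsUnit.of_mul_eq_one (⟨((d : K))⁻¹, hmem⟩ : ↥(AK A K)) ?_
  apply Subtype.ext
  show ((d : ↥(AK A K)) : K) * ((d : K))⁻¹ = 1
  rw [show (((d : ℕ) : ↥(AK A K)) : K) = (d : K) from by simp]
  exact mul_inv_cancel₀ hd0K

variable {n e : ℕ} [NeZero n] (hb : BaseHyp n e) (hnM : n ∣ M)
  (cv : SL(2, ℤ) → Option Kbar) (hcv : CuspExp n e M cv) (h : TMem n e M)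
  (hζ : zetaK M ∈ K)

include hb hnM hcv in
/-- **The packaged family over a finite cusp value.** -/
theorem cusp_family_some [IsPrincipalIdealRing ↥(AK A K)] (hMA : ((M : Qbar))⁻¹ ∈ A)
    (t : FK M K) (ht : baseChangeHom M K t = tF M h)
    (γ₀ : SL(2, ℤ)) (cbar : Qbar) (hγ₀ : cv γ₀ = some cbar) :
    ∃ c : ↥(AK A K), algebraMap K Qbar (c : K) = cbar ∧
    ∃ (C : Type) (_ : Fintype C) (_ : DecidableEq C) (γ : C → SL(2, ℤ)) (e' : C → ℕ)
      (u : C → PowerSeries ↥(AK A K)),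
      (∀ κ, cv (γ κ) = some cbar) ∧
      (∀ κ, 0 < e' κ) ∧ (∀ κ, IsUnit ((e' κ : ℕ) : ↥(AK A K))) ∧
      (∀ κ, IsUnit (PowerSeries.constantCoeff (u κ))) ∧
      (∀ κ, TK hζ (γ κ) t =
        HahnSeries.C (c : K) + toLS ↥(AK A K) ↥K (u κ * PowerSeries.X ^ e' κ)) ∧
      (∀ κ, (TK hζ (γ κ) (t - algebraMap K (FK M K) (c : K))).order = e' κ) ∧
      (∑ κ, e' κ = Module.finrank Kbar⟮tF M h⟯ (FF M)) ∧
      (∀ w : Place K (FK M K), 0 < w.ord (t - algebraMap K (FK M K) (c : K)) →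
        ∃ κ, ∀ z : FK M K, z ≠ 0 → 0 ≤ (TK hζ (γ κ) z).order → z ∈ w.toValuationSubring) := by
  classical
  have hn0 : n ≠ 0 := NeZero.ne n
  have hnA : ((n : Qbar))⁻¹ ∈ A := by
    obtain ⟨q, hq⟩ := hnM
    have hM0 : (M : Qbar) ≠ 0 := Nat.cast_ne_zero.mpr (NeZero.ne M)
    have hn0' : (n : Qbar) ≠ 0 := Nat.cast_ne_zero.mpr hn0
    have : ((n : Qbar))⁻¹ = (q : Qbar) * ((M : Qbar))⁻¹ := by
      rw [hq, Nat.cast_mul]
      have hq0 : (q : Qbar) ≠ 0 := by
        intro h0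
        apply hM0
        rw [hq, Nat.cast_mul, h0, mul_zero]
      field_simp
    rw [this]
    exact A.mul_mem _ _ (natCast_mem A q) hMA
  obtain ⟨h', hshape⟩ := hcv
  have hshape' : ∀ γ, CuspShape n ((cuspData M).T γ (baseChangeHom M K t)) (cv γ) := by
    intro γ
    rw [ht]
    exact hshape γ
  have hcv' : CuspExp n e M cv := ⟨h', hshape⟩
  -- the constant `c`
  have hs₀ := hshape' γ₀
  rw [hγ₀] at hs₀
  obtain ⟨c, -, -, -, -, hc, -⟩ := shape_some hζ γ₀ A n hn0 hnA t cbar hs₀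
  refine ⟨c, hc, ?_⟩
  have hemb : baseChangeHom M K (t - algebraMap K (FK M K) (c : K)) =
      tF M h - algebraMap Kbar (FF M) cbar := by
    rw [map_sub, ht, baseChangeHom_algebraMap, ← hc]
    rfl
  -- the index type
  let C : Type := {v : Place Kbar (FF M) // 0 < v.ord (tF M h - algebraMap Kbar (FF M) cbar)}
  let instF : Fintype C := CuspFibre14.fintypeFibre (CuspFibre14.isGen_tF h) cbar
  have hγex : ∀ κ : C, ∃ γ : SL(2, ℤ), placeOf M γ = κ.1 ∧ cv γ = some cbar := fun κ =>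
    CuspFibre14.exists_placeOf_of_zero hb hnM cv hcv' h κ.1 γ₀ cbar hγ₀ κ.2
  choose γ hγv hγc using hγex
  have hsh : ∀ κ : C, ∃ (e₀ : ℕ) (u : PowerSeries ↥(AK A K)), 0 < e₀ ∧
      IsUnit (PowerSeries.constantCoeff u) ∧
      TK hζ (γ κ) t = HahnSeries.C (c : K) + toLS ↥(AK A K) ↥K (u * PowerSeries.X ^ e₀) := by
    intro κ
    have hs := hshape' (γ κ)
    rw [hγc κ] at hs
    obtain ⟨c', e₀, u, he₀, hu, hc', hE⟩ := shape_some hζ (γ κ) A n hn0 hnA t cbar hs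
    have hcc : c' = c := by
      apply Subtype.ext
      apply (algebraMap K Qbar).injective
      rw [hc', hc]
    rw [hcc] at hE
    exact ⟨e₀, u, he₀, hu, hE⟩
  choose e' u he' hu hE using hsh
  have hord : ∀ κ : C, (e' κ : ℤ) = κ.1.ord (tF M h - algebraMap Kbar (FF M) cbar) := by
    intro κ
    have := ord_placeOf_of_shape hζ (γ κ) A t c (e' κ) (he' κ) (u κ) (hu κ) (hE κ)
    rw [hemb, hγv κ] at this
    exact this.symm
  refine ⟨C, instF, Classical.decEq C, γ, e', u, hγc, he', ?_, hu, hE, ?_, ?_, ?_⟩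
  · intro κ
    apply isUnit_natCast_of_dvd A hMA
    have htame := (CuspTame11.tame_some hb hnM h hcv' (γ κ) cbar (hγc κ)).2
    rw [hγv κ, ← hord κ, Int.natAbs_natCast] at htame
    exact htame
  · intro κ
    exact order_sub_of_shape hζ (γ κ) A t c (e' κ) (u κ) (hu κ) (hE κ)
  · rw [← CuspFibre14.sum_toNat_zero_fibre h cbar]
    refine Finset.sum_congr rfl fun κ _ => ?_
    rw [← hord κ, Int.toNat_natCast]
  · intro w hw
    obtain ⟨γ', ⟨κ, rfl⟩, hκ⟩ := hplaces_of_fibre hζ (t - algebraMap K (FK M K) (c : K))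
      (Set.range γ) (fun v hv => by
        rw [hemb] at hv
        exact ⟨γ ⟨v, hv⟩, ⟨⟨v, hv⟩, rfl⟩, (hγv ⟨v, hv⟩).symm⟩) w hw
    exact ⟨κ, hκ⟩

include hb hnM hcv in
/-- **The packaged family over the poles of `t`**, for the coordinate `t⁻¹` and the value `0`. -/
theorem cusp_family_none [IsPrincipalIdealRing ↥(AK A K)] (hMA : ((M : Qbar))⁻¹ ∈ A)
    (t : FK M K) (ht : baseChangeHom M K t = tF M h) :
    ∃ (C : Type) (_ : Fintype C) (_ : DecidableEq C) (γ : C → SL(2, ℤ)) (e' : C → ℕ)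
      (u : C → PowerSeries ↥(AK A K)),
      (∀ κ, cv (γ κ) = none) ∧
      (∀ κ, 0 < e' κ) ∧ (∀ κ, IsUnit ((e' κ : ℕ) : ↥(AK A K))) ∧
      (∀ κ, IsUnit (PowerSeries.constantCoeff (u κ))) ∧
      (∀ κ, TK hζ (γ κ) t⁻¹ =
        HahnSeries.C (((0 : ↥(AK A K)) : ↥(AK A K)) : K) +
          toLS ↥(AK A K) ↥K (u κ * PowerSeries.X ^ e' κ)) ∧
      (∀ κ, (TK hζ (γ κ) (t⁻¹ - algebraMap K (FK M K) (((0 : ↥(AK A K)) : ↥(AK A K)) : K))).order
        = e' κ) ∧
      (∑ κ, e' κ = Module.finrank Kbar⟮tF M h⟯ (FF M)) ∧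
      (∀ w : Place K (FK M K),
        0 < w.ord (t⁻¹ - algebraMap K (FK M K) (((0 : ↥(AK A K)) : ↥(AK A K)) : K)) →
        ∃ κ, ∀ z : FK M K, z ≠ 0 → 0 ≤ (TK hζ (γ κ) z).order → z ∈ w.toValuationSubring) := by
  classical
  have hn0 : n ≠ 0 := NeZero.ne n
  have hnA : ((n : Qbar))⁻¹ ∈ A := by
    obtain ⟨q, hq⟩ := hnM
    have hM0 : (M : Qbar) ≠ 0 := Nat.cast_ne_zero.mpr (NeZero.ne M)
    have hn0' : (n : Qbar) ≠ 0 := Nat.cast_ne_zero.mpr hn0
    have : ((n : Qbar))⁻¹ = (q : Qbar) * ((M : Qbar))⁻¹ := by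
      rw [hq, Nat.cast_mul]
      have hq0 : (q : Qbar) ≠ 0 := by
        intro h0
        apply hM0
        rw [hq, Nat.cast_mul, h0, mul_zero]
      field_simp
    rw [this]
    exact A.mul_mem _ _ (natCast_mem A q) hMA
  obtain ⟨h', hshape⟩ := hcv
  have hshape' : ∀ γ, CuspShape n ((cuspData M).T γ (baseChangeHom M K t)) (cv γ) := by
    intro γ
    rw [ht]
    exact hshape γ
  have hcv' : CuspExp n e M cv := ⟨h', hshape⟩
  have hzero : algebraMap K (FK M K) (((0 : ↥(AK A K)) : ↥(AK A K)) : K) = 0 := by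
    rw [ZeroMemClass.coe_zero, map_zero]
  have hC0 : HahnSeries.C ((((0 : ↥(AK A K)) : ↥(AK A K)) : K)) = (0 : LaurentSeries K) := by
    rw [ZeroMemClass.coe_zero, map_zero]
  -- the index type
  let C : Type := {v : Place Kbar (FF M) // v.ord (tF M h) < 0}
  let instF : Fintype C := CuspFibre14.fintypePoles (CuspFibre14.isGen_tF h)
  have hγex : ∀ κ : C, ∃ γ : SL(2, ℤ), placeOf M γ = κ.1 ∧ cv γ = none := fun κ =>
    CuspFibre14.exists_placeOf_of_pole hb hnM cv hcv' h κ.1 κ.2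
  choose γ hγv hγc using hγex
  have hsh : ∀ κ : C, ∃ (e₀ : ℕ) (u : PowerSeries ↥(AK A K)), 0 < e₀ ∧
      IsUnit (PowerSeries.constantCoeff u) ∧
      TK hζ (γ κ) t⁻¹ = toLS ↥(AK A K) ↥K (u * PowerSeries.X ^ e₀) := by
    intro κ
    have hs := hshape' (γ κ)
    rw [hγc κ] at hs
    exact shape_none hζ (γ κ) A n hn0 hnA t hs
  choose e' u he' hu hE using hsh
  have ht0 : t ≠ 0 := by
    intro h0
    have htr := (CuspFibre14.isGen_tF h).transcendental
    rw [← ht, h0, map_zero] at htr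
    exact htr (isAlgebraic_zero)
  have hordK : ∀ κ : C, (TK hζ (γ κ) t⁻¹).order = e' κ := by
    intro κ
    rw [hE κ, order_toLS_mul_X_pow A (u κ) (hu κ)]
  have hord : ∀ κ : C, (e' κ : ℤ) = -κ.1.ord (tF M h) := by
    intro κ
    have h1 := hordK κ
    have hne : t⁻¹ ≠ 0 := inv_ne_zero ht0
    rw [order_TK hζ (γ κ) _ hne, map_inv₀, ht, hγv κ, Place.ord_inv] at h1
    exact h1.symm
  refine ⟨C, instF, Classical.decEq C, γ, e', u, hγc, he', ?_, hu, ?_, ?_, ?_, ?_⟩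
  · intro κ
    apply isUnit_natCast_of_dvd A hMA
    have htame := (CuspTame11.tame_none hb hnM h hcv' (γ κ) (hγc κ)).2
    rw [hγv κ] at htame
    have : (κ.1.ord (tF M h)).natAbs = e' κ := by
      have := hord κ
      omega
    rwa [this] at htame
  · intro κ
    rw [hC0, zero_add]
    exact hE κ
  · intro κ
    rw [hzero, sub_zero]
    exact hordK κ
  · rw [← CuspFibre14.sum_toNat_pole_fibre h]
    refine Finset.sum_congr rfl fun κ _ => ?_
    rw [← hord κ, Int.toNat_natCast]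
  · intro w hw
    rw [hzero, sub_zero] at hw
    obtain ⟨γ', ⟨κ, rfl⟩, hκ⟩ := hplaces_of_fibre hζ t⁻¹
      (Set.range γ) (fun v hv => by
        rw [map_inv₀, ht, Place.ord_inv] at hv
        have hv' : v.ord (tF M h) < 0 := by omega
        exact ⟨γ ⟨v, hv'⟩, ⟨⟨v, hv'⟩, rfl⟩, (hγv ⟨v, hv'⟩).symm⟩) w hw
    exact ⟨κ, hκ⟩

end Fermat.Agent.RED.CUSP.CuspPackK16
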