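/-
Program H (S18), chapter RED/CUSP, helper23: the CONCRETE cusp theorems
`overTarget : ModelTargets4.OverTarget n e M A cv` and `infTarget : ModelTargets4.InfTarget n e M A`.

Inputs: `CuspIface23.smoothOver_of_family` (generic cusp theorem), helper16's concrete family
`CuspPackK16.cusp_family_some/none` and rank bridge `RankConcrete16`, the Gauss package
(`GaussInst25`, `GaussInv8`, `TqOrder26`), and the horizontal bridge at the cusp points (hypothesis
`HUNRCusp`, supplied by PUR-concrete).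
-/
import Fermat.Agent.RED.CUSP.CuspIface23
import Fermat.Agent.RED.CUSP.CuspPackK16
import Fermat.Agent.RED.CUSP.RankConcrete16
import Fermat.Agent.RED.PUR.TqOrder26
import Fermat.Agent.RED.PUR.GaussInv8
import Fermat.Agent.RED.ModelFinal4

set_option autoImplicit false
set_option linter.unusedSectionVars false
set_option linter.unusedVariables false
set_option linter.style.haveILetI false

open HahnSeries ModularCurve IntermediateField
open scoped MatrixGroups

noncomputable section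

namespace Fermat.Agent.RED.CUSP.CuspConcrete23

open Fermat.Agent.RED.Interface4 Fermat.Agent.RED.PUR.GaussGen8 Fermat.Agent.RED.PUR.KtGauss8
  Fermat.Agent.RED.PUR.G1Package8 Fermat.Agent.RED.ModelIface4 Fermat.Agent.RED.ModelTargets4
  Fermat.Agent.RED.BASE.EtaQuot12 Fermat.Agent.X0 Fermat.Agent.RED.NumInst4
  Fermat.Agent.RED.DESC.NumberFieldDVR27 Fermat.Agent.RED.BASE.Interface12
  Fermat.Agent.RED.DESC.PlaceExtend27 Fermat.Agent.RED.CUSP.IntClosedPS16
  Fermat.Agent.RED.BASE.Hauptmodul12 Fermat.Agent.RED.CUSP.CuspEmbK16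
  Fermat.Agent.RED.CUSP.CuspIface23

variable {n e : ℕ} [NeZero n] {M : ℕ} [NeZero M] (A : ValuationSubring Qbar)
  {K : IntermediateField ℚ Qbar}

section Family

variable (hb : BaseHyp n e) (hnM : n ∣ M) (cv : SL(2, ℤ) → Option Kbar) (hcv : CuspExp n e M cv)
  (h : TMem n e M) (hζ : zetaK M ∈ K)

include hb hnM hcv hζ in
/-- the family over a finite cusp value, in the wrapper form. -/
theorem hasCuspFamily_some [IsPrincipalIdealRing ↥(AK A K)] (hMA : ((M : Qbar))⁻¹ ∈ A)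
    (t : FK M K) (ht : baseChangeHom M K t = tF M h) (c : ↥(AK A K)) (γ₀ : SL(2, ℤ))
    (hγ₀ : cv γ₀ = some (algebraMap K Qbar (c : K))) :
    HasCuspFamily (AK A K) (FK M K) t c (Module.finrank Kbar⟮tF M h⟯ (FF M)) := by
  obtain ⟨c', hc', C, hfin, hdec, γ, e', u, -, he, heA, hu, hshape, -, hsum, hpl⟩ :=
    CuspPackK16.cusp_family_some A hb hnM cv hcv h hζ hMA t ht γ₀ _ hγ₀
  have hcc : c' = c := Subtype.ext ((algebraMap K Qbar).injective hc')
  subst hcc
  exact ⟨C, hfin, hdec, fun κ => TK hζ (γ κ), e', u, fun κ a => TK_const hζ (γ κ) (a : K),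
    fun κ f => TK_mem_psFrac hζ (γ κ) A f, he, heA, hu, hshape, hpl, hsum⟩

include hb hnM hcv hζ in
/-- the family over the poles of `t`, for the coordinate `t⁻¹` and the value `0`. -/
theorem hasCuspFamily_none [IsPrincipalIdealRing ↥(AK A K)] (hMA : ((M : Qbar))⁻¹ ∈ A)
    (t : FK M K) (ht : baseChangeHom M K t = tF M h) :
    HasCuspFamily (AK A K) (FK M K) t⁻¹ 0 (Module.finrank Kbar⟮tF M h⟯ (FF M)) := by
  obtain ⟨C, hfin, hdec, γ, e', u, -, he, heA, hu, hshape, -, hsum, hpl⟩ :=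
    CuspPackK16.cusp_family_none A hb hnM cv hcv h hζ hMA t ht
  exact ⟨C, hfin, hdec, fun κ => TK hζ (γ κ), e', u, fun κ a => TK_const hζ (γ κ) (a : K),
    fun κ f => TK_mem_psFrac hζ (γ κ) A f, he, heA, hu, hshape, hpl, hsum⟩

end Family

section Main

open Fermat.Agent.RED.BASE

variable {A}

/-- a number field containing `ζ_M`. -/
theorem exists_zeta_field (M : ℕ) [NeZero M] :
    ∃ K₀ : IntermediateField ℚ Qbar, FiniteDimensional ℚ K₀ ∧ zetaK M ∈ K₀ := by
  obtain ⟨K, hK, -, hS⟩ := exists_numberField (⊥ : IntermediateField ℚ Qbar) {zetaK M}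
  exact ⟨K, hK, hS _ (Finset.mem_singleton_self _)⟩

/-- **CUSP-concrete at the finite cusp values**, given the horizontal bridge at the cusp points. -/
theorem overTarget_of_hunr (hb : BaseHyp n e) (hnM : n ∣ M) {ℓ : ℕ} [Fact ℓ.Prime]
    (hℓM : ¬ ℓ ∣ M) (hA : A.LiesOverPrime ℓ) (cv : SL(2, ℤ) → Option Kbar)
    (hcv : MainCusp12.CuspExports n e M cv)
    (hH : EventuallyT n e M A fun K ϖ t =>
      ∀ c ∈ cuspSet A K cv, HUNRCusp (AK A K) (FK M K) ϖ t c) :
    OverTarget n e M A cv := by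
  have hℓ : ℓ.Prime := Fact.out
  have hB := Main12.baseExports hb M hnM
  obtain ⟨K₁, hK₁, hT⟩ := Fermat.Agent.RED.ModelFinal4.tTarget (n := n) (e := e) M hB.mem
  obtain ⟨K₂, hK₂, hJ⟩ := Fermat.Agent.RED.ModelFinal4.jTarget (n := n) (e := e) hB.genBase
  obtain ⟨K₃, hK₃, hζ₀⟩ := exists_zeta_field M
  obtain ⟨K₄, hK₄, hH⟩ := hH
  refine ⟨K₁ ⊔ K₂ ⊔ K₃ ⊔ K₄, inferInstance, fun K hKfd hle ϖ hϖ t htq c hc => ?_⟩
  have hle1 : K₁ ≤ K := le_trans (le_trans (le_trans le_sup_left le_sup_left) le_sup_left) hle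
  have hle2 : K₂ ≤ K := le_trans (le_trans (le_trans le_sup_right le_sup_left) le_sup_left) hle
  have hle3 : K₃ ≤ K := le_trans (le_trans le_sup_right le_sup_left) hle
  have hle4 : K₄ ≤ K := le_trans le_sup_right hle
  have hζ : zetaK M ∈ K := hle3 hζ₀
  have hdvr : IsDiscreteValuationRing ↥(AK A K) := isDiscreteValuationRing_AK A K hℓ.ne_zero hA
  have hchar : CharP (Res (AK A K)) ℓ := charP_residueField_AK A K hℓ hA
  have hfinres : Finite (Res (AK A K)) := finite_residueField_AK A K hℓ.ne_zero hA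
  have hE : FK M K ≤ fracField (AK A K) :=
    Fermat.Agent.RED.PUR.GaussBridge10.FK_le_fracField A K M
  have htE : tq K n e ∈ FK M K := hT K hKfd hle1
  have ht : ((t : ↥(FK M K)) : LaurentSeries K) ∈ gaussRing (AK A K) := by
    rw [htq]; exact tq_mem_gaussRing (AK A K) n e
  have htr : Transcendental (Res (AK A K))
      (gaussRed (AK A K) ⟨((t : ↥(FK M K)) : LaurentSeries K), ht⟩) := by
    have h1 : (⟨((t : ↥(FK M K)) : LaurentSeries K), ht⟩ : gaussRing (AK A K)) =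
        ⟨tq K n e, tq_mem_gaussRing (AK A K) n e⟩ := Subtype.ext htq
    rw [h1]
    exact transcendental_gaussRed_tq (AK A K) n e
  have hjt : jqModC K ∈ Kt (AK A K) ⟨((t : ↥(FK M K)) : LaurentSeries K), ht⟩ := by
    show jqModC K ∈ IntermediateField.adjoin K {((t : ↥(FK M K)) : LaurentSeries K)}
    rw [htq]
    exact hJ K hKfd hle2
  have htE' : ((t : ↥(FK M K)) : LaurentSeries K) ∈ FK M K := t.2
  obtain ⟨nn, -, hdeg, hirr⟩ := Fermat.Agent.RED.PUR.GaussInst25.exists_degLe_irr_FK A K hϖ ℓ M hℓM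
    ⟨((t : ↥(FK M K)) : LaurentSeries K), ht⟩ htE' hjt
  have hn : relfinrank (Kt (AK A K) ⟨((t : ↥(FK M K)) : LaurentSeries K), ht⟩) (FK M K) ≠ 0 :=
    Fermat.Agent.RED.ModelMain4.relfinrank_ne_zero (AK A K) M _ htE' hjt
  have hfd : FiniteDimensional ↥(IntermediateField.adjoin K {t}) ↥(FK M K) :=
    Fermat.Agent.RED.ModelAsm4.finiteDimensional_adjoin t hn
  have htrK : Transcendental K t :=
    Fermat.Agent.RED.ModelAsm4.transcendental_of_coe t
      (transcendental_t (tG := ⟨((t : ↥(FK M K)) : LaurentSeries K), ht⟩) hϖ htr)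
  have hord := Fermat.Agent.RED.PUR.TqOrder26.isCoprime_order_gaussRed (AK A K) n e t ht htq (ℓ : ℤ)
  have hMA : ((M : Qbar))⁻¹ ∈ A := inv_natCast_mem hℓ hA M hℓM
  have hembt : baseChangeHom M K t = tF M hB.mem :=
    RankConcrete16.baseChangeHom_eq_tF M K hB.mem t htq
  obtain ⟨γ₀, hγ₀⟩ := hc
  have hfam := hasCuspFamily_some A hb hnM cv hcv.cuspExp hB.mem hζ hMA t hembt c γ₀ hγ₀
  rw [← RankConcrete16.finrank_adjoin_tF M K hB.mem t htq (hJ K hKfd hle2)] at hfam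
  exact smoothOver_of_family hϖ hE t ht htr hdeg hirr ℓ hord htrK c hfam
    (hH K hKfd hle4 ϖ hϖ t htq c ⟨γ₀, hγ₀⟩)

/-- **CUSP-concrete at infinity**, given the horizontal bridge at the points `t⁻¹ = 0`. -/
theorem infTarget_of_hunr (hb : BaseHyp n e) (hnM : n ∣ M) {ℓ : ℕ} [Fact ℓ.Prime]
    (hℓM : ¬ ℓ ∣ M) (hA : A.LiesOverPrime ℓ) (cv : SL(2, ℤ) → Option Kbar)
    (hcv : MainCusp12.CuspExports n e M cv)
    (hH : EventuallyT n e M A fun K ϖ t => HUNRCusp (AK A K) (FK M K) ϖ t⁻¹ 0) :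
    InfTarget n e M A := by
  have hℓ : ℓ.Prime := Fact.out
  have hB := Main12.baseExports hb M hnM
  obtain ⟨K₁, hK₁, hT⟩ := Fermat.Agent.RED.ModelFinal4.tTarget (n := n) (e := e) M hB.mem
  obtain ⟨K₂, hK₂, hJ⟩ := Fermat.Agent.RED.ModelFinal4.jTarget (n := n) (e := e) hB.genBase
  obtain ⟨K₃, hK₃, hζ₀⟩ := exists_zeta_field M
  obtain ⟨K₄, hK₄, hH⟩ := hH
  refine ⟨K₁ ⊔ K₂ ⊔ K₃ ⊔ K₄, inferInstance, fun K hKfd hle ϖ hϖ t htq => ?_⟩
  have hle1 : K₁ ≤ K := le_trans (le_trans (le_trans le_sup_left le_sup_left) le_sup_left) hle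
  have hle2 : K₂ ≤ K := le_trans (le_trans (le_trans le_sup_right le_sup_left) le_sup_left) hle
  have hle3 : K₃ ≤ K := le_trans (le_trans le_sup_right le_sup_left) hle
  have hle4 : K₄ ≤ K := le_trans le_sup_right hle
  have hζ : zetaK M ∈ K := hle3 hζ₀
  have hdvr : IsDiscreteValuationRing ↥(AK A K) := isDiscreteValuationRing_AK A K hℓ.ne_zero hA
  have hchar : CharP (Res (AK A K)) ℓ := charP_residueField_AK A K hℓ hA
  have hfinres : Finite (Res (AK A K)) := finite_residueField_AK A K hℓ.ne_zero hA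
  have hE : FK M K ≤ fracField (AK A K) :=
    Fermat.Agent.RED.PUR.GaussBridge10.FK_le_fracField A K M
  have ht : ((t : ↥(FK M K)) : LaurentSeries K) ∈ gaussRing (AK A K) := by
    rw [htq]; exact tq_mem_gaussRing (AK A K) n e
  have htr : Transcendental (Res (AK A K))
      (gaussRed (AK A K) ⟨((t : ↥(FK M K)) : LaurentSeries K), ht⟩) := by
    have h1 : (⟨((t : ↥(FK M K)) : LaurentSeries K), ht⟩ : gaussRing (AK A K)) =
        ⟨tq K n e, tq_mem_gaussRing (AK A K) n e⟩ := Subtype.ext htq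
    rw [h1]
    exact transcendental_gaussRed_tq (AK A K) n e
  have hjt : jqModC K ∈ Kt (AK A K) ⟨((t : ↥(FK M K)) : LaurentSeries K), ht⟩ := by
    show jqModC K ∈ IntermediateField.adjoin K {((t : ↥(FK M K)) : LaurentSeries K)}
    rw [htq]
    exact hJ K hKfd hle2
  have htE' : ((t : ↥(FK M K)) : LaurentSeries K) ∈ FK M K := t.2
  obtain ⟨nn, -, hdeg, hirr⟩ := Fermat.Agent.RED.PUR.GaussInst25.exists_degLe_irr_FK A K hϖ ℓ M hℓM
    ⟨((t : ↥(FK M K)) : LaurentSeries K), ht⟩ htE' hjt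
  have hn : relfinrank (Kt (AK A K) ⟨((t : ↥(FK M K)) : LaurentSeries K), ht⟩) (FK M K) ≠ 0 :=
    Fermat.Agent.RED.ModelMain4.relfinrank_ne_zero (AK A K) M _ htE' hjt
  have hfd : FiniteDimensional ↥(IntermediateField.adjoin K {t}) ↥(FK M K) :=
    Fermat.Agent.RED.ModelAsm4.finiteDimensional_adjoin t hn
  have htrK : Transcendental K t :=
    Fermat.Agent.RED.ModelAsm4.transcendental_of_coe t
      (transcendental_t (tG := ⟨((t : ↥(FK M K)) : LaurentSeries K), ht⟩) hϖ htr)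
  -- the inverse coordinate
  have hcoe : (((t⁻¹ : ↥(FK M K)) : ↥(FK M K)) : LaurentSeries K) =
      ((t : ↥(FK M K)) : LaurentSeries K)⁻¹ := rfl
  have hs : (((t⁻¹ : ↥(FK M K)) : ↥(FK M K)) : LaurentSeries K) ∈ gaussRing (AK A K) := by
    rw [hcoe]
    exact Fermat.Agent.RED.PUR.GaussInv8.inv_mem_gaussRing
      (⟨((t : ↥(FK M K)) : LaurentSeries K), ht⟩ : gaussRing (AK A K)) htr
  have htrs := Fermat.Agent.RED.PUR.GaussInv8.transcendental_gaussRed
    (⟨((t : ↥(FK M K)) : LaurentSeries K), ht⟩ : gaussRing (AK A K))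
    (⟨(((t⁻¹ : ↥(FK M K)) : ↥(FK M K)) : LaurentSeries K), hs⟩ : gaussRing (AK A K)) hcoe htr
  have hdegs := Fermat.Agent.RED.PUR.GaussInv8.degLe_of_inv
    (⟨((t : ↥(FK M K)) : LaurentSeries K), ht⟩ : gaussRing (AK A K))
    (⟨(((t⁻¹ : ↥(FK M K)) : ↥(FK M K)) : LaurentSeries K), hs⟩ : gaussRing (AK A K)) hcoe
    (FK M K) hdeg
  have hirrs := Fermat.Agent.RED.PUR.GaussInv8.irr_of_inv
    (⟨((t : ↥(FK M K)) : LaurentSeries K), ht⟩ : gaussRing (AK A K))
    (⟨(((t⁻¹ : ↥(FK M K)) : ↥(FK M K)) : LaurentSeries K), hs⟩ : gaussRing (AK A K)) hcoe htr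
    (FK M K) hirr
  have hsq : (((t⁻¹ : ↥(FK M K)) : ↥(FK M K)) : LaurentSeries K) = (tq K n e)⁻¹ := by
    rw [hcoe, htq]
  have hords := Fermat.Agent.RED.PUR.TqOrder26.isCoprime_order_gaussRed_inv (AK A K) n e
    (t⁻¹ : ↥(FK M K)) hs hsq (ℓ : ℤ)
  have htrKs : Transcendental K (t⁻¹ : ↥(FK M K)) := fun hal => htrK (IsAlgebraic.inv_iff.1 hal)
  have hEE : IntermediateField.adjoin K {t} = IntermediateField.adjoin K {(t⁻¹ : ↥(FK M K))} :=
    (RankConcrete16.adjoin_inv_eq (k := ↥K) t).symm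
  have hfds : FiniteDimensional ↥(IntermediateField.adjoin K {(t⁻¹ : ↥(FK M K))}) ↥(FK M K) :=
    hEE ▸ hfd
  have hMA : ((M : Qbar))⁻¹ ∈ A := inv_natCast_mem hℓ hA M hℓM
  have hembt : baseChangeHom M K t = tF M hB.mem :=
    RankConcrete16.baseChangeHom_eq_tF M K hB.mem t htq
  have hfam := hasCuspFamily_none A hb hnM cv hcv.cuspExp hB.mem hζ hMA t hembt
  rw [← RankConcrete16.finrank_adjoin_inv_tF M K hB.mem t htq (hJ K hKfd hle2)] at hfam
  exact smoothOver_of_family hϖ hE (t⁻¹ : ↥(FK M K)) hs htrs hdegs hirrs ℓ hords htrKs 0 hfam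
    (hH K hKfd hle4 ϖ hϖ t htq)

end Main

end Fermat.Agent.RED.CUSP.CuspConcrete23
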