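/-
Program H (S18), chapter RED/CUSP — helper4 (integrator).  The horizontal bridge at the CUSP closed
points, at the concrete types (mirror of `RED/PUR/OffHoriz4`):

* `hUNR_cusp_poly`, `hUNR_cusp_inv_poly` : `HorizPlace20.hUNR_cusp(_inv)` for the chart algebra
  `B := A[X]` itself, stated with `aeval t`;
* `hunrCusp_generic`, `hunrCuspInv_generic` : `CuspIface23.HUNRCusp O E π t c` / `… π t⁻¹ 0` for a
  discrete valuation subring `O` of a field `K ⊂ ℚbar`;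
* `hH_over`, `hH_inf` : the two inputs of `CuspConcrete23.overTarget_of_hunr/infTarget_of_hunr`;
* `overTarget`, `infTarget` : the deliverables of CUSP-concrete.
-/
import Mathlib
import Fermat.Agent.RED.PUR.HorizPlace20
import Fermat.Agent.RED.CUSP.CuspConcrete23
import Fermat.Agent.RED.BASE.CuspFinite12

set_option autoImplicit false
set_option linter.unusedSectionVars false
set_option linter.unusedVariables false
set_option linter.style.haveILetI false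

open ModularCurve IntermediateField AlgebraicCurve
open scoped MatrixGroups
open Polynomial

noncomputable section

namespace Fermat.Agent.RED.CUSP.CuspHoriz4

open Fermat.Agent.X0 Fermat.Agent.X0.FF
open Fermat.Agent.RED.BASE.Interface12 Fermat.Agent.RED.BASE.EtaQuot12
open Fermat.Agent.RED.CUSP.CuspIface23 Fermat.Agent.RED.CUSP.PolyToPS16
open Fermat.Agent.RED.PUR

section Abstract

variable (n e M : ℕ) [NeZero n] [NeZero M] (cv : SL(2, ℤ) → Option Kbar)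
variable {A K F : Type*} [CommRing A] [IsDomain A] [Field K] [CharZero K] [Field F]
  [Algebra A K] [IsFractionRing A K] [Algebra K F] [Algebra A F] [IsScalarTower A K F]
  [Algebra K Kbar] [Algebra A Kbar] [IsScalarTower A K Kbar] [Algebra.IsAlgebraic K Kbar]

/-- `HorizPlace20.hUNR_cusp` for `B := A[X]`, in `aeval t` form. -/
theorem hUNR_cusp_poly (h : TMem n e M)
    (hU : ∀ v : Place Kbar (FF M), 0 ≤ v.ord (jF M) →
      ∃ c : Kbar, v.ord (tF M h - algebraMap Kbar (FF M) c) = 1)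
    (hC : ∀ γ : SL(2, ℤ), CuspShape n ((cuspData M).T γ (tF M h)) (cv γ))
    (hconst : ∀ c : Kbar, tF M h ≠ algebraMap Kbar (FF M) c)
    (hcvA : ∀ γ c, cv γ = some c → ∃ a : A, algebraMap A Kbar a = c)
    (bc : F →+* FF M)
    (hbc : ∀ a : K, bc (algebraMap K F a) = algebraMap Kbar (FF M) (algebraMap K Kbar a))
    (t : F) (ht : bc t = tF M h)
    (hExt : ∀ w : Place K F, ∃ (v : Place Kbar (FF M)) (d : ℕ), 0 < d ∧
      ∀ f : F, v.ord (bc f) = (d : ℤ) * w.ord f)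
    (π : A) (hπ0 : algebraMap A F π ≠ 0)
    (hK : ∀ a : K, ∃ (r : A) (k : ℕ), algebraMap K F a * algebraMap A F π ^ k = algebraMap A F r)
    (P : Ideal A[X]) (a₀ : A)
    (hP : ∀ a : A, (∃ γ, cv γ = some (algebraMap A Kbar a)) → a = a₀ ∨ (X - C a : A[X]) ∉ P) :
    ∀ O : ValuationSubring F, (∀ z : A[X], aeval t z ∈ O) → IsDiscreteValuationRing O →
      (algebraMap A F π)⁻¹ ∈ O →
      (t - algebraMap A F a₀)⁻¹ ∈ O →
      (∀ r : A[X], r ∉ P → (aeval t r)⁻¹ ∈ O) →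
      ∃ g0 : A[X], (aeval t g0)⁻¹ ∉ O ∧ ∀ y ∈ O, y⁻¹ ∉ O → y / aeval t g0 ∈ O := by
  intro O hB hdvr hπ hq hcen
  letI : Algebra A[X] F := (aeval t : A[X] →ₐ[A] F).toRingHom.toAlgebra
  have hX : ∀ p : A[X], algebraMap A[X] F (algebraMap A[X] A[X] p) = aeval t p := fun p => rfl
  exact HorizPlace20.hUNR_cusp (B := A[X]) n e M cv h hU hC hconst hcvA bc hbc t ht hExt
    hX π hπ0 hK P a₀ hP O (fun z => hB z) hdvr
    (by
      show (aeval t (C π))⁻¹ ∈ O
      rw [aeval_C]; exact hπ)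
    (by
      show (aeval t (X - C a₀))⁻¹ ∈ O
      rw [map_sub, aeval_X, aeval_C]; exact hq)
    (fun r hr => hcen r hr)

/-- `HorizPlace20.hUNR_cusp_inv` for `B := A[X]`, in `aeval s` form. -/
theorem hUNR_cusp_inv_poly (h : TMem n e M)
    (hU : ∀ v : Place Kbar (FF M), 0 ≤ v.ord (jF M) →
      ∃ c : Kbar, v.ord (tF M h - algebraMap Kbar (FF M) c) = 1)
    (hC : ∀ γ : SL(2, ℤ), CuspShape n ((cuspData M).T γ (tF M h)) (cv γ))
    (hconst : ∀ c : Kbar, tF M h ≠ algebraMap Kbar (FF M) c)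
    (hcvA : ∀ γ c, cv γ = some c → ∃ a : A, algebraMap A Kbar a = c)
    (bc : F →+* FF M)
    (hbc : ∀ a : K, bc (algebraMap K F a) = algebraMap Kbar (FF M) (algebraMap K Kbar a))
    (s : F) (hs : bc s = (tF M h)⁻¹)
    (hExt : ∀ w : Place K F, ∃ (v : Place Kbar (FF M)) (d : ℕ), 0 < d ∧
      ∀ f : F, v.ord (bc f) = (d : ℤ) * w.ord f)
    (π : A) (hπ0 : algebraMap A F π ≠ 0)
    (hK : ∀ a : K, ∃ (r : A) (k : ℕ), algebraMap K F a * algebraMap A F π ^ k = algebraMap A F r)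
    (P : Ideal A[X])
    (hP : ∀ a : A, (∃ γ, cv γ = some (algebraMap A Kbar a)) → (C a * X - 1 : A[X]) ∉ P) :
    ∀ O : ValuationSubring F, (∀ z : A[X], aeval s z ∈ O) → IsDiscreteValuationRing O →
      (algebraMap A F π)⁻¹ ∈ O →
      s⁻¹ ∈ O →
      (∀ r : A[X], r ∉ P → (aeval s r)⁻¹ ∈ O) →
      ∃ g0 : A[X], (aeval s g0)⁻¹ ∉ O ∧ ∀ y ∈ O, y⁻¹ ∉ O → y / aeval s g0 ∈ O := by
  intro O hB hdvr hπ hq hcen
  letI : Algebra A[X] F := (aeval s : A[X] →ₐ[A] F).toRingHom.toAlgebra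
  have hX : ∀ p : A[X], algebraMap A[X] F (algebraMap A[X] A[X] p) = aeval s p := fun p => rfl
  exact HorizPlace20.hUNR_cusp_inv (B := A[X]) n e M cv h hU hC hconst hcvA bc hbc s hs hExt
    hX π hπ0 hK P hP O (fun z => hB z) hdvr
    (by
      show (aeval s (C π))⁻¹ ∈ O
      rw [aeval_C]; exact hπ)
    (by
      show (aeval s (X : A[X]))⁻¹ ∈ O
      rw [aeval_X]; exact hq)
    (fun r hr => hcen r hr)

end Abstract

section Generic

variable (n e M : ℕ) [NeZero n] [NeZero M] (cv : SL(2, ℤ) → Option Kbar)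

/-- denominators in a discrete valuation subring are powers of a uniformiser. -/
theorem exists_mul_pow_mem {K : Type*} [Field K] (O : ValuationSubring K)
    [IsDiscreteValuationRing ↥O] {π : ↥O} (hπ : Irreducible π) (a : K) :
    ∃ (r : ↥O) (k : ℕ), a * ((π : ↥O) : K) ^ k = (r : K) := by
  by_cases ha : a ∈ O
  · exact ⟨⟨a, ha⟩, 0, by rw [pow_zero, mul_one]⟩
  · have hainv : a⁻¹ ∈ O := (O.mem_or_inv_mem a).resolve_left ha
    have ha0 : a ≠ 0 := fun h0 => ha (by rw [h0]; exact O.zero_mem)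
    have hne : (⟨a⁻¹, hainv⟩ : ↥O) ≠ 0 := fun h0 =>
      inv_ne_zero ha0 (congrArg Subtype.val h0)
    obtain ⟨k, u, hu⟩ := IsDiscreteValuationRing.eq_unit_mul_pow_irreducible hne hπ
    refine ⟨((u⁻¹ : (↥O)ˣ) : ↥O), k, ?_⟩
    have h1 : a⁻¹ = ((u : ↥O) : K) * ((π : ↥O) : K) ^ k := by
      have := congrArg Subtype.val hu
      simpa using this
    have h3 : ((u : ↥O) : K) * (((u⁻¹ : (↥O)ˣ) : ↥O) : K) = 1 := by
      rw [← MulMemClass.coe_mul, Units.mul_inv, OneMemClass.coe_one]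
    have h4 : a * (((u : ↥O) : K) * ((π : ↥O) : K) ^ k) = 1 := by
      rw [← h1, mul_inv_cancel₀ ha0]
    have h5 : a * ((π : ↥O) : K) ^ k * ((u : ↥O) : K) = 1 := by
      rw [← h4]; ring
    calc a * ((π : ↥O) : K) ^ k
        = a * ((π : ↥O) : K) ^ k * (((u : ↥O) : K) * (((u⁻¹ : (↥O)ˣ) : ↥O) : K)) := by
          rw [h3, mul_one]
      _ = (a * ((π : ↥O) : K) ^ k * ((u : ↥O) : K)) * (((u⁻¹ : (↥O)ˣ) : ↥O) : K) := by ring
      _ = (((u⁻¹ : (↥O)ˣ) : ↥O) : K) := by rw [h5, one_mul]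

/-- **The horizontal bridge at the cusp point `(π, t - c)`, generic `(O, E)`.** -/
theorem hunrCusp_generic (h : TMem n e M)
    (hU : ∀ v : Place Kbar (FF M), 0 ≤ v.ord (jF M) →
      ∃ c : Kbar, v.ord (tF M h - algebraMap Kbar (FF M) c) = 1)
    (hC : ∀ γ : SL(2, ℤ), CuspShape n ((cuspData M).T γ (tF M h)) (cv γ))
    (hconst : ∀ c : Kbar, tF M h ≠ algebraMap Kbar (FF M) c)
    {K : Type*} [Field K] [CharZero K] [Algebra K Kbar] [Algebra.IsAlgebraic K Kbar]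
    (O : ValuationSubring K) [IsDiscreteValuationRing ↥O]
    (E : IntermediateField K (LaurentSeries K))
    (hcvA : ∀ γ c, cv γ = some c → ∃ a : ↥O, algebraMap K Kbar (a : K) = c)
    (bc : ↥E →+* FF M)
    (hbc : ∀ a : K, bc (algebraMap K ↥E a) = algebraMap Kbar (FF M) (algebraMap K Kbar a))
    (t : ↥E) (ht : bc t = tF M h)
    (hExt : ∀ w : Place K ↥E, ∃ (v : Place Kbar (FF M)) (d : ℕ), 0 < d ∧
      ∀ f : ↥E, v.ord (bc f) = (d : ℤ) * w.ord f)
    {π : ↥O} (hπ : Irreducible π) (c : ↥O)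
    (hsep : ∀ a : ↥O, (∃ γ, cv γ = some (algebraMap K Kbar (a : K))) → a = c ∨ IsUnit (c - a)) :
    HUNRCusp O E π t c := by
  intro O' hint hdvr hπO hq hcen
  letI : Algebra ↥O Kbar := ((algebraMap K Kbar).comp O.subtype).toAlgebra
  haveI : IsScalarTower ↥O K Kbar := IsScalarTower.of_algebraMap_eq fun _ => rfl
  haveI : IsScalarTower ↥O K ↥E := Fermat.Agent.RED.NumInst4.isScalarTower_OE O E
  have hinjE : Function.Injective (algebraMap ↥O ↥E) := by
    rw [IsScalarTower.algebraMap_eq ↥O K ↥E]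
    exact (algebraMap K ↥E).injective.comp Subtype.val_injective
  refine hUNR_cusp_poly n e M cv h hU hC hconst (A := ↥O) (K := K) (F := ↥E)
    (fun γ c' hγ => ?_) bc hbc t ht hExt π ?_ (fun a => ?_) (cuspIdeal π c) c (fun a ha => ?_)
    O' (fun z => ?_) hdvr hπO hq hcen
  · obtain ⟨a, ha⟩ := hcvA γ c' hγ
    exact ⟨a, ha⟩
  · exact fun h0 => hπ.ne_zero (hinjE (by rw [h0, map_zero]))
  · obtain ⟨r, k, hrk⟩ := exists_mul_pow_mem O hπ a
    refine ⟨r, k, ?_⟩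
    rw [IsScalarTower.algebraMap_apply ↥O K ↥E, IsScalarTower.algebraMap_apply ↥O K ↥E,
      ← map_pow, ← map_mul]
    exact congrArg (algebraMap K ↥E) hrk
  · obtain ⟨γ, hγ⟩ := ha
    rcases hsep a ⟨γ, hγ⟩ with hac | hu
    · exact Or.inl hac
    · refine Or.inr fun hmem => ?_
      rw [mem_cuspIdeal_iff, eval_sub, eval_X, eval_C] at hmem
      obtain ⟨d, hd⟩ := Ideal.mem_span_singleton.mp hmem
      exact hπ.not_isUnit (isUnit_of_dvd_unit ⟨d, hd⟩ hu)
  · apply hint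
    have hmem : aeval t z ∈ Algebra.adjoin ↥O {t} := by
      rw [Algebra.adjoin_singleton_eq_range_aeval]
      exact ⟨z, rfl⟩
    exact isIntegral_algebraMap (R := ↥(Algebra.adjoin ↥O {t})) (A := ↥E) (x := ⟨_, hmem⟩)

/-- **The horizontal bridge at the cusp point `(π, t⁻¹)` of the chart `t⁻¹`, generic `(O, E)`.** -/
theorem hunrCuspInv_generic (h : TMem n e M)
    (hU : ∀ v : Place Kbar (FF M), 0 ≤ v.ord (jF M) →
      ∃ c : Kbar, v.ord (tF M h - algebraMap Kbar (FF M) c) = 1)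
    (hC : ∀ γ : SL(2, ℤ), CuspShape n ((cuspData M).T γ (tF M h)) (cv γ))
    (hconst : ∀ c : Kbar, tF M h ≠ algebraMap Kbar (FF M) c)
    {K : Type*} [Field K] [CharZero K] [Algebra K Kbar] [Algebra.IsAlgebraic K Kbar]
    (O : ValuationSubring K) [IsDiscreteValuationRing ↥O]
    (E : IntermediateField K (LaurentSeries K))
    (hcvA : ∀ γ c, cv γ = some c → ∃ a : ↥O, algebraMap K Kbar (a : K) = c)
    (bc : ↥E →+* FF M)
    (hbc : ∀ a : K, bc (algebraMap K ↥E a) = algebraMap Kbar (FF M) (algebraMap K Kbar a))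
    (t : ↥E) (ht : bc t = tF M h)
    (hExt : ∀ w : Place K ↥E, ∃ (v : Place Kbar (FF M)) (d : ℕ), 0 < d ∧
      ∀ f : ↥E, v.ord (bc f) = (d : ℤ) * w.ord f)
    {π : ↥O} (hπ : Irreducible π) :
    HUNRCusp O E π t⁻¹ 0 := by
  intro O' hint hdvr hπO hq hcen
  letI : Algebra ↥O Kbar := ((algebraMap K Kbar).comp O.subtype).toAlgebra
  haveI : IsScalarTower ↥O K Kbar := IsScalarTower.of_algebraMap_eq fun _ => rfl
  haveI : IsScalarTower ↥O K ↥E := Fermat.Agent.RED.NumInst4.isScalarTower_OE O E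
  have hinjE : Function.Injective (algebraMap ↥O ↥E) := by
    rw [IsScalarTower.algebraMap_eq ↥O K ↥E]
    exact (algebraMap K ↥E).injective.comp Subtype.val_injective
  have hs : bc t⁻¹ = (tF M h)⁻¹ := by rw [map_inv₀, ht]
  have hq' : (t⁻¹ : ↥E)⁻¹ ∈ O' := by
    have := hq
    rwa [map_zero, sub_zero] at this
  refine hUNR_cusp_inv_poly n e M cv h hU hC hconst (A := ↥O) (K := K) (F := ↥E)
    (fun γ c' hγ => ?_) bc hbc t⁻¹ hs hExt π ?_ (fun a => ?_) (cuspIdeal π 0) (fun a ha hmem => ?_)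
    O' (fun z => ?_) hdvr hπO hq' hcen
  · obtain ⟨a, ha⟩ := hcvA γ c' hγ
    exact ⟨a, ha⟩
  · exact fun h0 => hπ.ne_zero (hinjE (by rw [h0, map_zero]))
  · obtain ⟨r, k, hrk⟩ := exists_mul_pow_mem O hπ a
    refine ⟨r, k, ?_⟩
    rw [IsScalarTower.algebraMap_apply ↥O K ↥E, IsScalarTower.algebraMap_apply ↥O K ↥E,
      ← map_pow, ← map_mul]
    exact congrArg (algebraMap K ↥E) hrk
  · rw [mem_cuspIdeal_iff, eval_sub, eval_mul, eval_X, eval_C, eval_one, mul_zero, zero_sub] at hmem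
    obtain ⟨d, hd⟩ := Ideal.mem_span_singleton.mp hmem
    exact hπ.not_isUnit (isUnit_of_dvd_unit ⟨d, hd⟩ (isUnit_one.neg))
  · apply hint
    have hmem : aeval (t⁻¹ : ↥E) z ∈ Algebra.adjoin ↥O {(t⁻¹ : ↥E)} := by
      rw [Algebra.adjoin_singleton_eq_range_aeval]
      exact ⟨z, rfl⟩
    exact isIntegral_algebraMap (R := ↥(Algebra.adjoin ↥O {(t⁻¹ : ↥E)})) (A := ↥E) (x := ⟨_, hmem⟩)

end Generic

section Concrete

open Fermat.Agent.RED.Interface4 Fermat.Agent.RED.ModelTargets4 Fermat.Agent.RED.NumInst4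
  Fermat.Agent.RED.DESC.NumberFieldDVR27 Fermat.Agent.RED.DESC.PlaceExtend27
  Fermat.Agent.RED.BASE.Hauptmodul12 Fermat.Agent.RED.BASE

variable {n e : ℕ} [NeZero n] {M : ℕ} [NeZero M] {A : ValuationSubring Qbar}

/-- **The horizontal bridge at the cusp points over the finite cusp values, concrete types.** -/
theorem hH_over (hb : BaseHyp n e) (hnM : n ∣ M) {ℓ : ℕ} [Fact ℓ.Prime]
    (hℓM : ¬ ℓ ∣ M) (hA : A.LiesOverPrime ℓ) (cv : SL(2, ℤ) → Option Kbar)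
    (hcv : MainCusp12.CuspExports n e M cv) :
    EventuallyT n e M A fun K ϖ t =>
      ∀ c ∈ cuspSet A K cv, HUNRCusp (AK A K) (FK M K) ϖ t c := by
  classical
  have hℓ : ℓ.Prime := Fact.out
  have hB := Main12.baseExports hb M hnM
  obtain ⟨S, hS⟩ := CuspFinite12.exists_finset_cuspValues cv hcv.cuspExp
  obtain ⟨K₀, hK₀, -, hSK⟩ := exists_numberField (⊥ : IntermediateField ℚ Qbar) S
  refine ⟨K₀, hK₀, fun K hKfd hle ϖ hϖ t htq c hc => ?_⟩
  have hdvr : IsDiscreteValuationRing ↥(AK A K) := isDiscreteValuationRing_AK A K hℓ.ne_zero hA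
  haveI halg : Algebra.IsAlgebraic ↥K Kbar := isAlgebraic_Qbar_over K
  obtain ⟨h, hC⟩ := hcv.cuspExp
  obtain ⟨h', hU⟩ := hB.unbranched
  obtain ⟨h'', hgen⟩ := hB.isGen
  have hconst : ∀ c : Kbar, tF M h ≠ algebraMap Kbar (FF M) c := fun c h0 =>
    hgen.sub_algebraMap_ne_zero c (sub_eq_zero.mpr h0)
  have hℓn : ¬ ℓ ∣ n := fun hdvd => hℓM (hdvd.trans hnM)
  have hnA : ((n : Kbar))⁻¹ ∈ A := inv_natCast_mem hℓ hA n hℓn
  have hcvA : ∀ γ c, cv γ = some c → ∃ a : ↥(AK A K), algebraMap ↥K Kbar (a : ↥K) = c := by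
    intro γ c hγ
    have hcK : c ∈ K := hle (hSK c (hS γ c hγ))
    have hshape := hC γ
    rw [hγ] at hshape
    obtain ⟨a, lam, V, -, -, -, -, hcint, -⟩ := hshape
    have hcA : c ∈ A := hcint.mem_of_inv_mem A hnA (NeZero.ne n)
    exact ⟨⟨⟨c, hcK⟩, hcA⟩, rfl⟩
  obtain ⟨γ₀, hγ₀⟩ := hc
  have hsep : ∀ a : ↥(AK A K), (∃ γ, cv γ = some (algebraMap ↥K Kbar (a : ↥K))) →
      a = c ∨ IsUnit (c - a) := by
    rintro a ⟨γ, hγ⟩
    rcases hcv.separated γ₀ γ _ _ hγ₀ hγ with heq | hunit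
    · left
      have h1 : ((c : ↥(AK A K)) : ↥K) = ((a : ↥(AK A K)) : ↥K) :=
        (algebraMap ↥K Kbar).injective heq
      exact (Subtype.ext h1).symm
    · right
      obtain ⟨hx, hxinv⟩ := hunit.inv_mem_of_inv_mem A hnA (NeZero.ne n)
      have hne : (((c - a : ↥(AK A K)) : ↥(AK A K)) : ↥K) ≠ 0 := by
        intro h0
        apply hunit.1
        have h1 : ((c : ↥(AK A K)) : ↥K) - ((a : ↥(AK A K)) : ↥K) = 0 := h0
        rw [← map_sub, h1, map_zero]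
      have hmem : ((((c - a : ↥(AK A K)) : ↥(AK A K)) : ↥K))⁻¹ ∈ AK A K := by
        show algebraMap ↥K Qbar ((((c - a : ↥(AK A K)) : ↥(AK A K)) : ↥K))⁻¹ ∈ A
        rw [map_inv₀]
        have h1 : algebraMap ↥K Qbar (((c - a : ↥(AK A K)) : ↥(AK A K)) : ↥K) =
            algebraMap ↥K Kbar ((c : ↥(AK A K)) : ↥K) - algebraMap ↥K Kbar ((a : ↥(AK A K)) : ↥K) := by
          rw [← map_sub]; rfl
        rw [h1]
        exact hxinv
      exact isUnit_iff_exists_inv.mpr ⟨⟨_, hmem⟩, Subtype.ext (mul_inv_cancel₀ hne)⟩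
  exact hunrCusp_generic n e M cv h hU hC hconst (AK A K) (FK M K) hcvA
    (baseChangeHom M K) (baseChangeHom_algebraMap M K) t
    (Fermat.Agent.RED.CUSP.RankConcrete16.baseChangeHom_eq_tF M K h t htq)
    (exists_place_above M K) hϖ c hsep

/-- **The horizontal bridge at the cusp points `t⁻¹ = 0`, concrete types.** -/
theorem hH_inf (hb : BaseHyp n e) (hnM : n ∣ M) {ℓ : ℕ} [Fact ℓ.Prime]
    (hℓM : ¬ ℓ ∣ M) (hA : A.LiesOverPrime ℓ) (cv : SL(2, ℤ) → Option Kbar)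
    (hcv : MainCusp12.CuspExports n e M cv) :
    EventuallyT n e M A fun K ϖ t => HUNRCusp (AK A K) (FK M K) ϖ t⁻¹ 0 := by
  classical
  have hℓ : ℓ.Prime := Fact.out
  have hB := Main12.baseExports hb M hnM
  obtain ⟨S, hS⟩ := CuspFinite12.exists_finset_cuspValues cv hcv.cuspExp
  obtain ⟨K₀, hK₀, -, hSK⟩ := exists_numberField (⊥ : IntermediateField ℚ Qbar) S
  refine ⟨K₀, hK₀, fun K hKfd hle ϖ hϖ t htq => ?_⟩
  have hdvr : IsDiscreteValuationRing ↥(AK A K) := isDiscreteValuationRing_AK A K hℓ.ne_zero hA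
  haveI halg : Algebra.IsAlgebraic ↥K Kbar := isAlgebraic_Qbar_over K
  obtain ⟨h, hC⟩ := hcv.cuspExp
  obtain ⟨h', hU⟩ := hB.unbranched
  obtain ⟨h'', hgen⟩ := hB.isGen
  have hconst : ∀ c : Kbar, tF M h ≠ algebraMap Kbar (FF M) c := fun c h0 =>
    hgen.sub_algebraMap_ne_zero c (sub_eq_zero.mpr h0)
  have hℓn : ¬ ℓ ∣ n := fun hdvd => hℓM (hdvd.trans hnM)
  have hnA : ((n : Kbar))⁻¹ ∈ A := inv_natCast_mem hℓ hA n hℓn
  have hcvA : ∀ γ c, cv γ = some c → ∃ a : ↥(AK A K), algebraMap ↥K Kbar (a : ↥K) = c := by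
    intro γ c hγ
    have hcK : c ∈ K := hle (hSK c (hS γ c hγ))
    have hshape := hC γ
    rw [hγ] at hshape
    obtain ⟨a, lam, V, -, -, -, -, hcint, -⟩ := hshape
    have hcA : c ∈ A := hcint.mem_of_inv_mem A hnA (NeZero.ne n)
    exact ⟨⟨⟨c, hcK⟩, hcA⟩, rfl⟩
  exact hunrCuspInv_generic n e M cv h hU hC hconst (AK A K) (FK M K) hcvA
    (baseChangeHom M K) (baseChangeHom_algebraMap M K) t
    (Fermat.Agent.RED.CUSP.RankConcrete16.baseChangeHom_eq_tF M K h t htq)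
    (exists_place_above M K) hϖ

/-- **CUSP-concrete at the finite cusp values.** -/
theorem overTarget (hb : BaseHyp n e) (M : ℕ) [NeZero M] (hnM : n ∣ M) (ℓ : ℕ) [Fact ℓ.Prime]
    (hℓM : ¬ ℓ ∣ M) (A : ValuationSubring Qbar) (hA : A.LiesOverPrime ℓ)
    (cv : SL(2, ℤ) → Option Kbar) (hcv : MainCusp12.CuspExports n e M cv) :
    OverTarget n e M A cv :=
  Fermat.Agent.RED.CUSP.CuspConcrete23.overTarget_of_hunr hb hnM hℓM hA cv hcv
    (hH_over hb hnM hℓM hA cv hcv)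

/-- **CUSP-concrete at infinity.** -/
theorem infTarget (hb : BaseHyp n e) (M : ℕ) [NeZero M] (hnM : n ∣ M) (ℓ : ℕ) [Fact ℓ.Prime]
    (hℓM : ¬ ℓ ∣ M) (A : ValuationSubring Qbar) (hA : A.LiesOverPrime ℓ)
    (cv : SL(2, ℤ) → Option Kbar) (hcv : MainCusp12.CuspExports n e M cv) :
    InfTarget n e M A :=
  Fermat.Agent.RED.CUSP.CuspConcrete23.infTarget_of_hunr hb hnM hℓM hA cv hcv
    (hH_inf hb hnM hℓM hA cv hcv)

end Concrete

end Fermat.Agent.RED.CUSP.CuspHoriz4
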