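/-
Program H (S18), chapter RED/CUSP, helper23: the `hP` hypotheses of `HorizPlace20.hUNR_cusp` /
`HorizPlace20.hUNR_cusp_inv` at the concrete cusp points `P = (ϖ, X - c)` of `(A ∩ K)[X]`:

* `hP_over` : another finite cusp value `a ≠ c` has `X - a ∉ (ϖ, X - c)` (from `CuspSeparated`);
* `hP_inf`  : `a X - 1 ∉ (ϖ, X)`.
-/
import Fermat.Agent.RED.CUSP.PolyToPS16
import Fermat.Agent.RED.ModelTargets4
import Fermat.Agent.RED.BASE.Interface12

set_option autoImplicit false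
set_option linter.unusedSectionVars false
set_option linter.unusedVariables false

open Polynomial
open scoped MatrixGroups

noncomputable section

namespace Fermat.Agent.RED.CUSP.CuspSide23

open Fermat.Agent.RED.Interface4 Fermat.Agent.RED.ModelTargets4 Fermat.Agent.X0
  Fermat.Agent.RED.BASE.Interface12 Fermat.Agent.RED.CUSP.PolyToPS16

variable {n : ℕ} (A : ValuationSubring Qbar) {K : IntermediateField ℚ Qbar}

/-- an element of `A ∩ K` whose image in `ℚbar` is a unit away from `n` is a unit, when `n⁻¹ ∈ A`. -/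
theorem isUnit_of_isUnitAway (hn0 : n ≠ 0) (hnA : ((n : Qbar))⁻¹ ∈ A) (x : ↥(AK A K))
    (hx : IsUnitAway n (algebraMap ↥K Qbar (x : ↥K))) : IsUnit x := by
  obtain ⟨hx0, -, hxinv⟩ := hx
  have hmem : (algebraMap ↥K Qbar (x : ↥K))⁻¹ ∈ A := hxinv.mem_of_inv_mem A hnA hn0
  have hmem' : ((x : ↥K))⁻¹ ∈ AK A K := by
    change algebraMap ↥K Qbar ((x : ↥K))⁻¹ ∈ A
    rwa [map_inv₀]
  have hx0' : (x : ↥K) ≠ 0 := by
    intro h0
    apply hx0
    rw [h0, map_zero]
  refine IsUnit.of_mul_eq_one ⟨_, hmem'⟩ ?_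
  apply Subtype.ext
  change (x : ↥K) * ((x : ↥K))⁻¹ = 1
  exact mul_inv_cancel₀ hx0'

/-- **`hP` of `HorizPlace20.hUNR_cusp`** at the cusp point `(ϖ, X - c)`. -/
theorem hP_over (hn0 : n ≠ 0) (hnA : ((n : Qbar))⁻¹ ∈ A) (cv : SL(2, ℤ) → Option Kbar)
    (hsep : CuspSeparated n cv) {ϖ : ↥(AK A K)} (hϖ : Irreducible ϖ) {c : ↥(AK A K)}
    (hc : c ∈ cuspSet A K cv) (a : ↥(AK A K))
    (ha : ∃ γ, cv γ = some (algebraMap ↥K Qbar (a : ↥K))) :
    a = c ∨ X - C a ∉ cuspIdeal ϖ c := by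
  obtain ⟨γ, hγ⟩ := ha
  obtain ⟨γ', hγ'⟩ := hc
  rcases hsep γ' γ _ _ hγ' hγ with heq | hunit
  · left
    apply Subtype.ext
    exact ((algebraMap ↥K Qbar).injective heq).symm
  · right
    rw [mem_cuspIdeal_iff]
    simp only [eval_sub, eval_X, eval_C]
    have hu : IsUnit (c - a) := by
      apply isUnit_of_isUnitAway A hn0 hnA
      have : algebraMap ↥K Qbar ((c - a : ↥(AK A K)) : ↥K) =
          algebraMap ↥K Qbar (c : ↥K) - algebraMap ↥K Qbar (a : ↥K) := by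
        rw [← map_sub]; rfl
      rw [this]
      exact hunit
    intro hmem
    rw [Ideal.mem_span_singleton] at hmem
    exact hϖ.not_isUnit (isUnit_of_dvd_unit hmem hu)

/-- **`hP` of `HorizPlace20.hUNR_cusp_inv`** at the point `(ϖ, X)` (`t⁻¹ = 0`). -/
theorem hP_inf {ϖ : ↥(AK A K)} (hϖ : Irreducible ϖ) (a : ↥(AK A K)) :
    C a * X - 1 ∉ cuspIdeal ϖ (0 : ↥(AK A K)) := by
  rw [mem_cuspIdeal_iff]
  simp only [eval_sub, eval_mul, eval_C, eval_X, mul_zero, eval_one, zero_sub]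
  intro hmem
  rw [Ideal.mem_span_singleton] at hmem
  exact hϖ.not_isUnit (isUnit_of_dvd_unit hmem isUnit_one.neg)

end Fermat.Agent.RED.CUSP.CuspSide23
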