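/-
Program H (S18), chapter RED/CUSP — helper26.  **The three horizontal inputs, concrete.**

For all number fields `K ⊇ K₀` (`K₀` contains the finitely many finite cusp values), every
uniformiser `ϖ` of `A_K = AK A K` and the Hauptmodul `t = tq K n e ∈ FK M K`:

* `hH_off`  : `OffIface4.HUNROff (AK A K) (FK M K) ϖ t (cuspSet A K cv)`   (input of
  `OffConcrete4.offTarget_of_hunr`);
* `hH_over` : `∀ c ∈ cuspSet A K cv, CuspIface23.HUNRCusp (AK A K) (FK M K) ϖ t c`   (input of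
  `CuspConcrete23.overTarget_of_hunr`);
* `hH_inf`  : `CuspIface23.HUNRCusp (AK A K) (FK M K) ϖ t⁻¹ 0`   (input of
  `CuspConcrete23.infTarget_of_hunr`);

all three from `hH_all`, which discharges the side hypotheses of `HorizPlace20` at the concrete types
(`Main12.baseExports`, `MainCusp12.CuspExports`, `CuspFinite12`, `PlaceExtend27`, `RankConcrete16`)
and applies the generic conversions of `HunrGeneric26`.
-/
import Mathlib
import Fermat.Agent.RED.CUSP.HunrGeneric26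
import Fermat.Agent.RED.CUSP.CuspSide23
import Fermat.Agent.RED.CUSP.RankConcrete16
import Fermat.Agent.RED.BASE.MainCusp12
import Fermat.Agent.RED.BASE.CuspFinite12
import Fermat.Agent.RED.DESC.PlaceExtend27
import Fermat.Agent.RED.DESC.NumberFieldDVR27

set_option autoImplicit false
set_option linter.unusedSectionVars false
set_option linter.unusedVariables false
set_option linter.style.haveILetI false

open UpperHalfPlane hiding I
open scoped MatrixGroups IntermediateField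
open Polynomial

noncomputable section

namespace Fermat.Agent.RED.CUSP.HorizConcrete26

open Fermat.Agent.X0 Fermat.Agent.X0.FF AlgebraicCurve
open Fermat.Agent.RED.Interface4 Fermat.Agent.RED.ModelTargets4
open Fermat.Agent.RED.BASE Fermat.Agent.RED.BASE.Interface12 Fermat.Agent.RED.BASE.EtaQuot12
open Fermat.Agent.RED.BASE.Hauptmodul12
open Fermat.Agent.RED.CUSP.PolyToPS16 Fermat.Agent.RED.CUSP.CuspIface23
open Fermat.Agent.RED.CUSP.HunrGeneric26
open Fermat.Agent.RED.PUR.OffIface4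
open Fermat.Agent.RED.DESC.PlaceExtend27 Fermat.Agent.RED.DESC.NumberFieldDVR27
open Fermat.Agent.RED.NumInst4

variable {n e : ℕ} [NeZero n] {M : ℕ} [NeZero M] {A : ValuationSubring Qbar}

/-- the Hauptmodul over `ℚbar` is not constant. -/
theorem tF_ne_const (h : TMem n e M) (c : Kbar) : tF M h ≠ algebraMap Kbar (FF M) c := by
  intro heq
  have h1 : tq Kbar n e = algebraMap Kbar (LaurentSeries Kbar) c := congrArg Subtype.val heq
  exact Fermat.Agent.RED.BASE.TqTranscendental19.transcendental_tq Kbar n e (h1 ▸ isAlgebraic_algebraMap c)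

/-- a finite cusp value is integral away from `n`. -/
theorem isIntAway_of_cv (cv : SL(2, ℤ) → Option Kbar) (h : TMem n e M)
    (hC : ∀ γ : SL(2, ℤ), CuspShape n ((cuspData M).T γ (tF M h)) (cv γ))
    (γ : SL(2, ℤ)) (c : Kbar) (hγ : cv γ = some c) : IsIntAway n c := by
  obtain ⟨a, lam, V, -, -, -, -, hm⟩ := hC γ
  rw [hγ] at hm
  exact hm.1

/-- **All three horizontal inputs at once.** -/
theorem hH_all (hb : BaseHyp n e) (hnM : n ∣ M) {ℓ : ℕ} [Fact ℓ.Prime] (hℓM : ¬ ℓ ∣ M)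
    (hA : A.LiesOverPrime ℓ) (cv : SL(2, ℤ) → Option Kbar)
    (hcv : MainCusp12.CuspExports n e M cv) :
    EventuallyT n e M A fun K ϖ t =>
      HUNROff (AK A K) (FK M K) ϖ t (cuspSet A K cv) ∧
      (∀ c ∈ cuspSet A K cv, HUNRCusp (AK A K) (FK M K) ϖ t c) ∧
      HUNRCusp (AK A K) (FK M K) ϖ t⁻¹ 0 := by
  classical
  have hℓ : ℓ.Prime := Fact.out
  have hB := Main12.baseExports hb M hnM
  obtain ⟨S, hS⟩ := CuspFinite12.exists_finset_cuspValues cv hcv.cuspExp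
  obtain ⟨K₀, hK₀fd, -, hK₀S⟩ := exists_numberField (⊥ : IntermediateField ℚ Qbar) S
  refine ⟨K₀, hK₀fd, fun K hKfd hle ϖ hϖ t htq => ?_⟩
  have hdvr : IsDiscreteValuationRing ↥(AK A K) := isDiscreteValuationRing_AK A K hℓ.ne_zero hA
  have hn0 : n ≠ 0 := NeZero.ne n
  have hℓn : ¬ ℓ ∣ n := fun h => hℓM (h.trans hnM)
  have hnA : ((n : Qbar))⁻¹ ∈ A := inv_natCast_mem hℓ hA n hℓn
  have h : TMem n e M := hB.mem
  obtain ⟨_, hU⟩ := hB.unbranched
  obtain ⟨_, hC⟩ := hcv.cuspExp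
  have hconst : ∀ c : Kbar, tF M h ≠ algebraMap Kbar (FF M) c := tF_ne_const h
  have hcvA : ∀ γ c, cv γ = some c → ∃ a : ↥(AK A K), algebraMap ↥K Kbar (a : ↥K) = c := by
    intro γ c hγ
    have hcK : c ∈ K := hle (hK₀S c (hS γ c hγ))
    have hcA : c ∈ A := (isIntAway_of_cv cv h hC γ c hγ).mem_of_inv_mem A hnA hn0
    exact ⟨⟨⟨c, hcK⟩, (mem_AK_iff A K _).mpr hcA⟩, rfl⟩
  have hbc : ∀ a : ↥K, baseChangeHom M K (algebraMap ↥K ↥(FK M K) a) =
      algebraMap Kbar (FF M) (algebraMap ↥K Kbar a) := fun a => baseChangeHom_algebraMap M K a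
  have ht : baseChangeHom M K t = tF M h := RankConcrete16.baseChangeHom_eq_tF M K h t htq
  have hExt : ∀ w : Place ↥K ↥(FK M K), ∃ (v : Place Kbar (FF M)) (d : ℕ), 0 < d ∧
      ∀ f : ↥(FK M K), v.ord (baseChangeHom M K f) = (d : ℤ) * w.ord f :=
    fun w => exists_place_above M K w
  have hπ0 : ϖ ≠ 0 := hϖ.ne_zero
  haveI : Algebra.IsAlgebraic ↥K Kbar := isAlgebraic_Qbar_over K
  have hK : ∀ a : ↥K, ∃ (r : ↥(AK A K)) (k : ℕ), a * (ϖ : ↥K) ^ k = (r : ↥K) :=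
    hK_of_irreducible (AK A K) hϖ
  refine ⟨?_, ?_, ?_⟩
  · exact hunrOff_of_horiz n e M cv h hU hC hconst hcvA (baseChangeHom M K) hbc t ht hExt ϖ hπ0 hK
      (cuspSet A K cv) (fun a ha => ha)
  · intro c hc
    exact hunrCusp_of_horiz n e M cv h hU hC hconst hcvA (baseChangeHom M K) hbc t ht hExt ϖ hπ0 hK
      c (fun a ha => CuspSide23.hP_over A hn0 hnA cv hcv.separated hϖ hc a ha)
  · exact hunrCusp_inv_of_horiz n e M cv h hU hC hconst hcvA (baseChangeHom M K) hbc t ht hExt ϖ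
      hπ0 hϖ.not_isUnit hK

/-- **Horizontal input of `OffConcrete4.offTarget_of_hunr`.** -/
theorem hH_off (hb : BaseHyp n e) (hnM : n ∣ M) {ℓ : ℕ} [Fact ℓ.Prime] (hℓM : ¬ ℓ ∣ M)
    (hA : A.LiesOverPrime ℓ) (cv : SL(2, ℤ) → Option Kbar)
    (hcv : MainCusp12.CuspExports n e M cv) :
    EventuallyT n e M A fun K ϖ t => HUNROff (AK A K) (FK M K) ϖ t (cuspSet A K cv) := by
  obtain ⟨K₀, hK₀, hall⟩ := hH_all hb hnM hℓM hA cv hcv
  exact ⟨K₀, hK₀, fun K hK hle ϖ hϖ t htq => (hall K hK hle ϖ hϖ t htq).1⟩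

/-- **Horizontal input of `CuspConcrete23.overTarget_of_hunr`.** -/
theorem hH_over (hb : BaseHyp n e) (hnM : n ∣ M) {ℓ : ℕ} [Fact ℓ.Prime] (hℓM : ¬ ℓ ∣ M)
    (hA : A.LiesOverPrime ℓ) (cv : SL(2, ℤ) → Option Kbar)
    (hcv : MainCusp12.CuspExports n e M cv) :
    EventuallyT n e M A fun K ϖ t =>
      ∀ c ∈ cuspSet A K cv, HUNRCusp (AK A K) (FK M K) ϖ t c := by
  obtain ⟨K₀, hK₀, hall⟩ := hH_all hb hnM hℓM hA cv hcv
  exact ⟨K₀, hK₀, fun K hK hle ϖ hϖ t htq => (hall K hK hle ϖ hϖ t htq).2.1⟩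

/-- **Horizontal input of `CuspConcrete23.infTarget_of_hunr`.** -/
theorem hH_inf (hb : BaseHyp n e) (hnM : n ∣ M) {ℓ : ℕ} [Fact ℓ.Prime] (hℓM : ¬ ℓ ∣ M)
    (hA : A.LiesOverPrime ℓ) (cv : SL(2, ℤ) → Option Kbar)
    (hcv : MainCusp12.CuspExports n e M cv) :
    EventuallyT n e M A fun K ϖ t => HUNRCusp (AK A K) (FK M K) ϖ t⁻¹ 0 := by
  obtain ⟨K₀, hK₀, hall⟩ := hH_all hb hnM hℓM hA cv hcv
  exact ⟨K₀, hK₀, fun K hK hle ϖ hϖ t htq => (hall K hK hle ϖ hϖ t htq).2.2⟩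

end Fermat.Agent.RED.CUSP.HorizConcrete26
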