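import Mathlib
import Fermat.Agent.RED.PUR.HorizPlace20
import Fermat.Agent.RED.CUSP.CuspConcrete23
import Fermat.Agent.RED.BASE.CuspFinite12

/-!
# Program H, chapter CUSP: the horizontal bridge at the points `1/t = 0` (concrete)

`hunr_inf` : `EventuallyT n e M A fun K ϖ t => HUNRCusp (AK A K) (FK M K) ϖ t⁻¹ 0`, the last input of
`CuspConcrete23.infTarget_of_hunr`, from `HorizPlace20.hUNR_cusp_inv` applied with `B := A_K[X]`
acting through `aeval t⁻¹`.  Side hypotheses: `K₀` contains the finite cusp values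
(`CuspFinite12`), they lie in `A` (integral away from `n`), `(EXT)` from `PlaceExtend27`.
-/

set_option autoImplicit false
set_option linter.style.haveILetI false
set_option linter.unusedSectionVars false

open UpperHalfPlane hiding I
open scoped MatrixGroups IntermediateField
open Polynomial

noncomputable section

namespace Fermat.Agent.RED.CUSP.HunrConcrete5

open Fermat.Agent.X0 Fermat.Agent.X0.FF AlgebraicCurve
open Fermat.Agent.RED.BASE.Interface12 Fermat.Agent.RED.BASE.EtaQuot12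
open Fermat.Agent.RED.PUR

section Generic

variable (n e M : ℕ) [NeZero n] [NeZero M] (cv : SL(2, ℤ) → Option Kbar)
variable {A K F : Type*} [CommRing A] [IsDomain A] [Field K] [CharZero K] [Field F]
  [Algebra A K] [IsFractionRing A K] [Algebra K F] [Algebra A F] [IsScalarTower A K F]
  [Algebra K Kbar] [Algebra A Kbar] [IsScalarTower A K Kbar] [Algebra.IsAlgebraic K Kbar]

/-- `HorizPlace20.hUNR_cusp` with `B := A[X]` acting through `aeval t`. -/
theorem hunr_cusp_aeval (h : TMem n e M)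
    (hU : ∀ v : Place Kbar (FF M), 0 ≤ v.ord (jF M) →
      ∃ c : Kbar, v.ord (tF M h - algebraMap Kbar (FF M) c) = 1)
    (hC : ∀ γ : SL(2, ℤ), CuspShape n ((cuspData M).T γ (tF M h)) (cv γ))
    (hconst : ∀ c : Kbar, tF M h ≠ algebraMap Kbar (FF M) c)
    (hcvA : ∀ γ c, cv γ = some c → ∃ a : A, algebraMap A Kbar a = c)
    (bc : F →+* FF M)
    (hbc : ∀ a : K, bc (algebraMap K F a) = algebraMap Kbar (FF M) (algebraMap K Kbar a))
    (t : F) (ht : bc t = tF M h)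
    (hExt : ∀ w : Place K F, ∃ (v : Place Kbar (FF M)) (d : ℕ), 0 < d ∧
      ∀ f : F, v.ord (bc f) = (d : ℤ) * w.ord f)
    (π : A) (hπ0 : algebraMap A F π ≠ 0)
    (hK : ∀ a : K, ∃ (r : A) (k : ℕ), algebraMap K F a * algebraMap A F π ^ k = algebraMap A F r)
    (P : Ideal A[X]) (a₀ : A)
    (hP : ∀ a : A, (∃ γ, cv γ = some (algebraMap A Kbar a)) → a = a₀ ∨ X - C a ∉ P) :
    ∀ O : ValuationSubring F, (∀ p : A[X], aeval t p ∈ O) → IsDiscreteValuationRing O →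
      (algebraMap A F π)⁻¹ ∈ O → (t - algebraMap A F a₀)⁻¹ ∈ O →
      (∀ r : A[X], r ∉ P → (aeval t r)⁻¹ ∈ O) →
      ∃ g0 : A[X], (aeval t g0)⁻¹ ∉ O ∧ ∀ y ∈ O, y⁻¹ ∉ O → y / aeval t g0 ∈ O := by
  intro O hO hdvr hπ hq hcen
  letI : Algebra A[X] F := (aeval t : A[X] →ₐ[A] F).toRingHom.toAlgebra
  have hX : ∀ p : A[X], algebraMap A[X] F (algebraMap A[X] A[X] p) = aeval t p := fun p => rfl
  have key := HorizPlace20.hUNR_cusp n e M cv (B := A[X]) h hU hC hconst hcvA bc hbc t ht hExt hX π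
    hπ0 hK P a₀ hP O (fun z => hO z) hdvr
    (by rw [hX, aeval_C]; exact hπ)
    (by rw [hX, map_sub, aeval_X, aeval_C]; exact hq)
    (fun r hr => by rw [hX]; exact hcen r hr)
  obtain ⟨g0, hg1, hg2⟩ := key
  exact ⟨g0, by rw [hX] at hg1; exact hg1, fun y hy hy' => by
    have := hg2 y hy hy'
    rw [hX] at this
    exact this⟩

/-- `HorizPlace20.hUNR_cusp_inv` with `B := A[X]` acting through `aeval s`. -/
theorem hunr_cusp_inv_aeval (h : TMem n e M)
    (hU : ∀ v : Place Kbar (FF M), 0 ≤ v.ord (jF M) →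
      ∃ c : Kbar, v.ord (tF M h - algebraMap Kbar (FF M) c) = 1)
    (hC : ∀ γ : SL(2, ℤ), CuspShape n ((cuspData M).T γ (tF M h)) (cv γ))
    (hconst : ∀ c : Kbar, tF M h ≠ algebraMap Kbar (FF M) c)
    (hcvA : ∀ γ c, cv γ = some c → ∃ a : A, algebraMap A Kbar a = c)
    (bc : F →+* FF M)
    (hbc : ∀ a : K, bc (algebraMap K F a) = algebraMap Kbar (FF M) (algebraMap K Kbar a))
    (s : F) (hs : bc s = (tF M h)⁻¹)
    (hExt : ∀ w : Place K F, ∃ (v : Place Kbar (FF M)) (d : ℕ), 0 < d ∧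
      ∀ f : F, v.ord (bc f) = (d : ℤ) * w.ord f)
    (π : A) (hπ0 : algebraMap A F π ≠ 0)
    (hK : ∀ a : K, ∃ (r : A) (k : ℕ), algebraMap K F a * algebraMap A F π ^ k = algebraMap A F r)
    (P : Ideal A[X])
    (hP : ∀ a : A, (∃ γ, cv γ = some (algebraMap A Kbar a)) → C a * X - 1 ∉ P) :
    ∀ O : ValuationSubring F, (∀ p : A[X], aeval s p ∈ O) → IsDiscreteValuationRing O →
      (algebraMap A F π)⁻¹ ∈ O → s⁻¹ ∈ O →
      (∀ r : A[X], r ∉ P → (aeval s r)⁻¹ ∈ O) →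
      ∃ g0 : A[X], (aeval s g0)⁻¹ ∉ O ∧ ∀ y ∈ O, y⁻¹ ∉ O → y / aeval s g0 ∈ O := by
  intro O hO hdvr hπ hq hcen
  letI : Algebra A[X] F := (aeval s : A[X] →ₐ[A] F).toRingHom.toAlgebra
  have hX : ∀ p : A[X], algebraMap A[X] F (algebraMap A[X] A[X] p) = aeval s p := fun p => rfl
  have key := HorizPlace20.hUNR_cusp_inv n e M cv (B := A[X]) h hU hC hconst hcvA bc hbc s hs hExt
    hX π hπ0 hK P hP O (fun z => hO z) hdvr
    (by rw [hX, aeval_C]; exact hπ)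
    (by rw [hX, aeval_X]; exact hq)
    (fun r hr => by rw [hX]; exact hcen r hr)
  obtain ⟨g0, hg1, hg2⟩ := key
  exact ⟨g0, by rw [hX] at hg1; exact hg1, fun y hy hy' => by
    have := hg2 y hy hy'
    rw [hX] at this
    exact this⟩

end Generic


/-! ### denominators in a discrete valuation subring -/

section HK

variable {K F : Type*} [Field K] [Field F] [Algebra K F] (O : ValuationSubring K)
  [IsDiscreteValuationRing ↥O] [Algebra ↥O F] [IsScalarTower ↥O K F]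

theorem hK_of_valuationSubring {ϖ : ↥O} (hϖ : Irreducible ϖ) (a : K) :
    ∃ (r : ↥O) (k : ℕ), algebraMap K F a * algebraMap ↥O F ϖ ^ k = algebraMap ↥O F r := by
  by_cases ha : a ∈ O
  · refine ⟨⟨a, ha⟩, 0, ?_⟩
    rw [pow_zero, mul_one, IsScalarTower.algebraMap_apply ↥O K F]
    rfl
  · have hinv : a⁻¹ ∈ O := (O.mem_or_inv_mem a).resolve_left ha
    have ha0 : a ≠ 0 := fun h => ha (h ▸ O.zero_mem)
    have hne : (⟨a⁻¹, hinv⟩ : ↥O) ≠ 0 := fun h => inv_ne_zero ha0 (congrArg Subtype.val h)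
    obtain ⟨k, v, hv⟩ := Fermat.Agent.RED.ModelAsm4.dvr_factor hϖ ⟨a⁻¹, hinv⟩ hne
    refine ⟨((v⁻¹ : (↥O)ˣ) : ↥O), k, ?_⟩
    have hv' : a⁻¹ = (ϖ : K) ^ k * ((v : ↥O) : K) := by
      have := congrArg Subtype.val hv
      simpa using this
    have hvv : ((v : ↥O) : K) * (((v⁻¹ : (↥O)ˣ) : ↥O) : K) = 1 := by
      have h := congrArg (fun x : ↥O => (x : K)) (Units.mul_inv v)
      exact h
    have hkey : a * (ϖ : K) ^ k = (((v⁻¹ : (↥O)ˣ) : ↥O) : K) := by
      have h1 : a * a⁻¹ = 1 := mul_inv_cancel₀ ha0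
      rw [hv'] at h1
      calc a * (ϖ : K) ^ k = a * (ϖ : K) ^ k * (((v : ↥O) : K) * (((v⁻¹ : (↥O)ˣ) : ↥O) : K)) := by
            rw [hvv, mul_one]
        _ = (a * ((ϖ : K) ^ k * ((v : ↥O) : K))) * (((v⁻¹ : (↥O)ˣ) : ↥O) : K) := by ring
        _ = _ := by rw [h1, one_mul]
    rw [IsScalarTower.algebraMap_apply ↥O K F, IsScalarTower.algebraMap_apply ↥O K F, ← map_pow,
      ← map_mul]
    exact congrArg (algebraMap K F) hkey

end HK

/-! ### the concrete statements -/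

section Concrete

open Fermat.Agent.RED.Interface4 Fermat.Agent.RED.ModelTargets4 Fermat.Agent.RED.CUSP.CuspIface23
  Fermat.Agent.RED.BASE.Hauptmodul12 Fermat.Agent.RED.DESC.PlaceExtend27
  Fermat.Agent.RED.DESC.NumberFieldDVR27 Fermat.Agent.RED.NumInst4 Fermat.Agent.RED.CUSP.PolyToPS16
  Fermat.Agent.RED.BASE

variable {n e : ℕ} [NeZero n] {M : ℕ} [NeZero M] {A : ValuationSubring Qbar}

/-- a number field containing all finite cusp values. -/
theorem exists_cuspValue_field (cv : SL(2, ℤ) → Option Kbar) (hcv : CuspExp n e M cv) :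
    ∃ K₀ : IntermediateField ℚ Qbar, FiniteDimensional ℚ K₀ ∧
      ∀ (γ : SL(2, ℤ)) (c : Kbar), cv γ = some c → c ∈ K₀ := by
  obtain ⟨S, hS⟩ := CuspFinite12.exists_finset_cuspValues cv hcv
  obtain ⟨K, hK, -, hSK⟩ := exists_numberField (⊥ : IntermediateField ℚ Qbar) S
  exact ⟨K, hK, fun γ c hγ => hSK c (hS γ c hγ)⟩

/-- finite cusp values lie in `A` (they are integral away from `n`, and `ℓ ∤ n`). -/
theorem cuspValue_mem {ℓ : ℕ} (hℓ : ℓ.Prime) (hA : A.LiesOverPrime ℓ) (hℓn : ¬ ℓ ∣ n)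
    (cv : SL(2, ℤ) → Option Kbar) (h : TMem n e M)
    (hC : ∀ γ : SL(2, ℤ), CuspShape n ((cuspData M).T γ (tF M h)) (cv γ))
    (γ : SL(2, ℤ)) (c : Kbar) (hγ : cv γ = some c) : c ∈ A := by
  have hsh := hC γ
  rw [hγ] at hsh
  obtain ⟨a, lam, V, -, -, -, -, hc, -⟩ := hsh
  exact hc.mem_of_inv_mem A (inv_natCast_mem hℓ hA n hℓn) (NeZero.ne n)

/-- **The horizontal bridge at the points `t⁻¹ = 0`** (input of `CuspConcrete23.infTarget_of_hunr`). -/
theorem hunr_inf (hb : BaseHyp n e) (hnM : n ∣ M) {ℓ : ℕ} [Fact ℓ.Prime]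
    (hℓM : ¬ ℓ ∣ M) (hA : A.LiesOverPrime ℓ) (cv : SL(2, ℤ) → Option Kbar)
    (hcv : MainCusp12.CuspExports n e M cv) :
    EventuallyT n e M A fun K ϖ t => HUNRCusp (AK A K) (FK M K) ϖ t⁻¹ 0 := by
  have hℓ : ℓ.Prime := Fact.out
  have hℓn : ¬ ℓ ∣ n := fun h => hℓM (h.trans hnM)
  have hB := Main12.baseExports hb M hnM
  obtain ⟨hmem, hC⟩ := hcv.cuspExp
  obtain ⟨hmem1, hU⟩ := hB.unbranched
  obtain ⟨hmem2, hgen⟩ := hB.isGen
  obtain ⟨K₀, hK₀, hcusp⟩ := exists_cuspValue_field cv hcv.cuspExp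
  refine ⟨K₀, hK₀, fun K hKfd hle ϖ hϖ t htq => ?_⟩
  have hdvr : IsDiscreteValuationRing ↥(AK A K) := isDiscreteValuationRing_AK A K hℓ.ne_zero hA
  haveI : IsScalarTower ↥(AK A K) ↥K ↥(FK M K) := isScalarTower_OE (AK A K) (FK M K)
  haveI : IsScalarTower ↥(AK A K) ↥K Kbar := IsScalarTower.of_algebraMap_eq fun _ => rfl
  haveI : Algebra.IsAlgebraic ↥K Kbar := isAlgebraic_Qbar_over K
  have hembt : baseChangeHom M K t = tF M hmem :=
    Fermat.Agent.RED.CUSP.RankConcrete16.baseChangeHom_eq_tF M K hmem t htq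
  have hconst : ∀ c : Kbar, tF M hmem ≠ algebraMap Kbar (FF M) c := by
    intro c hc
    apply hgen.transcendental
    rw [hc]
    exact isAlgebraic_algebraMap c
  have hcvA : ∀ γ c, cv γ = some c → ∃ a : ↥(AK A K), algebraMap ↥(AK A K) Kbar a = c := by
    intro γ c hγ
    have hcK : c ∈ K := hle (hcusp γ c hγ)
    have hcA : c ∈ A := cuspValue_mem hℓ hA hℓn cv hmem hC γ c hγ
    exact ⟨⟨⟨c, hcK⟩, hcA⟩, rfl⟩
  have hϖ0 : algebraMap ↥(AK A K) ↥(FK M K) ϖ ≠ 0 := by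
    intro h0
    apply hϖ.ne_zero
    have h1 : algebraMap ↥K ↥(FK M K) ((ϖ : ↥(AK A K)) : ↥K) = 0 := h0
    have h2 : ((ϖ : ↥(AK A K)) : ↥K) = 0 := (map_eq_zero _).mp h1
    exact Subtype.ext h2
  have hs : baseChangeHom M K t⁻¹ = (tF M hmem)⁻¹ := by rw [map_inv₀, hembt]
  have hP : ∀ a : ↥(AK A K), (∃ γ, cv γ = some (algebraMap ↥(AK A K) Kbar a)) →
      C a * X - 1 ∉ cuspIdeal ϖ (0 : ↥(AK A K)) := by
    intro a _ hmemP
    rw [mem_cuspIdeal_iff] at hmemP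
    simp only [eval_sub, eval_mul, eval_C, eval_X, mul_zero, eval_one, zero_sub] at hmemP
    rw [Ideal.mem_span_singleton] at hmemP
    have h1 : ϖ ∣ (1 : ↥(AK A K)) := (dvd_neg.mp hmemP)
    exact hϖ.not_isUnit (isUnit_of_dvd_one h1)
  have key := hunr_cusp_inv_aeval n e M cv (A := ↥(AK A K)) (K := ↥K) (F := ↥(FK M K)) hmem hU hC
    hconst hcvA (baseChangeHom M K) (fun a => baseChangeHom_algebraMap M K a) t⁻¹ hs
    (fun w => exists_place_above M K w) ϖ hϖ0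
    (fun a => hK_of_valuationSubring (AK A K) hϖ a) (cuspIdeal ϖ (0 : ↥(AK A K))) hP
  intro O' hint hdvr' h1 h2 h3
  refine key O' (fun p => hint _ ?_) hdvr' h1 ?_ h3
  · -- `aeval t⁻¹ p` is integral over `O[t⁻¹]`
    have hmem' : aeval (t⁻¹ : ↥(FK M K)) p ∈ Algebra.adjoin ↥(AK A K) {(t⁻¹ : ↥(FK M K))} := by
      rw [Algebra.adjoin_singleton_eq_range_aeval]
      exact ⟨p, rfl⟩
    exact isIntegral_algebraMap (R := ↥(Algebra.adjoin ↥(AK A K) {(t⁻¹ : ↥(FK M K))}))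
      (x := ⟨_, hmem'⟩)
  · rw [map_zero, sub_zero] at h2
    exact h2

end Concrete

end Fermat.Agent.RED.CUSP.HunrConcrete5
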