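/-
Program H (S18), chapter RED/CUSP (helper3): the horizontal bridge at the cusp points, at the
concrete types.  Produces the two remaining inputs `hH` of `CuspConcrete23.overTarget_of_hunr` /
`infTarget_of_hunr`:

* `hH_over : EventuallyT n e M A fun K ϖ t => ∀ c ∈ cuspSet A K cv, HUNRCusp (AK A K) (FK M K) ϖ t c`
* `hH_inf  : EventuallyT n e M A fun K ϖ t => HUNRCusp (AK A K) (FK M K) ϖ t⁻¹ 0`

from `HorizPlace20.hUNR_cusp` / `hUNR_cusp_inv` (helper20), with `B := O[X]` acting on `E` through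
`X ↦ t`, `bc := PlaceExtend27.baseChangeHom`, `hExt := PlaceExtend27.exists_place_above`.
-/
import Mathlib
import Fermat.Agent.RED.PUR.HorizPlace20
import Fermat.Agent.RED.PUR.HorizBridgeCusp26
import Fermat.Agent.RED.CUSP.CuspConcrete23
import Fermat.Agent.RED.BASE.CuspFinite12

set_option autoImplicit false
set_option linter.unusedSectionVars false
set_option linter.unusedVariables false
set_option linter.style.haveILetI false

open ModularCurve IntermediateField Polynomial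
open scoped MatrixGroups

noncomputable section

namespace Fermat.Agent.RED.CUSP.HunrCuspConcrete3

open Fermat.Agent.X0 Fermat.Agent.X0.FF AlgebraicCurve
open Fermat.Agent.RED.BASE.Interface12 Fermat.Agent.RED.BASE.EtaQuot12
open Fermat.Agent.RED.CUSP.PolyToPS16 Fermat.Agent.RED.CUSP.CuspIface23
open Fermat.Agent.RED.PUR.IntClosBase13

/-! ### Generic part: `HUNRCusp` from `HorizPlace20` -/

section Generic

variable {K : Type*} [Field K] [CharZero K] (O : ValuationSubring K)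
  (E : IntermediateField K (LaurentSeries K))
  (n e M : ℕ) [NeZero n] [NeZero M] (cv : SL(2, ℤ) → Option Kbar)
  [Algebra K Kbar] [Algebra ↥O Kbar] [IsScalarTower ↥O K Kbar] [Algebra.IsAlgebraic K Kbar]

/-- elements of `O[t]` lie in every valuation subring containing the chart. -/
theorem aeval_mem_of_chart_le (t : ↥E) (O' : ValuationSubring ↥E)
    (hB : ∀ s : ↥E, IsIntegral ↥(Algebra.adjoin ↥O {t}) s → s ∈ O') (p : (↥O)[X]) :
    aeval t p ∈ O' := by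
  apply hB
  have hmem : aeval t p ∈ Algebra.adjoin ↥O {t} := aeval_mem_adjoin_singleton _ _
  exact isIntegral_algebraMap (R := ↥(Algebra.adjoin ↥O {t})) (x := ⟨aeval t p, hmem⟩)

/-- **`HUNRCusp` at a finite cusp value**, generic form. -/
theorem hunrCusp_gen (h : TMem n e M)
    (hU : ∀ v : Place Kbar (FF M), 0 ≤ v.ord (jF M) →
      ∃ c : Kbar, v.ord (tF M h - algebraMap Kbar (FF M) c) = 1)
    (hC : ∀ γ : SL(2, ℤ), CuspShape n ((cuspData M).T γ (tF M h)) (cv γ))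
    (hconst : ∀ c : Kbar, tF M h ≠ algebraMap Kbar (FF M) c)
    (hcvA : ∀ γ c, cv γ = some c → ∃ a : ↥O, algebraMap ↥O Kbar a = c)
    (bc : ↥E →+* FF M)
    (hbc : ∀ a : K, bc (algebraMap K ↥E a) = algebraMap Kbar (FF M) (algebraMap K Kbar a))
    (t : ↥E) (ht : bc t = tF M h)
    (hExt : ∀ w : Place K ↥E, ∃ (v : Place Kbar (FF M)) (d : ℕ), 0 < d ∧
      ∀ f : ↥E, v.ord (bc f) = (d : ℤ) * w.ord f)
    (π : ↥O) (hπ0 : algebraMap ↥O ↥E π ≠ 0)
    (hK : ∀ a : K, ∃ (r : ↥O) (k : ℕ),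
      algebraMap K ↥E a * algebraMap ↥O ↥E π ^ k = algebraMap ↥O ↥E r)
    (c : ↥O)
    (hP : ∀ a : ↥O, (∃ γ, cv γ = some (algebraMap ↥O Kbar a)) →
      a = c ∨ (X - C a : (↥O)[X]) ∉ cuspIdeal π c) :
    HUNRCusp O E π t c := by
  intro O' hB hdvr h1 h2 h3
  haveI : IsScalarTower ↥O K ↥E := Fermat.Agent.RED.NumInst4.isScalarTower_OE O E
  letI : Algebra (↥O)[X] ↥E := polyAlgebra (A := ↥O) t
  haveI : IsScalarTower ↥O (↥O)[X] ↥E := polyAlgebra_isScalarTower (A := ↥O) t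
  have hXt : algebraMap (↥O)[X] ↥E X = t := polyAlgebra_algebraMap_X (A := ↥O) t
  have haev : ∀ p : (↥O)[X], algebraMap (↥O)[X] ↥E p = aeval t p := fun p =>
    algebraMap_eq_aeval hXt p
  have hX : ∀ p : (↥O)[X],
      algebraMap (↥O)[X] ↥E (algebraMap (↥O)[X] (↥O)[X] p) = aeval t p := fun p => by
    rw [Algebra.algebraMap_self, RingHom.id_apply, haev]
  have key := Fermat.Agent.RED.PUR.HorizPlace20.hUNR_cusp n e M cv (A := ↥O) (K := K) (F := ↥E)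
    (B := (↥O)[X]) h hU hC hconst hcvA bc hbc t ht hExt hX π hπ0 hK (cuspIdeal π c) c hP O'
    (fun z => by rw [haev]; exact aeval_mem_of_chart_le O E t O' hB z) hdvr
    (by rw [hX, aeval_C]; exact h1)
    (by rw [hX, map_sub, aeval_X, aeval_C]; exact h2)
    (fun r hr => by rw [hX]; exact h3 r hr)
  obtain ⟨g0, hg1, hg2⟩ := key
  refine ⟨g0, ?_, ?_⟩
  · rw [hX] at hg1; exact hg1
  · intro y hy hy'
    have := hg2 y hy hy'
    rw [hX] at this
    exact this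

/-- **`HUNRCusp` at `t = ∞`** (coordinate `t⁻¹`, value `0`), generic form. -/
theorem hunrCusp_inv_gen (h : TMem n e M)
    (hU : ∀ v : Place Kbar (FF M), 0 ≤ v.ord (jF M) →
      ∃ c : Kbar, v.ord (tF M h - algebraMap Kbar (FF M) c) = 1)
    (hC : ∀ γ : SL(2, ℤ), CuspShape n ((cuspData M).T γ (tF M h)) (cv γ))
    (hconst : ∀ c : Kbar, tF M h ≠ algebraMap Kbar (FF M) c)
    (hcvA : ∀ γ c, cv γ = some c → ∃ a : ↥O, algebraMap ↥O Kbar a = c)
    (bc : ↥E →+* FF M)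
    (hbc : ∀ a : K, bc (algebraMap K ↥E a) = algebraMap Kbar (FF M) (algebraMap K Kbar a))
    (t : ↥E) (ht : bc t = tF M h)
    (hExt : ∀ w : Place K ↥E, ∃ (v : Place Kbar (FF M)) (d : ℕ), 0 < d ∧
      ∀ f : ↥E, v.ord (bc f) = (d : ℤ) * w.ord f)
    (π : ↥O) (hπu : ¬ IsUnit π) (hπ0 : algebraMap ↥O ↥E π ≠ 0)
    (hK : ∀ a : K, ∃ (r : ↥O) (k : ℕ),
      algebraMap K ↥E a * algebraMap ↥O ↥E π ^ k = algebraMap ↥O ↥E r) :
    HUNRCusp O E π t⁻¹ 0 := by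
  intro O' hB hdvr h1 h2 h3
  haveI : IsScalarTower ↥O K ↥E := Fermat.Agent.RED.NumInst4.isScalarTower_OE O E
  letI : Algebra (↥O)[X] ↥E := polyAlgebra (A := ↥O) t⁻¹
  haveI : IsScalarTower ↥O (↥O)[X] ↥E := polyAlgebra_isScalarTower (A := ↥O) t⁻¹
  have hXt : algebraMap (↥O)[X] ↥E X = t⁻¹ := polyAlgebra_algebraMap_X (A := ↥O) t⁻¹
  have haev : ∀ p : (↥O)[X], algebraMap (↥O)[X] ↥E p = aeval t⁻¹ p := fun p =>
    algebraMap_eq_aeval hXt p
  have hX : ∀ p : (↥O)[X],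
      algebraMap (↥O)[X] ↥E (algebraMap (↥O)[X] (↥O)[X] p) = aeval t⁻¹ p := fun p => by
    rw [Algebra.algebraMap_self, RingHom.id_apply, haev]
  have hs : bc t⁻¹ = (tF M h)⁻¹ := by rw [map_inv₀, ht]
  have hP : ∀ a : ↥O, (∃ γ, cv γ = some (algebraMap ↥O Kbar a)) →
      (C a * X - 1 : (↥O)[X]) ∉ cuspIdeal π (0 : ↥O) := by
    intro a _ hmem
    rw [mem_cuspIdeal_iff] at hmem
    simp only [eval_sub, eval_mul, eval_C, eval_X, mul_zero, eval_one, zero_sub] at hmem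
    rw [Ideal.mem_span_singleton] at hmem
    exact hπu (isUnit_of_dvd_unit hmem (isUnit_one.neg))
  have key := Fermat.Agent.RED.PUR.HorizPlace20.hUNR_cusp_inv n e M cv (A := ↥O) (K := K)
    (F := ↥E) (B := (↥O)[X]) h hU hC hconst hcvA bc hbc t⁻¹ hs hExt hX π hπ0 hK
    (cuspIdeal π (0 : ↥O)) hP O'
    (fun z => by rw [haev]; exact aeval_mem_of_chart_le O E t⁻¹ O' hB z) hdvr
    (by rw [hX, aeval_C]; exact h1)
    (by
      rw [hX, aeval_X]
      have := h2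
      rwa [map_zero, sub_zero] at this)
    (fun r hr => by rw [hX]; exact h3 r hr)
  obtain ⟨g0, hg1, hg2⟩ := key
  refine ⟨g0, ?_, ?_⟩
  · rw [hX] at hg1; exact hg1
  · intro y hy hy'
    have := hg2 y hy hy'
    rw [hX] at this
    exact this

end Generic

/-! ### Concrete part: `O := AK A K`, `E := FK M K` -/

section Concrete

open Fermat.Agent.RED.Interface4 Fermat.Agent.RED.ModelTargets4 Fermat.Agent.RED.NumInst4
  Fermat.Agent.RED.DESC.NumberFieldDVR27 Fermat.Agent.RED.DESC.PlaceExtend27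
  Fermat.Agent.RED.BASE Fermat.Agent.RED.BASE.Hauptmodul12

variable {n e : ℕ} [NeZero n] {M : ℕ} [NeZero M] {A : ValuationSubring Qbar}

/-- Both horizontal bridges over one sufficiently large number field. -/
theorem hunr_both (hb : BaseHyp n e) (hnM : n ∣ M) {ℓ : ℕ} [Fact ℓ.Prime]
    (hℓM : ¬ ℓ ∣ M) (hA : A.LiesOverPrime ℓ) (cv : SL(2, ℤ) → Option Kbar)
    (hcv : MainCusp12.CuspExports n e M cv) :
    EventuallyT n e M A fun K ϖ t =>
      (∀ c ∈ cuspSet A K cv, HUNRCusp (AK A K) (FK M K) ϖ t c) ∧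
        HUNRCusp (AK A K) (FK M K) ϖ t⁻¹ 0 := by
  have hℓ : ℓ.Prime := Fact.out
  have hB := Main12.baseExports hb M hnM
  obtain ⟨S, hS⟩ := CuspFinite12.exists_finset_cuspValues cv hcv.cuspExp
  obtain ⟨K₀, hK₀fd, -, hK₀S⟩ := exists_numberField (⊥ : IntermediateField ℚ Qbar) S
  refine ⟨K₀, hK₀fd, fun K hKfd hle ϖ hϖ t htq => ?_⟩
  have hdvr : IsDiscreteValuationRing ↥(AK A K) := isDiscreteValuationRing_AK A K hℓ.ne_zero hA
  have halg : Algebra.IsAlgebraic ↥K Qbar := isAlgebraic_Qbar_over K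
  -- BASE data
  obtain ⟨hm1, hU⟩ := hB.unbranched
  obtain ⟨hm2, hC⟩ := hcv.cuspExp
  obtain ⟨hm3, hgen⟩ := hB.isGen
  have hconst : ∀ c : Kbar, tF M hB.mem ≠ algebraMap Kbar (FF M) c := fun c hc =>
    Fermat.Agent.X0.FF.IsGen.sub_algebraMap_ne_zero hgen c (sub_eq_zero.mpr hc)
  have hℓn : ¬ ℓ ∣ n := fun hd => hℓM (hd.trans hnM)
  have hnA : ((n : Qbar))⁻¹ ∈ A := inv_natCast_mem hℓ hA n hℓn
  have hn0 : n ≠ 0 := NeZero.ne n
  -- finite cusp values lie in `A ∩ K`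
  have hcvA : ∀ γ c, cv γ = some c → ∃ a : ↥(AK A K), algebraMap ↥(AK A K) Kbar a = c := by
    intro γ c hγ
    have hcK : c ∈ K := hle (hK₀S c (hS γ c hγ))
    have hcA : c ∈ A := by
      have hs := hC γ
      rw [hγ] at hs
      obtain ⟨a, lam, V, -, -, -, -, hInt, -⟩ := hs
      exact hInt.mem_of_inv_mem A hnA hn0
    exact ⟨⟨⟨c, hcK⟩, hcA⟩, rfl⟩
  have hbc : ∀ a : ↥K, baseChangeHom M K (algebraMap ↥K ↥(FK M K) a) =
      algebraMap Kbar (FF M) (algebraMap ↥K Kbar a) := fun a => baseChangeHom_algebraMap M K a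
  have ht : baseChangeHom M K t = tF M hB.mem :=
    Fermat.Agent.RED.CUSP.RankConcrete16.baseChangeHom_eq_tF M K hB.mem t htq
  have hExt : ∀ w : Place ↥K ↥(FK M K), ∃ (v : Place Kbar (FF M)) (d : ℕ), 0 < d ∧
      ∀ f : ↥(FK M K), v.ord (baseChangeHom M K f) = (d : ℤ) * w.ord f :=
    fun w => exists_place_above M K w
  have hπ0 : algebraMap ↥(AK A K) ↥(FK M K) ϖ ≠ 0 :=
    Fermat.Agent.RED.PUR.G1Package8.algebraMap_pi_ne_zero hϖ
  have hK : ∀ a : ↥K, ∃ (r : ↥(AK A K)) (k : ℕ),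
      algebraMap ↥K ↥(FK M K) a * algebraMap ↥(AK A K) ↥(FK M K) ϖ ^ k =
        algebraMap ↥(AK A K) ↥(FK M K) r := by
    intro a
    haveI : IsScalarTower ↥(AK A K) ↥K ↥(FK M K) := isScalarTower_OE (AK A K) (FK M K)
    obtain ⟨r, k, hrk⟩ := Fermat.Agent.RED.CORE.LocalStep15.hK_of_dvr (R := ↥(AK A K)) (K := ↥K)
      (C := ↥(AK A K)) (F := ↥(FK M K)) ϖ (Fermat.Agent.RED.ModelAsm4.dvr_factor hϖ) a
    exact ⟨r, k, hrk⟩
  refine ⟨fun c hc => ?_, ?_⟩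
  · -- finite cusp value `c`
    obtain ⟨γ₀, hγ₀⟩ := hc
    refine hunrCusp_gen (AK A K) (FK M K) n e M cv hB.mem hU hC hconst hcvA (baseChangeHom M K)
      hbc t ht hExt ϖ hπ0 hK c ?_
    rintro a ⟨γ, hγ⟩
    rcases hcv.separated γ γ₀ _ _ hγ hγ₀ with heq | hunit
    · left
      exact Subtype.ext (Subtype.ext heq)
    · right
      obtain ⟨hx, hxi⟩ := hunit.inv_mem_of_inv_mem A hnA hn0
      have hxK : ((a : ↥K) : Qbar) - ((c : ↥K) : Qbar) ∈ K :=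
        K.sub_mem (a : ↥K).2 (c : ↥K).2
      have hxiK : (((a : ↥K) : Qbar) - ((c : ↥K) : Qbar))⁻¹ ∈ K := K.inv_mem hxK
      have hu : IsUnit (a - c) := by
        refine IsUnit.of_mul_eq_one
          (⟨⟨(((a : ↥K) : Qbar) - ((c : ↥K) : Qbar))⁻¹, hxiK⟩, hxi⟩ : ↥(AK A K)) ?_
        apply Subtype.ext
        apply Subtype.ext
        show (((a : ↥K) : Qbar) - ((c : ↥K) : Qbar)) *
          (((a : ↥K) : Qbar) - ((c : ↥K) : Qbar))⁻¹ = 1
        exact mul_inv_cancel₀ hunit.1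
      exact Fermat.Agent.RED.PUR.HorizBridgeCusp26.X_sub_C_notMem_cuspIdeal ϖ hϖ c a hu
  · exact hunrCusp_inv_gen (AK A K) (FK M K) n e M cv hB.mem hU hC hconst hcvA
      (baseChangeHom M K) hbc t ht hExt ϖ hϖ.not_isUnit hπ0 hK

/-- **Input `hH` of `CuspConcrete23.overTarget_of_hunr`.** -/
theorem hH_over (hb : BaseHyp n e) (hnM : n ∣ M) {ℓ : ℕ} [Fact ℓ.Prime]
    (hℓM : ¬ ℓ ∣ M) (hA : A.LiesOverPrime ℓ) (cv : SL(2, ℤ) → Option Kbar)
    (hcv : MainCusp12.CuspExports n e M cv) :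
    EventuallyT n e M A fun K ϖ t =>
      ∀ c ∈ cuspSet A K cv, HUNRCusp (AK A K) (FK M K) ϖ t c := by
  obtain ⟨K₀, hK₀, h⟩ := hunr_both hb hnM hℓM hA cv hcv
  exact ⟨K₀, hK₀, fun K hK hle ϖ hϖ t htq => (h K hK hle ϖ hϖ t htq).1⟩

/-- **Input `hH` of `CuspConcrete23.infTarget_of_hunr`.** -/
theorem hH_inf (hb : BaseHyp n e) (hnM : n ∣ M) {ℓ : ℕ} [Fact ℓ.Prime]
    (hℓM : ¬ ℓ ∣ M) (hA : A.LiesOverPrime ℓ) (cv : SL(2, ℤ) → Option Kbar)
    (hcv : MainCusp12.CuspExports n e M cv) :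
    EventuallyT n e M A fun K ϖ t => HUNRCusp (AK A K) (FK M K) ϖ t⁻¹ 0 := by
  obtain ⟨K₀, hK₀, h⟩ := hunr_both hb hnM hℓM hA cv hcv
  exact ⟨K₀, hK₀, fun K hK hle ϖ hϖ t htq => (h K hK hle ϖ hϖ t htq).2⟩

/-- **(4) `overTarget`** of the S18 chain. -/
theorem overTarget (hb : BaseHyp n e) (hnM : n ∣ M) {ℓ : ℕ} [Fact ℓ.Prime]
    (hℓM : ¬ ℓ ∣ M) (hA : A.LiesOverPrime ℓ) (cv : SL(2, ℤ) → Option Kbar)
    (hcv : MainCusp12.CuspExports n e M cv) : OverTarget n e M A cv :=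
  Fermat.Agent.RED.CUSP.CuspConcrete23.overTarget_of_hunr hb hnM hℓM hA cv hcv
    (hH_over hb hnM hℓM hA cv hcv)

/-- **(5) `infTarget`** of the S18 chain. -/
theorem infTarget (hb : BaseHyp n e) (hnM : n ∣ M) {ℓ : ℕ} [Fact ℓ.Prime]
    (hℓM : ¬ ℓ ∣ M) (hA : A.LiesOverPrime ℓ) (cv : SL(2, ℤ) → Option Kbar)
    (hcv : MainCusp12.CuspExports n e M cv) : InfTarget n e M A :=
  Fermat.Agent.RED.CUSP.CuspConcrete23.infTarget_of_hunr hb hnM hℓM hA cv hcv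
    (hH_inf hb hnM hℓM hA cv hcv)

end Concrete

end Fermat.Agent.RED.CUSP.HunrCuspConcrete3
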