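/-
Program H (S18), chapter RED/CUSP — helper26.  **The horizontal inputs, generic `(O, E)` conversion.**

`CuspConcrete23.overTarget_of_hunr / infTarget_of_hunr` and `OffConcrete4.offTarget_of_hunr` need
`HUNRCusp (AK A K) (FK M K) ϖ t c`, `HUNRCusp (AK A K) (FK M K) ϖ t⁻¹ 0`,
`HUNROff (AK A K) (FK M K) ϖ t (cuspSet A K cv)`.  Here, for a GENERIC valuation subring `O` of a
field `K₁ ⊂ ℚbar` and `E ≤ K₁((q))` with a base change map `bc : E →+* Fbar_M`: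

* `hunrCusp_of_horiz`     : `HUNRCusp O E π t c`   from the hypotheses of `HorizPlace20.hUNR_cusp`;
* `hunrCusp_inv_of_horiz` : `HUNRCusp O E π t⁻¹ 0` from those of `HorizPlace20.hUNR_cusp_inv`;
* `hunrOff_of_horiz`      : `HUNROff O E π t S`    from those of `HorizPlace20.hUNR_noncusp`

(all three at `B := O[X]`, `X ↦ t`), and `hK_of_irreducible` (the hypothesis `hK` from a uniformiser).
-/
import Mathlib
import Fermat.Agent.RED.PUR.HorizPlace20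
import Fermat.Agent.RED.PUR.HorizBridgeCusp26
import Fermat.Agent.RED.CUSP.CuspIface23
import Fermat.Agent.RED.PUR.OffIface4

set_option autoImplicit false
set_option linter.unusedSectionVars false
set_option linter.unusedVariables false
set_option linter.style.haveILetI false

open UpperHalfPlane hiding I
open scoped MatrixGroups IntermediateField
open Polynomial

noncomputable section

namespace Fermat.Agent.RED.CUSP.HunrGeneric26

open Fermat.Agent.X0 Fermat.Agent.X0.FF AlgebraicCurve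
open Fermat.Agent.RED.BASE.Interface12 Fermat.Agent.RED.BASE.EtaQuot12
open Fermat.Agent.RED.CUSP.PolyToPS16 Fermat.Agent.RED.CUSP.CuspIface23
open Fermat.Agent.RED.PUR.IntClosBase13

/-! ### generic `(O, E)` part -/

section Generic

variable (n e M : ℕ) [NeZero n] [NeZero M] (cv : SL(2, ℤ) → Option Kbar)
variable {K₁ : Type*} [Field K₁] [CharZero K₁] (O : ValuationSubring K₁)
  (E : IntermediateField K₁ (LaurentSeries K₁)) [Algebra K₁ Kbar] [Algebra.IsAlgebraic K₁ Kbar]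

/-- `hK` of `HorizPlace20` from a uniformiser: every element of `K₁ = Frac O` has a denominator
`π ^ k`. -/
theorem hK_of_irreducible [IsDiscreteValuationRing ↥O] {π : ↥O} (hπ : Irreducible π) (a : K₁) :
    ∃ (r : ↥O) (k : ℕ), a * (π : K₁) ^ k = (r : K₁) := by
  by_cases ha : a ∈ O
  · exact ⟨⟨a, ha⟩, 0, by simp⟩
  · have hinv : a⁻¹ ∈ O := (O.mem_or_inv_mem a).resolve_left ha
    have ha0 : a ≠ 0 := fun h => ha (h ▸ O.zero_mem)
    have hne : (⟨a⁻¹, hinv⟩ : ↥O) ≠ 0 := fun h => inv_ne_zero ha0 (congrArg Subtype.val h)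
    obtain ⟨k, u, hu⟩ := IsDiscreteValuationRing.eq_unit_mul_pow_irreducible hne hπ
    refine ⟨((u⁻¹ : (↥O)ˣ) : ↥O), k, ?_⟩
    have h1 : a⁻¹ = ((u : ↥O) : K₁) * (π : K₁) ^ k := by
      have h := congrArg (Subtype.val : ↥O → K₁) hu
      rwa [O.coe_mul, O.coe_pow] at h
    have h2 : ((u : ↥O) : K₁) * (((u⁻¹ : (↥O)ˣ) : ↥O) : K₁) = 1 := by
      have h := congrArg (Subtype.val : ↥O → K₁) (Units.mul_inv u)
      rwa [O.coe_mul] at h
    have hu0 : ((u : ↥O) : K₁) ≠ 0 := fun h => by rw [h, zero_mul] at h2; exact zero_ne_one h2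
    have h3 : (π : K₁) ^ k = a⁻¹ * (((u⁻¹ : (↥O)ˣ) : ↥O) : K₁) := by
      rw [h1, mul_comm (((u : ↥O) : K₁)) _, mul_assoc, h2, mul_one]
    rw [h3, ← mul_assoc, mul_inv_cancel₀ ha0, one_mul]

variable {O E}

/-- **`HUNRCusp` at a finite cusp value**, from the hypotheses of `HorizPlace20.hUNR_cusp`. -/
theorem hunrCusp_of_horiz (h : TMem n e M)
    (hU : ∀ v : Place Kbar (FF M), 0 ≤ v.ord (jF M) →
      ∃ c : Kbar, v.ord (tF M h - algebraMap Kbar (FF M) c) = 1)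
    (hC : ∀ γ : SL(2, ℤ), CuspShape n ((cuspData M).T γ (tF M h)) (cv γ))
    (hconst : ∀ c : Kbar, tF M h ≠ algebraMap Kbar (FF M) c)
    (hcvA : ∀ γ c, cv γ = some c → ∃ a : ↥O, algebraMap K₁ Kbar (a : K₁) = c)
    (bc : ↥E →+* FF M)
    (hbc : ∀ a : K₁, bc (algebraMap K₁ ↥E a) = algebraMap Kbar (FF M) (algebraMap K₁ Kbar a))
    (t : ↥E) (ht : bc t = tF M h)
    (hExt : ∀ w : Place K₁ ↥E, ∃ (v : Place Kbar (FF M)) (d : ℕ), 0 < d ∧
      ∀ f : ↥E, v.ord (bc f) = (d : ℤ) * w.ord f)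
    (π : ↥O) (hπ0 : π ≠ 0)
    (hK : ∀ a : K₁, ∃ (r : ↥O) (k : ℕ), a * (π : K₁) ^ k = (r : K₁))
    (c : ↥O)
    (hsep : ∀ a : ↥O, (∃ γ, cv γ = some (algebraMap K₁ Kbar (a : K₁))) →
      a = c ∨ (X - C a : (↥O)[X]) ∉ cuspIdeal π c) :
    HUNRCusp O E π t c := by
  haveI : IsScalarTower ↥O K₁ ↥E := Fermat.Agent.RED.NumInst4.isScalarTower_OE O E
  letI : Algebra (↥O)[X] ↥E := polyAlgebra (A := ↥O) t
  haveI : IsScalarTower ↥O (↥O)[X] ↥E := polyAlgebra_isScalarTower (A := ↥O) t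
  have hX0 : algebraMap (↥O)[X] ↥E X = t := polyAlgebra_algebraMap_X (A := ↥O) t
  have hX : ∀ p : (↥O)[X], algebraMap (↥O)[X] ↥E (algebraMap (↥O)[X] (↥O)[X] p) = aeval t p :=
    fun p => algebraMap_eq_aeval hX0 p
  have hπ0' : algebraMap ↥O ↥E π ≠ 0 := by
    intro h0
    apply hπ0
    have h1 : algebraMap K₁ ↥E (π : K₁) = 0 := h0
    have h2 : (π : K₁) = 0 := (map_eq_zero _).mp h1
    exact Subtype.ext h2
  have hK' : ∀ a : K₁, ∃ (r : ↥O) (k : ℕ),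
      algebraMap K₁ ↥E a * algebraMap ↥O ↥E π ^ k = algebraMap ↥O ↥E r := by
    intro a
    obtain ⟨r, k, hrk⟩ := hK a
    refine ⟨r, k, ?_⟩
    show algebraMap K₁ ↥E a * algebraMap K₁ ↥E (π : K₁) ^ k = algebraMap K₁ ↥E (r : K₁)
    rw [← map_pow, ← map_mul, hrk]
  intro O' hint hdvr h1 h2 h3
  have key := Fermat.Agent.RED.PUR.HorizPlace20.hUNR_cusp n e M cv (A := ↥O) (K := K₁) (F := ↥E)
    (B := (↥O)[X]) h hU hC hconst hcvA bc hbc t ht hExt hX π hπ0' hK' (cuspIdeal π c) c hsep O'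
    ?_ hdvr ?_ ?_ ?_
  · obtain ⟨g0, hg1, hg2⟩ := key
    exact ⟨g0, by rw [← hX]; exact hg1, fun y hy hy' => by rw [← hX]; exact hg2 y hy hy'⟩
  · intro z
    have h4 : algebraMap (↥O)[X] ↥E z = aeval t z := algebraMap_eq_aeval hX0 z
    rw [h4]
    apply hint
    have h5 : aeval t z ∈ Algebra.adjoin ↥O {t} := by
      rw [Algebra.adjoin_singleton_eq_range_aeval]
      exact ⟨z, rfl⟩
    exact isIntegral_algebraMap (R := ↥(Algebra.adjoin ↥O {t})) (x := ⟨aeval t z, h5⟩)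
  · rw [hX, aeval_C]
    exact h1
  · rw [hX, map_sub, aeval_X, aeval_C]
    exact h2
  · intro r hr
    rw [hX]
    exact h3 r hr

/-- **`HUNRCusp` at infinity** (coordinate `t⁻¹`, value `0`), from the hypotheses of
`HorizPlace20.hUNR_cusp_inv`. -/
theorem hunrCusp_inv_of_horiz (h : TMem n e M)
    (hU : ∀ v : Place Kbar (FF M), 0 ≤ v.ord (jF M) →
      ∃ c : Kbar, v.ord (tF M h - algebraMap Kbar (FF M) c) = 1)
    (hC : ∀ γ : SL(2, ℤ), CuspShape n ((cuspData M).T γ (tF M h)) (cv γ))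
    (hconst : ∀ c : Kbar, tF M h ≠ algebraMap Kbar (FF M) c)
    (hcvA : ∀ γ c, cv γ = some c → ∃ a : ↥O, algebraMap K₁ Kbar (a : K₁) = c)
    (bc : ↥E →+* FF M)
    (hbc : ∀ a : K₁, bc (algebraMap K₁ ↥E a) = algebraMap Kbar (FF M) (algebraMap K₁ Kbar a))
    (t : ↥E) (ht : bc t = tF M h)
    (hExt : ∀ w : Place K₁ ↥E, ∃ (v : Place Kbar (FF M)) (d : ℕ), 0 < d ∧
      ∀ f : ↥E, v.ord (bc f) = (d : ℤ) * w.ord f)
    (π : ↥O) (hπ0 : π ≠ 0) (hπu : ¬ IsUnit π)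
    (hK : ∀ a : K₁, ∃ (r : ↥O) (k : ℕ), a * (π : K₁) ^ k = (r : K₁)) :
    HUNRCusp O E π t⁻¹ 0 := by
  haveI : IsScalarTower ↥O K₁ ↥E := Fermat.Agent.RED.NumInst4.isScalarTower_OE O E
  letI : Algebra (↥O)[X] ↥E := polyAlgebra (A := ↥O) t⁻¹
  haveI : IsScalarTower ↥O (↥O)[X] ↥E := polyAlgebra_isScalarTower (A := ↥O) t⁻¹
  have hX0 : algebraMap (↥O)[X] ↥E X = t⁻¹ := polyAlgebra_algebraMap_X (A := ↥O) t⁻¹
  have hX : ∀ p : (↥O)[X], algebraMap (↥O)[X] ↥E (algebraMap (↥O)[X] (↥O)[X] p) = aeval t⁻¹ p :=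
    fun p => algebraMap_eq_aeval hX0 p
  have hπ0' : algebraMap ↥O ↥E π ≠ 0 := by
    intro h0
    apply hπ0
    have h1 : algebraMap K₁ ↥E (π : K₁) = 0 := h0
    have h2 : (π : K₁) = 0 := (map_eq_zero _).mp h1
    exact Subtype.ext h2
  have hK' : ∀ a : K₁, ∃ (r : ↥O) (k : ℕ),
      algebraMap K₁ ↥E a * algebraMap ↥O ↥E π ^ k = algebraMap ↥O ↥E r := by
    intro a
    obtain ⟨r, k, hrk⟩ := hK a
    refine ⟨r, k, ?_⟩
    show algebraMap K₁ ↥E a * algebraMap K₁ ↥E (π : K₁) ^ k = algebraMap K₁ ↥E (r : K₁)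
    rw [← map_pow, ← map_mul, hrk]
  have hs : bc t⁻¹ = (tF M h)⁻¹ := by rw [map_inv₀, ht]
  have hP : ∀ a : ↥O, (∃ γ, cv γ = some (algebraMap ↥O Kbar a)) →
      (C a * X - 1 : (↥O)[X]) ∉ cuspIdeal π 0 := by
    intro a _ hmem
    rw [mem_cuspIdeal_iff, eval_sub, eval_mul, eval_C, eval_X, mul_zero, zero_sub, eval_one,
      Ideal.mem_span_singleton] at hmem
    exact hπu (isUnit_of_dvd_unit hmem isUnit_one.neg)
  intro O' hint hdvr h1 h2 h3
  have key := Fermat.Agent.RED.PUR.HorizPlace20.hUNR_cusp_inv n e M cv (A := ↥O) (K := K₁)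
    (F := ↥E) (B := (↥O)[X]) h hU hC hconst hcvA bc hbc t⁻¹ hs hExt hX π hπ0' hK'
    (cuspIdeal π 0) hP O' ?_ hdvr ?_ ?_ ?_
  · obtain ⟨g0, hg1, hg2⟩ := key
    exact ⟨g0, by rw [← hX]; exact hg1, fun y hy hy' => by rw [← hX]; exact hg2 y hy hy'⟩
  · intro z
    have h4 : algebraMap (↥O)[X] ↥E z = aeval t⁻¹ z := algebraMap_eq_aeval hX0 z
    rw [h4]
    apply hint
    have h5 : aeval t⁻¹ z ∈ Algebra.adjoin ↥O {t⁻¹} := by
      rw [Algebra.adjoin_singleton_eq_range_aeval]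
      exact ⟨z, rfl⟩
    exact isIntegral_algebraMap (R := ↥(Algebra.adjoin ↥O {t⁻¹})) (x := ⟨aeval t⁻¹ z, h5⟩)
  · rw [hX, aeval_C]
    exact h1
  · rw [hX, aeval_X]
    have := h2
    rwa [map_zero, sub_zero] at this
  · intro r hr
    rw [hX]
    exact h3 r hr

/-- **`HUNROff` away from the cusp values**, from the hypotheses of `HorizPlace20.hUNR_noncusp`. -/
theorem hunrOff_of_horiz (h : TMem n e M)
    (hU : ∀ v : Place Kbar (FF M), 0 ≤ v.ord (jF M) →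
      ∃ c : Kbar, v.ord (tF M h - algebraMap Kbar (FF M) c) = 1)
    (hC : ∀ γ : SL(2, ℤ), CuspShape n ((cuspData M).T γ (tF M h)) (cv γ))
    (hconst : ∀ c : Kbar, tF M h ≠ algebraMap Kbar (FF M) c)
    (hcvA : ∀ γ c, cv γ = some c → ∃ a : ↥O, algebraMap K₁ Kbar (a : K₁) = c)
    (bc : ↥E →+* FF M)
    (hbc : ∀ a : K₁, bc (algebraMap K₁ ↥E a) = algebraMap Kbar (FF M) (algebraMap K₁ Kbar a))
    (t : ↥E) (ht : bc t = tF M h)
    (hExt : ∀ w : Place K₁ ↥E, ∃ (v : Place Kbar (FF M)) (d : ℕ), 0 < d ∧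
      ∀ f : ↥E, v.ord (bc f) = (d : ℤ) * w.ord f)
    (π : ↥O) (hπ0 : π ≠ 0)
    (hK : ∀ a : K₁, ∃ (r : ↥O) (k : ℕ), a * (π : K₁) ^ k = (r : K₁))
    (S : Set ↥O)
    (hS : ∀ a : ↥O, (∃ γ, cv γ = some (algebraMap K₁ Kbar (a : K₁))) → a ∈ S) :
    Fermat.Agent.RED.PUR.OffIface4.HUNROff O E π t S := by
  haveI : IsScalarTower ↥O K₁ ↥E := Fermat.Agent.RED.NumInst4.isScalarTower_OE O E
  letI : Algebra (↥O)[X] ↥E := polyAlgebra (A := ↥O) t
  haveI : IsScalarTower ↥O (↥O)[X] ↥E := polyAlgebra_isScalarTower (A := ↥O) t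
  have hX0 : algebraMap (↥O)[X] ↥E X = t := polyAlgebra_algebraMap_X (A := ↥O) t
  have hX : ∀ p : (↥O)[X], algebraMap (↥O)[X] ↥E (algebraMap (↥O)[X] (↥O)[X] p) = aeval t p :=
    fun p => algebraMap_eq_aeval hX0 p
  have hπ0' : algebraMap ↥O ↥E π ≠ 0 := by
    intro h0
    apply hπ0
    have h1 : algebraMap K₁ ↥E (π : K₁) = 0 := h0
    have h2 : (π : K₁) = 0 := (map_eq_zero _).mp h1
    exact Subtype.ext h2
  have hK' : ∀ a : K₁, ∃ (r : ↥O) (k : ℕ),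
      algebraMap K₁ ↥E a * algebraMap ↥O ↥E π ^ k = algebraMap ↥O ↥E r := by
    intro a
    obtain ⟨r, k, hrk⟩ := hK a
    refine ⟨r, k, ?_⟩
    show algebraMap K₁ ↥E a * algebraMap K₁ ↥E (π : K₁) ^ k = algebraMap K₁ ↥E (r : K₁)
    rw [← map_pow, ← map_mul, hrk]
  intro P hP O' hint hdvr h1 h3
  have hx : ∀ a : ↥O, (∃ γ, cv γ = some (algebraMap ↥O Kbar a)) →
      algebraMap (↥O)[X] (↥O)[X] (X - C a) ∉ P := fun a ha => hP a (hS a ha)
  have key := Fermat.Agent.RED.PUR.HorizPlace20.hUNR_noncusp n e M cv (A := ↥O) (K := K₁)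
    (F := ↥E) (B := (↥O)[X]) h hU hC hconst hcvA bc hbc t ht hExt hX π hπ0' hK' P hx O'
    ?_ hdvr ?_ ?_
  · obtain ⟨g0, hg1, hg2⟩ := key
    exact ⟨g0, by rw [← hX]; exact hg1, fun y hy hy' => by rw [← hX]; exact hg2 y hy hy'⟩
  · intro z
    have h4 : algebraMap (↥O)[X] ↥E z = aeval t z := algebraMap_eq_aeval hX0 z
    rw [h4]
    apply hint
    have h5 : aeval t z ∈ Algebra.adjoin ↥O {t} := by
      rw [Algebra.adjoin_singleton_eq_range_aeval]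
      exact ⟨z, rfl⟩
    exact isIntegral_algebraMap (R := ↥(Algebra.adjoin ↥O {t})) (x := ⟨aeval t z, h5⟩)
  · rw [hX, aeval_C]
    exact h1
  · intro r hr
    rw [hX]
    exact h3 r hr

end Generic

end Fermat.Agent.RED.CUSP.HunrGeneric26
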