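/-
Program H (S18), chapter RED/CUSP (helper3): the ramification index of the Hauptmodul `t` at a
cusp place of `Fbar_M` divides the level `M`.

`t ∈ Fbar_n ⊂ Fbar_M` generates `Fbar_n` (`n = 4, 9`).  For a place `v` of `Fbar_M` over `j = ∞`
with restriction `w₀` to `Fbar_n`, `ord_v = k · ord_{w₀}` on `Fbar_n`; `t` is unramified at `w₀`
(`[Fbar_n : ℚbar(t)] = 1`), so `ord_v (t - c) = k` (resp. `-ord_v t = k`), and
`k ∣ -ord_v j ∣ M` (the width of a cusp divides the level).

This is the input `heA` of `CuspSemi23.cusp_semi`: the exponents `e κ` are invertible at every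
prime `ℓ ∤ M`.
-/
import Mathlib
import Fermat.Agent.RED.CUSP.CuspFibre14

set_option autoImplicit false
set_option linter.unusedSectionVars false
set_option linter.style.haveILetI false

noncomputable section

open UpperHalfPlane hiding I
open scoped MatrixGroups IntermediateField

namespace Fermat.Agent.RED.CUSP.CuspRamDvd3

open Fermat.Agent.X0 Fermat.Agent.X0.FF AlgebraicCurve ModularCurve
open Fermat.Agent.RED.BASE.Interface12 Fermat.Agent.RED.BASE.EtaQuot12
open Fermat.Agent.RED.BASE Fermat.Agent.RED.BASE.Hauptmodul12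
open Fermat.Agent.RED.CUSP.CuspFibre14

/-- **Width divides level**: at a place over `j = ∞` of `Fbar_M`, `-ord_v j ∣ M`. -/
theorem neg_ord_jF_dvd (M : ℕ) [NeZero M] (v : Place Kbar (FF M)) (hj : v.ord (jF M) < 0) :
    -v.ord (jF M) ∣ (M : ℤ) := by
  have := Degree.finiteDimensional_adjoin M (realizeData M) (cuspData M)
  obtain ⟨g, hg⟩ := CuspSurj.exists_cuspPlace_eq (CuspGood.good (cuspData M))
    (Degree.card_eq_finrank_adjoin M (realizeData M) (cuspData M)) v hj
  have h1 := cuspPlaceX_neg_ord_jF_dvd (CuspGood.good (cuspData M))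
    (QuotientGroup.mk g : SL(2, ℤ) ⧸ CongruenceSubgroup.Gamma0 M)
  rw [cuspPlaceX_mk, hg] at h1
  have h2 : ((Nat.card (MulAction.orbit (Subgroup.zpowers ModularGroup.T)
      (QuotientGroup.mk g : SL(2, ℤ) ⧸ CongruenceSubgroup.Gamma0 M)) : ℕ) : ℤ) ∣ (M : ℤ) := by
    exact_mod_cast G1Elliptic.g1_card_orbit_T_dvd
      (QuotientGroup.mk g : SL(2, ℤ) ⧸ CongruenceSubgroup.Gamma0 M)
  exact h1.trans h2

section Base

variable {n e : ℕ} [NeZero n] (hb : BaseHyp n e)

include hb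

/-- `[Fbar_n : ℚbar(t)] = 1` at the base level. -/
theorem finrank_base (h₀ : TMem n e n) : Module.finrank Kbar⟮tF n h₀⟯ (FF n) = 1 := by
  have h := psi_mul_finrank hb (dvd_refl n) h₀
  have hpos : 0 < dedekindPsi n := GNPsi.gnp_dedekindPsi_pos (NeZero.ne n)
  exact Nat.eq_of_mul_eq_mul_left hpos (by rw [h, mul_one])

/-- `t` is unramified over finite values at the base level. -/
theorem ord_base_eq_one (h₀ : TMem n e n) (w₀ : Place Kbar (FF n)) (c : Kbar)
    (hpos : 0 < w₀.ord (tF n h₀ - algebraMap Kbar (FF n) c)) :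
    w₀.ord (tF n h₀ - algebraMap Kbar (FF n) c) = 1 := by
  classical
  letI := fintypeFibre (CuspFibre14.isGen_tF (n := n) (e := e) h₀) c
  have hsum := sum_toNat_zero_fibre (n := n) (e := e) h₀ c
  rw [finrank_base hb h₀] at hsum
  have hle := Finset.single_le_sum
    (f := fun v : {v : Place Kbar (FF n) // 0 < v.ord (tF n h₀ - algebraMap Kbar (FF n) c)} =>
      (v.1.ord (tF n h₀ - algebraMap Kbar (FF n) c)).toNat)
    (fun _ _ => Nat.zero_le _) (Finset.mem_univ ⟨w₀, hpos⟩)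
  rw [hsum] at hle
  have : (w₀.ord (tF n h₀ - algebraMap Kbar (FF n) c)).toNat ≤ 1 := hle
  omega

/-- `t` has only simple poles at the base level. -/
theorem ord_base_eq_neg_one (h₀ : TMem n e n) (w₀ : Place Kbar (FF n))
    (hneg : w₀.ord (tF n h₀) < 0) : w₀.ord (tF n h₀) = -1 := by
  classical
  letI := fintypePoles (CuspFibre14.isGen_tF (n := n) (e := e) h₀)
  have hsum := sum_toNat_pole_fibre (n := n) (e := e) h₀
  rw [finrank_base hb h₀] at hsum
  have hle := Finset.single_le_sum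
    (f := fun v : {v : Place Kbar (FF n) // v.ord (tF n h₀) < 0} => (-v.1.ord (tF n h₀)).toNat)
    (fun _ _ => Nat.zero_le _) (Finset.mem_univ ⟨w₀, hneg⟩)
  rw [hsum] at hle
  have : (-w₀.ord (tF n h₀)).toNat ≤ 1 := hle
  omega

end Base

section Level

variable {n e : ℕ} [NeZero n] (hb : BaseHyp n e) {M : ℕ} [NeZero M] (hnM : n ∣ M)

include hb hnM

/-- **Ramification of `t` over a finite value at a place over `j = ∞` divides the level.** -/
theorem ord_sub_dvd (h : TMem n e M) (v : Place Kbar (FF M)) (hj : v.ord (jF M) < 0) (c : Kbar)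
    (hpos : 0 < v.ord (tF M h - algebraMap Kbar (FF M) c)) :
    v.ord (tF M h - algebraMap Kbar (FF M) c) ∣ (M : ℤ) := by
  obtain ⟨w₀, k, hk, hord⟩ := FiniteAvoidsM14.exists_base_place hnM v
  have h₀ : TMem n e n := tMem hb
  have e1 : IntermediateField.inclusion (fbar_mono hnM) (tF n h₀ - algebraMap Kbar (FF n) c) =
      tF M h - algebraMap Kbar (FF M) c := by
    rw [map_sub]
    rfl
  have e2 : IntermediateField.inclusion (fbar_mono hnM) (jF n) = jF M := rfl
  have h1 := hord (tF n h₀ - algebraMap Kbar (FF n) c)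
  rw [e1] at h1
  have h2 := hord (jF n)
  rw [e2] at h2
  have hk' : (0 : ℤ) < k := by exact_mod_cast hk
  have hpos₀ : 0 < w₀.ord (tF n h₀ - algebraMap Kbar (FF n) c) := by
    rw [h1] at hpos
    exact (mul_pos_iff_of_pos_left hk').mp hpos
  rw [ord_base_eq_one hb h₀ w₀ c hpos₀, mul_one] at h1
  rw [h1]
  have hdvd : (k : ℤ) ∣ -v.ord (jF M) := by
    rw [h2]
    exact ⟨-w₀.ord (jF n), by ring⟩
  exact hdvd.trans (neg_ord_jF_dvd M v hj)

/-- **Pole order of `t` at a place over `j = ∞` divides the level.** -/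
theorem neg_ord_dvd (h : TMem n e M) (v : Place Kbar (FF M)) (hj : v.ord (jF M) < 0)
    (hneg : v.ord (tF M h) < 0) : -v.ord (tF M h) ∣ (M : ℤ) := by
  obtain ⟨w₀, k, hk, hord⟩ := FiniteAvoidsM14.exists_base_place hnM v
  have h₀ : TMem n e n := tMem hb
  have e1 : IntermediateField.inclusion (fbar_mono hnM) (tF n h₀) = tF M h := rfl
  have e2 : IntermediateField.inclusion (fbar_mono hnM) (jF n) = jF M := rfl
  have h1 := hord (tF n h₀)
  rw [e1] at h1
  have h2 := hord (jF n)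
  rw [e2] at h2
  have hk' : (0 : ℤ) < k := by exact_mod_cast hk
  have hneg₀ : w₀.ord (tF n h₀) < 0 := by
    rw [h1] at hneg
    by_contra hcon
    rw [not_lt] at hcon
    have := mul_nonneg hk'.le hcon
    omega
  rw [ord_base_eq_neg_one hb h₀ w₀ hneg₀] at h1
  have h3 : -v.ord (tF M h) = k := by rw [h1]; ring
  rw [h3]
  have hdvd : (k : ℤ) ∣ -v.ord (jF M) := by
    rw [h2]
    exact ⟨-w₀.ord (jF n), by ring⟩
  exact hdvd.trans (neg_ord_jF_dvd M v hj)

variable (cv : SL(2, ℤ) → Option Kbar) (hcv : CuspExp n e M cv)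

include hcv

/-- The ramification index of `t` over a finite cusp value divides the level. -/
theorem ord_sub_dvd_of_cv (h : TMem n e M) (v : Place Kbar (FF M)) (γ₀ : SL(2, ℤ)) (c : Kbar)
    (hγ₀ : cv γ₀ = some c) (hpos : 0 < v.ord (tF M h - algebraMap Kbar (FF M) c)) :
    v.ord (tF M h - algebraMap Kbar (FF M) c) ∣ (M : ℤ) := by
  obtain ⟨γ, hγ, -⟩ := exists_placeOf_of_zero hb hnM cv hcv h v γ₀ c hγ₀ hpos
  have hj : v.ord (jF M) < 0 := by
    rw [← hγ]
    exact cuspPlace_ord_jF_neg _ _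
  exact ord_sub_dvd hb hnM h v hj c hpos

/-- The pole order of `t` at any pole divides the level. -/
theorem neg_ord_dvd_of_pole (h : TMem n e M) (v : Place Kbar (FF M))
    (hneg : v.ord (tF M h) < 0) : -v.ord (tF M h) ∣ (M : ℤ) := by
  obtain ⟨γ, hγ, -⟩ := exists_placeOf_of_pole hb hnM cv hcv h v hneg
  have hj : v.ord (jF M) < 0 := by
    rw [← hγ]
    exact cuspPlace_ord_jF_neg _ _
  exact neg_ord_dvd hb hnM h v hj hneg

/-- `ℕ`-form for the exponents `e κ := (ord_v (t - c)).toNat` of `CuspFibre14`. -/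
theorem toNat_ord_sub_dvd_of_cv (h : TMem n e M) (v : Place Kbar (FF M)) (γ₀ : SL(2, ℤ)) (c : Kbar)
    (hγ₀ : cv γ₀ = some c) (hpos : 0 < v.ord (tF M h - algebraMap Kbar (FF M) c)) :
    (v.ord (tF M h - algebraMap Kbar (FF M) c)).toNat ∣ M := by
  have h1 := ord_sub_dvd_of_cv hb hnM cv hcv h v γ₀ c hγ₀ hpos
  rw [← Int.toNat_of_nonneg hpos.le] at h1
  exact_mod_cast h1

theorem toNat_neg_ord_dvd_of_pole (h : TMem n e M) (v : Place Kbar (FF M))
    (hneg : v.ord (tF M h) < 0) : (-v.ord (tF M h)).toNat ∣ M := by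
  have h1 := neg_ord_dvd_of_pole hb hnM cv hcv h v hneg
  rw [← Int.toNat_of_nonneg (by omega : 0 ≤ -v.ord (tF M h))] at h1
  exact_mod_cast h1

/-- The exponents are prime to every prime `ℓ ∤ M`. -/
theorem not_dvd_toNat_ord_sub {ℓ : ℕ} (hℓM : ¬ ℓ ∣ M) (h : TMem n e M) (v : Place Kbar (FF M))
    (γ₀ : SL(2, ℤ)) (c : Kbar) (hγ₀ : cv γ₀ = some c)
    (hpos : 0 < v.ord (tF M h - algebraMap Kbar (FF M) c)) :
    ¬ ℓ ∣ (v.ord (tF M h - algebraMap Kbar (FF M) c)).toNat :=
  fun hd => hℓM (hd.trans (toNat_ord_sub_dvd_of_cv hb hnM cv hcv h v γ₀ c hγ₀ hpos))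

theorem not_dvd_toNat_neg_ord {ℓ : ℕ} (hℓM : ¬ ℓ ∣ M) (h : TMem n e M) (v : Place Kbar (FF M))
    (hneg : v.ord (tF M h) < 0) : ¬ ℓ ∣ (-v.ord (tF M h)).toNat :=
  fun hd => hℓM (hd.trans (toNat_neg_ord_dvd_of_pole hb hnM cv hcv h v hneg))

end Level

end Fermat.Agent.RED.CUSP.CuspRamDvd3
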