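/-
Program H (S18), chapter RED/CUSP, helper11: leaf (L7) TAMENESS of the cusp ramification.

For the Hauptmodul `t` of level `n ∈ {4, 9}` (`hb : BaseHyp n e`), at level `M` (`n ∣ M`), and the
cusp place `v = placeOf M γ`:

* `ord_pos_of_cuspShape_some`, `ord_neg_of_cuspShape_none` : sign of `ord_v` from the cusp shape;
* `tame_some` : `cv γ = some c → 0 < ord_v (t - c) ∧ ord_v (t - c) ∣ M`;
* `tame_none` : `cv γ = none → ord_v t < 0 ∧ ord_v t ∣ M`;
* `cuspShape_compress` : a cusp shape of `qExpand r E'` descends to `E'`;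
* `cuspShape_Tc` : `CuspShape n (Tc M γ t) (cv γ)` for the compressed expansion of `CuspExact16`;
* `shape_Tc_some`, `shape_Tc_none` : the compressed shapes with exponent `a = ± ord_v`, `a ∣ M`.
(The ramification index of `ℚbar(t) ⊆ Fbar_M` at `v` divides the width of the cusp, which
divides `M`.)
-/
import Mathlib
import Fermat.Agent.RED.BASE.MainCusp12
import Fermat.Agent.RED.CUSP.CuspExact16

set_option autoImplicit false

open ModularCurve AlgebraicCurve
open scoped MatrixGroups IntermediateField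

noncomputable section

namespace Fermat.Agent.RED.CUSP.CuspTame11

open Fermat.Agent.X0 Fermat.Agent.X0.FF
open Fermat.Agent.RED.BASE.Interface12 Fermat.Agent.RED.BASE.Hauptmodul12
open Fermat.Agent.RED.BASE.CuspExpMain11 Fermat.Agent.RED.BASE.FiniteAvoids14
open Fermat.Agent.RED.BASE.FiniteAvoidsM14 Fermat.Agent.RED.BASE.Unbranched14
open Fermat.Agent.RED.BASE.UnbranchedMain14
open Fermat.Agent.RED.CUSP.CuspExact16

/-! ### Signs of the orders from the cusp shape -/

section Sign

variable {M : ℕ} [NeZero M]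

theorem cuspTail_ne_zero (a : ℕ) {lam : Kbar} (hl : lam ≠ 0) (V : PowerSeries Kbar)
    (hV : PowerSeries.constantCoeff V = 1) :
    HahnSeries.C lam * HahnSeries.single (a : ℤ) 1 * HahnSeries.ofPowerSeries ℤ Kbar V ≠ 0 := by
  have h1 : (HahnSeries.C lam : LaurentSeries Kbar) ≠ 0 := by
    intro h
    have := congrArg (fun x : LaurentSeries Kbar => x.coeff 0) h
    simp [HahnSeries.C_apply] at this
    exact hl this
  have h2 : (HahnSeries.single (a : ℤ) (1 : Kbar)) ≠ 0 := HahnSeries.single_ne_zero one_ne_zero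
  have h3 : HahnSeries.ofPowerSeries ℤ Kbar V ≠ 0 := by
    intro h
    have h0 : V = 0 := by
      apply HahnSeries.ofPowerSeries_injective (Γ := ℤ)
      rw [h, map_zero]
    rw [h0, map_zero] at hV
    exact zero_ne_one hV
  exact mul_ne_zero (mul_ne_zero h1 h2) h3

/-- A finite cusp value `c` of `f` at `γ`: `f - c` vanishes at the cusp place, to the order
`a / r` (`a` the exponent of the shape, `r = cuspR`). -/
theorem ord_of_cuspShape_some {m : ℕ} (γ : SL(2, ℤ)) (f : FF M) (c : Kbar)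
    (h : CuspShape m ((cuspData M).T γ f) (some c)) :
    0 < (placeOf M γ).ord (f - algebraMap Kbar (FF M) c) := by
  obtain ⟨a, lam, V, ha, hlam, hV, -, -, hE⟩ := h
  have hT : (cuspData M).T γ (f - algebraMap Kbar (FF M) c) =
      HahnSeries.C lam * HahnSeries.single (a : ℤ) 1 * HahnSeries.ofPowerSeries ℤ Kbar V := by
    rw [map_sub, (hGood M).map_const, hE]
    ring
  have hne : f - algebraMap Kbar (FF M) c ≠ 0 := by
    intro h0
    rw [h0, map_zero] at hT
    exact cuspTail_ne_zero a hlam.1 V hV hT.symm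
  have hord := order_T_eq M γ _ hne
  rw [hT, order_cuspTail a lam hlam.1 V hV] at hord
  have hr : (0 : ℤ) < cuspR M γ := by exact_mod_cast cuspR_pos M γ
  have ha' : (0 : ℤ) < a := by exact_mod_cast ha
  by_contra hcon
  rw [not_lt] at hcon
  nlinarith

/-- A pole of `f` at `γ`. -/
theorem ord_of_cuspShape_none {m : ℕ} (γ : SL(2, ℤ)) (f : FF M)
    (h : CuspShape m ((cuspData M).T γ f) none) : (placeOf M γ).ord f < 0 := by
  obtain ⟨a, lam, V, ha, hlam, hV, -, hE⟩ := h
  have hE' : ((cuspData M).T γ f)⁻¹ =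
      HahnSeries.C lam * HahnSeries.single (a : ℤ) 1 * HahnSeries.ofPowerSeries ℤ Kbar V := hE
  have hT : (cuspData M).T γ f⁻¹ =
      HahnSeries.C lam * HahnSeries.single (a : ℤ) 1 * HahnSeries.ofPowerSeries ℤ Kbar V := by
    rw [map_inv₀, hE']
  have hne : f⁻¹ ≠ 0 := by
    intro h0
    rw [h0, map_zero] at hT
    exact cuspTail_ne_zero a hlam.1 V hV hT.symm
  have hord := order_T_eq M γ _ hne
  rw [hT, order_cuspTail a lam hlam.1 V hV, Place.ord_inv] at hord
  have hr : (0 : ℤ) < cuspR M γ := by exact_mod_cast cuspR_pos M γ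
  have ha' : (0 : ℤ) < a := by exact_mod_cast ha
  by_contra hcon
  rw [not_lt] at hcon
  nlinarith

end Sign

/-! ### Tameness -/

section Tame

variable {n e : ℕ} [NeZero n]

theorem inclusion_jF {M : ℕ} [NeZero M] (hnM : n ∣ M) :
    IntermediateField.inclusion (fbar_mono hnM) (jF n) = jF M := by
  apply Subtype.ext
  show ((jF n : FF n) : LaurentSeries Kbar) = ((jF M : FF M) : LaurentSeries Kbar)
  rw [coe_jF, coe_jF]

/-- **Tameness at a finite cusp value**: the order of `t - c` at the cusp place of `γ` is positive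
and divides the level `M`. -/
theorem tame_some (hb : BaseHyp n e) {M : ℕ} [NeZero M] (hnM : n ∣ M) (h : TMem n e M)
    {cv : SL(2, ℤ) → Option Kbar} (hcv : CuspExp n e M cv) (γ : SL(2, ℤ)) (c : Kbar)
    (hγ : cv γ = some c) :
    0 < (placeOf M γ).ord (tF M h - algebraMap Kbar (FF M) c) ∧
      ((placeOf M γ).ord (tF M h - algebraMap Kbar (FF M) c)).natAbs ∣ M := by
  obtain ⟨h', hshape⟩ := hcv
  have hs := hshape γ
  rw [hγ] at hs
  have hpos : 0 < (placeOf M γ).ord (tF M h - algebraMap Kbar (FF M) c) :=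
    ord_of_cuspShape_some γ (tF M h) c hs
  refine ⟨hpos, ?_⟩
  obtain ⟨h₀, htop⟩ := tGenBase' hb
  obtain ⟨hgen, hdeg⟩ := isGen_of_adjoin_eq_top (transcendental_jF n) htop
  obtain ⟨w₀, k, hk, hres⟩ := exists_base_place hnM (placeOf M γ)
  have hk' : (0 : ℤ) < k := by exact_mod_cast hk
  have ht : IntermediateField.inclusion (fbar_mono hnM) (tF n h₀ - algebraMap Kbar (FF n) c)
      = tF M h - algebraMap Kbar (FF M) c := by
    rw [map_sub, AlgHom.commutes]
    rfl
  have h1 := hres (tF n h₀ - algebraMap Kbar (FF n) c)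
  rw [ht] at h1
  have hw₀ : 0 < w₀.ord (tF n h₀ - algebraMap Kbar (FF n) c) := by
    by_contra hneg
    rw [not_lt] at hneg
    nlinarith
  have hone := ord_eq_one_of_finrank_eq_one hgen hdeg c w₀ hw₀
  rw [hone, mul_one] at h1
  have h2 := hres (jF n)
  rw [inclusion_jF hnM] at h2
  have h3 := neg_ord_jF_eq M γ
  have hdvd : (k : ℤ) ∣ (cuspW M γ : ℤ) := by
    rw [← h3, h2]
    exact (Dvd.intro _ rfl).neg_right
  rw [h1, Int.natAbs_natCast]
  exact (Int.natCast_dvd_natCast.mp hdvd).trans (cuspW_dvd M γ)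

/-- **Tameness at a pole**: the order of `t` at the cusp place of `γ` is negative and divides the
level `M` (it is minus the width). -/
theorem tame_none (hb : BaseHyp n e) {M : ℕ} [NeZero M] (hnM : n ∣ M) (h : TMem n e M)
    {cv : SL(2, ℤ) → Option Kbar} (hcv : CuspExp n e M cv) (γ : SL(2, ℤ))
    (hγ : cv γ = none) :
    (placeOf M γ).ord (tF M h) < 0 ∧ ((placeOf M γ).ord (tF M h)).natAbs ∣ M := by
  obtain ⟨h', hshape⟩ := hcv
  have hs := hshape γ
  rw [hγ] at hs
  have hneg : (placeOf M γ).ord (tF M h) < 0 := ord_of_cuspShape_none γ (tF M h) hs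
  refine ⟨hneg, ?_⟩
  have h₀ : TMem n e n := tMem hb
  obtain ⟨w₀, k, hk, hres⟩ := exists_base_place hnM (placeOf M γ)
  have hk' : (0 : ℤ) < k := by exact_mod_cast hk
  have ht : IntermediateField.inclusion (fbar_mono hnM) (tF n h₀) = tF M h := rfl
  have h1 := hres (tF n h₀)
  rw [ht] at h1
  have hw₀ : w₀.ord (tF n h₀) < 0 := by
    by_contra hcon
    rw [not_lt] at hcon
    nlinarith
  have h2 := hres (jF n)
  rw [inclusion_jF hnM] at h2
  have h3 := neg_ord_jF_eq M γ
  rcases ord_tF_cases hb.two_le hb.exp hb.nuTwo hb.nuThree hb.sq h₀ w₀ with h0 | ⟨h0, -⟩ | ⟨h0, -⟩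
  · omega
  · omega
  · have : (placeOf M γ).ord (tF M h) = -(cuspW M γ : ℤ) := by
      rw [h1, h0, ← h2, ← h3, neg_neg]
    rw [this, Int.natAbs_neg, Int.natAbs_natCast]
    exact cuspW_dvd M γ

end Tame

/-! ### Compression of a cusp shape along `qExpand` -/

section Compress

/-- The coefficients of `C c + C lam * single a 1 * ofPowerSeries V` at `a + i`, `a > 0`. -/
theorem coeff_shape_add (c lam : Kbar) {a : ℕ} (ha : 0 < a) (V : PowerSeries Kbar) (i : ℕ) :
    (HahnSeries.C c + HahnSeries.C lam * HahnSeries.single (a : ℤ) 1 *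
      HahnSeries.ofPowerSeries ℤ Kbar V).coeff (((a + i : ℕ) : ℤ)) =
      lam * PowerSeries.coeff i V := by
  rw [← ofPS_C_mul_X_pow_mul, HahnSeries.coeff_add, HahnSeries.ofPowerSeries_apply_coeff,
    HahnSeries.C_apply, HahnSeries.coeff_single_of_ne (by exact_mod_cast (by omega : a + i ≠ 0)),
    zero_add, mul_assoc, PowerSeries.coeff_C_mul, PowerSeries.coeff_X_pow_mul', if_pos (by omega),
    Nat.add_sub_cancel_left]

theorem compress_core (r : ℕ) [hr : NeZero r] (X' : LaurentSeries Kbar) (c lam : Kbar)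
    (hlam : lam ≠ 0) {a : ℕ} (ha : 0 < a) (V : PowerSeries Kbar)
    (hV : PowerSeries.constantCoeff V = 1)
    (hX : qExpand Kbar r X' = HahnSeries.C c + HahnSeries.C lam * HahnSeries.single (a : ℤ) 1 *
      HahnSeries.ofPowerSeries ℤ Kbar V) :
    ∃ a' : ℕ, a = r * a' ∧ X' = HahnSeries.C c + HahnSeries.C lam * HahnSeries.single (a' : ℤ) 1 *
      HahnSeries.ofPowerSeries ℤ Kbar (PowerSeries.mk fun i => PowerSeries.coeff (r * i) V) := by
  have hr0 : 0 < r := Nat.pos_of_ne_zero hr.ne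
  -- `r ∣ a`
  have hdvd : r ∣ a := by
    by_contra hnd
    have h1 : (qExpand Kbar r X').coeff ((a : ℕ) : ℤ) = 0 :=
      qExpand_coeff_of_not_dvd r X' (by exact_mod_cast hnd)
    have h2 := coeff_shape_add c lam ha V 0
    rw [add_zero, ← hX, h1, PowerSeries.coeff_zero_eq_constantCoeff_apply, hV, mul_one] at h2
    exact hlam h2.symm
  obtain ⟨a', rfl⟩ := hdvd
  -- the coefficients of `V` vanish outside the multiples of `r`
  have hVr : ∀ i : ℕ, ¬ r ∣ i → PowerSeries.coeff i V = 0 := by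
    intro i hi
    have hnd : ¬ (r : ℤ) ∣ ((r * a' + i : ℕ) : ℤ) := by
      intro h
      have h' : r ∣ r * a' + i := by exact_mod_cast h
      exact hi ((Nat.dvd_add_right (Dvd.intro _ rfl)).mp h')
    have h1 : (qExpand Kbar r X').coeff ((r * a' + i : ℕ) : ℤ) = 0 :=
      qExpand_coeff_of_not_dvd r X' hnd
    have h2 := coeff_shape_add c lam ha V i
    rw [← hX, h1] at h2
    rcases mul_eq_zero.mp h2.symm with h | h
    · exact absurd h hlam
    · exact h
  set V' : PowerSeries Kbar := PowerSeries.mk fun i => PowerSeries.coeff (r * i) V with hV'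
  have hexp : V'.expand r hr.ne = V := by
    ext i
    rw [PowerSeries.coeff_expand]
    split_ifs with h
    · obtain ⟨j, rfl⟩ := h
      rw [hV', PowerSeries.coeff_mk, Nat.mul_div_cancel_left _ hr0]
    · exact (hVr i h).symm
  refine ⟨a', rfl, ?_⟩
  apply qExpand_injective (R := Kbar) (N := r)
  rw [hX, map_add, map_mul, map_mul, qExpand_C, qExpand_C, qExpand_single, qExpand_ofPS, hexp]
  push_cast
  rfl

/-- A cusp shape of `qExpand r E'` descends to `E'`. -/
theorem cuspShape_compress {m : ℕ} (r : ℕ) [hr : NeZero r] (E' : LaurentSeries Kbar)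
    (cv : Option Kbar) (h : CuspShape m (qExpand Kbar r E') cv) : CuspShape m E' cv := by
  obtain ⟨a, lam, V, ha, hlam, hV, hVint, hE⟩ := h
  have hr0 : 0 < r := Nat.pos_of_ne_zero hr.ne
  cases cv with
  | none =>
    have hE' : (qExpand Kbar r E')⁻¹ = HahnSeries.C lam * HahnSeries.single (a : ℤ) 1 *
        HahnSeries.ofPowerSeries ℤ Kbar V := hE
    have hX : qExpand Kbar r E'⁻¹ = HahnSeries.C 0 + HahnSeries.C lam *
        HahnSeries.single (a : ℤ) 1 * HahnSeries.ofPowerSeries ℤ Kbar V := by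
      rw [map_inv₀, hE', map_zero, zero_add]
    obtain ⟨a', rfl, hX'⟩ := compress_core r E'⁻¹ 0 lam hlam.1 ha V hV hX
    refine ⟨a', lam, PowerSeries.mk fun i => PowerSeries.coeff (r * i) V,
      Nat.pos_of_mul_pos_left ha, hlam, ?_, fun i => ?_, ?_⟩
    · rw [← PowerSeries.coeff_zero_eq_constantCoeff_apply, PowerSeries.coeff_mk, mul_zero,
        PowerSeries.coeff_zero_eq_constantCoeff_apply, hV]
    · rw [PowerSeries.coeff_mk]
      exact hVint _
    · show E'⁻¹ = _
      rw [hX', map_zero, zero_add]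
  | some c =>
    obtain ⟨hc, hE'⟩ : IsIntAway m c ∧ qExpand Kbar r E' = HahnSeries.C c + HahnSeries.C lam *
        HahnSeries.single (a : ℤ) 1 * HahnSeries.ofPowerSeries ℤ Kbar V := hE
    obtain ⟨a', rfl, hX'⟩ := compress_core r E' c lam hlam.1 ha V hV hE'
    refine ⟨a', lam, PowerSeries.mk fun i => PowerSeries.coeff (r * i) V,
      Nat.pos_of_mul_pos_left ha, hlam, ?_, fun i => ?_, ?_⟩
    · rw [← PowerSeries.coeff_zero_eq_constantCoeff_apply, PowerSeries.coeff_mk, mul_zero,
        PowerSeries.coeff_zero_eq_constantCoeff_apply, hV]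
    · rw [PowerSeries.coeff_mk]
      exact hVint _
    · exact ⟨hc, hX'⟩

end Compress

/-! ### The compressed expansions of `t` -/

section Compressed

variable {M : ℕ} [NeZero M]

/-- In a compressed shape with finite value, the exponent is the order at the cusp place. -/
theorem exponent_eq_ord_some (γ : SL(2, ℤ)) (f : FF M) (c lam : Kbar) (hlam : lam ≠ 0) (a : ℕ)
    (V : PowerSeries Kbar) (hV : PowerSeries.constantCoeff V = 1)
    (hE : Tc M γ f = HahnSeries.C c + HahnSeries.C lam * HahnSeries.single (a : ℤ) 1 *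
      HahnSeries.ofPowerSeries ℤ Kbar V) :
    (a : ℤ) = (placeOf M γ).ord (f - algebraMap Kbar (FF M) c) := by
  have hT : Tc M γ (f - algebraMap Kbar (FF M) c) =
      HahnSeries.C lam * HahnSeries.single (a : ℤ) 1 * HahnSeries.ofPowerSeries ℤ Kbar V := by
    rw [map_sub, Tc_const, hE]
    ring
  have hne : f - algebraMap Kbar (FF M) c ≠ 0 := by
    intro h0
    rw [h0, map_zero] at hT
    exact cuspTail_ne_zero a hlam V hV hT.symm
  rw [← order_Tc M γ _ hne, hT, order_cuspTail a lam hlam V hV]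

/-- In a compressed pole shape, the exponent is minus the order at the cusp place. -/
theorem exponent_eq_ord_none (γ : SL(2, ℤ)) (f : FF M) (lam : Kbar) (hlam : lam ≠ 0) (a : ℕ)
    (V : PowerSeries Kbar) (hV : PowerSeries.constantCoeff V = 1)
    (hE : (Tc M γ f)⁻¹ = HahnSeries.C lam * HahnSeries.single (a : ℤ) 1 *
      HahnSeries.ofPowerSeries ℤ Kbar V) :
    (a : ℤ) = -(placeOf M γ).ord f := by
  have hT : Tc M γ f⁻¹ =
      HahnSeries.C lam * HahnSeries.single (a : ℤ) 1 * HahnSeries.ofPowerSeries ℤ Kbar V := by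
    rw [map_inv₀, hE]
  have hne : f⁻¹ ≠ 0 := by
    intro h0
    rw [h0, map_zero] at hT
    exact cuspTail_ne_zero a hlam V hV hT.symm
  rw [← Place.ord_inv, ← order_Tc M γ _ hne, hT, order_cuspTail a lam hlam V hV]

variable {n e : ℕ} [NeZero n]

/-- The compressed expansion `Tc M γ t ∈ ℚbar((s))`, `s = q^{1/w}`, has the cusp shape. -/
theorem cuspShape_Tc {cv : SL(2, ℤ) → Option Kbar} (hcv : CuspExp n e M cv) (h : TMem n e M)
    (γ : SL(2, ℤ)) : CuspShape n (Tc M γ (tF M h)) (cv γ) := by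
  obtain ⟨h', hs⟩ := hcv
  apply cuspShape_compress (cuspR M γ)
  rw [qExpand_Tc]
  exact hs γ

/-- **(L7), finite values**: the compressed expansion of `t` at a cusp with finite value `c` is
`c + λ s^a V(s)` with `a = ord_v (t - c) > 0`, `a ∣ M`, `λ` a unit away from `n`, `V(0) = 1`, and
all coefficients integral away from `n`. -/
theorem shape_Tc_some (hb : BaseHyp n e) (hnM : n ∣ M) (h : TMem n e M)
    {cv : SL(2, ℤ) → Option Kbar} (hcv : CuspExp n e M cv) (γ : SL(2, ℤ)) (c : Kbar)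
    (hγ : cv γ = some c) :
    ∃ (a : ℕ) (lam : Kbar) (V : PowerSeries Kbar), 0 < a ∧ a ∣ M ∧
      (a : ℤ) = (placeOf M γ).ord (tF M h - algebraMap Kbar (FF M) c) ∧ IsUnitAway n lam ∧
      PowerSeries.constantCoeff V = 1 ∧ (∀ i, IsIntAway n (PowerSeries.coeff i V)) ∧
      IsIntAway n c ∧
      Tc M γ (tF M h) = HahnSeries.C c + HahnSeries.C lam * HahnSeries.single (a : ℤ) 1 *
        HahnSeries.ofPowerSeries ℤ Kbar V := by
  have hs := cuspShape_Tc hcv h γ
  rw [hγ] at hs
  obtain ⟨a, lam, V, ha, hlam, hV, hVint, hc, hE⟩ := hs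
  have hord := exponent_eq_ord_some γ (tF M h) c lam hlam.1 a V hV hE
  obtain ⟨-, hdvd⟩ := tame_some hb hnM h hcv γ c hγ
  rw [← hord, Int.natAbs_natCast] at hdvd
  exact ⟨a, lam, V, ha, hdvd, hord, hlam, hV, hVint, hc, hE⟩

/-- **(L7), poles**: the compressed expansion of `t⁻¹` at a cusp where `t` has a pole is
`λ s^a V(s)` with `a = -ord_v t > 0`, `a ∣ M`. -/
theorem shape_Tc_none (hb : BaseHyp n e) (hnM : n ∣ M) (h : TMem n e M)
    {cv : SL(2, ℤ) → Option Kbar} (hcv : CuspExp n e M cv) (γ : SL(2, ℤ))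
    (hγ : cv γ = none) :
    ∃ (a : ℕ) (lam : Kbar) (V : PowerSeries Kbar), 0 < a ∧ a ∣ M ∧
      (a : ℤ) = -(placeOf M γ).ord (tF M h) ∧ IsUnitAway n lam ∧
      PowerSeries.constantCoeff V = 1 ∧ (∀ i, IsIntAway n (PowerSeries.coeff i V)) ∧
      (Tc M γ (tF M h))⁻¹ = HahnSeries.C lam * HahnSeries.single (a : ℤ) 1 *
        HahnSeries.ofPowerSeries ℤ Kbar V := by
  have hs := cuspShape_Tc hcv h γ
  rw [hγ] at hs
  obtain ⟨a, lam, V, ha, hlam, hV, hVint, hE⟩ := hs
  have hE' : (Tc M γ (tF M h))⁻¹ = HahnSeries.C lam * HahnSeries.single (a : ℤ) 1 *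
      HahnSeries.ofPowerSeries ℤ Kbar V := hE
  have hord := exponent_eq_ord_none γ (tF M h) lam hlam.1 a V hV hE'
  obtain ⟨-, hdvd⟩ := tame_none hb hnM h hcv γ hγ
  have h2 : ((placeOf M γ).ord (tF M h)).natAbs = a := by
    have : (placeOf M γ).ord (tF M h) = -(a : ℤ) := by rw [hord, neg_neg]
    rw [this, Int.natAbs_neg, Int.natAbs_natCast]
  rw [h2] at hdvd
  exact ⟨a, lam, V, ha, hdvd, hord, hlam, hV, hVint, hE'⟩

end Compressed

end Fermat.Agent.RED.CUSP.CuspTame11
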