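/-
Program H (S18), chapter RED/CUSP (helper14): (L5) packaged — a finite index set of cusp
representatives over a finite cusp value `c` (resp. over `t = ∞`), with the ramification exponents
`e κ = ord (Tc M (γ κ) (t - c))` (compressed expansions of `CuspExact16`), the rank count
`∑ κ, e κ = [Fbar_M : ℚbar(t)]`, and exhaustion of the fibre by the places `placeOf M (γ κ)`.
-/
import Mathlib
import Fermat.Agent.RED.CUSP.CuspFibre14

set_option autoImplicit false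

open UpperHalfPlane hiding I
open scoped MatrixGroups IntermediateField

namespace Fermat.Agent.RED.CUSP.CuspFibrePkg14

open Fermat.Agent.X0 Fermat.Agent.X0.FF AlgebraicCurve ModularCurve
open Fermat.Agent.RED.BASE Fermat.Agent.RED.BASE.Interface12 Fermat.Agent.RED.BASE.Hauptmodul12
open Fermat.Agent.RED.CUSP.CuspExact16 Fermat.Agent.RED.CUSP.CuspFibre14

variable {n e : ℕ} [NeZero n] (hb : BaseHyp n e) {M : ℕ} [NeZero M] (hnM : n ∣ M)
  (cv : SL(2, ℤ) → Option Kbar) (hcv : CuspExp n e M cv)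

include hb hnM hcv

/-- **(L5) package over a finite cusp value `c`.** -/
theorem exists_cusp_package_zero (h : TMem n e M) (γ₀ : SL(2, ℤ)) (c : Kbar)
    (hγ₀ : cv γ₀ = some c) :
    ∃ (C : Type) (_ : Fintype C) (_ : DecidableEq C) (γ : C → SL(2, ℤ)) (ε : C → ℕ),
      (∀ κ, 0 < ε κ) ∧ (∀ κ, cv (γ κ) = some c) ∧
      (∀ κ, (Tc M (γ κ) (tF M h - algebraMap Kbar (FF M) c)).order = (ε κ : ℤ)) ∧
      (∀ κ, (placeOf M (γ κ)).ord (tF M h - algebraMap Kbar (FF M) c) = (ε κ : ℤ)) ∧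
      ∑ κ, ε κ = Module.finrank Kbar⟮tF M h⟯ (FF M) ∧
      Function.Injective (fun κ => placeOf M (γ κ)) ∧
      ∀ w : Place Kbar (FF M), 0 < w.ord (tF M h - algebraMap Kbar (FF M) c) →
        ∃ κ, placeOf M (γ κ) = w := by
  classical
  have hgen := CuspFibre14.isGen_tF (n := n) (e := e) h
  have hne : tF M h - algebraMap Kbar (FF M) c ≠ 0 := hgen.sub_algebraMap_ne_zero c
  let _ : Fintype {v : Place Kbar (FF M) // 0 < v.ord (tF M h - algebraMap Kbar (FF M) c)} :=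
    fintypeFibre hgen c
  have hex : ∀ κ : {v : Place Kbar (FF M) // 0 < v.ord (tF M h - algebraMap Kbar (FF M) c)},
      ∃ γ : SL(2, ℤ), placeOf M γ = κ.1 ∧ cv γ = some c :=
    fun κ => exists_placeOf_of_zero hb hnM cv hcv h κ.1 γ₀ c hγ₀ κ.2
  choose γ hγ1 hγ2 using hex
  refine ⟨_, inferInstance, inferInstance, γ,
    fun κ => (κ.1.ord (tF M h - algebraMap Kbar (FF M) c)).toNat, ?_, hγ2, ?_, ?_, ?_, ?_, ?_⟩
  · intro κ
    have := κ.2
    show 0 < (κ.1.ord (tF M h - algebraMap Kbar (FF M) c)).toNat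
    omega
  · intro κ
    rw [order_Tc M (γ κ) _ hne, hγ1 κ, Int.toNat_of_nonneg (le_of_lt κ.2)]
  · intro κ
    rw [hγ1 κ, Int.toNat_of_nonneg (le_of_lt κ.2)]
  · exact sum_toNat_zero_fibre h c
  · intro κ κ' hκ
    apply Subtype.ext
    have : placeOf M (γ κ) = placeOf M (γ κ') := hκ
    rw [hγ1 κ, hγ1 κ'] at this
    exact this
  · intro w hw
    exact ⟨⟨w, hw⟩, hγ1 ⟨w, hw⟩⟩

/-- **(L5) package over `t = ∞`** (coordinate `s = t⁻¹`, value `0`). -/
theorem exists_cusp_package_pole (h : TMem n e M) :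
    ∃ (C : Type) (_ : Fintype C) (_ : DecidableEq C) (γ : C → SL(2, ℤ)) (ε : C → ℕ),
      (∀ κ, 0 < ε κ) ∧ (∀ κ, cv (γ κ) = none) ∧
      (∀ κ, (Tc M (γ κ) (tF M h)⁻¹).order = (ε κ : ℤ)) ∧
      (∀ κ, (placeOf M (γ κ)).ord (tF M h)⁻¹ = (ε κ : ℤ)) ∧
      ∑ κ, ε κ = Module.finrank Kbar⟮(tF M h)⁻¹⟯ (FF M) ∧
      Function.Injective (fun κ => placeOf M (γ κ)) ∧
      ∀ w : Place Kbar (FF M), 0 < w.ord (tF M h)⁻¹ → ∃ κ, placeOf M (γ κ) = w := by
  classical
  have hgen := CuspFibre14.isGen_tF (n := n) (e := e) h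
  have hne : tF M h ≠ 0 := hgen.ne_zero
  have hne' : (tF M h)⁻¹ ≠ 0 := inv_ne_zero hne
  let _ : Fintype {v : Place Kbar (FF M) // v.ord (tF M h) < 0} := fintypePoles hgen
  have hex : ∀ κ : {v : Place Kbar (FF M) // v.ord (tF M h) < 0},
      ∃ γ : SL(2, ℤ), placeOf M γ = κ.1 ∧ cv γ = none :=
    fun κ => exists_placeOf_of_pole hb hnM cv hcv h κ.1 κ.2
  choose γ hγ1 hγ2 using hex
  refine ⟨_, inferInstance, inferInstance, γ,
    fun κ => (-κ.1.ord (tF M h)).toNat, ?_, hγ2, ?_, ?_, ?_, ?_, ?_⟩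
  · intro κ
    have := κ.2
    show 0 < (-κ.1.ord (tF M h)).toNat
    omega
  · intro κ
    have := κ.2
    rw [order_Tc M (γ κ) _ hne', hγ1 κ, Place.ord_inv, Int.toNat_of_nonneg (by omega)]
  · intro κ
    have := κ.2
    rw [hγ1 κ, Place.ord_inv, Int.toNat_of_nonneg (by omega)]
  · rw [adjoin_inv]
    exact sum_toNat_pole_fibre h
  · intro κ κ' hκ
    apply Subtype.ext
    have : placeOf M (γ κ) = placeOf M (γ κ') := hκ
    rw [hγ1 κ, hγ1 κ'] at this
    exact this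
  · intro w hw
    rw [Place.ord_inv] at hw
    have hw' : w.ord (tF M h) < 0 := by omega
    exact ⟨⟨w, hw'⟩, hγ1 ⟨w, hw'⟩⟩

end Fermat.Agent.RED.CUSP.CuspFibrePkg14
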