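/-
Program H (S18), chapter RED/CUSP, helper23: the hypothesis `hplaces` of
`CuspGeneric23.smoothOver_generic` / `CharZeroInj9.charZero_inj`, generic form.

`K ⊂ L` fields (`L / K` integral, characteristic zero), `F / K` and `F' / L` function fields with a
common generator `t`.  If the expansions `ι κ : F →+* K((X))` compute the orders at `L`-places
`pl κ` of `F'`, and every `L`-place of `F'` over `τ = 0` is one of the `pl κ`, then the expansions
detect the valuation rings of all `K`-places of `F` over `τ = 0`.
(From `PlaceIntegral3.exists_place_over`.)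
-/
import Fermat.Agent.RED.PUR.PlaceIntegral3
import Fermat.Agent.X0.FFPlace

set_option autoImplicit false

namespace Fermat.Agent.RED.CUSP.CuspPlaces23

open AlgebraicCurve Fermat.Agent.X0.FF Fermat.Agent.RED.PUR.PlaceIntegral3

variable {K L F F' : Type*} [Field K] [Field L] [Field F] [Field F']
  [Algebra K L] [Algebra K F] [Algebra L F'] [Algebra K F'] [Algebra F F']
  [IsScalarTower K L F'] [IsScalarTower K F F'] [Algebra.IsIntegral K L] [CharZero L] [CharZero K]

/-- **hplaces, generic.** -/
theorem hplaces_of_exact {t : F} (ht : IsGen K t) (ht' : IsGen L (algebraMap F F' t))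
    (τ : F) {C : Type*} (ι : C → F →+* LaurentSeries K) (pl : C → Place L F')
    (hexact : ∀ κ (z : F), z ≠ 0 → (ι κ z).order = (pl κ).ord (algebraMap F F' z))
    (hall : ∀ v : Place L F', 0 < v.ord (algebraMap F F' τ) → ∃ κ, pl κ = v)
    (w : Place K F) (hw : 0 < w.ord τ) :
    ∃ κ, ∀ z : F, z ≠ 0 → 0 ≤ (ι κ z).order → z ∈ w.toValuationSubring := by
  obtain ⟨v, e, he, hmem, hord⟩ := exists_place_over (K := K) (L := L) ht ht' w
  have hv : 0 < v.ord (algebraMap F F' τ) := by
    rw [hord]
    exact mul_pos (by exact_mod_cast he) hw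
  obtain ⟨κ, rfl⟩ := hall v hv
  refine ⟨κ, fun z hz hzo => ?_⟩
  rw [hmem, ffp_mem_iff_ord_nonneg, ← hexact κ z hz]
  exact hzo

end Fermat.Agent.RED.CUSP.CuspPlaces23
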