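/-
RED/CUSP/LocalDVR9 (helper9): two local lemmas for the cusp points of the model.

* `exists_local_generator`: if `S / (p, t²)` is a finite product of local rings with principal
  maximal ideals and `x` is a maximal ideal of `S` containing `p` and `t`, then there is `σ ∈ x`
  with `x S_x = (p, σ) S_x` (in the elementwise form `∀ f ∈ x, ∃ s ∉ x, s * f ∈ (p, σ)`).
* `isDVR_quot`: a noetherian local ring `L` with `𝔪 = (p, σ)`, `(p)` prime, `σ ∉ (p)`:
  `L / (p)` is a discrete valuation ring.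
-/
import Mathlib

set_option autoImplicit false

noncomputable section

namespace Fermat.Agent.RED.CUSP.LocalDVR9

open IsLocalRing

/-- **Local generator at a closed point.** -/
theorem exists_local_generator {S : Type*} [CommRing S] (p t : S) {C : Type*} [Finite C]
    (Q : C → Type*) [∀ κ, CommRing (Q κ)] [∀ κ, IsLocalRing (Q κ)]
    (hQ : ∀ κ, ∃ ϖ : Q κ, IsLocalRing.maximalIdeal (Q κ) = Ideal.span {ϖ})
    (Φ : S →+* (∀ κ, Q κ)) (hΦ : Function.Surjective Φ)
    (hker : RingHom.ker Φ = Ideal.span {p, t ^ 2})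
    (x : Ideal S) (hx : x.IsMaximal) (hp : p ∈ x) (ht : t ∈ x) :
    ∃ σ ∈ x, ∀ f ∈ x, ∃ s ∉ x, s * f ∈ Ideal.span {p, σ} := by
  classical
  have := Fintype.ofFinite C
  have hxprime : x.IsPrime := hx.isPrime
  -- the kernel lies in `x`
  have hkerx : RingHom.ker Φ ≤ x := by
    rw [hker, Ideal.span_le]
    rintro y (rfl | rfl)
    · exact hp
    · exact x.pow_mem_of_mem ht 2 (by norm_num)
  -- the component of `x`
  obtain ⟨κ₀, hκ₀⟩ : ∃ κ₀, ∀ f ∈ x, Φ f κ₀ ∈ maximalIdeal (Q κ₀) := by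
    by_contra hcon
    push Not at hcon
    choose f hfx hfu using hcon
    have hunit : ∀ κ, IsUnit (Φ (f κ) κ) := fun κ => by
      have := hfu κ
      rwa [mem_maximalIdeal, mem_nonunits_iff, not_not] at this
    choose g hg using fun κ => hΦ (Pi.single κ (((hunit κ).unit⁻¹ : (Q κ)ˣ) : Q κ))
    have hsum : Φ (∑ κ, g κ * f κ) = 1 := by
      rw [map_sum]
      funext κ'
      rw [Finset.sum_apply, Pi.one_apply]
      rw [Finset.sum_eq_single κ']
      · rw [map_mul, Pi.mul_apply, hg, Pi.single_eq_same]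
        exact (hunit κ').val_inv_mul
      · intro κ _ hne
        rw [map_mul, Pi.mul_apply, hg, Pi.single_eq_of_ne' hne, zero_mul]
      · intro h; exact absurd (Finset.mem_univ _) h
    have hmem : (∑ κ, g κ * f κ) ∈ x :=
      x.sum_mem fun κ _ => x.mul_mem_left _ (hfx κ)
    have h1 : (1 : S) - ∑ κ, g κ * f κ ∈ x := hkerx (by
      rw [RingHom.mem_ker, map_sub, map_one, hsum, sub_self])
    have : (1 : S) ∈ x := by
      have := x.add_mem h1 hmem
      rwa [sub_add_cancel] at this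
    exact hx.ne_top ((Ideal.eq_top_iff_one _).mpr this)
  -- `x` is exactly the preimage of the maximal ideal of the `κ₀`-component
  have hxiff : ∀ f : S, f ∈ x ↔ Φ f κ₀ ∈ maximalIdeal (Q κ₀) := by
    let y : Ideal S := Ideal.comap ((Pi.evalRingHom Q κ₀).comp Φ) (maximalIdeal (Q κ₀))
    have hxy : x ≤ y := fun f hf => hκ₀ f hf
    have hy : y ≠ ⊤ := by
      intro htop
      have h1 : (1 : S) ∈ y := by rw [htop]; trivial
      have h2 : ((Pi.evalRingHom Q κ₀).comp Φ) 1 ∈ maximalIdeal (Q κ₀) := h1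
      rw [map_one] at h2
      exact (maximalIdeal.isMaximal (Q κ₀)).ne_top ((Ideal.eq_top_iff_one _).mpr h2)
    have hxy' : x = y := hx.eq_of_le hy hxy
    intro f
    rw [hxy']
    rfl
  obtain ⟨ϖ, hϖ⟩ := hQ κ₀
  obtain ⟨e₀, he₀⟩ := hΦ (Pi.single κ₀ (1 : Q κ₀))
  obtain ⟨σ, hσ⟩ := hΦ (Pi.single κ₀ ϖ)
  have hσx : σ ∈ x := by
    rw [hxiff, hσ, Pi.single_eq_same, hϖ]
    exact Ideal.subset_span rfl
  have he₀x : e₀ ∉ x := by
    rw [hxiff, he₀, Pi.single_eq_same]
    exact fun h => (maximalIdeal.isMaximal (Q κ₀)).ne_top ((Ideal.eq_top_iff_one _).mpr h)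
  -- the basic relation: `e₀ f ≡ a' σ` modulo `(p, t²)`
  have hrel : ∀ f ∈ x, ∃ a' α β : S, e₀ * f = a' * σ + α * p + β * t ^ 2 := by
    intro f hf
    have hfκ : Φ f κ₀ ∈ Ideal.span {ϖ} := by rw [← hϖ]; exact hκ₀ f hf
    obtain ⟨a, ha⟩ := Ideal.mem_span_singleton'.mp hfκ
    obtain ⟨a', ha'⟩ := hΦ (Pi.single κ₀ a)
    have hk : e₀ * f - a' * σ ∈ RingHom.ker Φ := by
      rw [RingHom.mem_ker, map_sub, map_mul, map_mul, he₀, ha', hσ, sub_eq_zero]
      funext κ
      rw [Pi.mul_apply, Pi.mul_apply]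
      by_cases hκ : κ = κ₀
      · subst hκ
        rw [Pi.single_eq_same, Pi.single_eq_same, Pi.single_eq_same, one_mul, ha]
      · rw [Pi.single_eq_of_ne hκ, Pi.single_eq_of_ne hκ, zero_mul, zero_mul]
    rw [hker] at hk
    obtain ⟨α, β, hαβ⟩ := Ideal.mem_span_pair.mp hk
    exact ⟨a', α, β, by linear_combination (-1 : S) * hαβ⟩
  -- `t` itself
  obtain ⟨b', α₁, β₁, ht1⟩ := hrel t ht
  have hs₁x : e₀ - β₁ * t ∉ x := by
    intro h
    apply he₀x
    have := x.add_mem h (x.mul_mem_left β₁ ht)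
    rwa [sub_add_cancel] at this
  have hs₁t : (e₀ - β₁ * t) * t = b' * σ + α₁ * p := by
    have : (e₀ - β₁ * t) * t = e₀ * t - β₁ * t ^ 2 := by ring
    rw [this, ht1]; ring
  refine ⟨σ, hσx, fun f hf => ?_⟩
  obtain ⟨a', α, β, hf1⟩ := hrel f hf
  refine ⟨(e₀ - β₁ * t) * e₀, fun h => ?_, ?_⟩
  · rcases hxprime.mem_or_mem h with h | h
    · exact hs₁x h
    · exact he₀x h
  · have hcalc : (e₀ - β₁ * t) * e₀ * f =
        ((e₀ - β₁ * t) * α + β * t * α₁) * p + ((e₀ - β₁ * t) * a' + β * t * b') * σ := by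
      calc (e₀ - β₁ * t) * e₀ * f = (e₀ - β₁ * t) * (e₀ * f) := by ring
        _ = (e₀ - β₁ * t) * (a' * σ + α * p) + β * t * ((e₀ - β₁ * t) * t) := by rw [hf1]; ring
        _ = _ := by rw [hs₁t]; ring
    rw [hcalc]
    exact Ideal.mem_span_pair.mpr ⟨_, _, rfl⟩

/-- **The special fibre is a DVR at the point.** -/
theorem isDVR_quot {L : Type*} [CommRing L] [IsNoetherianRing L] [IsLocalRing L] (p σ : L)
    (hmax : IsLocalRing.maximalIdeal L = Ideal.span {p, σ}) (hp : (Ideal.span {p}).IsPrime)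
    (hσ : σ ∉ Ideal.span {p}) :
    IsDomain (L ⧸ Ideal.span {p}) ∧ IsDiscreteValuationRing (L ⧸ Ideal.span {p}) := by
  have hdom : IsDomain (L ⧸ Ideal.span {p}) := Ideal.Quotient.isDomain _
  refine ⟨hdom, ?_⟩
  set I : Ideal L := Ideal.span {p} with hI
  set mk : L →+* L ⧸ I := Ideal.Quotient.mk I with hmk
  have hloc : IsLocalRing (L ⧸ I) :=
    IsLocalRing.of_surjective' mk Ideal.Quotient.mk_surjective
  have hp0 : mk p = 0 := Ideal.Quotient.eq_zero_iff_mem.mpr (Ideal.subset_span rfl)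
  have hpm : p ∈ maximalIdeal L := by rw [hmax]; exact Ideal.subset_span (by simp)
  have hσm : σ ∈ maximalIdeal L := by rw [hmax]; exact Ideal.subset_span (by simp)
  have hIle : I ≤ maximalIdeal L := by
    rw [hI, Ideal.span_le]
    rintro y rfl
    exact hpm
  -- the maximal ideal of the quotient
  have hmaxq : maximalIdeal (L ⧸ I) = Ideal.span {mk σ} := by
    apply le_antisymm
    · intro y hy
      obtain ⟨y', rfl⟩ := Ideal.Quotient.mk_surjective y
      have hy' : y' ∈ maximalIdeal L := by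
        by_contra hnot
        rw [mem_maximalIdeal, mem_nonunits_iff, not_not] at hnot
        exact hy (hnot.map mk)
      rw [hmax] at hy'
      obtain ⟨a, b, rfl⟩ := Ideal.mem_span_pair.mp hy'
      show mk (a * p + b * σ) ∈ _
      rw [map_add, map_mul, map_mul, hp0, mul_zero, zero_add]
      exact Ideal.mul_mem_left _ _ (Ideal.subset_span rfl)
    · rw [Ideal.span_le]
      rintro y rfl
      show mk σ ∈ maximalIdeal (L ⧸ I)
      rw [mem_maximalIdeal, mem_nonunits_iff]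
      intro hu
      obtain ⟨z, hz⟩ := hu.exists_right_inv
      obtain ⟨z', rfl⟩ := Ideal.Quotient.mk_surjective z
      have h1 : σ * z' - 1 ∈ I := by
        rw [← Ideal.Quotient.eq_zero_iff_mem, map_sub, map_mul, map_one]
        exact sub_eq_zero.mpr hz
      have h2 : (1 : L) ∈ maximalIdeal L := by
        have h3 := (maximalIdeal L).sub_mem ((maximalIdeal L).mul_mem_right z' hσm) (hIle h1)
        rwa [sub_sub_cancel] at h3
      exact (maximalIdeal.isMaximal L).ne_top ((Ideal.eq_top_iff_one _).mpr h2)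
  have hnf : ¬ IsField (L ⧸ I) := by
    rw [IsLocalRing.isField_iff_maximalIdeal_eq, hmaxq, Ideal.span_singleton_eq_bot]
    intro h0
    exact hσ (Ideal.Quotient.eq_zero_iff_mem.mp h0)
  have hprinc : (maximalIdeal (L ⧸ I)).IsPrincipal := ⟨⟨mk σ, by rw [hmaxq]⟩⟩
  exact ((IsDiscreteValuationRing.TFAE (L ⧸ I) hnf).out 4 0).mp hprinc

end Fermat.Agent.RED.CUSP.LocalDVR9
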