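/-
Program H (RED/CUSP, concrete half; helper16): the concrete families of cusp expansions in the
LITERAL shape of the hypotheses of `SmoothOverGen23.smoothOver_gen` at `O := AK A K`,
`E := FK M K`.

* `family_some` : over a finite cusp value `c ∈ cuspSet A K cv` (coordinate `t`);
* `family_none` : over `t = ∞` (coordinate `t⁻¹`, `c = 0`);

each: `∃ Cκ (Fintype, DecidableEq) ι e u, hconst ∧ hfrac ∧ he ∧ heA ∧ hu ∧ hshape ∧ hplaces ∧ hrank`
with `hrank` already in the form `∑ e = [K·F_M : K(t)]` (resp. `K(t⁻¹)`), via `RankConcrete16`.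
-/
import Fermat.Agent.RED.CUSP.CuspPackK16
import Fermat.Agent.RED.CUSP.RankConcrete16
import Fermat.Agent.RED.NumInst4

set_option autoImplicit false
set_option linter.unusedSectionVars false

noncomputable section

namespace Fermat.Agent.RED.CUSP.OverFamily16

open Fermat.Agent.X0 AlgebraicCurve ModularCurve HahnSeries
open Fermat.Agent.RED.Interface4 Fermat.Agent.RED.DESC.PlaceExtend27
open Fermat.Agent.RED.CUSP.CuspExact16 Fermat.Agent.RED.CUSP.CuspEmbK16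
open Fermat.Agent.RED.CUSP.CuspPackK16 Fermat.Agent.RED.CUSP.RankConcrete16
open Fermat.Agent.RED.CUSP.IntClosedPS16 Fermat.Agent.RED.BASE.Interface12
open Fermat.Agent.RED.BASE.Hauptmodul12 Fermat.Agent.RED.BASE.EtaQuot12
open scoped MatrixGroups
open IntermediateField

variable {M : ℕ} [NeZero M] {K : IntermediateField ℚ Qbar}
variable (A : ValuationSubring Qbar)
variable {n e : ℕ} [NeZero n] (hb : BaseHyp n e) (hnM : n ∣ M)
  (cv : SL(2, ℤ) → Option Kbar) (hcv : CuspExp n e M cv)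
  (hζ : zetaK M ∈ K)

include hb hnM hcv hζ in
/-- **The concrete family over a finite cusp value**, literal shape of `smoothOver_gen`. -/
theorem family_some [IsDiscreteValuationRing ↥(AK A K)] {ℓ : ℕ} [Fact ℓ.Prime] (hℓM : ¬ ℓ ∣ M)
    (hA : A.LiesOverPrime ℓ)
    (t : ↥(FK M K)) (ht : (t : LaurentSeries K) = tq K n e)
    (hj : jqModC K ∈ IntermediateField.adjoin K {tq K n e})
    (c : ↥(AK A K)) (γ₀ : SL(2, ℤ)) (hγ₀ : cv γ₀ = some (algebraMap K Qbar (c : K))) :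
    ∃ (Cκ : Type) (_ : Fintype Cκ) (_ : DecidableEq Cκ)
      (ι : Cκ → ↥(FK M K) →+* LaurentSeries K) (e' : Cκ → ℕ) (u : Cκ → PowerSeries ↥(AK A K)),
      (∀ k (a : ↥(AK A K)), ι k (algebraMap ↥(AK A K) ↥(FK M K) a) =
        HahnSeries.C (algebraMap ↥(AK A K) K a)) ∧
      (∀ k f, ι k f ∈ psFrac ↥(AK A K) K) ∧
      (∀ k, 0 < e' k) ∧ (∀ k, IsUnit ((e' k : ℕ) : ↥(AK A K))) ∧
      (∀ k, IsUnit (PowerSeries.constantCoeff (u k))) ∧
      (∀ k, ι k t = HahnSeries.C (algebraMap ↥(AK A K) K c) +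
        toLS ↥(AK A K) K (u k * PowerSeries.X ^ e' k)) ∧
      (∀ w : AlgebraicCurve.Place K ↥(FK M K),
        0 < w.ord (t - algebraMap ↥(AK A K) ↥(FK M K) c) →
        ∃ k, ∀ z : ↥(FK M K), z ≠ 0 → 0 ≤ (ι k z).order → z ∈ w.toValuationSubring) ∧
      ∑ k, e' k = Module.finrank ↥(IntermediateField.adjoin K {t}) ↥(FK M K) := by
  have hℓ : ℓ.Prime := Fact.out
  obtain ⟨h, -⟩ := id hcv
  have hMA : ((M : Qbar))⁻¹ ∈ A := Fermat.Agent.RED.NumInst4.inv_natCast_mem hℓ hA M hℓM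
  have htF : baseChangeHom M K t = tF M h := baseChangeHom_eq_tF M K h t ht
  obtain ⟨c', hc', Cκ, i1, i2, γ, e', u, -, he, heA, hu, hshape, -, hsum, hplaces⟩ :=
    cusp_family_some A hb hnM cv hcv h hζ hMA t htF γ₀ _ hγ₀
  have hcc : c' = c := by
    apply Subtype.ext
    exact (algebraMap K Qbar).injective hc'
  subst hcc
  refine ⟨Cκ, i1, i2, fun k => TK hζ (γ k), e', u, ?_, ?_, he, heA, hu, ?_, ?_, ?_⟩
  · intro k a
    exact TK_const hζ (γ k) (a : K)
  · intro k f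
    exact TK_mem_psFrac hζ (γ k) A f
  · intro k
    exact hshape k
  · intro w hw
    exact hplaces w hw
  · rw [hsum]
    exact (finrank_adjoin_tF M K h t ht hj).symm

include hb hnM hcv hζ in
/-- **The concrete family over `t = ∞`** (coordinate `t⁻¹`, `c = 0`), literal shape of
`smoothOver_gen`. -/
theorem family_none [IsDiscreteValuationRing ↥(AK A K)] {ℓ : ℕ} [Fact ℓ.Prime] (hℓM : ¬ ℓ ∣ M)
    (hA : A.LiesOverPrime ℓ)
    (t : ↥(FK M K)) (ht : (t : LaurentSeries K) = tq K n e)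
    (hj : jqModC K ∈ IntermediateField.adjoin K {tq K n e}) :
    ∃ (Cκ : Type) (_ : Fintype Cκ) (_ : DecidableEq Cκ)
      (ι : Cκ → ↥(FK M K) →+* LaurentSeries K) (e' : Cκ → ℕ) (u : Cκ → PowerSeries ↥(AK A K)),
      (∀ k (a : ↥(AK A K)), ι k (algebraMap ↥(AK A K) ↥(FK M K) a) =
        HahnSeries.C (algebraMap ↥(AK A K) K a)) ∧
      (∀ k f, ι k f ∈ psFrac ↥(AK A K) K) ∧
      (∀ k, 0 < e' k) ∧ (∀ k, IsUnit ((e' k : ℕ) : ↥(AK A K))) ∧
      (∀ k, IsUnit (PowerSeries.constantCoeff (u k))) ∧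
      (∀ k, ι k t⁻¹ = HahnSeries.C (algebraMap ↥(AK A K) K 0) +
        toLS ↥(AK A K) K (u k * PowerSeries.X ^ e' k)) ∧
      (∀ w : AlgebraicCurve.Place K ↥(FK M K),
        0 < w.ord (t⁻¹ - algebraMap ↥(AK A K) ↥(FK M K) 0) →
        ∃ k, ∀ z : ↥(FK M K), z ≠ 0 → 0 ≤ (ι k z).order → z ∈ w.toValuationSubring) ∧
      ∑ k, e' k = Module.finrank ↥(IntermediateField.adjoin K {t⁻¹}) ↥(FK M K) := by
  have hℓ : ℓ.Prime := Fact.out
  obtain ⟨h, -⟩ := id hcv
  have hMA : ((M : Qbar))⁻¹ ∈ A := Fermat.Agent.RED.NumInst4.inv_natCast_mem hℓ hA M hℓM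
  have htF : baseChangeHom M K t = tF M h := baseChangeHom_eq_tF M K h t ht
  obtain ⟨Cκ, i1, i2, γ, e', u, -, he, heA, hu, hshape, -, hsum, hplaces⟩ :=
    cusp_family_none A hb hnM cv hcv h hζ hMA t htF
  refine ⟨Cκ, i1, i2, fun k => TK hζ (γ k), e', u, ?_, ?_, he, heA, hu, ?_, ?_, ?_⟩
  · intro k a
    exact TK_const hζ (γ k) (a : K)
  · intro k f
    exact TK_mem_psFrac hζ (γ k) A f
  · intro k
    exact hshape k
  · intro w hw
    exact hplaces w hw
  · rw [hsum]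
    exact (finrank_adjoin_inv_tF M K h t ht hj).symm

end Fermat.Agent.RED.CUSP.OverFamily16
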