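import Mathlib
import Fermat.Agent.RED.CUSP.DegCompare5
import Fermat.Agent.RED.PUR.DegBaseChange25
import Fermat.Agent.RED.DESC.PlaceExtend27
import Fermat.Agent.RED.BASE.Interface12
import Fermat.Agent.RED.ModelAsm4

/-!
# Program H, chapter CUSP: (R) the rank over `K(t)` equals the rank over `Qbar(t)`

For a number field (any subfield) `K` of `Qbar`, `t` in `K F_M` with `j` in `K(t)`:
`[Qbar F_M : Qbar(t)] = [K F_M : K(t)]` (and the same for the coordinate `1/t`), from
`DegCompare5.finrank_adjoin_simple_eq` and `[L F_M : L(j)] = psi M` for `L = K, Qbar`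
(`DegBaseChange25.relfinrank_laurentBaseChange_eq_psi`).
-/

set_option autoImplicit false
set_option linter.unusedSectionVars false

open ModularCurve IntermediateField HahnSeries

noncomputable section

namespace Fermat.Agent.RED.CUSP.RankConcrete5

open Fermat.Agent.X0 Fermat.Agent.RED.Interface4 Fermat.Agent.RED.BASE.Interface12
  Fermat.Agent.RED.BASE.EtaQuot12 Fermat.Agent.RED.DESC Fermat.Agent.RED.PUR

/-! ### generic field theory -/

section Generic

variable {K F : Type*} [Field K] [Field F] [Algebra K F]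

theorem adjoin_simple_inv (x : F) : K⟮x⁻¹⟯ = K⟮x⟯ := by
  apply le_antisymm
  · rw [adjoin_simple_le_iff]
    exact inv_mem (mem_adjoin_simple_self K x)
  · rw [adjoin_simple_le_iff]
    have := inv_mem (mem_adjoin_simple_self K x⁻¹)
    rwa [inv_inv] at this

end Generic

/-! ### the concrete statement -/

section Concrete

variable (M : ℕ) [NeZero M] (K : IntermediateField ℚ Qbar)

/-- `j` as an element of `K·F_M`. -/
def jK : FK M K := ⟨jqModC K, DegBaseChange25.jqModC_mem_laurentBaseChange K M⟩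

theorem coe_jK : ((jK M K : FK M K) : LaurentSeries K) = jqModC K := rfl

/-- The image of `K·F_M` generates `ℚ̄·F_M` over `ℚ̄`. -/
theorem adjoin_range_baseChangeHom :
    IntermediateField.adjoin Qbar (Set.range (PlaceExtend27.baseChangeHom M K)) = ⊤ := by
  apply IntermediateField.map_injective (Fbar M).val
  have htop : (⊤ : IntermediateField Qbar ↥(Fbar M)).map (Fbar M).val = Fbar M := by
    rw [← AlgHom.fieldRange_eq_map, IntermediateField.fieldRange_val]
  rw [htop, IntermediateField.adjoin_map]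
  apply le_antisymm
  · rw [adjoin_le_iff]
    rintro _ ⟨y, -, rfl⟩
    exact y.2
  · show laurentBaseChange Qbar (modularFunctionFieldFull M) ≤ _
    rw [laurentBaseChange, adjoin_le_iff]
    rintro _ ⟨x, hx, rfl⟩
    apply subset_adjoin
    refine ⟨PlaceExtend27.baseChangeHom M K
      ⟨coeffEmb K x, coeffEmb_mem_laurentBaseChange K hx⟩, ⟨_, rfl⟩, ?_⟩
    show coeffMap (algebraMap K Qbar) (coeffEmb K x) = coeffEmb Qbar x
    exact CoeffDescent1.coeffMap_coeffEmb_of_algHom (algebraMap K Qbar) x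

theorem baseChangeHom_jK :
    PlaceExtend27.baseChangeHom M K (jK M K) =
      (⟨jqModC Qbar, DegBaseChange25.jqModC_mem_laurentBaseChange Qbar M⟩ : Fbar M) := by
  apply Subtype.ext
  rw [PlaceExtend27.coe_baseChangeHom, coe_jK, coeffMap_jqModC]

theorem finrank_adjoin_jK :
    Module.finrank ↥(K⟮jK M K⟯) ↥(FK M K) = dedekindPsi M := by
  rw [ModelAsm4.finrank_adjoin_eq_relfinrank, coe_jK]
  exact DegBaseChange25.relfinrank_laurentBaseChange_eq_psi K M

theorem finrank_adjoin_jbar :
    Module.finrank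
      ↥(Qbar⟮(⟨jqModC Qbar, DegBaseChange25.jqModC_mem_laurentBaseChange Qbar M⟩ : Fbar M)⟯)
      ↥(Fbar M) = dedekindPsi M := by
  rw [ModelAsm4.finrank_adjoin_eq_relfinrank]
  exact DegBaseChange25.relfinrank_laurentBaseChange_eq_psi Qbar M

/-- membership in `K⟮t⟯` can be tested inside `K((q))`. -/
theorem mem_adjoin_simple_of_coe {t y : FK M K}
    (h : (y : LaurentSeries K) ∈ IntermediateField.adjoin K {(t : LaurentSeries K)}) :
    y ∈ K⟮t⟯ := by
  have h1 : (K⟮t⟯ : IntermediateField K ↥(FK M K)).map (FK M K).val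
      = IntermediateField.adjoin K {(t : LaurentSeries K)} := by
    rw [IntermediateField.adjoin_map, Set.image_singleton]
    rfl
  rw [← h1] at h
  obtain ⟨z, hz, hzy⟩ := h
  have : z = y := Subtype.ext hzy
  exact this ▸ hz

variable {M K}

/-- **(R)** the degree of `ℚ̄·F_M` over `ℚ̄(t)` equals the degree of `K·F_M` over `K(t)`, for
a `t ∈ K·F_M` with `j ∈ K(t)`. -/
theorem finrank_adjoin_eq_of_mem (t : FK M K)
    (hJ : jqModC K ∈ IntermediateField.adjoin K {(t : LaurentSeries K)}) :
    Module.finrank ↥(K⟮t⟯) ↥(FK M K) =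
      Module.finrank ↥(Qbar⟮PlaceExtend27.baseChangeHom M K t⟯) ↥(Fbar M) := by
  have hj : jK M K ∈ K⟮t⟯ := mem_adjoin_simple_of_coe M K hJ
  refine DegCompare5.finrank_adjoin_simple_eq (PlaceExtend27.baseChangeHom M K)
    (fun c => PlaceExtend27.baseChangeHom_algebraMap M K c) (adjoin_range_baseChangeHom M K)
    (jK M K) t hj ?_ ?_
  · rw [finrank_adjoin_jK, baseChangeHom_jK, finrank_adjoin_jbar]
  · rw [finrank_adjoin_jK]
    exact (GNPsi.gnp_dedekindPsi_pos (NeZero.ne M)).ne'

variable {n e : ℕ} [NeZero n]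

/-- **(R)**, literal form. -/
theorem finrank_tF_eq (hJ : jqModC K ∈ IntermediateField.adjoin K {tq K n e})
    (t : FK M K) (htq : (t : LaurentSeries K) = tq K n e) (h : TMem n e M)
    (htF : PlaceExtend27.baseChangeHom M K t = tF M h) :
    Module.finrank ↥(Kbar⟮tF M h⟯) (FF M) = Module.finrank ↥(K⟮t⟯) ↥(FK M K) := by
  rw [← htq] at hJ
  rw [finrank_adjoin_eq_of_mem t hJ, htF]

/-- **(R)**, literal form for the coordinate `t⁻¹`. -/
theorem finrank_tF_eq_inv (hJ : jqModC K ∈ IntermediateField.adjoin K {tq K n e})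
    (t : FK M K) (htq : (t : LaurentSeries K) = tq K n e) (h : TMem n e M)
    (htF : PlaceExtend27.baseChangeHom M K t = tF M h) :
    Module.finrank ↥(Kbar⟮tF M h⟯) (FF M) = Module.finrank ↥(K⟮t⁻¹⟯) ↥(FK M K) := by
  rw [adjoin_simple_inv]
  exact finrank_tF_eq hJ t htq h htF

end Concrete

end Fermat.Agent.RED.CUSP.RankConcrete5
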