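/-
Program H (S18), chapter RED/CUSP — helper13.  **(L3), second half**: the rank of the localised
chart `S = B_P` over `R = A[X]_P` (the `hrank` hypothesis (I3) of `CuspSemi23.cusp_semi`).

* `finrank_RP_SP` : generic, `Module.finrank (RP P) (SP B P) = Module.finrank R0 B`
  (localisation at `P.primeCompl ≤ R0⁰` does not change the rank; no freeness needed);
* `finrank_Rloc_Sloc` : the same in the `CuspSemi23` names `Rloc π c`, `Sloc π c B`;
* `finrank_Rloc_Sloc_integralClosure` : for `B = integralClosure A[X] F` (setting (E3) of
  `IntClosBase13`) the rank is `[F : K(t)]`;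
* `hrank_of_sum` : the literal `hrank` of `cusp_semi` from `∑ e κ = [F : K(t)]`.
-/
import Mathlib
import Fermat.Agent.RED.CUSP.CuspSemi23
import Fermat.Agent.RED.PUR.RankBridge13

set_option autoImplicit false
set_option linter.unusedSectionVars false
set_option linter.style.haveILetI false

namespace Fermat.Agent.RED.CUSP.RankLoc13

open Polynomial IntermediateField
open Fermat.Agent.RED.PUR.LocalFree26 Fermat.Agent.RED.CUSP.CuspSemi23
open Fermat.Agent.RED.CUSP.PolyToPS16
open Fermat.Agent.RED.PUR.IntClosBase13 Fermat.Agent.RED.PUR.RankBridge13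

section Generic

variable {R0 : Type*} [CommRing R0] [IsDomain R0]
  (B : Type*) [CommRing B] [Algebra R0 B] (P : Ideal R0) [P.IsPrime]

/-- localising base and module at a prime of a domain does not change the rank. -/
theorem finrank_RP_SP : Module.finrank (RP P) (SP B P) = Module.finrank R0 B := by
  have hp : P.primeCompl ≤ nonZeroDivisors R0 := P.primeCompl_le_nonZeroDivisors
  rw [IsLocalization.finrank_eq (RP P) P.primeCompl hp (N := SP B P)]
  have : IsLocalizedModule P.primeCompl (IsScalarTower.toAlgHom R0 B (SP B P)).toLinearMap := by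
    rw [isLocalizedModule_iff_isLocalization]
    infer_instance
  exact IsLocalizedModule.finrank_eq P.primeCompl
    (IsScalarTower.toAlgHom R0 B (SP B P)).toLinearMap hp

end Generic

section Cusp

variable {A : Type*} [CommRing A] [IsDomain A] (π c : A) [hP : (cuspIdeal π c).IsPrime]

/-- the same in the names of `CuspSemi23`. -/
theorem finrank_Rloc_Sloc (B : Type*) [CommRing B] [Algebra A[X] B] :
    Module.finrank (Rloc π c) (Sloc π c B) = Module.finrank A[X] B :=
  finrank_RP_SP B (cuspIdeal π c)

variable {K F : Type*} [Field K] [Field F] [Algebra A K] [IsFractionRing A K] [Algebra K F]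
  [Algebra A F] [IsScalarTower A K F] [Algebra A[X] F] [IsScalarTower A A[X] F] {t : F}

/-- for the chart `B = integralClosure A[X] F` the local rank is `[F : K(t)]`. -/
theorem finrank_Rloc_Sloc_integralClosure (hX : algebraMap A[X] F X = t) (ht : Transcendental K t)
    [FiniteDimensional K⟮t⟯ F] :
    Module.finrank (Rloc π c) (Sloc π c ↥(integralClosure A[X] F)) = Module.finrank ↥K⟮t⟯ F := by
  rw [finrank_Rloc_Sloc, finrank_integralClosure (K := K) hX ht]

/-- the literal `hrank` (I3) of `CuspSemi23.cusp_semi` from the degree identity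
`∑ e κ = [F : K(t)]`. -/
theorem hrank_of_sum (hX : algebraMap A[X] F X = t) (ht : Transcendental K t)
    [FiniteDimensional K⟮t⟯ F] {C : Type*} [Fintype C] (e : C → ℕ)
    (hsum : ∑ k, e k = Module.finrank ↥K⟮t⟯ F) :
    ∑ k, e k = Module.finrank (Rloc π c) (Sloc π c ↥(integralClosure A[X] F)) := by
  rw [hsum, finrank_Rloc_Sloc_integralClosure π c hX ht]

end Cusp

end Fermat.Agent.RED.CUSP.RankLoc13
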